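/-
S13 team, abstract assembly (owner: helper36).  Mathlib + prelude + S51/GaloisBasics only.

Let `V = E[p](Qbar)` for a Weierstrass curve `E/ℚ`, with the prelude Galois action.
Suppose `V` is nontrivial with at most `p²` elements and reducible.  Then there is a
Galois-stable line `N = ⟨P₀⟩`.  The subgroups
  `H₁ = {σ | σ P₀ = P₀}`   (kernel of the character on `N`),
  `H₂ = {σ | ∀ x, σ x - x ∈ N}`   (kernel of the character on `V / N`)
are open and normal.  If every inertia group away from `p` acts unipotently, and at `p` some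
inertia group acts trivially on `N` or on `V / N`, then a Minkowski-type statement
(`open normal subgroup containing an inertia group at every prime is everything`) shows that
`H₁ = ⊤` (a rational point of order `p`, excluded by hypothesis) or `H₂ = ⊤` (a cofixed line).
-/
import Mathlib
import Fermat.Prelude.Def_FLTPrelim_Ramification
import Fermat.Prelude.Def_FLTPrelim_CofixedLine
import Fermat.Agent.S51.GaloisBasics

set_option autoImplicit false

namespace Fermat.Agent.S13.Abstract

open WeierstrassCurve WeierstrassCurve.Affine WeierstrassCurve.Affine.Point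

local notation "Qbar" => AlgebraicClosure ℚ
local notation "GQ" => (AlgebraicClosure ℚ ≃ₐ[ℚ] AlgebraicClosure ℚ)

section

variable (W : WeierstrassCurve ℚ) (p : ℕ)

/-- The `p`-torsion of `W` over `Qbar` (the module of the prelude Galois representation). -/
abbrev Tors : Type := Submodule.torsionBy ℤ (W⁄Qbar).Point p

variable {W p}

/-- The Galois action commutes with natural multiples. -/
theorem abs_smul_nsmul (σ : GQ) (k : ℕ) (x : Tors W p) : σ • (k • x) = k • (σ • x) :=
  map_nsmul (DistribSMul.toAddMonoidHom (Tors W p) σ) k x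

/-- The Galois action is `ZMod p`-linear. -/
theorem abs_smul_zmod_smul [NeZero p] (σ : GQ) (c : ZMod p) (x : Tors W p) :
    σ • (c • x) = c • (σ • x) := by
  rw [← ZMod.natCast_zmod_val c, Nat.cast_smul_eq_nsmul (ZMod p), Nat.cast_smul_eq_nsmul (ZMod p),
    abs_smul_nsmul]

/-! ### The two kernels -/

/-- `H₂`: the automorphisms acting trivially on `V / N`. -/
def cofixer (N : Submodule (ZMod p) (Tors W p)) (hN : IsGaloisStable ℚ N) : Subgroup GQ where
  carrier := {σ | ∀ x : Tors W p, σ • x - x ∈ N}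
  one_mem' := fun x => by
    rw [one_smul, sub_self]
    exact N.zero_mem
  mul_mem' := by
    intro σ τ hσ hτ x
    have h1 : (σ * τ) • x - x = σ • (τ • x - x) + (σ • x - x) := by
      rw [mul_smul, smul_sub]
      abel
    rw [h1]
    exact N.add_mem (hN σ _ (hτ x)) (hσ x)
  inv_mem' := by
    intro σ hσ x
    have h1 : σ⁻¹ • x - x = -(σ • (σ⁻¹ • x) - σ⁻¹ • x) := by
      rw [smul_inv_smul]
      abel
    rw [h1]
    exact N.neg_mem (hσ _)

theorem mem_cofixer {N : Submodule (ZMod p) (Tors W p)} {hN : IsGaloisStable ℚ N} {σ : GQ} :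
    σ ∈ cofixer N hN ↔ ∀ x : Tors W p, σ • x - x ∈ N := Iff.rfl

theorem cofixer_normal (N : Submodule (ZMod p) (Tors W p)) (hN : IsGaloisStable ℚ N) :
    (cofixer N hN).Normal := by
  constructor
  intro σ hσ g x
  have h1 : (g * σ * g⁻¹) • x - x = g • (σ • (g⁻¹ • x) - g⁻¹ • x) := by
    rw [smul_sub, mul_smul, mul_smul, smul_inv_smul]
  rw [h1]
  exact hN g _ (hσ _)

/-- `H₁`: the automorphisms fixing `N` pointwise. -/
def fixer (N : Submodule (ZMod p) (Tors W p)) : Subgroup GQ where
  carrier := {σ | ∀ x ∈ N, σ • x = x}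
  one_mem' := fun x _ => one_smul _ x
  mul_mem' := by
    intro σ τ hσ hτ x hx
    rw [mul_smul, hτ x hx, hσ x hx]
  inv_mem' := by
    intro σ hσ x hx
    rw [inv_smul_eq_iff, hσ x hx]

theorem mem_fixer {N : Submodule (ZMod p) (Tors W p)} {σ : GQ} :
    σ ∈ fixer N ↔ ∀ x ∈ N, σ • x = x := Iff.rfl

theorem fixer_normal (N : Submodule (ZMod p) (Tors W p)) (hN : IsGaloisStable ℚ N) :
    (fixer N).Normal := by
  constructor
  intro σ hσ g x hx
  rw [mul_smul, mul_smul, hσ _ (hN g⁻¹ x hx), smul_inv_smul]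

/-! ### Openness -/

/-- The stabiliser of a torsion point is open in the Krull topology. -/
theorem isOpen_stabilizer (x : Tors W p) :
    IsOpen ((MulAction.stabilizer GQ x : Subgroup GQ) : Set GQ) := by
  have halg : IsAlgClosure ℚ Qbar := Fermat.Agent.S51.isAlgClosure_rat_algebraicClosure
  have hint : ∀ a : Qbar, IsIntegral ℚ a := fun a =>
    (halg.isAlgebraic.isAlgebraic a).isIntegral
  obtain ⟨P, hP⟩ := x
  rcases P with _ | ⟨a, b, h⟩
  · have : (MulAction.stabilizer GQ
        (⟨Point.zero, hP⟩ : Tors W p) : Subgroup GQ) = ⊤ := by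
      rw [eq_top_iff]
      intro σ _
      rw [MulAction.mem_stabilizer_iff]
      rfl
    rw [this]
    exact isOpen_univ
  · have hfd : FiniteDimensional ℚ (IntermediateField.adjoin ℚ ({a, b} : Set Qbar)) :=
      IntermediateField.finiteDimensional_adjoin_pair (hint a) (hint b)
    have hopen := IntermediateField.fixingSubgroup_isOpen
      (IntermediateField.adjoin ℚ ({a, b} : Set Qbar))
    refine Subgroup.isOpen_mono ?_ hopen
    intro σ hσ
    rw [MulAction.mem_stabilizer_iff]
    have ha : σ a = a := by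
      have := (IntermediateField.mem_fixingSubgroup_iff _ σ).1 hσ a
        (IntermediateField.subset_adjoin ℚ _ (by simp))
      exact this
    have hb : σ b = b := by
      have := (IntermediateField.mem_fixingSubgroup_iff _ σ).1 hσ b
        (IntermediateField.subset_adjoin ℚ _ (by simp))
      exact this
    apply Subtype.ext
    show σ • (Point.some a b h : (W⁄Qbar).Point) = Point.some a b h
    have h1 : ∃ h' : (W⁄Qbar).Nonsingular (σ a) (σ b),
        σ • (Point.some a b h : (W⁄Qbar).Point) = Point.some (σ a) (σ b) h' := ⟨_, rfl⟩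
    obtain ⟨h', e⟩ := h1
    rw [e]
    simp only [Point.some.injEq]
    exact ⟨ha, hb⟩

/-- The kernel of the action on `V` is open when `V` is finite. -/
theorem isOpen_kerAct [Finite (Tors W p)] :
    IsOpen ((⨅ x : Tors W p, MulAction.stabilizer GQ x : Subgroup GQ) : Set GQ) := by
  rw [Subgroup.coe_iInf]
  exact isOpen_iInter_of_finite fun x => isOpen_stabilizer x

theorem isOpen_fixer [Finite (Tors W p)] (N : Submodule (ZMod p) (Tors W p)) :
    IsOpen ((fixer N : Subgroup GQ) : Set GQ) := by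
  refine Subgroup.isOpen_mono ?_ (isOpen_kerAct (W := W) (p := p))
  intro σ hσ x _
  exact MulAction.mem_stabilizer_iff.1 ((Subgroup.mem_iInf.1 hσ) x)

theorem isOpen_cofixer [Finite (Tors W p)] (N : Submodule (ZMod p) (Tors W p))
    (hN : IsGaloisStable ℚ N) :
    IsOpen ((cofixer N hN : Subgroup GQ) : Set GQ) := by
  refine Subgroup.isOpen_mono ?_ (isOpen_kerAct (W := W) (p := p))
  intro σ hσ x
  rw [MulAction.mem_stabilizer_iff.1 ((Subgroup.mem_iInf.1 hσ) x), sub_self]
  exact N.zero_mem

/-! ### The stable line -/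

/-- A reducible nontrivial `V` with at most `p²` elements contains a Galois-stable line. -/
theorem exists_stable_line [Fact p.Prime] (hnt : Nontrivial (Tors W p))
    (hred : ¬ GaloisRepIsIrreducible (K := Qbar) ℚ W p) :
    ∃ N : Submodule (ZMod p) (Tors W p), IsGaloisStable ℚ N ∧ N ≠ ⊥ ∧ N ≠ ⊤ := by
  by_contra hcon
  apply hred
  refine ⟨hnt, fun N hN => ?_⟩
  by_contra hN'
  rw [not_or] at hN'
  exact hcon ⟨N, hN, hN'.1, hN'.2⟩

/-- An automorphism acting unipotently on `V` (`|V| ≤ p²`) acts trivially on a stable line `N`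
and on `V / N`. -/
theorem mem_fixer_cofixer_of_unipotent [Fact p.Prime] [Finite (Tors W p)]
    (hcard : Nat.card (Tors W p) ≤ p ^ 2)
    {N : Submodule (ZMod p) (Tors W p)} (hN : IsGaloisStable ℚ N) (hbot : N ≠ ⊥) (htop : N ≠ ⊤)
    (σ : GQ) (hσ : ∀ x : Tors W p, σ • (σ • x - x) = σ • x - x) :
    σ ∈ fixer N ∧ σ ∈ cofixer N hN := by
  have hp : p.Prime := Fact.out
  obtain ⟨P₀, hP₀, hP₀N, hgen⟩ := Fermat.Agent.S51.exists_generator_of_card_le hcard N hbot htop
  -- σ fixes P₀
  have hfixP : σ • P₀ = P₀ := by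
    obtain ⟨k, hk⟩ := hgen (σ • P₀) (hN σ P₀ hP₀N)
    have h1 := hσ P₀
    rw [hk] at h1
    have h2 : σ • (k • P₀ - P₀) = k • (k • P₀) - k • P₀ := by
      rw [smul_sub, abs_smul_nsmul, hk]
    rw [h2] at h1
    -- ((k - 1)^2 : ZMod p) • P₀ = 0
    have h3 : (((k : ZMod p) - 1) * ((k : ZMod p) - 1)) • P₀ = 0 := by
      have e : (((k : ZMod p) - 1) * ((k : ZMod p) - 1)) • P₀
          = (k • (k • P₀) - k • P₀) - (k • P₀ - P₀) := by
        simp only [sub_mul, mul_sub, sub_smul, mul_smul, one_mul, mul_one, one_smul,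
          Nat.cast_smul_eq_nsmul (ZMod p)]
      rw [e, h1, sub_self]
    rcases smul_eq_zero.1 h3 with h4 | h4
    · have h5 : (k : ZMod p) - 1 = 0 := by
        rcases mul_eq_zero.1 h4 with h | h <;> exact h
      have h6 : (k : ZMod p) = 1 := sub_eq_zero.1 h5
      rw [hk, ← Nat.cast_smul_eq_nsmul (ZMod p), h6, one_smul]
    · exact absurd h4 hP₀
  have hfix : σ ∈ fixer N := by
    intro x hx
    obtain ⟨k, rfl⟩ := hgen x hx
    rw [abs_smul_nsmul, hfixP]
  refine ⟨hfix, ?_⟩
  intro x
  by_contra hy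
  -- y = σ x - x is fixed by σ and not in N: then V = N + ⟨y⟩ and σ = 1, contradiction
  have hsup : N ⊔ Submodule.span (ZMod p) {σ • x - x} = ⊤ := by
    by_contra htop'
    have hbot' : N ⊔ Submodule.span (ZMod p) {σ • x - x} ≠ ⊥ := by
      intro h0
      apply hbot
      rw [eq_bot_iff, ← h0]
      exact le_sup_left
    obtain ⟨Q, -, -, hgenQ⟩ :=
      Fermat.Agent.S51.exists_generator_of_card_le hcard _ hbot' htop'
    obtain ⟨a, ha⟩ := hgenQ P₀ (le_sup_left (a := N) hP₀N)
    obtain ⟨b, hb⟩ := hgenQ (σ • x - x)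
      (le_sup_right (a := N) (Submodule.mem_span_singleton_self _))
    have ha0 : (a : ZMod p) ≠ 0 := by
      intro h0
      apply hP₀
      rw [ha, ← Nat.cast_smul_eq_nsmul (ZMod p), h0, zero_smul]
    have hQ : Q = (a : ZMod p)⁻¹ • P₀ := by
      rw [ha, ← Nat.cast_smul_eq_nsmul (ZMod p) a Q, smul_smul, inv_mul_cancel₀ ha0, one_smul]
    apply hy
    rw [hb, ← Nat.cast_smul_eq_nsmul (ZMod p), hQ]
    exact N.smul_mem _ (N.smul_mem _ hP₀N)
  have hx : x ∈ N ⊔ Submodule.span (ZMod p) {σ • x - x} := hsup ▸ Submodule.mem_top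
  obtain ⟨n, hn, z, hz, hxz⟩ := Submodule.mem_sup.1 hx
  obtain ⟨c, rfl⟩ := Submodule.mem_span_singleton.1 hz
  have hσx : σ • x = x := by
    conv_lhs => rw [← hxz]
    rw [smul_add, hfix n hn, abs_smul_zmod_smul, hσ x, hxz]
  apply hy
  rw [hσx, sub_self]
  exact N.zero_mem

/-! ### The abstract assembly -/

/-- **Abstract assembly for S13.**  `hmink` is the Minkowski input, `hunip` the unipotent action
of inertia away from `p`, `hp` the dichotomy at `p`, `hT` the absence of rational `p`-torsion. -/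
theorem cofixedLine_of_local_data (W : WeierstrassCurve ℚ) (p : ℕ) [Fact p.Prime]
    (hnt : Nontrivial (Tors W p)) (hfin : Finite (Tors W p))
    (hcard : Nat.card (Tors W p) ≤ p ^ 2)
    (hred : ¬ GaloisRepIsIrreducible (K := Qbar) ℚ W p)
    (hmink : ∀ H : Subgroup GQ, H.Normal → IsOpen (H : Set GQ) →
      (∀ q : ℕ, q.Prime → ∃ A : ValuationSubring Qbar,
        A.LiesOverPrime q ∧ A.inertiaSubgroupIn ℚ ≤ H) → H = ⊤)
    (hunip : ∀ q : ℕ, q.Prime → q ≠ p → ∃ A : ValuationSubring Qbar, A.LiesOverPrime q ∧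
      ∀ σ ∈ A.inertiaSubgroupIn ℚ, ∀ x : Tors W p, σ • (σ • x - x) = σ • x - x)
    (hp : ∀ N : Submodule (ZMod p) (Tors W p), IsGaloisStable ℚ N → N ≠ ⊥ → N ≠ ⊤ →
      ∃ A : ValuationSubring Qbar, A.LiesOverPrime p ∧
        ((∀ σ ∈ A.inertiaSubgroupIn ℚ, ∀ x ∈ N, σ • x = x) ∨
         (∀ σ ∈ A.inertiaSubgroupIn ℚ, ∀ x : Tors W p, σ • x - x ∈ N)))
    (hT : ∀ x : Tors W p, (∀ σ : GQ, σ • x = x) → x = 0) :
    HasGaloisStableCofixedLine (K := Qbar) ℚ W p := by
  obtain ⟨N, hN, hbot, htop⟩ := exists_stable_line hnt hred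
  obtain ⟨A, hA, hdich⟩ := hp N hN hbot htop
  rcases hdich with h1 | h2
  · -- the character on `N` is unramified everywhere: a rational point of order `p`
    exfalso
    have htopH : fixer N = ⊤ := by
      refine hmink (fixer N) (fixer_normal N hN) (isOpen_fixer N) fun q hq => ?_
      by_cases hqp : q = p
      · subst hqp
        exact ⟨A, hA, fun σ hσ => h1 σ hσ⟩
      · obtain ⟨B, hB, hB'⟩ := hunip q hq hqp
        exact ⟨B, hB, fun σ hσ =>
          (mem_fixer_cofixer_of_unipotent hcard hN hbot htop σ (hB' σ hσ)).1⟩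
    obtain ⟨P₀, hP₀, hP₀N, -⟩ := Fermat.Agent.S51.exists_generator_of_card_le hcard N hbot htop
    apply hP₀
    apply hT
    intro σ
    have : σ ∈ fixer N := htopH ▸ Subgroup.mem_top σ
    exact this P₀ hP₀N
  · -- the character on `V / N` is unramified everywhere: a cofixed line
    have htopH : cofixer N hN = ⊤ := by
      refine hmink (cofixer N hN) (cofixer_normal N hN) (isOpen_cofixer N hN) fun q hq => ?_
      by_cases hqp : q = p
      · subst hqp
        exact ⟨A, hA, fun σ hσ => h2 σ hσ⟩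
      · obtain ⟨B, hB, hB'⟩ := hunip q hq hqp
        exact ⟨B, hB, fun σ hσ =>
          (mem_fixer_cofixer_of_unipotent hcard hN hbot htop σ (hB' σ hσ)).2⟩
    refine ⟨N, hN, hbot, htop, fun σ x => ?_⟩
    have : σ ∈ cofixer N hN := htopH ▸ Subgroup.mem_top σ
    exact this x

/-- **Abstract assembly for S13, `∀ A` form.**  Same as `cofixedLine_of_local_data`, but the
Minkowski input `hmink` only has to handle subgroups containing *all* inertia groups, and
accordingly the local inputs are required for all valuation subrings over the given prime (with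
an `A`-independent alternative at `p`). -/
theorem cofixedLine_of_local_data_forall (W : WeierstrassCurve ℚ) (p : ℕ) [Fact p.Prime]
    (hnt : Nontrivial (Tors W p)) (hfin : Finite (Tors W p))
    (hcard : Nat.card (Tors W p) ≤ p ^ 2)
    (hred : ¬ GaloisRepIsIrreducible (K := Qbar) ℚ W p)
    (hmink : ∀ H : Subgroup GQ, H.Normal → IsOpen (H : Set GQ) →
      (∀ q : ℕ, q.Prime → ∀ A : ValuationSubring Qbar,
        A.LiesOverPrime q → A.inertiaSubgroupIn ℚ ≤ H) → H = ⊤)
    (hunip : ∀ q : ℕ, q.Prime → q ≠ p → ∀ A : ValuationSubring Qbar, A.LiesOverPrime q →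
      ∀ σ ∈ A.inertiaSubgroupIn ℚ, ∀ x : Tors W p, σ • (σ • x - x) = σ • x - x)
    (hp : ∀ N : Submodule (ZMod p) (Tors W p), IsGaloisStable ℚ N → N ≠ ⊥ → N ≠ ⊤ →
        ((∀ A : ValuationSubring Qbar, A.LiesOverPrime p →
            ∀ σ ∈ A.inertiaSubgroupIn ℚ, ∀ x ∈ N, σ • x = x) ∨
         (∀ A : ValuationSubring Qbar, A.LiesOverPrime p →
            ∀ σ ∈ A.inertiaSubgroupIn ℚ, ∀ x : Tors W p, σ • x - x ∈ N)))
    (hT : ∀ x : Tors W p, (∀ σ : GQ, σ • x = x) → x = 0) :
    HasGaloisStableCofixedLine (K := Qbar) ℚ W p := by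
  obtain ⟨N, hN, hbot, htop⟩ := exists_stable_line hnt hred
  rcases hp N hN hbot htop with h1 | h2
  · exfalso
    have htopH : fixer N = ⊤ := by
      refine hmink (fixer N) (fixer_normal N hN) (isOpen_fixer N) fun q hq A hA => ?_
      by_cases hqp : q = p
      · subst hqp
        exact fun σ hσ => h1 A hA σ hσ
      · exact fun σ hσ =>
          (mem_fixer_cofixer_of_unipotent hcard hN hbot htop σ (hunip q hq hqp A hA σ hσ)).1
    obtain ⟨P₀, hP₀, hP₀N, -⟩ := Fermat.Agent.S51.exists_generator_of_card_le hcard N hbot htop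
    apply hP₀
    apply hT
    intro σ
    have : σ ∈ fixer N := htopH ▸ Subgroup.mem_top σ
    exact this P₀ hP₀N
  · have htopH : cofixer N hN = ⊤ := by
      refine hmink (cofixer N hN) (cofixer_normal N hN) (isOpen_cofixer N hN) fun q hq A hA => ?_
      by_cases hqp : q = p
      · subst hqp
        exact fun σ hσ => h2 A hA σ hσ
      · exact fun σ hσ =>
          (mem_fixer_cofixer_of_unipotent hcard hN hbot htop σ (hunip q hq hqp A hA σ hσ)).2
    refine ⟨N, hN, hbot, htop, fun σ x => ?_⟩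
    have : σ ∈ cofixer N hN := htopH ▸ Subgroup.mem_top σ
    exact this x

end

end Fermat.Agent.S13.Abstract
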