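/-
S13 team, block [P2] leaf (owner: helper32; requested by helper96).
A trichotomy for an additive subgroup `E` of a `ZMod p`-module `M` with at most `p²`
elements relative to a line `N`: either `N ∩ E = 0`, or `E ⊆ N`, or `E = M`.
-/
import Mathlib
import Fermat.Agent.S51.GaloisBasics

set_option autoImplicit false

namespace Fermat.Agent.S13.AtPLin

/-- Trichotomy: for a line `N` in a `ZMod p`-module with at most `p²` elements and an additive
subgroup `E`: `N ∩ E = 0`, or `E = N`, or `E` is everything. -/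
theorem trichotomy {p : ℕ} [Fact p.Prime] {M : Type*} [AddCommGroup M] [Module (ZMod p) M]
    [Finite M] (hcard : Nat.card M ≤ p ^ 2) (N : Submodule (ZMod p) M) (hbot : N ≠ ⊥)
    (htop : N ≠ ⊤) (E : AddSubgroup M) :
    (∀ x ∈ N, x ∈ E → x = 0) ∨ ((∀ x ∈ N, x ∈ E) ∧ (∀ x ∈ E, x ∈ N)) ∨ (∀ x : M, x ∈ E) := by
  classical
  set E' : Submodule (ZMod p) M := AddSubgroup.toZModSubmodule p E with hE'
  have hmem : ∀ x, x ∈ E' ↔ x ∈ E := fun x => AddSubgroup.mem_toZModSubmodule p
  obtain ⟨P₀, hP0, hPN, hgen⟩ :=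
    Fermat.Agent.S51.exists_generator_of_card_le hcard N hbot htop
  by_cases hPE : P₀ ∈ E
  · -- `N ≤ E`
    have hNE : N ≤ E' := by
      intro Q hQ
      obtain ⟨k, rfl⟩ := hgen Q hQ
      exact (hmem _).mpr (E.nsmul_mem hPE k)
    by_cases hEN : E' ≤ N
    · right; left
      exact ⟨fun x hx => (hmem x).mp (hNE hx), fun x hx => hEN ((hmem x).mpr hx)⟩
    · right; right
      by_contra hne
      have hE'top : E' ≠ ⊤ := by
        intro h
        apply hne
        intro x
        exact (hmem x).mp (h ▸ Submodule.mem_top)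
      have hE'bot : E' ≠ ⊥ := by
        intro h
        rw [h] at hNE
        exact hbot (le_bot_iff.mp hNE)
      obtain ⟨Q, hQ0, hQE, hQgen⟩ :=
        Fermat.Agent.S51.exists_generator_of_card_le hcard E' hE'bot hE'top
      obtain ⟨a, ha⟩ := hQgen P₀ (hNE hPN)
      have ha0 : (a : ZMod p) ≠ 0 := by
        intro h
        apply hP0
        rw [ha, ← Nat.cast_smul_eq_nsmul (ZMod p), h, zero_smul]
      have hQN : Q ∈ N := by
        have hQ : Q = (a : ZMod p)⁻¹ • P₀ := by
          rw [ha, ← Nat.cast_smul_eq_nsmul (ZMod p), smul_smul, inv_mul_cancel₀ ha0, one_smul]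
        rw [hQ]
        exact N.smul_mem _ hPN
      apply hEN
      intro x hx
      obtain ⟨k, rfl⟩ := hQgen x hx
      rw [← Nat.cast_smul_eq_nsmul (ZMod p)]
      exact N.smul_mem _ hQN
  · left
    intro x hxN hxE
    by_contra hx0
    obtain ⟨k, rfl⟩ := hgen x hxN
    have hk0 : (k : ZMod p) ≠ 0 := by
      intro h
      apply hx0
      rw [← Nat.cast_smul_eq_nsmul (ZMod p), h, zero_smul]
    apply hPE
    have hP : P₀ = (k : ZMod p)⁻¹ • (k • P₀) := by
      rw [← Nat.cast_smul_eq_nsmul (ZMod p) k, smul_smul, inv_mul_cancel₀ hk0, one_smul]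
    rw [hP]
    exact (hmem _).mp (E'.smul_mem _ ((hmem _).mpr hxE))

/-- Weak form of `trichotomy` (middle alternative only `E ⊆ N`). -/
theorem trichotomy_weak {p : ℕ} [Fact p.Prime] {M : Type*} [AddCommGroup M] [Module (ZMod p) M]
    [Finite M] (hcard : Nat.card M ≤ p ^ 2) (N : Submodule (ZMod p) M) (hbot : N ≠ ⊥)
    (htop : N ≠ ⊤) (E : AddSubgroup M) :
    (∀ x ∈ N, x ∈ E → x = 0) ∨ (∀ x ∈ E, x ∈ N) ∨ (∀ x : M, x ∈ E) := by
  rcases trichotomy hcard N hbot htop E with h | h | h
  · exact Or.inl h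
  · exact Or.inr (Or.inl h.2)
  · exact Or.inr (Or.inr h)

end Fermat.Agent.S13.AtPLin
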