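/-
S13 team, block [P1] (owner: helper96): an inertia element moves a torsion point only inside the
kernel of reduction — valid also when the residue characteristic divides the order of the point.

These are the arguments of `Fermat.Agent.S05.good_case_short` / `mult_case_short_A`, stopped
before the final appeal to `F1` (torsion-freeness of the kernel of reduction).
-/
import Fermat.Agent.S05.Main

set_option autoImplicit false

namespace Fermat.Agent.S13

open WeierstrassCurve Fermat.Agent.S05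

section Short

variable {K : Type*} [Field K] [DecidableEq K]

/-- **Good reduction**: on `y² = x³ + αx² + βx` with good reduction at `A`, an inertia-like `σ`
moves every point only by an element of the kernel of reduction. No torsion hypothesis. -/
theorem good_case_inE1 (A : ValuationSubring K) (hA2 : A.valuation (2 : K) = 1)
    (α β : K) (hα : α ∈ A) (hβ : A.valuation β = 1) (hdisc : A.valuation (α ^ 2 - 4 * β) = 1)
    (σ : K →+* K) (hσ : InertiaLike A σ)
    {x y : K} (h : (shortCurve α β).toAffine.Nonsingular x y)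
    (h' : (shortCurve α β).toAffine.Nonsingular (σ x) (σ y)) :
    InE1 A (Affine.Point.some (σ x) (σ y) h' - Affine.Point.some x y h) := by
  have hβA : β ∈ A := (A.valuation_le_one_iff β).mp hβ.le
  have h0 : (0 : K) ∈ A := A.zero_mem
  by_cases hx : x ∈ A
  · have heq : y ^ 2 = x ^ 3 + α * x ^ 2 + β * x := by
      have := (Affine.equation_iff _ _).mp h.1
      simp only [shortCurve_a₁, shortCurve_a₂, shortCurve_a₃, shortCurve_a₄, shortCurve_a₆]
        at this
      linear_combination this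
    have hy : y ∈ A := by
      have hy2 : y ^ 2 ∈ A := by
        rw [heq]
        exact add_mem (add_mem (pow_mem hx 3) (mul_mem hα (pow_mem hx 2))) (mul_mem hβA hx)
      rw [← A.valuation_le_one_iff] at hy2 ⊢
      rw [map_pow] at hy2
      exact (pow_le_one_iff_of_nonneg zero_le (by norm_num)).mp hy2
    have hxσ : x - σ x ∈ A.nonunits := by
      have := neg_mem (hσ.sub_mem x hx)
      rwa [neg_sub] at this
    have hyσ : y - σ y ∈ A.nonunits := by
      have := neg_mem (hσ.sub_mem y hy)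
      rwa [neg_sub] at this
    have hns := Reduction.short_nonsingular_mod A hA2 hα hβ hdisc hx heq
    have hns' : 2 * y + (shortCurve α β).a₁ * x + (shortCurve α β).a₃ ∉ A.nonunits ∨
        3 * x ^ 2 + 2 * (shortCurve α β).a₂ * x + (shortCurve α β).a₄
          - (shortCurve α β).a₁ * y ∉ A.nonunits := by
      simpa only [shortCurve_a₁, shortCurve_a₂, shortCurve_a₃, shortCurve_a₄, zero_mul, add_zero,
        sub_zero] using hns
    have key := F2_inE1 A (shortCurve α β) (by simp [A.zero_mem]) (by simpa using hα) h h' hx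
      hxσ hyσ hns'
    have := inE1_neg A key
    rwa [neg_sub] at this
  · have hx' : σ x ∉ A := fun hc => hx ((hσ.mem_iff x).mp hc)
    exact inE1_sub A (shortCurve α β) (by simp [A.zero_mem]) (by simpa using hα)
      (by simp [A.zero_mem]) (by simpa using hβA) (by simp [A.zero_mem])
      (P := Affine.Point.some (σ x) (σ y) h') (Q := Affine.Point.some x y h) hx' hx

/-- **Multiplicative reduction**: on `y² = x (x - e₁) (x - e₂)` with `e₁ = ρ ^ n ∈ m`, `e₂` a unit,
`ρ` and `e₂` fixed by the inertia-like `σ`, an `n`-torsion point is moved by `σ` only by an element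
of the kernel of reduction. No hypothesis on the valuation of `n`. -/
theorem mult_case_inE1 (A : ValuationSubring K) (hA2 : A.valuation (2 : K) = 1)
    (e₁ e₂ : K) (he₁ : e₁ ∈ A.nonunits) (he₁0 : e₁ ≠ 0) (he₂ : A.valuation e₂ = 1)
    (hsqrt : ∀ u : K, ∃ t : K, t ^ 2 = u)
    (n : ℕ) (hn0 : n ≠ 0) (ρ : K) (hρ : e₁ = ρ ^ n)
    (σ : K →+* K) (hσ : InertiaLike A σ) (hσρ : σ ρ = ρ) (hσe₂ : σ e₂ = e₂)
    {x y : K} (h : (shortCurve (-(e₁ + e₂)) (e₁ * e₂)).toAffine.Nonsingular x y)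
    (h' : (shortCurve (-(e₁ + e₂)) (e₁ * e₂)).toAffine.Nonsingular (σ x) (σ y))
    (htors : n • (Affine.Point.some x y h) = 0) :
    InE1 A (Affine.Point.some (σ x) (σ y) h' - Affine.Point.some x y h) := by
  obtain ⟨b, hb⟩ := hsqrt (-e₂)
  have hN : NodeHyp A (-e₁ / (16 * e₂)) := MultA.nodeHyp hA2 he₁ he₁0 he₂
  have hρ0 : ρ ≠ 0 := by
    rintro rfl
    exact he₁0 (by rw [hρ, zero_pow hn0])
  -- `b` is a unit fixed by `σ`
  have hbv : A.valuation b = 1 := by
    have h1 : A.valuation b ^ 2 = 1 := by rw [← map_pow, hb, Valuation.map_neg, he₂]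
    exact (pow_eq_one_iff_of_nonneg zero_le two_ne_zero).mp h1
  have hbA : b ∈ A := by rw [← ValuationSubring.valuation_le_one_iff, hbv]
  have hσb : σ b = b := by
    have h1 : (σ b) ^ 2 = b ^ 2 := by rw [← map_pow, hb, map_neg, hσe₂]
    have h2 : (σ b - b) * (σ b + b) = 0 := by linear_combination h1
    rcases mul_eq_zero.mp h2 with h3 | h3
    · exact sub_eq_zero.mp h3
    · exfalso
      have h4 := hσ.sub_mem b hbA
      have h5 : σ b - b = -(2 * b) := by linear_combination h3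
      rw [h5, ValuationSubring.mem_nonunits_iff, Valuation.map_neg, map_mul, hA2, hbv,
        one_mul] at h4
      exact lt_irrefl _ h4
  have hσe₁ : σ e₁ = e₁ := by rw [hρ, map_pow, hσρ]
  have hσr : σ (-e₁ / (16 * e₂)) = -e₁ / (16 * e₂) := by
    rw [map_div₀, map_neg, map_mul, hσe₁, hσe₂, map_ofNat]
  -- the two points and their parameters
  have hlam' : lamP A e₁ e₂ b (Affine.Point.some (σ x) (σ y) h')
      = σ (lamP A e₁ e₂ b (Affine.Point.some x y h)) := by
    show lamT A (-e₁ / (16 * e₂)) (-(σ x) / (4 * e₂)) (-(σ y) / (4 * b * e₂))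
      = σ (lamT A (-e₁ / (16 * e₂)) (-x / (4 * e₂)) (-y / (4 * b * e₂)))
    rw [← lamT_map σ hσ.mem_iff, hσr]
    congr 1
    · rw [map_div₀, map_neg, map_mul, hσe₂, map_ofNat]
    · rw [map_div₀, map_neg, map_mul, map_mul, hσe₂, hσb, map_ofNat]
  generalize hPdef : Affine.Point.some x y h = P at htors hlam'
  generalize hP'def : Affine.Point.some (σ x) (σ y) h' = P' at hlam'
  have hl0 : lamP A e₁ e₂ b P ≠ 0 := lamP_ne_zero hA2 he₁ he₁0 he₂ hb P
  have hl'0 : lamP A e₁ e₂ b P' ≠ 0 := lamP_ne_zero hA2 he₁ he₁0 he₂ hb P'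
  have hnl0 : lamP A e₁ e₂ b (-P) ≠ 0 := lamP_ne_zero hA2 he₁ he₁0 he₂ hb (-P)
  -- torsion: `λ ^ n ∈ U`, hence `λ = ρ ^ (2 j) * unit`
  obtain ⟨j, hj⟩ := lamP_nsmul hA2 he₁ he₁0 he₂ hb n P
  rw [htors] at hj
  have hlam0 : lamP A e₁ e₂ b (0 : (shortCurve (-(e₁ + e₂)) (e₁ * e₂)).toAffine.Point) = 1 := rfl
  rw [hlam0] at hj
  set lam := lamP A e₁ e₂ b P with hlamdef
  have hu : A.valuation (1 / lam ^ n * ((-e₁ / (16 * e₂)) ^ 2) ^ j) = 1 := by
    rw [ValuationSubring.mem_nonunits_iff] at hj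
    have h1 := Valuation.map_one_add_of_lt (v := A.valuation) hj
    rwa [add_sub_cancel] at h1
  have hVr : A.valuation (-e₁ / (16 * e₂)) = A.valuation ρ ^ n := by
    rw [map_div₀, map_mul, MultA.val_sixteen hA2, he₂, Valuation.map_neg, mul_one, div_one, hρ,
      map_pow]
  have hw : A.valuation ρ ≠ 0 := (Valuation.ne_zero_iff _).mpr hρ0
  have hVl : A.valuation lam ≠ 0 := (Valuation.ne_zero_iff _).mpr hl0
  have hμ : A.valuation (lam * ρ ^ (-(2 * j))) = 1 := by
    have h1 : (A.valuation (lam * ρ ^ (-(2 * j)))) ^ n = 1 := by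
      rw [map_mul, map_zpow₀, mul_pow]
      rw [map_mul, map_div₀, map_one, map_pow, map_zpow₀, map_pow, hVr] at hu
      have h2 : A.valuation lam ^ n = ((A.valuation ρ ^ n) ^ 2) ^ j := by
        have h3 : A.valuation lam ^ n ≠ 0 := pow_ne_zero _ hVl
        field_simp at hu
        exact hu.symm
      rw [h2, ← zpow_natCast (A.valuation ρ ^ (-(2 * j))) n, ← zpow_mul, ← pow_mul,
        ← zpow_natCast (A.valuation ρ) (n * 2), ← zpow_mul, ← zpow_add₀ hw]
      have h4 : (↑(n * 2) : ℤ) * j + -(2 * j) * ↑n = 0 := by push_cast; ring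
      rw [h4, zpow_zero]
    exact (pow_eq_one_iff_of_nonneg zero_le hn0).mp h1
  have hσl : σ lam / lam - 1 ∈ A.nonunits := by
    have h1 := MultA.sigma_div_sub_one_mem hσ hμ
    have h2 : ρ ^ (-(2 * j)) ≠ 0 := zpow_ne_zero _ hρ0
    have h3 : σ (lam * ρ ^ (-(2 * j))) / (lam * ρ ^ (-(2 * j))) = σ lam / lam := by
      rw [map_mul, map_zpow₀, hσρ]
      field_simp
    rwa [h3] at h1
  -- the difference `P' - P` has trivial parameter
  have hratio : InU A (-e₁ / (16 * e₂)) (lamP A e₁ e₂ b P' / lam) :=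
    InU.of_sub_one_mem (by rw [hlam']; exact hσl)
  have hadd := lamP_add hA2 he₁ he₁0 he₂ hb P' (-P)
  have hneg := lamP_neg hA2 he₁ he₁0 he₂ hb P
  have hQ : InU A (-e₁ / (16 * e₂)) (lamP A e₁ e₂ b (P' + -P)) := by
    have h1 := InU.mul hN (InU.mul hN hadd hneg) hratio
    have h2 : lamP A e₁ e₂ b (P' + -P) / (lamP A e₁ e₂ b P' * lamP A e₁ e₂ b (-P))
        * (lamP A e₁ e₂ b P * lamP A e₁ e₂ b (-P)) * (lamP A e₁ e₂ b P' / lam)
        = lamP A e₁ e₂ b (P' + -P) := by
      rw [← hlamdef]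
      field_simp
    rwa [h2] at h1
  have hE1 := lamP_kernel hA2 he₁ he₁0 he₂ hb (P' + -P) hQ
  rwa [← sub_eq_add_neg] at hE1

end Short

section FreyCurve

local notation "Qbar" => AlgebraicClosure ℚ

open WeierstrassCurve.Affine WeierstrassCurve.Affine.Point

/-- For the Frey curve: an inertia element at a prime `q ≠ 2` (**including `q = p`**) moves every
`p`-torsion point only by an element of the kernel of reduction. -/
theorem frey_inertia_sub_inE1 (P : FreyPackage) {q : ℕ} (hq : q.Prime) (hq2 : q ≠ 2)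
    (A : ValuationSubring Qbar) (hA : A.LiesOverPrime q) (σ : Qbar ≃ₐ[ℚ] Qbar)
    (hσ : σ ∈ A.inertiaSubgroupIn ℚ)
    (Pt : (P.freyCurve⁄Qbar).Point) (htors : P.p • Pt = 0) : InE1 A (σ • Pt - Pt) := by
  rcases Pt with _ | ⟨x, y, h⟩
  · have h0 : σ • (Point.zero : (P.freyCurve⁄Qbar).Point) - Point.zero = 0 := by
      change σ • (0 : (P.freyCurve⁄Qbar).Point) - 0 = 0
      rw [sub_zero]
      rfl
    rw [h0]
    trivial
  obtain ⟨r, ρ, e₂, ⟨h₂, h₄, h₆⟩, hcase⟩ := frey_cases P A hq hA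
  obtain ⟨Φ, -, hΦ⟩ :
      ∃ Φ : (P.freyCurve⁄Qbar).Point →+
          (shortCurve (-((ρ : Qbar) ^ P.p + (e₂ : Qbar))) ((ρ : Qbar) ^ P.p * (e₂ : Qbar))).toAffine.Point,
        Function.Injective Φ ∧
        ∀ (x y : Qbar) (h : (P.freyCurve⁄Qbar).Nonsingular x y),
          ∃ h' : (shortCurve (-((ρ : Qbar) ^ P.p + (e₂ : Qbar)))
              ((ρ : Qbar) ^ P.p * (e₂ : Qbar))).toAffine.Nonsingular
                (4 * x - (r : Qbar)) (8 * y + 4 * x),
            Φ (Affine.Point.some x y h)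
              = Affine.Point.some (4 * x - (r : Qbar)) (8 * y + 4 * x) h' :=
    exists_toShort (freyBar P) (freyBar_a₁ P) (freyBar_a₃ P) qbar_two_ne_zero (r : Qbar)
      (-((ρ : Qbar) ^ P.p + (e₂ : Qbar))) ((ρ : Qbar) ^ P.p * (e₂ : Qbar)) h₂ h₄ h₆
  have hσI := inertiaLike_of_mem A σ hσ
  -- the conjugate point
  obtain ⟨hs, hmap⟩ : ∃ hs : (P.freyCurve⁄Qbar).Nonsingular (σ x) (σ y),
      σ • (Point.some x y h : (P.freyCurve⁄Qbar).Point) = Point.some (σ x) (σ y) hs := ⟨_, rfl⟩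
  -- images on the short model
  obtain ⟨h1, hΦ1⟩ := hΦ x y h
  obtain ⟨h2, hΦ2⟩ := hΦ (σ x) (σ y) hs
  have hX : (σ : Qbar →+* Qbar) (4 * x - (r : Qbar)) = 4 * σ x - (r : Qbar) := by
    show σ (4 * x - (r : Qbar)) = 4 * σ x - (r : Qbar)
    rw [map_sub, map_mul, map_ofNat, map_intCast]
  have hY : (σ : Qbar →+* Qbar) (8 * y + 4 * x) = 8 * σ y + 4 * σ x := by
    show σ (8 * y + 4 * x) = 8 * σ y + 4 * σ x
    rw [map_add, map_mul, map_mul, map_ofNat, map_ofNat]
  have h2' : (shortCurve (-((ρ : Qbar) ^ P.p + (e₂ : Qbar)))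
      ((ρ : Qbar) ^ P.p * (e₂ : Qbar))).toAffine.Nonsingular
        ((σ : Qbar →+* Qbar) (4 * x - (r : Qbar))) ((σ : Qbar →+* Qbar) (8 * y + 4 * x)) := by
    rw [hX, hY]; exact h2
  have hcongr : (Affine.Point.some _ _ h2' : (shortCurve (-((ρ : Qbar) ^ P.p + (e₂ : Qbar)))
      ((ρ : Qbar) ^ P.p * (e₂ : Qbar))).toAffine.Point) = Affine.Point.some _ _ h2 := by
    simp only [Affine.Point.some.injEq]
    exact ⟨hX, hY⟩
  have ht1 : P.p • (Affine.Point.some _ _ h1 : (shortCurve (-((ρ : Qbar) ^ P.p + (e₂ : Qbar)))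
      ((ρ : Qbar) ^ P.p * (e₂ : Qbar))).toAffine.Point) = 0 := by
    rw [← hΦ1, ← map_nsmul, htors, _root_.map_zero]
  have key : InE1 A ((Affine.Point.some _ _ h2' : (shortCurve (-((ρ : Qbar) ^ P.p + (e₂ : Qbar)))
      ((ρ : Qbar) ^ P.p * (e₂ : Qbar))).toAffine.Point) - Affine.Point.some _ _ h1) := by
    rcases hcase with ⟨hα, hβ, hdisc⟩ | ⟨he₁, he₁0, he₂⟩
    · exact good_case_inE1 A (frey_val_two A hq hq2 hA) _ _ hα hβ hdisc
        (σ : Qbar →+* Qbar) hσI h1 h2'
    · exact mult_case_inE1 A (frey_val_two A hq hq2 hA) _ _ he₁ he₁0 he₂ qbar_exists_sq P.p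
        P.pp.ne_zero (ρ : Qbar) rfl (σ : Qbar →+* Qbar) hσI (by simp) (by simp) h1 h2' ht1
  have hΦd : Φ (σ • (Point.some x y h : (P.freyCurve⁄Qbar).Point) - Point.some x y h)
      = (Affine.Point.some _ _ h2' : (shortCurve (-((ρ : Qbar) ^ P.p + (e₂ : Qbar)))
          ((ρ : Qbar) ^ P.p * (e₂ : Qbar))).toAffine.Point) - Affine.Point.some _ _ h1 := by
    rw [map_sub, hmap, hΦ1, hΦ2, hcongr]
  rw [← hΦd] at key
  -- transport back along `Φ`
  generalize σ • (Point.some x y h : (P.freyCurve⁄Qbar).Point) - Point.some x y h = Q at key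
  rcases Q with _ | ⟨x₃, y₃, h₃⟩
  · trivial
  · obtain ⟨h3, hΦ3⟩ := hΦ x₃ y₃ h₃
    rw [hΦ3] at key
    change x₃ ∉ A
    intro hx₃
    apply key
    have h4 : (4 : Qbar) ∈ A := by
      exact_mod_cast Inertia.intCast_mem_valuationSubring A (4 : ℤ)
    exact sub_mem (mul_mem h4 hx₃) (Inertia.intCast_mem_valuationSubring A r)

end FreyCurve

end Fermat.Agent.S13
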