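/-
S13 team, block [P] (owner: helper96): the dichotomy at `p` for the Frey curve.

For a Galois-stable line `N ⊂ V = E[p]` there is a valuation subring `A` of `Qbar` over `p` whose
inertia group acts trivially on `N` or on `V / N`.

Ingredients: `frey_inertia_sub_inE1` (inertia moves torsion points inside the kernel of reduction
`E₁`), the linear algebra of `E₁ ∩ V` (a subgroup of `V`), and, to exclude `V ⊂ E₁`, the rational
numbers `∏_{T ∈ N ∖ 0} z_T`, `∏_{T ∈ V ∖ N} z_T` together with the product bound `hM2` of block [M].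
-/
import Fermat.Agent.S13.InertiaE1
import Fermat.Agent.S13.Abstract
import Fermat.Agent.S13.AtPLin

set_option autoImplicit false

namespace Fermat.Agent.S13

open WeierstrassCurve Fermat.Agent.S05

namespace AtP

local notation "Qbar" => AlgebraicClosure ℚ
local notation "GQ" => (AlgebraicClosure ℚ ≃ₐ[ℚ] AlgebraicClosure ℚ)

/-! ### Generalities -/

/-- There is a valuation subring of `Qbar` lying over any prime. -/
theorem exists_liesOverPrime {q : ℕ} (hq : q.Prime) :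
    ∃ A : ValuationSubring Qbar, A.LiesOverPrime q := by
  let A₀ : Subring Qbar := (Int.castRingHom Qbar).range
  have hqmem : (q : Qbar) ∈ A₀ := ⟨(q : ℤ), by simp⟩
  let I : Ideal A₀ := Ideal.span {⟨(q : Qbar), hqmem⟩}
  have hI : I ≠ ⊤ := by
    intro htop
    have h1 : (1 : A₀) ∈ I := by rw [htop]; trivial
    obtain ⟨c, hc⟩ := Ideal.mem_span_singleton'.mp h1
    obtain ⟨k, hk⟩ := c.2
    have h2 : ((k * q : ℤ) : Qbar) = ((1 : ℤ) : Qbar) := by
      have := congrArg Subtype.val hc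
      push_cast at this ⊢
      rw [← this, ← hk]
      simp
    have h3 : k * (q : ℤ) = 1 := by exact_mod_cast h2
    have h4 : (q : ℤ) ∣ 1 := ⟨k, by rw [← h3]; ring⟩
    have h5 := Int.natCast_dvd_natCast.mp (by simpa using h4 : ((q : ℕ) : ℤ) ∣ ((1 : ℕ) : ℤ))
    exact hq.one_lt.ne' (Nat.dvd_one.mp h5)
  obtain ⟨B, -, hB⟩ := Ideal.image_subset_nonunits_valuationSubring I hI
  refine ⟨B, hB ⟨⟨(q : Qbar), hqmem⟩, Ideal.subset_span rfl, rfl⟩⟩

/-- A rational number of valuation `< 1` at a valuation subring over `q` has valuation at most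
that of `q`. -/
theorem val_rat_le {q : ℕ} (hq : q.Prime) {A : ValuationSubring Qbar} (hA : A.LiesOverPrime q)
    (r : ℚ) (hr : A.valuation (algebraMap ℚ Qbar r) < 1) :
    A.valuation (algebraMap ℚ Qbar r) ≤ A.valuation (q : Qbar) := by
  have hden0 : (r.den : Qbar) ≠ 0 := by exact_mod_cast r.den_ne_zero
  have hr' : algebraMap ℚ Qbar r = (r.num : Qbar) / (r.den : Qbar) := by
    conv_lhs => rw [← Rat.num_div_den r]
    simp
  rw [hr'] at hr ⊢
  rw [map_div₀] at hr ⊢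
  by_cases hqd : q ∣ r.den
  · exfalso
    have hnum : ¬ (q : ℤ) ∣ r.num := by
      intro hqn
      have h1 : q ∣ r.num.natAbs := Int.natCast_dvd.mp hqn
      have h2 : q ∣ Nat.gcd r.num.natAbs r.den := Nat.dvd_gcd h1 hqd
      rw [r.reduced] at h2
      exact hq.one_lt.ne' (Nat.dvd_one.mp h2)
    have hv1 : A.valuation (r.num : Qbar) = 1 :=
      Inertia.valuation_intCast_eq_one_of_not_dvd hA hq hnum
    have hv2 : A.valuation (r.den : Qbar) ≤ 1 := Inertia.valuation_natCast_le_one A r.den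
    have hv3 : A.valuation (r.den : Qbar) ≠ 0 := (Valuation.ne_zero_iff _).mpr hden0
    rw [hv1] at hr
    have : (1 : A.ValueGroup) ≤ 1 / A.valuation (r.den : Qbar) := by
      rw [le_div_iff₀ (zero_lt_iff.mpr hv3), one_mul]
      exact hv2
    exact absurd hr (not_lt.mpr this)
  · have hv2 : A.valuation (r.den : Qbar) = 1 :=
      Inertia.valuation_natCast_eq_one_of_not_dvd hA hq hqd
    rw [hv2, div_one] at hr ⊢
    obtain ⟨m, hm⟩ := (Inertia.valuation_intCast_lt_one_iff hA hq r.num).mp hr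
    rw [hm]
    push_cast
    rw [map_mul]
    calc A.valuation (q : Qbar) * A.valuation (m : Qbar)
        ≤ A.valuation (q : Qbar) * 1 :=
          mul_le_mul' le_rfl (Inertia.valuation_intCast_le_one A m)
      _ = A.valuation (q : Qbar) := mul_one _

/-! ### Transfer to the short model -/

open WeierstrassCurve.Affine WeierstrassCurve.Affine.Point

section Core

variable (P : FreyPackage) (A : ValuationSubring Qbar) {α β : Qbar} {r : ℤ}
  (Φ : (P.freyCurve⁄Qbar).Point →+ (shortCurve α β).toAffine.Point)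

/-- The hypothesis on `Φ` provided by `exists_toShort`. -/
def IsToShort (r : ℤ) : Prop :=
  ∀ (x y : Qbar) (h : (P.freyCurve⁄Qbar).Nonsingular x y),
    ∃ h' : (shortCurve α β).toAffine.Nonsingular (4 * x - (r : Qbar)) (8 * y + 4 * x),
      Φ (Affine.Point.some x y h) = Affine.Point.some (4 * x - (r : Qbar)) (8 * y + 4 * x) h'

variable {P A Φ}

theorem inE1_toShort (hA2 : A.valuation (2 : Qbar) = 1) (hΦ : IsToShort P Φ r)
    {Q : (P.freyCurve⁄Qbar).Point} (hQ : InE1 A Q) : InE1 A (Φ Q) := by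
  rcases Q with _ | ⟨x, y, h⟩
  · have : Φ (Point.zero : (P.freyCurve⁄Qbar).Point) = 0 := _root_.map_zero Φ
    rw [this]
    trivial
  · obtain ⟨h', hΦ'⟩ := hΦ x y h
    rw [hΦ']
    change 4 * x - (r : Qbar) ∉ A
    intro hc
    apply hQ
    have h4 : A.valuation (4 : Qbar) = 1 := MultA.val_four hA2
    have h4' : (4 : Qbar)⁻¹ ∈ A := by
      rw [← A.valuation_le_one_iff, map_inv₀, h4, inv_one]
    have h40 : (4 : Qbar) ≠ 0 := by norm_num
    have e : x = (4 * x - (r : Qbar) + (r : Qbar)) * (4 : Qbar)⁻¹ := by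
      field_simp
      ring
    rw [e]
    exact mul_mem (add_mem hc (Inertia.intCast_mem_valuationSubring A r)) h4'

theorem inE1_of_toShort (hΦ : IsToShort P Φ r)
    {Q : (P.freyCurve⁄Qbar).Point} (hQ : InE1 A (Φ Q)) : InE1 A Q := by
  rcases Q with _ | ⟨x, y, h⟩
  · trivial
  · obtain ⟨h', hΦ'⟩ := hΦ x y h
    rw [hΦ'] at hQ
    change x ∉ A
    intro hx
    apply hQ
    have h4 : (4 : Qbar) ∈ A := by
      exact_mod_cast Inertia.intCast_mem_valuationSubring A (4 : ℤ)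
    exact sub_mem (mul_mem h4 hx) (Inertia.intCast_mem_valuationSubring A r)

/-- The `z`-coordinate on the short model of a torsion point of the Frey curve. -/
noncomputable def zf (Φ : (P.freyCurve⁄Qbar).Point →+ (shortCurve α β).toAffine.Point)
    (x : Abstract.Tors P.freyCurve P.p) : Qbar :=
  FormalGroup.zOf (Φ x.1)

theorem zf_smul (hΦ : IsToShort P Φ r) (σ : GQ) (x : Abstract.Tors P.freyCurve P.p) :
    zf Φ (σ • x) = σ (zf Φ x) := by
  obtain ⟨T, hT⟩ := x
  rcases T with _ | ⟨a, b, h⟩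
  · have h0 : Φ (Point.zero : (P.freyCurve⁄Qbar).Point) = 0 := _root_.map_zero Φ
    have h1 : zf Φ (σ • (⟨Point.zero, hT⟩ : Abstract.Tors P.freyCurve P.p)) = 0 := by
      change FormalGroup.zOf (Φ (Point.zero : (P.freyCurve⁄Qbar).Point)) = 0
      rw [h0]; rfl
    have h2 : zf Φ (⟨Point.zero, hT⟩ : Abstract.Tors P.freyCurve P.p) = 0 := by
      change FormalGroup.zOf (Φ (Point.zero : (P.freyCurve⁄Qbar).Point)) = 0
      rw [h0]; rfl
    rw [h1, h2, _root_.map_zero]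
  · obtain ⟨hs, hmap⟩ : ∃ hs : (P.freyCurve⁄Qbar).Nonsingular (σ a) (σ b),
        σ • (Point.some a b h : (P.freyCurve⁄Qbar).Point) = Point.some (σ a) (σ b) hs :=
      ⟨_, rfl⟩
    obtain ⟨h1, hΦ1⟩ := hΦ a b h
    obtain ⟨h2, hΦ2⟩ := hΦ (σ a) (σ b) hs
    have e1 : zf Φ (σ • (⟨Point.some a b h, hT⟩ : Abstract.Tors P.freyCurve P.p))
        = -(4 * σ a - (r : Qbar)) / (8 * σ b + 4 * σ a) := by
      change FormalGroup.zOf (Φ (σ • (Point.some a b h : (P.freyCurve⁄Qbar).Point))) = _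
      rw [hmap, hΦ2]; rfl
    have e2 : zf Φ (⟨Point.some a b h, hT⟩ : Abstract.Tors P.freyCurve P.p)
        = -(4 * a - (r : Qbar)) / (8 * b + 4 * a) := by
      change FormalGroup.zOf (Φ (Point.some a b h : (P.freyCurve⁄Qbar).Point)) = _
      rw [hΦ1]; rfl
    rw [e1, e2, map_div₀, map_neg, map_sub, map_add, map_mul, map_mul, map_ofNat,
      map_ofNat, map_intCast]

/-- **[P3]**: not all of `V = E[p]` lies in the kernel of reduction at `A` when there is a
Galois-stable line `N`: the product of the `z`-coordinates over `N ∖ 0` is a rational number of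
valuation `< 1`, hence `≤ |p|`; the product over `V ∖ N` has valuation `< 1`; this contradicts
the product bound of block [M]. -/
theorem not_all_inE1 (hA : A.LiesOverPrime P.p) (hα : α ∈ A) (hβ : β ∈ A)
    (hinj : Function.Injective Φ) (hΦ : IsToShort P Φ r)
    (hfin : Finite (Abstract.Tors P.freyCurve P.p))
    (hM2 : ∀ S : Finset (shortCurve α β).toAffine.Point,
      (∀ T ∈ S, T ≠ 0 ∧ P.p • T = 0 ∧ InE1 A T) →
        A.valuation (P.p : Qbar) ≤ ∏ T ∈ S, A.valuation (FormalGroup.zOf T))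
    (N : Submodule (ZMod P.p) (Abstract.Tors P.freyCurve P.p)) (hN : IsGaloisStable ℚ N)
    (hbot : N ≠ ⊥) (htop : N ≠ ⊤)
    (hall : ∀ x : Abstract.Tors P.freyCurve P.p, InE1 A (Φ x.1)) : False := by
  classical
  let _ : Fintype (Abstract.Tors P.freyCurve P.p) := Fintype.ofFinite _
  have hW : FormalGroup.IntCoeff A.valuation (shortCurve α β) :=
    FormalGroup.intCoeff_of_mem A _ (by simp [A.zero_mem]) (by simpa using hα)
      (by simp [A.zero_mem]) (by simpa using hβ) (by simp [A.zero_mem])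
  have hz : ∀ x : Abstract.Tors P.freyCurve P.p, A.valuation (zf Φ x) < 1 := fun x =>
    FormalGroup.val_zOf_lt_one hW _ ((FormalGroup.inE1_iff A _).mp (hall x))
  -- the two index sets
  set s₁ : Finset (Abstract.Tors P.freyCurve P.p) :=
    Finset.univ.filter (fun x => x ∈ N ∧ x ≠ 0) with hs₁
  set s₂ : Finset (Abstract.Tors P.freyCurve P.p) :=
    Finset.univ.filter (fun x => x ∉ N) with hs₂
  -- the product over `N ∖ 0` is Galois-invariant, hence rational
  have hfix : ∀ σ : GQ, σ (∏ x ∈ s₁, zf Φ x) = ∏ x ∈ s₁, zf Φ x := by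
    intro σ
    rw [map_prod]
    have h1 : ∀ x ∈ s₁, σ (zf Φ x) = zf Φ (σ • x) := fun x _ => (zf_smul hΦ σ x).symm
    rw [Finset.prod_congr rfl h1]
    refine Finset.prod_equiv (MulAction.toPerm σ) (fun x => ?_) (fun x _ => rfl)
    simp only [hs₁, Finset.mem_filter, Finset.mem_univ, true_and, MulAction.toPerm_apply]
    constructor
    · rintro ⟨h1, h2⟩
      exact ⟨hN σ x h1, fun h => h2 ((smul_eq_zero_iff_eq σ).mp h)⟩
    · rintro ⟨h1, h2⟩
      refine ⟨?_, fun h => h2 (by rw [h, smul_zero])⟩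
      have := hN σ⁻¹ _ h1
      rwa [inv_smul_smul] at this
  obtain ⟨q, hq⟩ := Fermat.Agent.S51.rat_of_fixed _ hfix
  -- nonemptiness
  obtain ⟨x₁, hx₁N, hx₁0⟩ := Submodule.exists_mem_ne_zero_of_ne_bot hbot
  obtain ⟨x₂, hx₂⟩ : ∃ x, x ∉ N := by
    by_contra h
    push Not at h
    exact htop (eq_top_iff.mpr fun x _ => h x)
  have hx₁s : x₁ ∈ s₁ := by simp [hs₁, hx₁N, hx₁0]
  have hx₂s : x₂ ∈ s₂ := by simp [hs₂, hx₂]
  -- a nonempty product of valuations `< 1` is `< 1`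
  have hprod_lt : ∀ (s : Finset (Abstract.Tors P.freyCurve P.p))
      (x : Abstract.Tors P.freyCurve P.p), x ∈ s → ∏ y ∈ s, A.valuation (zf Φ y) < 1 := by
    intro s x hx
    rw [← Finset.mul_prod_erase s _ hx]
    calc A.valuation (zf Φ x) * ∏ y ∈ s.erase x, A.valuation (zf Φ y)
        ≤ A.valuation (zf Φ x) * 1 :=
          mul_le_mul' le_rfl (Finset.prod_le_one' fun y _ => (hz y).le)
      _ = A.valuation (zf Φ x) := mul_one _
      _ < 1 := hz x
  have hv₁ : ∏ x ∈ s₁, A.valuation (zf Φ x) ≤ A.valuation (P.p : Qbar) := by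
    rw [← map_prod, ← hq]
    apply val_rat_le P.pp hA
    rw [hq, map_prod]
    exact hprod_lt s₁ x₁ hx₁s
  -- the full product
  have hdisj : Disjoint s₁ s₂ := by
    rw [Finset.disjoint_filter]
    intro x _ h1 h2
    exact h2 h1.1
  have hunion : s₁ ∪ s₂ = Finset.univ.filter (fun x : Abstract.Tors P.freyCurve P.p => x ≠ 0) := by
    ext x
    simp only [hs₁, hs₂, Finset.mem_union, Finset.mem_filter, Finset.mem_univ, true_and]
    constructor
    · rintro (⟨-, h⟩ | h)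
      · exact h
      · intro h0
        exact h (h0 ▸ N.zero_mem)
    · intro h0
      by_cases hx : x ∈ N
      · exact Or.inl ⟨hx, h0⟩
      · exact Or.inr hx
  have hS : ∀ T ∈ (Finset.univ.filter
      (fun x : Abstract.Tors P.freyCurve P.p => x ≠ 0)).image (fun x => Φ x.1),
      T ≠ 0 ∧ P.p • T = 0 ∧ InE1 A T := by
    intro T hT
    obtain ⟨x, hx, rfl⟩ := Finset.mem_image.mp hT
    have hx0 : x ≠ 0 := (Finset.mem_filter.mp hx).2
    refine ⟨?_, ?_, hall x⟩
    · intro h0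
      apply hx0
      have h1 : x.1 = 0 := hinj (by rw [h0, _root_.map_zero])
      exact Subtype.ext h1
    · rw [← map_nsmul]
      have h1 : ((P.p : ℕ) : ℤ) • x.1 = 0 := (Submodule.mem_torsionBy_iff _ _).1 x.2
      rw [natCast_zsmul] at h1
      rw [h1, _root_.map_zero]
  have hM := hM2 _ hS
  have hinj' : Set.InjOn (fun x : Abstract.Tors P.freyCurve P.p => Φ x.1)
      (Finset.univ.filter (fun x : Abstract.Tors P.freyCurve P.p => x ≠ 0) : Set _) :=
    fun x _ y _ hxy => Subtype.ext (hinj hxy)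
  rw [Finset.prod_image hinj', ← hunion, Finset.prod_union hdisj] at hM
  have h2 := hprod_lt s₂ x₂ hx₂s
  have hp0 : 0 < A.valuation (P.p : Qbar) :=
    zero_lt_iff.mpr ((Valuation.ne_zero_iff _).mpr (Nat.cast_ne_zero.mpr P.hp0))
  have hlt : (∏ x ∈ s₁, A.valuation (zf Φ x)) * (∏ x ∈ s₂, A.valuation (zf Φ x))
      < A.valuation (P.p : Qbar) := by
    calc (∏ x ∈ s₁, A.valuation (zf Φ x)) * (∏ x ∈ s₂, A.valuation (zf Φ x))
        ≤ A.valuation (P.p : Qbar) * ∏ x ∈ s₂, A.valuation (zf Φ x) := mul_le_mul' hv₁ le_rfl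
      _ < A.valuation (P.p : Qbar) * 1 := mul_lt_mul_of_pos_left h2 hp0
      _ = A.valuation (P.p : Qbar) := mul_one _
  exact absurd hM (not_le.mpr hlt)

end Core

/-! ### The dichotomy at `p` -/

section Final

variable (P : FreyPackage)

/-- For one valuation subring `A` over `p`: either `N` meets the kernel of reduction trivially and
inertia fixes `N` pointwise, or `N` lies in the kernel of reduction and inertia acts trivially on
`V / N`. -/
theorem dichotomy_perA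
    (hfin : Finite (Abstract.Tors P.freyCurve P.p))
    (hcard : Nat.card (Abstract.Tors P.freyCurve P.p) ≤ P.p ^ 2)
    (hM2 : ∀ (α β : Qbar), β ≠ 0 → α ^ 2 - 4 * β ≠ 0 → ∀ A : ValuationSubring Qbar,
      α ∈ A → β ∈ A → ∀ S : Finset (shortCurve α β).toAffine.Point,
        (∀ T ∈ S, T ≠ 0 ∧ P.p • T = 0 ∧ InE1 A T) →
          A.valuation (P.p : Qbar) ≤ ∏ T ∈ S, A.valuation (FormalGroup.zOf T))
    (N : Submodule (ZMod P.p) (Abstract.Tors P.freyCurve P.p)) (hN : IsGaloisStable ℚ N)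
    (hbot : N ≠ ⊥) (htop : N ≠ ⊤)
    (A : ValuationSubring Qbar) (hA : A.LiesOverPrime P.p) :
    ((∀ x ∈ N, InE1 A x.1 → x = 0) ∧ ∀ σ ∈ A.inertiaSubgroupIn ℚ, ∀ x ∈ N, σ • x = x) ∨
    ((∀ x ∈ N, InE1 A x.1) ∧
      ∀ σ ∈ A.inertiaSubgroupIn ℚ, ∀ x : Abstract.Tors P.freyCurve P.p, σ • x - x ∈ N) := by
  have : Fact P.p.Prime := ⟨P.pp⟩
  have hp2 : P.p ≠ 2 := by have := P.hp5; omega
  have hA2 : A.valuation (2 : Qbar) = 1 := frey_val_two A P.pp hp2 hA
  obtain ⟨r, ρ, e₂, ⟨h₂, h₄, h₆⟩, hcase⟩ := frey_cases P A P.pp hA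
  -- facts on the coefficients of the short model
  have hαβ : -((ρ : Qbar) ^ P.p + (e₂ : Qbar)) ∈ A ∧ (ρ : Qbar) ^ P.p * (e₂ : Qbar) ∈ A ∧
      (ρ : Qbar) ^ P.p * (e₂ : Qbar) ≠ 0 ∧
      (-((ρ : Qbar) ^ P.p + (e₂ : Qbar))) ^ 2 - 4 * ((ρ : Qbar) ^ P.p * (e₂ : Qbar)) ≠ 0 := by
    rcases hcase with ⟨hα, hβ, hdisc⟩ | ⟨he₁, he₁0, he₂⟩
    · refine ⟨hα, (A.valuation_le_one_iff _).mp hβ.le, LamHom.ne_zero_of_val_one hβ,
        LamHom.ne_zero_of_val_one hdisc⟩
    · have he₁A : (ρ : Qbar) ^ P.p ∈ A := A.nonunits_subset he₁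
      have he₂A : (e₂ : Qbar) ∈ A := (A.valuation_le_one_iff _).mp he₂.le
      have he₂0 : (e₂ : Qbar) ≠ 0 := LamHom.ne_zero_of_val_one he₂
      refine ⟨neg_mem (add_mem he₁A he₂A), mul_mem he₁A he₂A, mul_ne_zero he₁0 he₂0, ?_⟩
      have hne : (ρ : Qbar) ^ P.p - (e₂ : Qbar) ≠ 0 := by
        intro h0
        have h1 : (ρ : Qbar) ^ P.p = (e₂ : Qbar) := sub_eq_zero.mp h0
        rw [A.mem_nonunits_iff, h1, he₂] at he₁
        exact lt_irrefl _ he₁
      have e : (-((ρ : Qbar) ^ P.p + (e₂ : Qbar))) ^ 2 - 4 * ((ρ : Qbar) ^ P.p * (e₂ : Qbar))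
          = ((ρ : Qbar) ^ P.p - (e₂ : Qbar)) ^ 2 := by ring
      rw [e]
      exact pow_ne_zero 2 hne
  obtain ⟨hα, hβ, hβ0, hdisc0⟩ := hαβ
  obtain ⟨Φ, hinj, hΦ⟩ :
      ∃ Φ : (P.freyCurve⁄Qbar).Point →+
          (shortCurve (-((ρ : Qbar) ^ P.p + (e₂ : Qbar))) ((ρ : Qbar) ^ P.p * (e₂ : Qbar))).toAffine.Point,
        Function.Injective Φ ∧ IsToShort P Φ r :=
    exists_toShort (freyBar P) (freyBar_a₁ P) (freyBar_a₃ P) qbar_two_ne_zero (r : Qbar)
      (-((ρ : Qbar) ^ P.p + (e₂ : Qbar))) ((ρ : Qbar) ^ P.p * (e₂ : Qbar)) h₂ h₄ h₆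
  generalize -((ρ : Qbar) ^ P.p + (e₂ : Qbar)) = α at *
  generalize (ρ : Qbar) ^ P.p * (e₂ : Qbar) = β at *
  -- the kernel of reduction inside `V`
  let E : AddSubgroup (Abstract.Tors P.freyCurve P.p) :=
    { carrier := {x | InE1 A x.1}
      zero_mem' := by
        change InE1 A (Point.zero : (P.freyCurve⁄Qbar).Point)
        trivial
      add_mem' := by
        intro x y hx hy
        change InE1 A (x.1 + y.1)
        apply inE1_of_toShort hΦ
        rw [map_add]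
        exact inE1_add A (shortCurve α β) (by simp [A.zero_mem]) (by simpa using hα)
          (by simp [A.zero_mem]) (by simpa using hβ) (by simp [A.zero_mem])
          (inE1_toShort hA2 hΦ hx) (inE1_toShort hA2 hΦ hy)
      neg_mem' := by
        intro x hx
        change InE1 A (-x.1)
        exact inE1_neg A hx }
  have hE : ∀ x : Abstract.Tors P.freyCurve P.p, x ∈ E ↔ InE1 A x.1 := fun _ => Iff.rfl
  have hP1 : ∀ σ ∈ A.inertiaSubgroupIn ℚ, ∀ x : Abstract.Tors P.freyCurve P.p,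
      σ • x - x ∈ E := by
    intro σ hσ x
    have h1 : ((P.p : ℕ) : ℤ) • x.1 = 0 := (Submodule.mem_torsionBy_iff _ _).1 x.2
    rw [natCast_zsmul] at h1
    exact frey_inertia_sub_inE1 P P.pp hp2 A hA σ hσ x.1 h1
  rcases AtPLin.trichotomy hcard N hbot htop E with h1 | ⟨h2, h3⟩ | h4
  · left
    refine ⟨fun x hx hxE => h1 x hx hxE, fun σ hσ x hx => ?_⟩
    exact sub_eq_zero.mp (h1 _ (N.sub_mem (hN σ x hx) hx) (hP1 σ hσ x))
  · right
    exact ⟨fun x hx => h2 x hx, fun σ hσ x => h3 _ (hP1 σ hσ x)⟩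
  · exfalso
    exact not_all_inE1 hA hα hβ hinj hΦ hfin (hM2 α β hβ0 hdisc0 A hα hβ) N hN hbot htop
      (fun x => inE1_toShort hA2 hΦ (h4 x))

/-- **[P]**, modulo the `A`-independence statement `hunif` (block `PUnif`): the dichotomy at `p`
in the shape of `Abstract.cofixedLine_of_local_data_forall`. -/
theorem frey_dichotomy_at_p_of_unif
    (hfin : Finite (Abstract.Tors P.freyCurve P.p))
    (hcard : Nat.card (Abstract.Tors P.freyCurve P.p) ≤ P.p ^ 2)
    (hM2 : ∀ (α β : Qbar), β ≠ 0 → α ^ 2 - 4 * β ≠ 0 → ∀ A : ValuationSubring Qbar,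
      α ∈ A → β ∈ A → ∀ S : Finset (shortCurve α β).toAffine.Point,
        (∀ T ∈ S, T ≠ 0 ∧ P.p • T = 0 ∧ InE1 A T) →
          A.valuation (P.p : Qbar) ≤ ∏ T ∈ S, A.valuation (FormalGroup.zOf T))
    (N : Submodule (ZMod P.p) (Abstract.Tors P.freyCurve P.p)) (hN : IsGaloisStable ℚ N)
    (hbot : N ≠ ⊥) (htop : N ≠ ⊤)
    (hunif : (∀ A : ValuationSubring Qbar, A.LiesOverPrime P.p →
        ∃ x ∈ N, x ≠ 0 ∧ InE1 A x.1) ∨
      (∀ A : ValuationSubring Qbar, A.LiesOverPrime P.p →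
        N = ⊥ ∨ ∃ x ∈ N, x ≠ 0 ∧ ¬ InE1 A x.1)) :
    (∀ A : ValuationSubring Qbar, A.LiesOverPrime P.p →
        ∀ σ ∈ A.inertiaSubgroupIn ℚ, ∀ x ∈ N, σ • x = x) ∨
    (∀ A : ValuationSubring Qbar, A.LiesOverPrime P.p →
        ∀ σ ∈ A.inertiaSubgroupIn ℚ, ∀ x : Abstract.Tors P.freyCurve P.p, σ • x - x ∈ N) := by
  rcases hunif with hu | hu
  · right
    intro A hA
    rcases dichotomy_perA P hfin hcard hM2 N hN hbot htop A hA with ⟨h0, -⟩ | ⟨-, h2⟩
    · obtain ⟨x, hx, hx0, hxE⟩ := hu A hA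
      exact absurd (h0 x hx hxE) hx0
    · exact h2
  · left
    intro A hA
    rcases dichotomy_perA P hfin hcard hM2 N hN hbot htop A hA with ⟨-, h1⟩ | ⟨hall, -⟩
    · exact h1
    · rcases hu A hA with hb | ⟨x, hx, -, hnot⟩
      · exact absurd hb hbot
      · exact absurd (hall x hx) hnot

/-- The per-`A` (existential) form of **[P]**: the `hp` input of
`Abstract.cofixedLine_of_local_data`. -/
theorem frey_dichotomy_at_p_exists
    (hfin : Finite (Abstract.Tors P.freyCurve P.p))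
    (hcard : Nat.card (Abstract.Tors P.freyCurve P.p) ≤ P.p ^ 2)
    (hM2 : ∀ (α β : Qbar), β ≠ 0 → α ^ 2 - 4 * β ≠ 0 → ∀ A : ValuationSubring Qbar,
      α ∈ A → β ∈ A → ∀ S : Finset (shortCurve α β).toAffine.Point,
        (∀ T ∈ S, T ≠ 0 ∧ P.p • T = 0 ∧ InE1 A T) →
          A.valuation (P.p : Qbar) ≤ ∏ T ∈ S, A.valuation (FormalGroup.zOf T))
    (N : Submodule (ZMod P.p) (Abstract.Tors P.freyCurve P.p)) (hN : IsGaloisStable ℚ N)
    (hbot : N ≠ ⊥) (htop : N ≠ ⊤) :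
    ∃ A : ValuationSubring Qbar, A.LiesOverPrime P.p ∧
      ((∀ σ ∈ A.inertiaSubgroupIn ℚ, ∀ x ∈ N, σ • x = x) ∨
       (∀ σ ∈ A.inertiaSubgroupIn ℚ, ∀ x : Abstract.Tors P.freyCurve P.p, σ • x - x ∈ N)) := by
  obtain ⟨A, hA⟩ := exists_liesOverPrime P.pp
  refine ⟨A, hA, ?_⟩
  rcases dichotomy_perA P hfin hcard hM2 N hN hbot htop A hA with ⟨-, h1⟩ | ⟨-, h2⟩
  · exact Or.inl h1
  · exact Or.inr h2

end Final

end AtP

end Fermat.Agent.S13
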