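/-
S13 team, block [T] (owner of this file: helper65): the abstract tent induction on the sequence
`xs i = x(i • P)` of `x`-coordinates of the multiples of a point of odd prime order `p` on a
Weierstrass curve with a node at `(0, 0)` modulo the maximal ideal of a valuation ring
(`y² + a₁xy = x³ + a₂x² + b x`, `|b| < 1`), in terms of the exact relations

* (I1) `x(P+Q) x(P-Q) (x_P - x_Q)² = (x_P x_Q - b)²`,
* (D)  `x(2P) · den(P) = (x_P² - b)²`,

and of valuation-level information on the duplication denominator `den`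
(`|den| ≤ 1` if `|x| = 1`, `|den| = |x|²` if `|b| < |x| < 1`, `|den| ≤ |b|²` if `|x| ≤ |b|`).

Results: `T2.SeqHyp.L1` (a unit abscissa propagates to all multiples), `T2.SeqHyp.L2`
(`|b| < |xs g|`), `T2.SeqHyp.tent` (`|xs 1| < 1 ⇒ ∃ j, |xs 1| ^ p = |b| ^ (2j)`).
-/
import Mathlib

set_option autoImplicit false

namespace Fermat.Agent.S13.T2

variable {K : Type*} [Field K]

section G0

variable {G : Type*} [LinearOrderedCommGroupWithZero G]

theorem g1 {u s t : G} (h : u * s * t = (s * t) ^ 2) (hs : s ≠ 0) (ht : t ≠ 0) : u = s * t := by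
  have h' : u * (s * t) = (s * t) * (s * t) := by rw [← mul_assoc, h, sq]
  exact mul_right_cancel₀ (mul_ne_zero hs ht) h'

theorem g2 {u s t ε : G} (h : u * s * t = ε ^ 2) (hst : s * t < ε) (hε : ε ≠ 0) : ε < u := by
  by_contra hcon
  have hle : u ≤ ε := not_lt.mp hcon
  have : u * s * t < ε ^ 2 := by
    calc u * s * t = u * (s * t) := mul_assoc _ _ _
      _ ≤ ε * (s * t) := mul_le_mul_left hle _
      _ < ε * ε := mul_lt_mul_of_pos_left hst (zero_lt_iff.mpr hε)
      _ = ε ^ 2 := (sq ε).symm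
  exact this.ne h

theorem g3 {u s t ε : G} (h : u * s * t = ε ^ 2) (hs : ε < s) (ht : ε < t) : u < 1 := by
  by_contra hcon
  have hle : 1 ≤ u := not_lt.mp hcon
  have : ε ^ 2 < u * s * t := by
    calc ε ^ 2 = ε * ε := sq ε
      _ < s * t := mul_lt_mul'' hs ht zero_le zero_le
      _ = 1 * (s * t) := (one_mul _).symm
      _ ≤ u * (s * t) := mul_le_mul_left hle _
      _ = u * s * t := (mul_assoc _ _ _).symm
  exact this.ne' h

theorem g4 {u s t ε : G} (h : u * s * t = ε ^ 2) (hs : ε < s) (hε : ε ≠ 0) : u * t < ε := by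
  have h' : u * t * s = ε * ε := by rw [← sq, ← h]; ac_rfl
  have : u * t * s < ε * s := by
    rw [h']; exact mul_lt_mul_of_pos_left hs (zero_lt_iff.mpr hε)
  exact lt_of_mul_lt_mul_right' this

theorem g5 {u s t c ε : G} (h : u * s * t = c ^ 2) (hc : c ≤ ε) (hst : s * t = ε) (hε : ε ≠ 0) :
    u ≤ ε := by
  have h' : u * ε ≤ ε * ε := by
    calc u * ε = u * s * t := by rw [← hst, mul_assoc]
      _ = c * c := by rw [h, sq]
      _ ≤ ε * ε := mul_le_mul' hc hc
  exact le_of_mul_le_mul_right h' (zero_lt_iff.mpr hε)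

theorem g6 {u s t : G} (h : u * t ^ 2 = s * t) (ht : t ≠ 0) : u * t = s := by
  have h' : u * t * t = s * t := by rw [← h, sq, mul_assoc]
  exact mul_right_cancel₀ ht h'

theorem g7 {u d t : G} (h : u * d ^ 2 = t ^ 2) (hd : d ≤ t) (hu : u ≤ 1) (ht : t ≠ 0) : u = 1 := by
  rcases hu.lt_or_eq with hlt | heq
  · exfalso
    have hd0 : d ^ 2 ≠ 0 := by
      intro h0
      rw [h0, mul_zero] at h
      exact pow_ne_zero 2 ht h.symm
    have : u * d ^ 2 < t ^ 2 :=
      lt_of_lt_of_le (mul_lt_of_lt_one_left (zero_lt_iff.mpr hd0) hlt)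
        (pow_le_pow_left₀ zero_le hd 2)
    exact absurd h this.ne
  · exact heq

theorem z1 {u s t ε : G} {k : ℕ} {j : ℤ} (hs : s = t ^ k * ε ^ (2 * j)) (hu : u = s * t) :
    u = t ^ (k + 1) * ε ^ (2 * j) := by
  rw [hu, hs, pow_succ]; ac_rfl

theorem z2 {u s t ε : G} {k : ℕ} {j : ℤ} (hε : ε ≠ 0) (hs : s = t ^ k * ε ^ (2 * j))
    (h : u * s * t = ε ^ 2) : u * t ^ (k + 1) = ε ^ (2 * (1 - j)) := by
  have h' : u * t ^ (k + 1) * ε ^ (2 * j) = ε ^ 2 := by
    rw [← h, hs, pow_succ]; ac_rfl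
  have e : (2 : ℤ) * (1 - j) = 2 - 2 * j := by ring
  rw [e, zpow_sub₀ hε, eq_div_iff (zpow_ne_zero _ hε), h']
  norm_cast

theorem z3 {u s t ε : G} {k : ℕ} {j : ℤ} (hs : s * t ^ k = ε ^ (2 * j)) (hu : u * t = s) :
    u * t ^ (k + 1) = ε ^ (2 * j) := by
  rw [← hs, ← hu, pow_succ]; ac_rfl

theorem z4 {u s t ε : G} {k : ℕ} {j : ℤ} (hε : ε ≠ 0) (hs : s * t ^ k = ε ^ (2 * j))
    (hu : u * s = t) : u = t ^ (k + 1) * ε ^ (2 * (-j)) := by
  have h' : u * ε ^ (2 * j) = t ^ (k + 1) := by
    rw [← hs, pow_succ, ← hu]; ac_rfl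
  have e : (2 : ℤ) * (-j) = -(2 * j) := by ring
  rw [e, zpow_neg, ← div_eq_mul_inv, eq_div_iff (zpow_ne_zero _ hε), h']

end G0

/-- The hypotheses on the sequence of abscissae of the multiples of a point of order `p`. -/
structure SeqHyp (A : ValuationSubring K) (b : K) (p : ℕ) (xs den : ℕ → K) : Prop where
  hb : A.valuation b < 1
  hb0 : b ≠ 0
  hp : p.Prime
  hodd : Odd p
  per : ∀ i j : ℕ, (i : ZMod p) = j ∨ (i : ZMod p) = -j → xs i = xs j
  dbl : ∀ i, ¬ p ∣ i → xs (2 * i) * den i = (xs i ^ 2 - b) ^ 2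
  den_ne : ∀ i, ¬ p ∣ i → den i ≠ 0
  den_unit : ∀ i, ¬ p ∣ i → A.valuation (xs i) = 1 → A.valuation (den i) ≤ 1
  den_mid : ∀ i, ¬ p ∣ i → A.valuation b < A.valuation (xs i) → A.valuation (xs i) < 1 →
    A.valuation (den i) = A.valuation (xs i) ^ 2
  den_small : ∀ i, ¬ p ∣ i → A.valuation (xs i) ≤ A.valuation b →
    A.valuation (den i) ≤ A.valuation b ^ 2
  addsub : ∀ i j, j < i → ¬ p ∣ i → ¬ p ∣ j → ¬ p ∣ (i + j) → ¬ p ∣ (i - j) →
    xs (i + j) * xs (i - j) * (xs i - xs j) ^ 2 = (xs i * xs j - b) ^ 2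
  integral : ∀ i, ¬ p ∣ i → xs i ∈ A

namespace SeqHyp

variable {A : ValuationSubring K} {b : K} {p : ℕ} {xs den : ℕ → K}

theorem three_le (H : SeqHyp A b p xs den) : 3 ≤ p := by
  have h2 := H.hp.two_le
  rcases H.hodd with ⟨k, hk⟩
  omega

theorem val_le_one (H : SeqHyp A b p xs den) {i : ℕ} (hi : ¬ p ∣ i) :
    A.valuation (xs i) ≤ 1 :=
  (A.valuation_le_one_iff _).mpr (H.integral i hi)

theorem eps_ne_zero (H : SeqHyp A b p xs den) : A.valuation b ≠ 0 :=
  (Valuation.ne_zero_iff _).mpr H.hb0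

theorem not_dvd_of_lt (_H : SeqHyp A b p xs den) {k : ℕ} (h1 : 1 ≤ k) (h2 : k < p) :
    ¬ p ∣ k :=
  Nat.not_dvd_of_pos_of_lt h1 h2

theorem not_dvd_two_mul (H : SeqHyp A b p xs den) {g : ℕ} (hg : ¬ p ∣ g) : ¬ p ∣ 2 * g :=
  H.hp.not_dvd_mul (H.not_dvd_of_lt (by norm_num) (by have := H.three_le; omega)) hg

/-- The duplication relation on valuations. -/
theorem val_dbl (H : SeqHyp A b p xs den) {g : ℕ} (hg : ¬ p ∣ g) :
    A.valuation (xs (2 * g)) * A.valuation (den g) = A.valuation (xs g ^ 2 - b) ^ 2 := by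
  have h := congrArg A.valuation (H.dbl g hg)
  simp only [map_mul, map_pow] at h
  exact h

/-- **L1**: if `xs g` is a unit then so is `xs (k * g)` for `0 < k < p`. -/
theorem L1_aux (H : SeqHyp A b p xs den) {g : ℕ} (hg : ¬ p ∣ g)
    (h1 : A.valuation (xs g) = 1) :
    ∀ k : ℕ, 1 ≤ k → k < p → A.valuation (xs (k * g)) = 1 := by
  have hε := H.hb
  intro k
  induction k using Nat.strong_induction_on with
  | _ k ih =>
    intro hk1 hkp
    rcases Nat.lt_or_ge k 3 with hk3 | hk3
    · interval_cases k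
      · rwa [one_mul]
      · -- k = 2: duplication
        have hd := H.val_dbl hg
        have hnum : A.valuation (xs g ^ 2 - b) = 1 := by
          have hlt : A.valuation b < A.valuation (xs g ^ 2) := by
            rw [map_pow, h1, one_pow]; exact hε
          rw [Valuation.map_sub_eq_of_lt_left _ hlt, map_pow, h1, one_pow]
        have he2 : A.valuation (den g) ≤ 1 := H.den_unit g hg h1
        rw [hnum, one_pow] at hd
        have hle := H.val_le_one (H.not_dvd_two_mul hg)
        rcases hle.lt_or_eq with hlt | heq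
        · exfalso
          have : A.valuation (xs (2 * g)) * A.valuation (den g) < 1 :=
            lt_of_le_of_lt (mul_le_of_le_one_right' he2) hlt
          exact this.ne hd
        · exact heq
    · -- k ≥ 3: relation (I1) for ((k-1) g, g)
      obtain ⟨m, rfl⟩ : ∃ m, k = m + 3 := ⟨k - 3, by omega⟩
      have hg0 : 0 < g := Nat.pos_of_ne_zero (fun h => hg (h ▸ dvd_zero p))
      have ih1 := ih (m + 1) (by omega) (by omega) (by omega)
      have ih2 := ih (m + 2) (by omega) (by omega) (by omega)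
      have n1 : ¬ p ∣ (m + 1) * g := H.hp.not_dvd_mul (H.not_dvd_of_lt (by omega) (by omega)) hg
      have n2 : ¬ p ∣ (m + 2) * g := H.hp.not_dvd_mul (H.not_dvd_of_lt (by omega) (by omega)) hg
      have n3 : ¬ p ∣ (m + 3) * g := H.hp.not_dvd_mul (H.not_dvd_of_lt (by omega) (by omega)) hg
      have e3 : (m + 2) * g + g = (m + 3) * g := by ring
      have e1 : (m + 2) * g - g = (m + 1) * g := by
        apply Nat.sub_eq_of_eq_add; ring
      have hlt : g < (m + 2) * g := by nlinarith
      have has := H.addsub ((m + 2) * g) g hlt n2 hg (by rw [e3]; exact n3) (by rw [e1]; exact n1)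
      rw [e3, e1] at has
      have hv := congrArg A.valuation has
      simp only [map_mul, map_pow] at hv
      have hnum : A.valuation (xs ((m + 2) * g) * xs g - b) = 1 := by
        have hlt : A.valuation b < A.valuation (xs ((m + 2) * g) * xs g) := by
          rw [map_mul, ih2, h1, one_mul]; exact hε
        rw [Valuation.map_sub_eq_of_lt_left _ hlt, map_mul, ih2, h1, one_mul]
      have hd : A.valuation (xs ((m + 2) * g) - xs g) ≤ 1 := Valuation.map_sub_le _ ih2.le h1.le
      rw [hnum, ih1, mul_one, one_pow] at hv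
      have hle := H.val_le_one n3
      rcases hle.lt_or_eq with hlt | heq
      · exfalso
        have hd2 : A.valuation (xs ((m + 2) * g) - xs g) ^ 2 ≤ 1 := pow_le_one₀ zero_le hd
        have : A.valuation (xs ((m + 3) * g)) * A.valuation (xs ((m + 2) * g) - xs g) ^ 2 < 1 :=
          lt_of_le_of_lt (mul_le_of_le_one_right' hd2) hlt
        exact this.ne hv
      · exact heq

/-- **L1**: if `xs g` is a unit then so is `xs (k * g)` for all `k` prime to `p`. -/
theorem L1 (H : SeqHyp A b p xs den) {g : ℕ} (hg : ¬ p ∣ g)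
    (h1 : A.valuation (xs g) = 1) (k : ℕ) (hk : ¬ p ∣ k) : A.valuation (xs (k * g)) = 1 := by
  have hp0 : 0 < p := H.hp.pos
  have hmod : 1 ≤ k % p := by
    rcases Nat.eq_zero_or_pos (k % p) with h | h
    · exact absurd (Nat.dvd_of_mod_eq_zero h) hk
    · exact h
  have := H.L1_aux hg h1 (k % p) hmod (Nat.mod_lt _ hp0)
  rw [← this]
  congr 1
  apply H.per
  left
  push_cast
  rw [ZMod.natCast_mod]

/-- **L2**: `|b| < |xs g|` for every `g` prime to `p`. -/
theorem L2 (H : SeqHyp A b p xs den) {g : ℕ} (hg : ¬ p ∣ g) :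
    A.valuation b < A.valuation (xs g) := by
  by_contra hcon
  have hle : A.valuation (xs g) ≤ A.valuation b := not_lt.mp hcon
  have hε := H.hb
  have hε0 := H.eps_ne_zero
  have hlt1 : A.valuation (xs g) < 1 := lt_of_le_of_lt hle hε
  have hd := H.val_dbl hg
  have hnum : A.valuation (xs g ^ 2 - b) = A.valuation b := by
    have hlt : A.valuation (xs g ^ 2) < A.valuation b := by
      rw [map_pow, sq]
      calc A.valuation (xs g) * A.valuation (xs g) ≤ A.valuation b * A.valuation b :=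
            mul_le_mul' hle hle
        _ < A.valuation b * 1 := mul_lt_mul_of_pos_left hε (zero_lt_iff.mpr hε0)
        _ = A.valuation b := mul_one _
    rw [Valuation.map_sub_eq_of_lt_right _ hlt]
  rw [hnum] at hd
  have hy : A.valuation (den g) ≤ A.valuation b ^ 2 := H.den_small g hg hle
  have hy0 : A.valuation (den g) ≠ 0 := (Valuation.ne_zero_iff _).mpr (H.den_ne g hg)
  have h2g : A.valuation (xs (2 * g)) = 1 := by
    rcases (H.val_le_one (H.not_dvd_two_mul hg)).lt_or_eq with hlt | heq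
    · exfalso
      have : A.valuation (xs (2 * g)) * A.valuation (den g) < A.valuation b ^ 2 :=
        lt_of_lt_of_le (mul_lt_of_lt_one_left (zero_lt_iff.mpr hy0) hlt) hy
      exact this.ne hd
    · exact heq
  -- now all multiples of `2 g` are units, in particular `((p+1)/2) (2 g) ≡ g`
  obtain ⟨k, hk⟩ := H.hodd
  have h3 := H.three_le
  have hk1 : ¬ p ∣ k + 1 := H.not_dvd_of_lt (by omega) (by omega)
  have := H.L1 (H.not_dvd_two_mul hg) h2g (k + 1) hk1
  have e : xs ((k + 1) * (2 * g)) = xs g := by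
    apply H.per
    left
    have : (k + 1) * (2 * g) = p * g + g := by rw [hk]; ring
    rw [this]
    push_cast
    rw [ZMod.natCast_self, zero_mul, zero_add]
  rw [e] at this
  rw [this] at hlt1
  exact lt_irrefl _ hlt1

theorem val_ne_zero (H : SeqHyp A b p xs den) {i : ℕ} (hi : ¬ p ∣ i) :
    A.valuation (xs i) ≠ 0 := by
  intro h
  have := H.L2 hi
  rw [h] at this
  exact not_lt_zero this

/-- The state at index `k + 1`, with its relation to index `k`. -/
def St (A : ValuationSubring K) (b : K) (xs : ℕ → K) (k : ℕ) : Prop :=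
  A.valuation b < A.valuation (xs (k + 1)) ∧ A.valuation (xs (k + 1)) < 1 ∧
  (((∃ j : ℤ, A.valuation (xs (k + 1)) =
        A.valuation (xs 1) ^ (k + 1) * A.valuation b ^ (2 * j)) ∧
      A.valuation (xs k) * A.valuation (xs (k + 1) - xs 1) ^ 2 =
        A.valuation (xs (k + 1)) * A.valuation (xs 1)) ∨
   ((∃ j : ℤ, A.valuation (xs (k + 1)) * A.valuation (xs 1) ^ (k + 1) =
        A.valuation b ^ (2 * j)) ∧
      A.valuation (xs (k + 1) * xs 1 - b) ^ 2 =
        A.valuation (xs k) * A.valuation (xs (k + 1)) * A.valuation (xs 1)))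

/-- The state at index `k`, with its relation to index `k + 1`. -/
def Psi (A : ValuationSubring K) (b : K) (xs : ℕ → K) (k : ℕ) : Prop :=
  A.valuation b < A.valuation (xs k) ∧ A.valuation (xs k) < 1 ∧
  (((∃ j : ℤ, A.valuation (xs k) = A.valuation (xs 1) ^ k * A.valuation b ^ (2 * j)) ∧
      A.valuation (xs (k + 1)) * A.valuation (xs k) * A.valuation (xs 1) =
        A.valuation (xs k * xs 1 - b) ^ 2) ∨
   ((∃ j : ℤ, A.valuation (xs k) * A.valuation (xs 1) ^ k = A.valuation b ^ (2 * j)) ∧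
      A.valuation (xs (k + 1)) * A.valuation (xs k - xs 1) ^ 2 =
        A.valuation (xs k) * A.valuation (xs 1)))

/-- A multiple of `g` congruent to `1`. -/
theorem exists_inverse (H : SeqHyp A b p xs den) {g : ℕ} (hg : ¬ p ∣ g) :
    ∃ m : ℕ, ¬ p ∣ m ∧ xs (m * g) = xs 1 := by
  have : Fact p.Prime := ⟨H.hp⟩
  have hg0 : (g : ZMod p) ≠ 0 := fun h => hg ((ZMod.natCast_eq_zero_iff _ _).mp h)
  refine ⟨((g : ZMod p)⁻¹).val, ?_, ?_⟩
  · intro h
    have : (((g : ZMod p)⁻¹).val : ZMod p) = 0 := (ZMod.natCast_eq_zero_iff _ _).mpr h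
    rw [ZMod.natCast_val, ZMod.cast_id', id] at this
    exact inv_ne_zero hg0 this
  · apply H.per
    left
    push_cast
    rw [ZMod.natCast_val, ZMod.cast_id', id, inv_mul_cancel₀ hg0]

/-- Transition: from the state at `k` (with the relation to `k + 1`) to the state at `k + 1`. -/
theorem trans (H : SeqHyp A b p xs den) (ht1 : A.valuation (xs 1) < 1) {k : ℕ} (hk1 : 1 ≤ k)
    (hkp : k + 1 < p) (h : Psi A b xs k) : St A b xs k := by
  have hε := H.hb
  have hε0 := H.eps_ne_zero
  have n1 : ¬ p ∣ 1 := H.not_dvd_of_lt le_rfl (by omega)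
  have nk : ¬ p ∣ k := H.not_dvd_of_lt hk1 (by omega)
  have nk1 : ¬ p ∣ k + 1 := H.not_dvd_of_lt (by omega) hkp
  have htε : A.valuation b < A.valuation (xs 1) := H.L2 n1
  have ht0 : A.valuation (xs 1) ≠ 0 := H.val_ne_zero n1
  have hu0 : A.valuation (xs (k + 1)) ≠ 0 := H.val_ne_zero nk1
  obtain ⟨hsε, hs1, hcase⟩ := h
  have hs0 : A.valuation (xs k) ≠ 0 := H.val_ne_zero nk
  have hL2 : A.valuation b < A.valuation (xs (k + 1)) := H.L2 nk1
  have hule : A.valuation (xs (k + 1)) ≤ 1 := H.val_le_one nk1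
  rcases hcase with ⟨⟨j, hj⟩, hQ⟩ | ⟨⟨j, hj⟩, hQ⟩
  · -- state (+)
    rcases lt_trichotomy (A.valuation (xs k) * A.valuation (xs 1)) (A.valuation b) with
      hlt | heq | hgt
    · -- s t < ε : new state (-)
      have hc : A.valuation (xs k * xs 1 - b) = A.valuation b :=
        Valuation.map_sub_eq_of_lt_right _ (by rw [map_mul]; exact hlt)
      rw [hc] at hQ
      have hut : A.valuation (xs (k + 1)) * A.valuation (xs 1) < A.valuation b := g4 hQ hsε hε0
      refine ⟨hL2, g3 hQ hsε htε, Or.inr ⟨⟨1 - j, z2 hε0 hj hQ⟩, ?_⟩⟩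
      have hc' : A.valuation (xs (k + 1) * xs 1 - b) = A.valuation b :=
        Valuation.map_sub_eq_of_lt_right _ (by rw [map_mul]; exact hut)
      rw [hc', ← hQ]; ac_rfl
    · -- s t = ε : impossible by L2
      exfalso
      have hc : A.valuation (xs k * xs 1 - b) ≤ A.valuation b :=
        Valuation.map_sub_le _ (by rw [map_mul, heq]) le_rfl
      exact absurd hL2 (not_lt.mpr (g5 hQ hc heq hε0))
    · -- ε < s t : new state (+)
      have hc : A.valuation (xs k * xs 1 - b) =
          A.valuation (xs k) * A.valuation (xs 1) := by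
        rw [Valuation.map_sub_eq_of_lt_left _ (by rw [map_mul]; exact hgt), map_mul]
      rw [hc] at hQ
      have hu : A.valuation (xs (k + 1)) = A.valuation (xs k) * A.valuation (xs 1) :=
        g1 hQ hs0 ht0
      have hult : A.valuation (xs (k + 1)) < A.valuation (xs 1) := by
        rw [hu]; exact mul_lt_of_lt_one_left (zero_lt_iff.mpr ht0) hs1
      refine ⟨hL2, lt_trans hult ht1, Or.inl ⟨⟨j, z1 hj hu⟩, ?_⟩⟩
      rw [Valuation.map_sub_eq_of_lt_right _ hult, hu, sq]; ac_rfl
  · -- state (-)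
    rcases lt_trichotomy (A.valuation (xs k)) (A.valuation (xs 1)) with hlt | heq | hgt
    · -- s < t : new state (-)
      have hd : A.valuation (xs k - xs 1) = A.valuation (xs 1) :=
        Valuation.map_sub_eq_of_lt_right _ hlt
      rw [hd] at hQ
      have hut : A.valuation (xs (k + 1)) * A.valuation (xs 1) = A.valuation (xs k) := g6 hQ ht0
      have hu1 : A.valuation (xs (k + 1)) < 1 := by
        by_contra hcon
        have h1 : 1 ≤ A.valuation (xs (k + 1)) := not_lt.mp hcon
        have : A.valuation (xs 1) ≤ A.valuation (xs k) := by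
          rw [← hut]; exact le_mul_of_one_le_left' h1
        exact absurd hlt (not_lt.mpr this)
      refine ⟨hL2, hu1, Or.inr ⟨⟨j, z3 hj hut⟩, ?_⟩⟩
      have hc' : A.valuation (xs (k + 1) * xs 1 - b) = A.valuation (xs k) := by
        rw [Valuation.map_sub_eq_of_lt_left _ (by rw [map_mul, hut]; exact hsε),
          map_mul, hut]
      rw [hc', sq, mul_assoc, hut]
    · -- s = t : impossible by L1
      exfalso
      have hd : A.valuation (xs k - xs 1) ≤ A.valuation (xs 1) :=
        Valuation.map_sub_le _ heq.le le_rfl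
      rw [heq, ← sq] at hQ
      have hu : A.valuation (xs (k + 1)) = 1 := g7 hQ hd hule ht0
      obtain ⟨m, hm, hxm⟩ := H.exists_inverse nk1
      have := H.L1 nk1 hu m hm
      rw [hxm] at this
      rw [this] at ht1
      exact lt_irrefl _ ht1
    · -- t < s : new state (+)
      have hd : A.valuation (xs k - xs 1) = A.valuation (xs k) :=
        Valuation.map_sub_eq_of_lt_left _ hgt
      rw [hd] at hQ
      have hus : A.valuation (xs (k + 1)) * A.valuation (xs k) = A.valuation (xs 1) := by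
        have h' : A.valuation (xs (k + 1)) * A.valuation (xs k) ^ 2 =
            A.valuation (xs 1) * A.valuation (xs k) := by rw [hQ, mul_comm]
        exact g6 h' hs0
      have hu1 : A.valuation (xs (k + 1)) < 1 := by
        by_contra hcon
        have h1 : 1 ≤ A.valuation (xs (k + 1)) := not_lt.mp hcon
        have : A.valuation (xs k) ≤ A.valuation (xs 1) := by
          rw [← hus]; exact le_mul_of_one_le_left' h1
        exact absurd hgt (not_lt.mpr this)
      have htu : A.valuation (xs 1) < A.valuation (xs (k + 1)) := by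
        rw [← hus]; exact mul_lt_of_lt_one_right (zero_lt_iff.mpr hu0) hs1
      refine ⟨hL2, hu1, Or.inl ⟨⟨-j, z4 hε0 hj hus⟩, ?_⟩⟩
      rw [Valuation.map_sub_eq_of_lt_left _ htu, ← hus, sq]; ac_rfl

/-- From the state at `k + 1` and relation (I1) to the next `Psi`. -/
theorem next (H : SeqHyp A b p xs den) {k : ℕ} (hk1 : 1 ≤ k) (hkp : k + 2 < p)
    (h : St A b xs k) : Psi A b xs (k + 1) := by
  have n1 : ¬ p ∣ 1 := H.not_dvd_of_lt le_rfl (by omega)
  have nk : ¬ p ∣ k := H.not_dvd_of_lt hk1 (by omega)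
  have nk1 : ¬ p ∣ k + 1 := H.not_dvd_of_lt (by omega) (by omega)
  have nk2 : ¬ p ∣ k + 1 + 1 := H.not_dvd_of_lt (by omega) (by omega)
  have hs0 : A.valuation (xs k) ≠ 0 := H.val_ne_zero nk
  have has := H.addsub (k + 1) 1 (by omega) nk1 n1 nk2 (by simpa using nk)
  have hv := congrArg A.valuation has
  simp only [map_mul, map_pow, Nat.add_sub_cancel] at hv
  obtain ⟨hsε, hs1, hcase⟩ := h
  refine ⟨hsε, hs1, ?_⟩
  rcases hcase with ⟨hj, hR⟩ | ⟨hj, hR⟩
  · refine Or.inl ⟨hj, ?_⟩
    rw [← hv, mul_assoc, mul_assoc, hR]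
  · refine Or.inr ⟨hj, ?_⟩
    rw [hR] at hv
    have h' : A.valuation (xs (k + 1 + 1)) * A.valuation (xs (k + 1) - xs 1) ^ 2 *
        A.valuation (xs k) =
        A.valuation (xs (k + 1)) * A.valuation (xs 1) * A.valuation (xs k) := by
      calc A.valuation (xs (k + 1 + 1)) * A.valuation (xs (k + 1) - xs 1) ^ 2 *
            A.valuation (xs k)
          = A.valuation (xs (k + 1 + 1)) * A.valuation (xs k) *
            A.valuation (xs (k + 1) - xs 1) ^ 2 := by ac_rfl
        _ = A.valuation (xs k) * A.valuation (xs (k + 1)) * A.valuation (xs 1) := hv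
        _ = A.valuation (xs (k + 1)) * A.valuation (xs 1) * A.valuation (xs k) := by ac_rfl
    exact mul_right_cancel₀ hs0 h'

/-- The base case `Psi 1`, from duplication. -/
theorem base (H : SeqHyp A b p xs den) (ht1 : A.valuation (xs 1) < 1) :
    Psi A b xs 1 := by
  have h3 := H.three_le
  have n1 : ¬ p ∣ 1 := H.not_dvd_of_lt le_rfl (by omega)
  have htε : A.valuation b < A.valuation (xs 1) := H.L2 n1
  refine ⟨htε, ht1, Or.inl ⟨⟨0, by simp⟩, ?_⟩⟩
  have hd := H.val_dbl n1
  rw [H.den_mid 1 n1 htε ht1] at hd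
  have e : xs 1 * xs 1 = xs 1 ^ 2 := (sq _).symm
  rw [e, ← hd]
  simp only [mul_one, mul_assoc, sq]

/-- `Psi k` for `1 ≤ k ≤ p - 2`. -/
theorem psi_all (H : SeqHyp A b p xs den) (ht1 : A.valuation (xs 1) < 1) :
    ∀ k : ℕ, 1 ≤ k → k + 1 < p → Psi A b xs k := by
  intro k hk1
  induction k, hk1 using Nat.le_induction with
  | base => intro _; exact H.base ht1
  | succ k hk ih =>
    intro hkp
    exact H.next hk hkp (H.trans ht1 hk (by omega) (ih (by omega)))

/-- **Tent induction**: if `|xs 1| < 1` then `|xs 1| ^ p = |b| ^ (2 j)` for some integer `j`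
(and `|b| < |xs 1|` by `L2`). -/
theorem tent (H : SeqHyp A b p xs den) (ht1 : A.valuation (xs 1) < 1) :
    A.valuation b < A.valuation (xs 1) ∧
      ∃ j : ℤ, A.valuation (xs 1) ^ p = A.valuation b ^ (2 * j) := by
  have h3 := H.three_le
  have n1 : ¬ p ∣ 1 := H.not_dvd_of_lt le_rfl (by omega)
  have ht0 : A.valuation (xs 1) ≠ 0 := H.val_ne_zero n1
  refine ⟨H.L2 n1, ?_⟩
  obtain ⟨q, rfl⟩ : ∃ q, p = q + 3 := ⟨p - 3, by omega⟩
  have hpsi := H.psi_all ht1 (q + 1) (by omega) (by omega)
  have hst := H.trans ht1 (by omega) (by omega) hpsi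
  have hx : xs (q + 1 + 1) = xs 1 := by
    apply H.per
    right
    have : ((q + 3 : ℕ) : ZMod (q + 3)) = 0 := ZMod.natCast_self _
    push_cast at this ⊢
    linear_combination this
  obtain ⟨-, -, hcase⟩ := hst
  rw [hx] at hcase
  rcases hcase with ⟨-, hR⟩ | ⟨⟨j, hj⟩, -⟩
  · exfalso
    rw [sub_self, map_zero, sq, mul_zero, mul_zero] at hR
    exact mul_ne_zero ht0 ht0 hR.symm
  · refine ⟨j, ?_⟩
    rw [← hj, ← pow_succ']

end SeqHyp

end Fermat.Agent.S13.T2
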