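/-
S13 team, block [T] (owner of this file: helper65): the curve `y² + xy = x³ + a₂x² + a₄x` over a
field `K` with a valuation ring `A` of residue characteristic `2` (`2 ∈ m`, `a₂ ∈ A`, `a₄ ∈ m`,
`a₄ ≠ 0`): a node at `(0,0)` modulo `m`.

* `Node2 A W` : the setting.
* `Node2.xco_add_sub`, `Node2.xco_dbl` : the exact `x`-coordinate identities (I1), (D) on `W`
  (transported from the short model by `(x, y) ↦ (4x, 8y + 4x)`).
* `Node2.seqHyp` : the sequence `x(i • P)` for a point `P` of odd prime order satisfies the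
  hypotheses of the abstract tent induction.
* `Node2.torsion_val_two` : for a point `(x, y)` of odd prime order `p`:
  `x ∈ A`, `|a₄| < |x|`, and `|x| < 1 → ∃ j, |x| ^ p = |a₄| ^ (2 j)`.
* `Node2.unit_nsmul` : if `|x| = 1` then all nonzero multiples have unit abscissa.
-/
import Fermat.Agent.S13.T2Tent
import Fermat.Agent.S05.Transfer
import Fermat.Agent.S05.PB_Seq
import Fermat.Agent.S05.FormalGroup

set_option autoImplicit false

namespace Fermat.Agent.S13.T2

open WeierstrassCurve Fermat.Agent.S05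

variable {K : Type*} [Field K]

/-- The local setting at a place above `2`: the curve `y² + xy = x³ + a₂x² + a₄x` with `2 ∈ m`,
`a₂ ∈ A`, `a₄ ∈ m`, `a₄ ≠ 0`. -/
structure Node2 (A : ValuationSubring K) (W : WeierstrassCurve K) : Prop where
  a₁ : W.a₁ = 1
  a₃ : W.a₃ = 0
  a₆ : W.a₆ = 0
  two_mem : (2 : K) ∈ A.nonunits
  two_ne : (2 : K) ≠ 0
  a₂_mem : W.a₂ ∈ A
  a₄_mem : W.a₄ ∈ A.nonunits
  a₄_ne : W.a₄ ≠ 0

/-- On the short curve, `x (x² + a x + b) = y² ≠ 0` for a point which is not `2`-torsion. -/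
theorem short_den_ne [DecidableEq K] (a b : K) {Q : (shortCurve a b).toAffine.Point} (hQ : Q ≠ 0)
    (hQQ : Q + Q ≠ 0) : PB.xco Q * (PB.xco Q ^ 2 + a * PB.xco Q + b) ≠ 0 := by
  cases Q with
  | zero => exact absurd rfl hQ
  | some x y h =>
    have E := (PB.equation_iff a b x y).mp h.1
    simp only [PB.xco_some]
    have hy : y ≠ 0 := by
      intro hy
      apply hQQ
      apply Affine.Point.add_self_of_Y_eq
      rw [PB.negY_eq, hy, neg_zero]
    have : x * (x ^ 2 + a * x + b) = y ^ 2 := by rw [E]; ring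
    rw [this]
    exact pow_ne_zero 2 hy

namespace Node2

variable {A : ValuationSubring K} {W : WeierstrassCurve K}

theorem val_two_lt (H : Node2 A W) : A.valuation (2 : K) < 1 :=
  A.mem_nonunits_iff.mp H.two_mem

theorem val_four_lt (H : Node2 A W) : A.valuation (4 : K) < 1 := by
  have e : (4 : K) = 2 * 2 := by norm_num
  rw [e, map_mul]
  exact lt_of_le_of_lt (mul_le_of_le_one_left' H.val_two_lt.le) H.val_two_lt

theorem four_ne (H : Node2 A W) : (4 : K) ≠ 0 := by
  have e : (4 : K) = 2 * 2 := by norm_num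
  rw [e]
  exact mul_ne_zero H.two_ne H.two_ne

theorem val_a₂_le (H : Node2 A W) : A.valuation W.a₂ ≤ 1 :=
  (A.valuation_le_one_iff _).mpr H.a₂_mem

theorem val_a₄_lt (H : Node2 A W) : A.valuation W.a₄ < 1 :=
  A.mem_nonunits_iff.mp H.a₄_mem

/-- `b₂ = 4a₂ + 1` is a unit. -/
theorem val_b₂ (H : Node2 A W) : A.valuation (4 * W.a₂ + 1) = 1 := by
  have h4 : A.valuation (4 * W.a₂) < 1 := by
    rw [map_mul]
    exact lt_of_le_of_lt (mul_le_of_le_one_right' H.val_a₂_le) H.val_four_lt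
  have h1 : A.valuation (4 * W.a₂) < A.valuation (1 : K) := by rwa [map_one]
  rw [Valuation.map_add_eq_of_lt_right _ h1, map_one]

/-- An odd natural number is a unit of `A`. -/
theorem val_odd (H : Node2 A W) {p : ℕ} (hodd : Odd p) : A.valuation (p : K) = 1 := by
  obtain ⟨k, rfl⟩ := hodd
  have hk : A.valuation (k : K) ≤ 1 := by
    rw [A.valuation_le_one_iff]
    exact natCast_mem A k
  have h2 : A.valuation ((2 : K) * (k : K)) < A.valuation (1 : K) := by
    rw [map_mul, map_one]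
    exact lt_of_le_of_lt (mul_le_of_le_one_right' hk) H.val_two_lt
  have e : ((2 * k + 1 : ℕ) : K) = 1 + 2 * (k : K) := by push_cast; ring
  rw [e, Valuation.map_add_eq_of_lt_left _ h2, map_one]

variable [DecidableEq K]

/-- Transfer to the short model `Y² = X³ + (4a₂+1) X² + 16 a₄ X`, `X = 4x`. -/
theorem exists_transfer (H : Node2 A W) :
    ∃ Φ : W.toAffine.Point →+ (shortCurve (4 * W.a₂ + 1) (16 * W.a₄)).toAffine.Point,
      Function.Injective Φ ∧ ∀ Q, PB.xco (Φ Q) = 4 * PB.xco Q := by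
  obtain ⟨Φ, hinj, hΦ⟩ := exists_toShort W H.a₁ H.a₃ H.two_ne 0 (4 * W.a₂ + 1) (16 * W.a₄)
    (by ring) (by ring) (by rw [H.a₆]; ring)
  refine ⟨Φ, hinj, ?_⟩
  intro Q
  cases Q with
  | zero =>
    have : Φ (Affine.Point.zero) = 0 := map_zero Φ
    rw [this]
    change (0 : K) = 4 * (0 : K)
    rw [mul_zero]
  | some x y h =>
    obtain ⟨h', e⟩ := hΦ x y h
    rw [e]
    simp

/-- (I1) on `W`: `x(Q+R) x(Q-R) (x_Q - x_R)² = (x_Q x_R - a₄)²`. -/
theorem xco_add_sub (H : Node2 A W) {Q R : W.toAffine.Point} (hQ : Q ≠ 0) (hR : R ≠ 0)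
    (hx : PB.xco Q ≠ PB.xco R) :
    PB.xco (Q + R) * PB.xco (Q - R) * (PB.xco Q - PB.xco R) ^ 2 =
      (PB.xco Q * PB.xco R - W.a₄) ^ 2 := by
  obtain ⟨Φ, hinj, hΦ⟩ := H.exists_transfer
  have h4 := H.four_ne
  have hQ' : Φ Q ≠ 0 := fun h => hQ (hinj (h.trans (map_zero Φ).symm))
  have hR' : Φ R ≠ 0 := fun h => hR (hinj (h.trans (map_zero Φ).symm))
  have hx' : PB.xco (Φ Q) ≠ PB.xco (Φ R) := by
    rw [hΦ, hΦ]
    exact fun h => hx (mul_left_cancel₀ h4 h)
  have key := PB.xco_add_sub (4 * W.a₂ + 1) (16 * W.a₄) hQ' hR' hx'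
  rw [← map_add, ← map_sub, hΦ, hΦ, hΦ, hΦ] at key
  have h256 : (256 : K) ≠ 0 := by
    have e : (256 : K) = 4 * 4 * 4 * 4 := by norm_num
    rw [e]
    exact mul_ne_zero (mul_ne_zero (mul_ne_zero h4 h4) h4) h4
  apply mul_left_cancel₀ h256
  linear_combination key

/-- (D) on `W`: `x(2Q) · x (4x² + (4a₂+1) x + 4a₄) = (x² - a₄)²`. -/
theorem xco_dbl (H : Node2 A W) {Q : W.toAffine.Point} (hQ : Q ≠ 0) (hQQ : Q + Q ≠ 0) :
    PB.xco (Q + Q) * (PB.xco Q * (4 * PB.xco Q ^ 2 + (4 * W.a₂ + 1) * PB.xco Q + 4 * W.a₄)) =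
      (PB.xco Q ^ 2 - W.a₄) ^ 2 := by
  obtain ⟨Φ, hinj, hΦ⟩ := H.exists_transfer
  have h4 := H.four_ne
  have hQ' : Φ Q ≠ 0 := fun h => hQ (hinj (h.trans (map_zero Φ).symm))
  have hQQ' : Φ Q + Φ Q ≠ 0 := by
    rw [← map_add]
    exact fun h => hQQ (hinj (h.trans (map_zero Φ).symm))
  have key := PB.xco_dbl (4 * W.a₂ + 1) (16 * W.a₄) H.two_ne hQ' hQQ'
  rw [← map_add, hΦ, hΦ] at key
  have h256 : (256 : K) ≠ 0 := by
    have e : (256 : K) = 4 * 4 * 4 * 4 := by norm_num
    rw [e]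
    exact mul_ne_zero (mul_ne_zero (mul_ne_zero h4 h4) h4) h4
  apply mul_left_cancel₀ h256
  linear_combination key

/-- The duplication denominator does not vanish at a point which is not `2`-torsion. -/
theorem den_ne (H : Node2 A W) {Q : W.toAffine.Point} (hQ : Q ≠ 0) (hQQ : Q + Q ≠ 0) :
    PB.xco Q * (4 * PB.xco Q ^ 2 + (4 * W.a₂ + 1) * PB.xco Q + 4 * W.a₄) ≠ 0 := by
  obtain ⟨Φ, hinj, hΦ⟩ := H.exists_transfer
  have hQ' : Φ Q ≠ 0 := fun h => hQ (hinj (h.trans (map_zero Φ).symm))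
  have hQQ' : Φ Q + Φ Q ≠ 0 := by
    rw [← map_add]
    exact fun h => hQQ (hinj (h.trans (map_zero Φ).symm))
  have key := short_den_ne (4 * W.a₂ + 1) (16 * W.a₄) hQ' hQQ'
  rw [hΦ] at key
  intro h0
  apply key
  linear_combination 16 * h0

/-- The abstract tent hypotheses hold for the multiples of a point of odd prime order. -/
theorem seqHyp (H : Node2 A W) {p : ℕ} (hp : p.Prime) (hodd : Odd p) {P : W.toAffine.Point}
    (hP : P ≠ 0) (hn : p • P = 0) :
    SeqHyp A W.a₄ p (PB.xs P)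
      (fun i => PB.xs P i * (4 * PB.xs P i ^ 2 + (4 * W.a₂ + 1) * PB.xs P i + 4 * W.a₄)) := by
  have hne : ∀ i, ¬ p ∣ i → i • P ≠ 0 := fun i hi h =>
    hi ((PB.nsmul_eq_zero_iff_dvd hp hP hn i).mp h)
  have hne2 : ∀ i, ¬ p ∣ i → i • P + i • P ≠ 0 := by
    intro i hi
    rw [← two_nsmul, ← mul_nsmul']
    exact hne _ (PB.two_mul_not_dvd hp hodd hi)
  have hint : ∀ i, ¬ p ∣ i → PB.xs P i ∈ A := by
    intro i hi
    have hQ := hne i hi
    have hnQ : p • (i • P) = 0 := by rw [smul_comm, hn, smul_zero]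
    unfold PB.xs
    generalize i • P = Q at hQ hnQ
    cases Q with
    | zero => exact absurd rfl hQ
    | some x y h =>
      by_contra hx
      exact F1 A W (by rw [H.a₁]; exact A.one_mem) H.a₂_mem (by rw [H.a₃]; exact A.zero_mem)
        (A.nonunits_subset H.a₄_mem) (by rw [H.a₆]; exact A.zero_mem) (H.val_odd hodd) h hx hnQ
  have hε := H.val_a₄_lt
  have h4 := H.val_four_lt
  refine
    { hb := hε
      hb0 := H.a₄_ne
      hp := hp
      hodd := hodd
      per := fun i j h => PB.seq_per hp hP hn i j h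
      dbl := ?_
      den_ne := fun i hi => H.den_ne (hne i hi) (hne2 i hi)
      den_unit := ?_
      den_mid := ?_
      den_small := ?_
      addsub := ?_
      integral := hint }
  · intro i hi
    have key := H.xco_dbl (hne i hi) (hne2 i hi)
    have e : PB.xs P (2 * i) = PB.xco (i • P + i • P) := by
      unfold PB.xs; rw [← two_nsmul, ← mul_nsmul']
    rw [e]
    exact key
  · intro i hi _
    rw [A.valuation_le_one_iff]
    have hxA := hint i hi
    have h4A : (4 : K) ∈ A := (A.valuation_le_one_iff _).mp h4.le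
    exact A.mul_mem _ _ hxA (A.add_mem _ _ (A.add_mem _ _ (A.mul_mem _ _ h4A (pow_mem hxA 2))
      (A.mul_mem _ _ (A.add_mem _ _ (A.mul_mem _ _ h4A H.a₂_mem) A.one_mem) hxA))
      (A.mul_mem _ _ h4A (A.nonunits_subset H.a₄_mem)))
  · intro i hi hlo hhi
    set x := PB.xs P i with hxdef
    have hx0 : A.valuation x ≠ 0 := fun h => by rw [h] at hlo; exact not_lt_zero hlo
    have h1 : A.valuation ((4 * W.a₂ + 1) * x) = A.valuation x := by
      rw [map_mul, H.val_b₂, one_mul]
    have h2 : A.valuation (4 * x ^ 2) < A.valuation x := by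
      rw [map_mul, map_pow, sq, ← mul_assoc]
      have : A.valuation (4 : K) * A.valuation x < 1 :=
        lt_of_le_of_lt (mul_le_of_le_one_right' hhi.le) h4
      exact mul_lt_of_lt_one_left (zero_lt_iff.mpr hx0) this
    have h3 : A.valuation (4 * W.a₄) < A.valuation x := by
      rw [map_mul]
      exact lt_of_le_of_lt (mul_le_of_le_one_left' h4.le) hlo
    have h12 : A.valuation (4 * x ^ 2 + (4 * W.a₂ + 1) * x) = A.valuation x := by
      rw [Valuation.map_add_eq_of_lt_right _ (by rw [h1]; exact h2), h1]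
    have h123 : A.valuation (4 * x ^ 2 + (4 * W.a₂ + 1) * x + 4 * W.a₄) = A.valuation x := by
      rw [Valuation.map_add_eq_of_lt_left _ (by rw [h12]; exact h3), h12]
    rw [map_mul, h123, sq]
  · intro i hi hle
    set x := PB.xs P i with hxdef
    have hx1 : A.valuation x ≤ 1 := hle.trans hε.le
    have h1 : A.valuation ((4 * W.a₂ + 1) * x) ≤ A.valuation W.a₄ := by
      rw [map_mul, H.val_b₂, one_mul]; exact hle
    have h2 : A.valuation (4 * x ^ 2) ≤ A.valuation W.a₄ := by
      rw [map_mul, map_pow, sq, ← mul_assoc]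
      have : A.valuation (4 : K) * A.valuation x ≤ 1 := mul_le_one' h4.le hx1
      exact (mul_le_of_le_one_left' this).trans hle
    have h3 : A.valuation (4 * W.a₄) ≤ A.valuation W.a₄ := by
      rw [map_mul]
      exact mul_le_of_le_one_left' h4.le
    have h123 : A.valuation (4 * x ^ 2 + (4 * W.a₂ + 1) * x + 4 * W.a₄) ≤ A.valuation W.a₄ :=
      Valuation.map_add_le _ (Valuation.map_add_le _ h2 h1) h3
    rw [map_mul, sq (A.valuation W.a₄)]
    exact mul_le_mul' hle h123
  · intro i j hji hi hj hij hij'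
    have e₁' : (i + j) • P = i • P + j • P := add_nsmul P i j
    have e₂' : (i - j) • P = i • P - j • P := by
      rw [sub_nsmul P hji.le, sub_eq_add_neg]
    have hx : PB.xco (i • P) ≠ PB.xco (j • P) := by
      intro h
      rcases PB.eq_or_eq_neg_of_xco_eq (hne i hi) (hne j hj) h with h | h
      · apply hij'
        rw [← PB.nsmul_eq_zero_iff_dvd hp hP hn, e₂', h, sub_self]
      · apply hij
        rw [← PB.nsmul_eq_zero_iff_dvd hp hP hn, e₁', h, neg_add_cancel]
    have key := H.xco_add_sub (hne i hi) (hne j hj) hx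
    unfold PB.xs
    rw [e₁', e₂']
    exact key

/-- **Torsion valuation at 2**: a point `(x, y)` of odd prime order `p` has `x ∈ A`,
`|a₄| < |x|`, and if `|x| < 1` then `|x| ^ p = |a₄| ^ (2 j)` for some integer `j`. -/
theorem torsion_val_two (H : Node2 A W) {p : ℕ} (hp : p.Prime) (hodd : Odd p) {x y : K}
    (h : W.toAffine.Nonsingular x y) (htors : p • Affine.Point.some x y h = 0) :
    x ∈ A ∧ A.valuation W.a₄ < A.valuation x ∧
      (A.valuation x < 1 → ∃ j : ℤ, A.valuation x ^ p = A.valuation W.a₄ ^ (2 * j)) := by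
  have hP : Affine.Point.some x y h ≠ 0 := Affine.Point.some_ne_zero h
  have S := H.seqHyp hp hodd hP htors
  have n1 : ¬ p ∣ 1 := S.not_dvd_of_lt le_rfl (by have := S.three_le; omega)
  have e : PB.xs (Affine.Point.some x y h) 1 = x := by simp [PB.xs]
  have h1 := S.integral 1 n1
  have h2 := S.L2 n1
  rw [e] at h1 h2
  refine ⟨h1, h2, fun hx => ?_⟩
  have := (S.tent (by rw [e]; exact hx)).2
  rwa [e] at this

/-- If `|x| = 1` then every nonzero multiple of the point has unit abscissa. -/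
theorem unit_nsmul (H : Node2 A W) {p : ℕ} (hp : p.Prime) (hodd : Odd p) {x y : K}
    (h : W.toAffine.Nonsingular x y) (htors : p • Affine.Point.some x y h = 0)
    (hx : A.valuation x = 1) (k : ℕ) (hk : ¬ p ∣ k) :
    A.valuation (PB.xco (k • Affine.Point.some x y h)) = 1 := by
  have hP : Affine.Point.some x y h ≠ 0 := Affine.Point.some_ne_zero h
  have S := H.seqHyp hp hodd hP htors
  have n1 : ¬ p ∣ 1 := S.not_dvd_of_lt le_rfl (by have := S.three_le; omega)
  have e : PB.xs (Affine.Point.some x y h) 1 = x := by simp [PB.xs]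
  have := S.L1 n1 (by rw [e]; exact hx) k hk
  rwa [mul_one] at this

end Node2

end Fermat.Agent.S13.T2
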