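/-
S13 team, block [T]/FreyAt2 (owner: helper5): arithmetic of the Frey curve at the prime `2` and
valuation facts on `AlgebraicClosure ℚ`, needed to instantiate the abstract results at `2`
(`T2Seq`, `T2Inertia`, `T2Rational`).

* `FreyAt2.two_mem_nonunits`, `val_two_lt_one`, `val_two_zpow_injective`;
* `FreyAt2.val_intCast`, `val_ratCast`: `|u| = |2|^m` for nonzero rational `u`;
* `FreyAt2.ratCast_sub_one_mem`: a rational `2`-adic unit is `≡ 1` modulo the maximal ideal;
* `FreyAt2.val_sigma_eq`: an automorphism of an algebraic extension preserving `A` preserves the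
  valuation;
* `FreyAt2.mem_range_of_fixed`: an element of `AlgebraicClosure ℚ` fixed by the whole Galois
  group is rational;
* `frey2_a₂_mem`, `frey2_a₄_mem`, `frey2_a₄_ne`, `frey2_a₄_val`: the coefficients of the Frey
  curve `y² + xy = x³ + a₂x² + a₄x` at a place above `2`;
* `frey2_node2 : T2.Node2 A (freyBar P)` and `IsRat`, `isRat_val`, `isRat_unit`,
  `frey2_a₄_val_int`: the hypotheses of `T2.Node2.no_rational_order_p` for the Frey curve.
-/
import Fermat.Agent.S05.Frey
import Fermat.Agent.S05.Inertia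
import Fermat.Agent.S13.T2Seq

set_option autoImplicit false

namespace Fermat.Agent.S13

open WeierstrassCurve Fermat.Agent.S05

namespace FreyAt2

section General

variable {L : Type*} [Field L] (A : ValuationSubring L)

theorem two_mem_nonunits (hA : A.LiesOverPrime 2) : (2 : L) ∈ A.nonunits := by
  have h : ((2 : ℕ) : L) ∈ A.nonunits := hA
  simpa using h

theorem val_two_lt_one (hA : A.LiesOverPrime 2) : A.valuation (2 : L) < 1 :=
  A.mem_nonunits_iff.mp (two_mem_nonunits A hA)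

theorem val_two_pos (h2 : (2 : L) ≠ 0) : 0 < A.valuation (2 : L) :=
  zero_lt_iff.mpr ((Valuation.ne_zero_iff _).mpr h2)

/-- `m ↦ |2|^m` is injective. -/
theorem val_two_zpow_injective (hA : A.LiesOverPrime 2) (h2 : (2 : L) ≠ 0) :
    Function.Injective (fun m : ℤ => A.valuation (2 : L) ^ m) :=
  zpow_right_injective₀ (val_two_pos A h2) (val_two_lt_one A hA).ne

/-- `|n| = |2|^i` for a nonzero natural number `n`. -/
theorem val_natCast (hA : A.LiesOverPrime 2) {n : ℕ} (hn : n ≠ 0) :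
    ∃ i : ℕ, A.valuation (n : L) = A.valuation (2 : L) ^ i := by
  obtain ⟨e, n', hn', rfl⟩ := Nat.exists_eq_pow_mul_and_not_dvd hn 2 (by norm_num)
  refine ⟨e, ?_⟩
  have h1 : A.valuation (n' : L) = 1 :=
    Inertia.valuation_natCast_eq_one_of_not_dvd hA Nat.prime_two hn'
  push_cast
  rw [map_mul, map_pow, h1, mul_one]

/-- `|z| = |2|^i` for a nonzero integer `z`. -/
theorem val_intCast (hA : A.LiesOverPrime 2) {z : ℤ} (hz : z ≠ 0) :
    ∃ i : ℕ, A.valuation (z : L) = A.valuation (2 : L) ^ i := by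
  obtain ⟨i, hi⟩ := val_natCast A hA (Int.natAbs_ne_zero.mpr hz)
  refine ⟨i, ?_⟩
  rw [← hi]
  rcases Int.natAbs_eq z with h | h
  · conv_lhs => rw [h]
    simp
  · conv_lhs => rw [h]
    simp

/-- `|u| = |2|^m` for a nonzero rational number `u`. -/
theorem val_ratCast [CharZero L] (hA : A.LiesOverPrime 2) {u : ℚ} (hu : u ≠ 0) :
    ∃ m : ℤ, A.valuation (u : L) = A.valuation (2 : L) ^ m := by
  obtain ⟨i, hi⟩ := val_intCast A hA (Rat.num_ne_zero.mpr hu)
  obtain ⟨j, hj⟩ := val_natCast A hA u.den_ne_zero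
  refine ⟨(i : ℤ) - j, ?_⟩
  have h0 : A.valuation (2 : L) ≠ 0 := (val_two_pos A two_ne_zero).ne'
  rw [Rat.cast_def, map_div₀, hi, hj, zpow_sub₀ h0, zpow_natCast, zpow_natCast]

/-- A rational number which is a unit at `2` is congruent to `1` modulo the maximal ideal
(the residue field of `ℚ` at `2` has two elements). -/
theorem ratCast_sub_one_mem [CharZero L] (hA : A.LiesOverPrime 2) {u : ℚ}
    (h : A.valuation (u : L) = 1) : (u : L) - 1 ∈ A.nonunits := by
  have hden0 : (u.den : L) ≠ 0 := Nat.cast_ne_zero.mpr u.den_ne_zero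
  have hdv0 : A.valuation (u.den : L) ≠ 0 := (Valuation.ne_zero_iff _).mpr hden0
  have hnd : A.valuation (u.num : L) = A.valuation (u.den : L) := by
    have h' := h
    rw [Rat.cast_def, map_div₀, div_eq_one_iff_eq hdv0] at h'
    exact h'
  -- the denominator is odd
  have hdodd : ¬ 2 ∣ u.den := by
    intro hd
    have h1 : A.valuation (u.den : L) < 1 :=
      (Inertia.valuation_natCast_lt_one_iff hA Nat.prime_two _).mpr hd
    have h2 : ((2 : ℕ) : ℤ) ∣ u.num :=
      (Inertia.valuation_intCast_lt_one_iff hA Nat.prime_two _).mp (hnd ▸ h1)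
    have h3 : 2 ∣ u.num.natAbs := Int.natCast_dvd.mp h2
    have hcop := u.reduced
    have : 2 ∣ Nat.gcd u.num.natAbs u.den := Nat.dvd_gcd h3 hd
    rw [Nat.Coprime] at hcop
    rw [hcop] at this
    exact absurd this (by norm_num)
  have hd1 : A.valuation (u.den : L) = 1 :=
    Inertia.valuation_natCast_eq_one_of_not_dvd hA Nat.prime_two hdodd
  have hnodd : ¬ ((2 : ℕ) : ℤ) ∣ u.num := by
    intro hn
    have := (Inertia.valuation_intCast_lt_one_iff hA Nat.prime_two _).mpr hn
    rw [hnd, hd1] at this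
    exact lt_irrefl _ this
  -- numerator minus denominator is even
  have heven : ((2 : ℕ) : ℤ) ∣ u.num - u.den := by
    have h1 : u.num % 2 = 1 := by
      have : ¬ (2 : ℤ) ∣ u.num := by simpa using hnodd
      omega
    have h2 : (u.den : ℤ) % 2 = 1 := by
      have : ¬ (2 : ℤ) ∣ (u.den : ℤ) := by
        intro hh
        exact hdodd (by exact_mod_cast hh)
      omega
    have : (u.num - u.den) % 2 = 0 := by omega
    exact_mod_cast Int.dvd_of_emod_eq_zero this
  have hsub : A.valuation (((u.num - u.den : ℤ) : L)) < 1 :=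
    (Inertia.valuation_intCast_lt_one_iff hA Nat.prime_two _).mpr heven
  rw [A.mem_nonunits_iff]
  have e : (u : L) - 1 = ((u.num - u.den : ℤ) : L) / (u.den : L) := by
    rw [Rat.cast_def]
    field_simp
    push_cast
    ring
  rw [e, map_div₀, hd1, div_one]
  exact hsub

end General

section Sigma

variable {K L : Type*} [Field K] [Field L] [Algebra K L] [Algebra.IsAlgebraic K L]

/-- Some positive power of an automorphism of an algebraic extension fixes a given element. -/
theorem exists_pow_fixed (σ : L ≃ₐ[K] L) (u : L) : ∃ k : ℕ, 0 < k ∧ (σ ^ k) u = u := by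
  classical
  have hfin : ((minpoly K u).rootSet L).Finite := Polynomial.rootSet_finite _ _
  have hmem : ∀ i : ℕ, (σ ^ i) u ∈ (minpoly K u).rootSet L := by
    intro i
    have hne : minpoly K u ≠ 0 := minpoly.ne_zero (Algebra.IsIntegral.isIntegral u)
    rw [Polynomial.mem_rootSet]
    refine ⟨hne, ?_⟩
    rw [Polynomial.aeval_algHom_apply, minpoly.aeval, map_zero]
  have : Finite ((minpoly K u).rootSet L) := hfin
  obtain ⟨i, j, hij, h⟩ := Finite.exists_ne_map_eq_of_infinite
    (fun i : ℕ => (⟨(σ ^ i) u, hmem i⟩ : (minpoly K u).rootSet L))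
  have h' : (σ ^ i) u = (σ ^ j) u := congrArg Subtype.val h
  -- wlog i < j
  have key : ∀ a b : ℕ, a < b → (σ ^ a) u = (σ ^ b) u → ∃ k : ℕ, 0 < k ∧ (σ ^ k) u = u := by
    intro a b hab hh
    refine ⟨b - a, Nat.sub_pos_of_lt hab, ?_⟩
    have hb : σ ^ b = σ ^ a * σ ^ (b - a) := by
      rw [← pow_add, Nat.add_sub_cancel' hab.le]
    rw [hb, AlgEquiv.mul_apply] at hh
    exact ((σ ^ a).injective hh).symm
  rcases lt_or_gt_of_ne hij with hlt | hgt
  · exact key i j hlt h'
  · exact key j i hgt h'.symm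

/-- An automorphism of an algebraic extension which preserves a valuation subring preserves its
valuation. -/
theorem val_sigma_eq (A : ValuationSubring L) (σ : L ≃ₐ[K] L)
    (hσ : ∀ z : L, σ z ∈ A ↔ z ∈ A) (u : L) : A.valuation (σ u) = A.valuation u := by
  -- `σ` preserves the order of valuations
  have hle : ∀ a b : L, A.valuation (σ a) ≤ A.valuation (σ b) ↔ A.valuation a ≤ A.valuation b := by
    intro a b
    by_cases hb : b = 0
    · subst hb
      simp
    · have hσb : σ b ≠ 0 := (map_ne_zero σ).mpr hb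
      have hvb : A.valuation b ≠ 0 := (Valuation.ne_zero_iff _).mpr hb
      have hvσb : A.valuation (σ b) ≠ 0 := (Valuation.ne_zero_iff _).mpr hσb
      have h1 : A.valuation a ≤ A.valuation b ↔ a / b ∈ A := by
        rw [← A.valuation_le_one_iff, map_div₀, div_le_one₀ (zero_lt_iff.mpr hvb)]
      have h2 : A.valuation (σ a) ≤ A.valuation (σ b) ↔ σ (a / b) ∈ A := by
        rw [← A.valuation_le_one_iff, map_div₀, map_div₀, div_le_one₀ (zero_lt_iff.mpr hvσb)]
      rw [h1, h2, hσ]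
  have hlt : ∀ a b : L, A.valuation (σ a) < A.valuation (σ b) ↔ A.valuation a < A.valuation b := by
    intro a b
    rw [← not_le, ← not_le, hle]
  have hpow : ∀ i : ℕ, (σ ^ (i + 1)) u = σ ((σ ^ i) u) := by
    intro i
    rw [pow_succ', AlgEquiv.mul_apply]
  obtain ⟨k, hk, hku⟩ := exists_pow_fixed σ u
  rcases lt_trichotomy (A.valuation (σ u)) (A.valuation u) with h | h | h
  · exfalso
    have hanti : StrictAnti (fun i : ℕ => A.valuation ((σ ^ i) u)) := by
      apply strictAnti_nat_of_succ_lt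
      intro i
      induction i with
      | zero => simpa using h
      | succ i ih =>
        simp only [hpow (i + 1)]
        rw [hpow i] at ih ⊢
        exact (hlt _ _).mpr ih
    have := hanti hk
    simp only [hku, pow_zero, AlgEquiv.one_apply] at this
    exact lt_irrefl _ this
  · exact h
  · exfalso
    have hmono : StrictMono (fun i : ℕ => A.valuation ((σ ^ i) u)) := by
      apply strictMono_nat_of_lt_succ
      intro i
      induction i with
      | zero => simpa using h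
      | succ i ih =>
        simp only [hpow (i + 1)]
        rw [hpow i] at ih ⊢
        exact (hlt _ _).mpr ih
    have := hmono hk
    simp only [hku, pow_zero, AlgEquiv.one_apply] at this
    exact lt_irrefl _ this

end Sigma

/-- An element of `AlgebraicClosure ℚ` fixed by every automorphism is rational. -/
theorem mem_range_of_fixed (x : AlgebraicClosure ℚ)
    (h : ∀ σ : AlgebraicClosure ℚ ≃ₐ[ℚ] AlgebraicClosure ℚ, σ x = x) :
    ∃ r : ℚ, algebraMap ℚ (AlgebraicClosure ℚ) r = x := by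
  have e : (DivisionRing.toRatAlgebra : Algebra ℚ (AlgebraicClosure ℚ)) =
      AlgebraicClosure.instAlgebra ℚ := rfl
  have hcl : IsAlgClosure ℚ (AlgebraicClosure ℚ) := by
    rw [e]; infer_instance
  have : IsGalois ℚ (AlgebraicClosure ℚ) := IsAlgClosure.isGalois ℚ (AlgebraicClosure ℚ)
  have h1 : x ∈ IntermediateField.fixedField
      (⊥ : IntermediateField ℚ (AlgebraicClosure ℚ)).fixingSubgroup := by
    rw [IntermediateField.mem_fixedField_iff]
    intro σ _
    exact h σ
  rw [InfiniteGalois.fixedField_fixingSubgroup, IntermediateField.mem_bot] at h1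
  exact h1

end FreyAt2

/-! ### The Frey curve at `2` -/

local notation "Qbar" => AlgebraicClosure ℚ

variable (P : FreyPackage)

/-- `4 ∣ b^p - 1 - a^p` (since `a ≡ 3 mod 4`, `p` odd, `b` even). -/
theorem frey2_four_dvd : (4 : ℤ) ∣ P.b ^ P.p - 1 - P.a ^ P.p := by
  have hp5 := P.hp5
  obtain ⟨k, hk⟩ := P.hp_odd
  have ha : ((P.a ^ P.p : ℤ) : ZMod 4) = 3 := by
    push_cast
    rw [P.ha4, hk, pow_succ, pow_mul]
    have h9 : ((3 : ZMod 4) ^ 2) = 1 := by decide
    rw [h9, one_pow, one_mul]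
  have hb : ((P.b ^ P.p : ℤ) : ZMod 4) = 0 := by
    have h2 : (2 : ℤ) ∣ P.b := (ZMod.intCast_zmod_eq_zero_iff_dvd P.b 2).mp P.hb2
    obtain ⟨c, hc⟩ := h2
    have h4 : (4 : ℤ) ∣ P.b ^ P.p := by
      rw [hc, mul_pow]
      have : (4 : ℤ) ∣ 2 ^ P.p := by
        have : (2 : ℤ) ^ 2 ∣ 2 ^ P.p := pow_dvd_pow 2 (by omega)
        simpa using this
      exact Dvd.dvd.mul_right this _
    exact (ZMod.intCast_zmod_eq_zero_iff_dvd _ 4).mpr (by exact_mod_cast h4)
  have h : ((P.b ^ P.p - 1 - P.a ^ P.p : ℤ) : ZMod 4) = 0 := by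
    rw [Int.cast_sub, Int.cast_sub, ha, hb]
    decide
  exact_mod_cast (ZMod.intCast_zmod_eq_zero_iff_dvd _ 4).mp h

/-- `a₂` of the Frey curve is an integer. -/
theorem frey2_a₂_int : ∃ k : ℤ, (freyBar P).a₂ = (k : Qbar) := by
  obtain ⟨k, hk⟩ := frey2_four_dvd P
  refine ⟨k, ?_⟩
  have h1 := freyBar_four_a₂ P
  have h2 : ((P.b : Qbar) ^ P.p - 1 - (P.a : Qbar) ^ P.p) = 4 * (k : Qbar) := by
    exact_mod_cast congrArg (Int.cast : ℤ → Qbar) hk
  have h4 : (4 : Qbar) ≠ 0 := by norm_num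
  apply mul_left_cancel₀ h4
  linear_combination h1 + h2

theorem frey2_a₂_mem (A : ValuationSubring Qbar) : (freyBar P).a₂ ∈ A := by
  obtain ⟨k, hk⟩ := frey2_a₂_int P
  rw [hk]
  exact Inertia.intCast_mem_valuationSubring A k

/-- `a₄ = 2^N · k` with `k` odd, `N > 0`, `p ∤ N` (`N = p·v₂(b) - 4`). -/
theorem frey2_a₄_int : ∃ (N : ℕ) (k : ℤ), 0 < N ∧ ¬ P.p ∣ N ∧ ¬ (2 : ℤ) ∣ k ∧
    (freyBar P).a₄ = (2 : Qbar) ^ N * (k : Qbar) := by
  have hp5 := P.hp5
  have hb2 : (2 : ℤ) ∣ P.b := (ZMod.intCast_zmod_eq_zero_iff_dvd P.b 2).mp P.hb2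
  -- `b = ± 2^m b'` with `b'` odd
  obtain ⟨m, b', hb', hbm⟩ :=
    Nat.exists_eq_pow_mul_and_not_dvd (Int.natAbs_ne_zero.mpr P.hb0) 2 (by norm_num)
  have hm : 0 < m := by
    rcases Nat.eq_zero_or_pos m with h0 | h0
    · exfalso
      rw [h0, pow_zero, one_mul] at hbm
      apply hb'
      rw [← hbm]
      exact Int.natCast_dvd.mp (by simpa using hb2)
    · exact h0
  have ha_odd : ¬ (2 : ℤ) ∣ P.a := by
    intro h
    have h0 : ((P.a : ℤ) : ZMod 2) = 0 := (ZMod.intCast_zmod_eq_zero_iff_dvd P.a 2).mpr (by simpa using h)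
    have h4 := P.ha4
    have h3 : ((P.a : ZMod 4).cast : ZMod 2) = ((3 : ZMod 4).cast : ZMod 2) := by rw [h4]
    have hc : ((P.a : ZMod 4).cast : ZMod 2) = ((P.a : ℤ) : ZMod 2) :=
      ZMod.cast_intCast (by norm_num : 2 ∣ 4) P.a
    rw [hc, h0] at h3
    revert h3
    decide
  have hb'odd : ¬ (2 : ℤ) ∣ (b' : ℤ) := by
    intro h
    exact hb' (by exact_mod_cast h)
  -- `b^p = ± 2^(p m) b'^p`
  have hpm : 4 ≤ P.p * m := by nlinarith
  refine ⟨P.p * m - 4, -(P.a ^ P.p * (P.b.sign * b') ^ P.p), by nlinarith [Nat.sub_add_cancel hpm], ?_, ?_, ?_⟩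
  · intro hdvd
    have h1 : P.p ∣ P.p * m := Dvd.intro _ rfl
    have h2 : P.p ∣ 4 := by
      have := (Nat.dvd_sub h1 hdvd)
      rwa [Nat.sub_sub_self hpm] at this
    have := Nat.le_of_dvd (by norm_num) h2
    omega
  · rw [Int.dvd_neg]
    intro h
    have hprime : Prime (2 : ℤ) := Int.prime_two
    rcases hprime.dvd_or_dvd h with h1 | h1
    · exact ha_odd (hprime.dvd_of_dvd_pow h1)
    · have h2 := hprime.dvd_of_dvd_pow h1
      rcases hprime.dvd_or_dvd h2 with h3 | h3
      · have hs : P.b.sign = 1 ∨ P.b.sign = -1 := by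
          rcases lt_trichotomy P.b 0 with hlt | heq | hgt
          · right; exact Int.sign_eq_neg_one_of_neg hlt
          · exact absurd heq P.hb0
          · left; exact Int.sign_eq_one_of_pos hgt
        rcases hs with hs | hs <;> rw [hs] at h3 <;> omega
      · exact hb'odd h3
  · have hbZ : P.b = 2 ^ m * (P.b.sign * b') := by
      have h1 : P.b = P.b.sign * (P.b.natAbs : ℤ) := (Int.sign_mul_natAbs P.b).symm
      rw [hbm] at h1
      push_cast at h1
      linear_combination h1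
    have h16 := freyBar_sixteen_a₄ P
    have hbQ : (P.b : Qbar) = 2 ^ m * ((P.b.sign * b' : ℤ) : Qbar) := by
      exact_mod_cast congrArg (Int.cast : ℤ → Qbar) hbZ
    have hpow : (2 : Qbar) ^ (P.p * m) = 2 ^ (P.p * m - 4) * 16 := by
      have : P.p * m = (P.p * m - 4) + 4 := (Nat.sub_add_cancel hpm).symm
      conv_lhs => rw [this, pow_add]
      norm_num
    have h16' : (16 : Qbar) ≠ 0 := by norm_num
    apply mul_left_cancel₀ h16'
    rw [h16, hbQ, mul_pow, ← pow_mul, mul_comm m P.p, hpow]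
    push_cast
    ring

theorem frey2_a₄_ne : (freyBar P).a₄ ≠ 0 := by
  obtain ⟨N, k, -, -, hk, h⟩ := frey2_a₄_int P
  rw [h]
  refine mul_ne_zero (pow_ne_zero _ two_ne_zero) ?_
  intro h0
  apply hk
  have : k = 0 := by exact_mod_cast h0
  rw [this]
  exact dvd_zero _

/-- `|a₄| = |2|^N` with `N > 0` and `p ∤ N`. -/
theorem frey2_a₄_val (A : ValuationSubring Qbar) (hA : A.LiesOverPrime 2) :
    ∃ N : ℕ, 0 < N ∧ ¬ P.p ∣ N ∧ A.valuation (freyBar P).a₄ = A.valuation (2 : Qbar) ^ N := by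
  obtain ⟨N, k, hN, hpN, hk, h⟩ := frey2_a₄_int P
  refine ⟨N, hN, hpN, ?_⟩
  have hk1 : A.valuation (k : Qbar) = 1 :=
    Inertia.valuation_intCast_eq_one_of_not_dvd hA Nat.prime_two (by simpa using hk)
  rw [h, map_mul, map_pow, hk1, mul_one]

theorem frey2_a₄_mem (A : ValuationSubring Qbar) (hA : A.LiesOverPrime 2) :
    (freyBar P).a₄ ∈ A.nonunits := by
  obtain ⟨N, hN, -, h⟩ := frey2_a₄_val P A hA
  rw [A.mem_nonunits_iff, h]
  exact pow_lt_one₀ zero_le (FreyAt2.val_two_lt_one A hA) hN.ne'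

/-- The coefficients of the Frey curve are fixed by every ring endomorphism. -/
theorem frey2_map_a₂ (σ : Qbar →+* Qbar) : σ (freyBar P).a₂ = (freyBar P).a₂ := by
  obtain ⟨k, hk⟩ := frey2_a₂_int P
  rw [hk, map_intCast]

theorem frey2_map_a₄ (σ : Qbar →+* Qbar) : σ (freyBar P).a₄ = (freyBar P).a₄ := by
  obtain ⟨N, k, -, -, -, h⟩ := frey2_a₄_int P
  rw [h, map_mul, map_pow, map_intCast, map_ofNat]

/-- The Frey curve at a place above `2` is in the setting `T2.Node2`. -/
theorem frey2_node2 (A : ValuationSubring Qbar) (hA : A.LiesOverPrime 2) :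
    T2.Node2 A (freyBar P) where
  a₁ := freyBar_a₁ P
  a₃ := freyBar_a₃ P
  a₆ := freyBar_a₆ P
  two_mem := FreyAt2.two_mem_nonunits A hA
  two_ne := two_ne_zero
  a₂_mem := frey2_a₂_mem P A
  a₄_mem := frey2_a₄_mem P A hA
  a₄_ne := frey2_a₄_ne P

/-- `|a₄| = |2|^N` with `N : ℤ`, `p ∤ N` (shape of `T2.Node2.no_rational_order_p`). -/
theorem frey2_a₄_val_int (A : ValuationSubring Qbar) (hA : A.LiesOverPrime 2) :
    ∃ N : ℤ, A.valuation (freyBar P).a₄ = A.valuation (2 : Qbar) ^ N ∧ ¬ (P.p : ℤ) ∣ N := by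
  obtain ⟨N, -, hpN, h⟩ := frey2_a₄_val P A hA
  refine ⟨(N : ℤ), by rw [h, zpow_natCast], ?_⟩
  intro hd
  exact hpN (Int.natCast_dvd_natCast.mp hd)

/-- Rational elements of `AlgebraicClosure ℚ`. -/
def IsRat (u : Qbar) : Prop := ∃ r : ℚ, algebraMap ℚ Qbar r = u

theorem isRat_val (A : ValuationSubring Qbar) (hA : A.LiesOverPrime 2) :
    ∀ u : Qbar, IsRat u → u ≠ 0 → ∃ m : ℤ, A.valuation u = A.valuation (2 : Qbar) ^ m := by
  rintro u ⟨r, rfl⟩ hu
  have hr : r ≠ 0 := by
    rintro rfl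
    exact hu (map_zero _)
  rw [eq_ratCast]
  exact FreyAt2.val_ratCast A hA hr

theorem isRat_unit (A : ValuationSubring Qbar) (hA : A.LiesOverPrime 2) :
    ∀ u : Qbar, IsRat u → A.valuation u = 1 → u - 1 ∈ A.nonunits := by
  rintro u ⟨r, rfl⟩ hu
  rw [eq_ratCast] at hu ⊢
  exact FreyAt2.ratCast_sub_one_mem A hA hu

/-- An element fixed by the whole Galois group is rational. -/
theorem isRat_of_fixed (x : Qbar) (h : ∀ σ : Qbar ≃ₐ[ℚ] Qbar, σ x = x) : IsRat x :=
  FreyAt2.mem_range_of_fixed x h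

end Fermat.Agent.S13
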