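/-
S13 team, block [T] (owner of this file: helper65): on the curve `y² + xy = x³ + a₂x² + a₄x`
over a field `K` with a valuation ring `A` above `2` (setting `Node2`), there is no point of
prime order `p ≥ 5` all of whose multiples have "rational" abscissa, as soon as
`|a₄| = |2| ^ N` with `p ∤ N`.

"Rational" is abstracted into a predicate `R : K → Prop` with
* `hRval`  : a nonzero rational element has valuation an integral power of `|2|`;
* `hRunit` : a rational unit is `≡ 1` modulo the maximal ideal.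
-/
import Fermat.Agent.S13.T2Seq

set_option autoImplicit false

namespace Fermat.Agent.S13.T2

open WeierstrassCurve Fermat.Agent.S05

variable {K : Type*} [Field K]

namespace Node2

variable {A : ValuationSubring K} {W : WeierstrassCurve K} [DecidableEq K]

/-- **No rational point of order `p` at `2`.** -/
theorem no_rational_order_p (H : Node2 A W) {p : ℕ} (hp : p.Prime) (hp5 : 5 ≤ p)
    (R : K → Prop)
    (hRval : ∀ u, R u → u ≠ 0 → ∃ m : ℤ, A.valuation u = A.valuation (2 : K) ^ m)
    (hRunit : ∀ u, R u → A.valuation u = 1 → u - 1 ∈ A.nonunits)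
    {N : ℤ} (hN : A.valuation W.a₄ = A.valuation (2 : K) ^ N) (hpN : ¬ (p : ℤ) ∣ N)
    {x y : K} (h : W.toAffine.Nonsingular x y) (htors : p • Affine.Point.some x y h = 0)
    (hrat : ∀ k : ℕ, R (PB.xco (k • Affine.Point.some x y h))) : False := by
  have hodd : Odd p := hp.odd_of_ne_two (by omega)
  have hP : Affine.Point.some x y h ≠ 0 := Affine.Point.some_ne_zero h
  have S := H.seqHyp hp hodd hP htors
  have n1 : ¬ p ∣ 1 := S.not_dvd_of_lt le_rfl (by omega)
  have n2 : ¬ p ∣ 2 := S.not_dvd_of_lt (by omega) (by omega)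
  have n3 : ¬ p ∣ 3 := S.not_dvd_of_lt (by omega) (by omega)
  have e : PB.xs (Affine.Point.some x y h) 1 = x := by simp [PB.xs]
  obtain ⟨hxA, hlo, hnode⟩ := H.torsion_val_two hp hodd h htors
  have hx1 : A.valuation x ≤ 1 := (A.valuation_le_one_iff _).mpr hxA
  have hε1 := H.val_a₄_lt
  have hε0 : A.valuation W.a₄ ≠ 0 := (Valuation.ne_zero_iff _).mpr H.a₄_ne
  have h20 : A.valuation (2 : K) ≠ 0 := (Valuation.ne_zero_iff _).mpr H.two_ne
  have h2pos : 0 < A.valuation (2 : K) := zero_lt_iff.mpr h20
  have h21 := H.val_two_lt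
  rcases hx1.lt_or_eq with hlt | heq
  · -- the node case: `|x| < 1`
    obtain ⟨j, hj⟩ := hnode hlt
    have hx0 : x ≠ 0 := by
      rintro rfl
      rw [map_zero] at hlo
      exact not_lt_zero hlo
    have hR1 : R x := by
      have := hrat 1
      rwa [one_nsmul, PB.xco_some] at this
    obtain ⟨m, hm⟩ := hRval x hR1 hx0
    -- `|2| ^ (m p) = |2| ^ (2 N j)`
    have key : A.valuation (2 : K) ^ (m * (p : ℤ)) = A.valuation (2 : K) ^ (N * (2 * j)) := by
      rw [zpow_mul, zpow_mul, ← hm, ← hN, zpow_natCast]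
      exact hj
    have hinj := zpow_right_injective₀ h2pos h21.ne key
    -- `p ∣ j`
    have hpj : (p : ℤ) ∣ j := by
      have hpr : Prime (p : ℤ) := Nat.prime_iff_prime_int.mp hp
      have hd : (p : ℤ) ∣ N * (2 * j) := ⟨m, by rw [← hinj]; ring⟩
      rcases hpr.dvd_or_dvd hd with h' | h'
      · exact absurd h' hpN
      · rcases hpr.dvd_or_dvd h' with h'' | h''
        · exfalso
          have : (p : ℤ) ∣ ((2 : ℕ) : ℤ) := by exact_mod_cast h''
          exact n2 (Int.natCast_dvd_natCast.mp this)
        · exact h''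
    obtain ⟨j', rfl⟩ := hpj
    have hp0 : (p : ℤ) ≠ 0 := by exact_mod_cast hp.ne_zero
    have hm' : m = N * (2 * j') := by
      have : m * (p : ℤ) = (N * (2 * j')) * (p : ℤ) := by rw [hinj]; ring
      exact mul_right_cancel₀ hp0 this
    -- `|x| = |a₄| ^ (2 j')`
    have hxε : A.valuation x = A.valuation W.a₄ ^ (2 * j') := by
      rw [hm, hm', zpow_mul, ← hN]
    rw [hxε] at hlo hlt
    have εpos : 0 < A.valuation W.a₄ := zero_lt_iff.mpr hε0
    by_cases hj0 : j' ≤ 0
    · have : 1 ≤ A.valuation W.a₄ ^ (2 * j') :=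
        one_le_zpow_of_nonpos₀ εpos hε1.le (by omega)
      exact absurd hlt (not_lt.mpr this)
    · have h1 : A.valuation W.a₄ ^ (2 * j') ≤ A.valuation W.a₄ ^ (1 : ℤ) :=
        zpow_le_zpow_right_of_le_one₀ εpos hε1.le (by omega)
      rw [zpow_one] at h1
      exact absurd hlo (not_lt.mpr h1)
  · -- the unit case: `|x| = 1`
    have v1 : A.valuation (PB.xs (Affine.Point.some x y h) 1) = 1 := by rw [e]; exact heq
    have v2 : A.valuation (PB.xs (Affine.Point.some x y h) 2) = 1 := by
      have := S.L1 n1 v1 2 n2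
      rwa [mul_one] at this
    have v3 : A.valuation (PB.xs (Affine.Point.some x y h) 3) = 1 := by
      have := S.L1 n1 v1 3 n3
      rwa [mul_one] at this
    have r1 := hRunit _ (hrat 1) v1
    have r2 := hRunit _ (hrat 2) v2
    have key := S.addsub 2 1 (by omega) n2 n1 n3 n1
    have e21 : (2 - 1 : ℕ) = 1 := rfl
    have e3 : (2 + 1 : ℕ) = 3 := rfl
    rw [e21, e3] at key
    set x1 := PB.xs (Affine.Point.some x y h) 1 with hx1def
    set x2 := PB.xs (Affine.Point.some x y h) 2 with hx2def
    set x3 := PB.xs (Affine.Point.some x y h) 3 with hx3def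
    have hd : A.valuation (x2 - x1) < 1 := by
      have e' : x2 - x1 = (x2 - 1) - (x1 - 1) := by ring
      rw [e']
      exact lt_of_le_of_lt (Valuation.map_sub _ _ _)
        (max_lt (A.mem_nonunits_iff.mp r2) (A.mem_nonunits_iff.mp r1))
    have hR : A.valuation ((x2 * x1 - W.a₄) ^ 2) = 1 := by
      have : A.valuation W.a₄ < A.valuation (x2 * x1) := by
        rw [map_mul, v1, v2, one_mul]; exact hε1
      rw [map_pow, Valuation.map_sub_eq_of_lt_left _ this, map_mul, v1, v2, one_mul, one_pow]
    have hL : A.valuation (x3 * x1 * (x2 - x1) ^ 2) < 1 := by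
      rw [map_mul, map_mul, v3, v1, one_mul, one_mul, map_pow]
      exact pow_lt_one₀ zero_le hd (by norm_num)
    rw [key, hR] at hL
    exact lt_irrefl _ hL

end Node2

end Fermat.Agent.S13.T2
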