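/-
S13 team, block [T]/AtTwo (owner: helper67): the Frey curve at the prime `2`, final statements.

* `exists_liesOverPrime_two`: there is a valuation subring of `AlgebraicClosure ℚ` above `2`;
* `frey_no_rational_order_p`: the Frey curve has no nonzero `p`-torsion point fixed by the whole
  Galois group (input `hT` of `Wiring.frey_cofixed_of_inputs`).
-/
import Fermat.Agent.S13.FreyAt2
import Fermat.Agent.S13.T2Rational

set_option autoImplicit false

namespace Fermat.Agent.S13

open WeierstrassCurve WeierstrassCurve.Affine WeierstrassCurve.Affine.Point Fermat.Agent.S05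

local notation "Qbar" => AlgebraicClosure ℚ

/-- There is a valuation subring of `AlgebraicClosure ℚ` lying over `2`. -/
theorem exists_liesOverPrime_two : ∃ A : ValuationSubring Qbar, A.LiesOverPrime 2 := by
  let R : Subring Qbar := (Int.castRingHom Qbar).range
  have h2R : (2 : Qbar) ∈ R := ⟨2, by simp⟩
  let I : Ideal R := Ideal.span {(⟨2, h2R⟩ : R)}
  have hI : I ≠ ⊤ := by
    intro h
    have h1 : (1 : R) ∈ I := by rw [h]; trivial
    obtain ⟨c, hc⟩ := Ideal.mem_span_singleton'.mp h1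
    obtain ⟨n, hn⟩ := c.2
    have h2 : (c : Qbar) * 2 = 1 := congrArg Subtype.val hc
    rw [← hn] at h2
    have h3 : ((n * 2 : ℤ) : Qbar) = ((1 : ℤ) : Qbar) := by
      push_cast
      simpa using h2
    have h' : n * 2 = 1 := Int.cast_injective h3
    omega
  obtain ⟨B, -, hB⟩ := Ideal.image_subset_nonunits_valuationSubring I hI
  refine ⟨B, ?_⟩
  have h2B : (2 : Qbar) ∈ B.nonunits := hB ⟨⟨2, h2R⟩, Ideal.subset_span rfl, rfl⟩
  show ((2 : ℕ) : Qbar) ∈ B.nonunits
  simpa using h2B

/-- `0` is rational. -/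
theorem isRat_zero : IsRat (0 : Qbar) := ⟨0, map_zero _⟩

/-- The abscissa of a Galois-fixed point is rational. -/
theorem isRat_xco_of_fixed (P : FreyPackage) (T : (P.freyCurve⁄Qbar).Point)
    (hfix : ∀ σ : Qbar ≃ₐ[ℚ] Qbar, σ • T = T) : IsRat (PB.xco T) := by
  rcases T with _ | ⟨x, y, h⟩
  · exact isRat_zero
  · refine isRat_of_fixed x (fun σ => ?_)
    have h1 := hfix σ
    obtain ⟨hs, hmap⟩ : ∃ hs : (P.freyCurve⁄Qbar).Nonsingular (σ x) (σ y),
        σ • (Point.some x y h : (P.freyCurve⁄Qbar).Point) = Point.some (σ x) (σ y) hs := ⟨_, rfl⟩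
    rw [hmap] at h1
    simp only [Affine.Point.some.injEq] at h1
    exact h1.1

/-- **No rational `p`-torsion on the Frey curve**: a `p`-torsion point fixed by the whole Galois
group is zero. -/
theorem frey_no_rational_order_p (P : FreyPackage)
    (x : Submodule.torsionBy ℤ (P.freyCurve⁄Qbar).Point P.p)
    (hfix : ∀ σ : Qbar ≃ₐ[ℚ] Qbar, σ • x = x) : x = 0 := by
  obtain ⟨A, hA⟩ := exists_liesOverPrime_two
  obtain ⟨T, hT⟩ := x
  have hpT : P.p • T = 0 := by
    have h := (Submodule.mem_torsionBy_iff _ _).1 hT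
    rwa [Nat.cast_smul_eq_nsmul] at h
  have hfixT : ∀ σ : Qbar ≃ₐ[ℚ] Qbar, σ • T = T := fun σ => congrArg Subtype.val (hfix σ)
  apply Subtype.ext
  show T = 0
  by_contra hT0
  rcases T with _ | ⟨x₀, y₀, h⟩
  · exact hT0 rfl
  obtain ⟨N, hN, hpN⟩ := frey2_a₄_val_int P A hA
  have hrat : ∀ k : ℕ, IsRat (PB.xco (k • (Point.some x₀ y₀ h : (P.freyCurve⁄Qbar).Point))) := by
    intro k
    apply isRat_xco_of_fixed P
    intro σ
    rw [algEquiv_smul_def, map_nsmul, ← algEquiv_smul_def, hfixT σ]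
  exact T2.Node2.no_rational_order_p (frey2_node2 P A hA) P.pp P.hp5 IsRat (isRat_val A hA)
    (isRat_unit A hA) hN hpN h hpT hrat

end Fermat.Agent.S13
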