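/-
S13 team, block [T-end] (owner of this file: helper95).

Unipotent inertia on a nodal Weierstrass model `y² + xy = x³ + a₂x² + a₄x`
(`W.a₁ = 1`, `W.a₃ = 0`, `W.a₆ = 0`, `a₂ ∈ A`, `a₄ ∈ m`, `a₄ ≠ 0`) in residue characteristic `2`
(`2 ∈ m`): if `σ` is inertia-like and `Φ` is the induced endomorphism of the group of points,
then `(Φ - 1)² = 0` on the `n`-torsion (`n` a unit of `A`), given the "torsion valuation"
statement `hTV` for points reducing to the node.
-/
import Fermat.Agent.S05.Defs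
import Fermat.Agent.S05.FormalGroup
import Fermat.Agent.S05.Reduction

set_option autoImplicit false

namespace Fermat.Agent.S13

open WeierstrassCurve WeierstrassCurve.Affine Fermat.Agent.S05

namespace TEnd

variable {K : Type*} [Field K]

/-- The equation of a nodal model. -/
lemma nodal_equation_iff (W : WeierstrassCurve K) (h₁ : W.a₁ = 1) (h₃ : W.a₃ = 0)
    (h₆ : W.a₆ = 0) (x y : K) :
    W.toAffine.Equation x y ↔ y ^ 2 + x * y = x ^ 3 + W.a₂ * x ^ 2 + W.a₄ * x := by
  rw [Affine.equation_iff, h₁, h₃, h₆]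
  simp

lemma nodal_negY (W : WeierstrassCurve K) (h₁ : W.a₁ = 1) (h₃ : W.a₃ = 0) (x y : K) :
    W.toAffine.negY x y = -y - x := by
  simp [Affine.negY, h₁, h₃]

/-- Integrality of `y` for an integral `x`. -/
lemma y_mem (A : ValuationSubring K) {a₂ a₄ x y : K} (ha₂ : a₂ ∈ A) (ha₄ : a₄ ∈ A) (hx : x ∈ A)
    (heq : y ^ 2 + x * y = x ^ 3 + a₂ * x ^ 2 + a₄ * x) : y ∈ A := by
  by_contra hy
  have hy1 : 1 < A.valuation y := by
    rw [← not_le, A.valuation_le_one_iff]
    exact hy
  have hx1 : A.valuation x ≤ 1 := (A.valuation_le_one_iff _).mpr hx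
  have hrhs : x ^ 3 + a₂ * x ^ 2 + a₄ * x ∈ A :=
    A.add_mem _ _ (A.add_mem _ _ (pow_mem hx 3) (A.mul_mem _ _ ha₂ (pow_mem hx 2)))
      (A.mul_mem _ _ ha₄ hx)
  have hlt : A.valuation (x * y) < A.valuation (y ^ 2) := by
    rw [map_mul, map_pow, sq]
    have hypos : 0 < A.valuation y := zero_lt_one.trans hy1
    calc A.valuation x * A.valuation y ≤ 1 * A.valuation y := by gcongr
      _ < A.valuation y * A.valuation y := by
          rw [one_mul]
          exact lt_mul_of_one_lt_left hypos hy1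
  have hval : A.valuation (y ^ 2 + x * y) = A.valuation (y ^ 2) :=
    Valuation.map_add_eq_of_lt_left _ hlt
  rw [heq] at hval
  have hle : A.valuation (y ^ 2) ≤ 1 := by
    rw [← hval]
    exact (A.valuation_le_one_iff _).mpr hrhs
  rw [map_pow] at hle
  exact absurd (one_lt_pow₀ hy1 two_ne_zero) (not_lt.mpr hle)

variable [DecidableEq K]

/-- Subtraction on a nodal model:
`x(P₁ - P₂) · (x₁ - x₂)² · x₁ x₂ = (x₂ y₁ + x₁ y₂ + x₁ x₂)²`. -/
lemma nodal_sub (W : WeierstrassCurve K) (h₁ : W.a₁ = 1) (h₃ : W.a₃ = 0) (h₆ : W.a₆ = 0)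
    {x₁ y₁ x₂ y₂ : K}
    (hP₁ : W.toAffine.Nonsingular x₁ y₁) (hP₂ : W.toAffine.Nonsingular x₂ y₂) (hx : x₁ ≠ x₂) :
    ∃ (x₃ y₃ : K) (hP₃ : W.toAffine.Nonsingular x₃ y₃),
      Point.some x₁ y₁ hP₁ - Point.some x₂ y₂ hP₂ = Point.some x₃ y₃ hP₃ ∧
        x₃ * (x₁ - x₂) ^ 2 * (x₁ * x₂) = (x₂ * y₁ + x₁ * y₂ + x₁ * x₂) ^ 2 := by
  have heq₁ := (nodal_equation_iff W h₁ h₃ h₆ x₁ y₁).mp hP₁.1
  have heq₂ := (nodal_equation_iff W h₁ h₃ h₆ x₂ y₂).mp hP₂.1
  rw [sub_eq_add_neg, Point.neg_some]
  refine ⟨_, _, _, Point.add_of_X_ne hx, ?_⟩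
  rw [Affine.slope_of_X_ne hx, nodal_negY W h₁ h₃]
  simp only [Affine.addX, h₁]
  have hd : x₁ - x₂ ≠ 0 := sub_ne_zero.mpr hx
  generalize hℓ : (y₁ - (-y₂ - x₂)) / (x₁ - x₂) = ℓ
  have hℓ' : ℓ * (x₁ - x₂) = y₁ + y₂ + x₂ := by
    rw [← hℓ, div_mul_cancel₀ _ hd]
    ring
  linear_combination (x₁ * x₂ * (ℓ * (x₁ - x₂) + (y₁ + y₂ + x₂) + (x₁ - x₂))) * hℓ' +
    (x₁ * x₂ - x₂ ^ 2) * heq₁ + (x₁ * x₂ - x₁ ^ 2) * heq₂

/-- **Unit case**: a torsion point with unit `x`-coordinate is fixed. -/
theorem fixed_of_unit (A : ValuationSubring K) (h2 : (2 : K) ∈ A.nonunits)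
    (W : WeierstrassCurve K) (h₁ : W.a₁ = 1) (h₃ : W.a₃ = 0) (h₆ : W.a₆ = 0)
    (ha₂ : W.a₂ ∈ A) (ha₄ : W.a₄ ∈ A.nonunits)
    (n : ℕ) (hn : A.valuation (n : K) = 1)
    (σ : K →+* K) (hσ : InertiaLike A σ)
    {x y : K} (h : W.toAffine.Nonsingular x y) (h' : W.toAffine.Nonsingular (σ x) (σ y))
    (htors : n • Point.some x y h = 0) (htors' : n • Point.some (σ x) (σ y) h' = 0)
    (hx : A.valuation x = 1) :
    Point.some (σ x) (σ y) h' = Point.some x y h := by
  have hxA : x ∈ A := (A.valuation_le_one_iff _).mp hx.le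
  have ha₄A : W.a₄ ∈ A := A.nonunits_subset ha₄
  have ha₁A : W.a₁ ∈ A := h₁ ▸ A.one_mem
  have ha₃A : W.a₃ ∈ A := h₃ ▸ A.zero_mem
  have ha₆A : W.a₆ ∈ A := h₆ ▸ A.zero_mem
  have hyA : y ∈ A := y_mem A ha₂ ha₄A hxA ((nodal_equation_iff W h₁ h₃ h₆ x y).mp h.1)
  have hdx : x - σ x ∈ A.nonunits := by
    have := hσ.sub_mem x hxA
    rw [A.mem_nonunits_iff] at this ⊢
    rwa [Valuation.map_sub_swap]
  have hdy : y - σ y ∈ A.nonunits := by
    have := hσ.sub_mem y hyA
    rw [A.mem_nonunits_iff] at this ⊢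
    rwa [Valuation.map_sub_swap]
  have hns : 2 * y + W.a₁ * x + W.a₃ ∉ A.nonunits := by
    rw [h₁, h₃, one_mul, add_zero, A.mem_nonunits_iff, not_lt]
    have h2y : A.valuation (2 * y) < A.valuation x := by
      rw [hx]
      exact A.mem_nonunits_iff.mp (Reduction.mul_mem_nonunits' A h2 hyA)
    rw [Valuation.map_add_eq_of_lt_right _ h2y, hx]
  have hE1 : InE1 A (Point.some x y h - Point.some (σ x) (σ y) h') :=
    F2_inE1 A W ha₁A ha₂ h h' hxA hdx hdy (Or.inl hns)
  have h0 : n • (Point.some x y h - Point.some (σ x) (σ y) h') = 0 := by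
    rw [smul_sub, htors, htors', sub_zero]
  have := F1_inE1 A W ha₁A ha₂ ha₃A ha₄A ha₆A hn hE1 h0
  exact (sub_eq_zero.mp this).symm

/-- **Unipotent inertia on a nodal model** (residue characteristic `2`):
`(Φ - 1)² = 0` on the `n`-torsion, where `Φ` is induced by an inertia-like `σ`.
`hreg` is the tent-side input: a torsion point reducing to the node has `|a₄| < |x|`, and `σ`
preserves `|x|`. -/
theorem unipotent_nodal (A : ValuationSubring K) (h2 : (2 : K) ∈ A.nonunits)
    (W : WeierstrassCurve K) (h₁ : W.a₁ = 1) (h₃ : W.a₃ = 0) (h₆ : W.a₆ = 0)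
    (ha₂ : W.a₂ ∈ A) (ha₄ : W.a₄ ∈ A.nonunits)
    (n : ℕ) (hn : A.valuation (n : K) = 1)
    (σ : K →+* K) (hσ : InertiaLike A σ)
    (Φ : W.toAffine.Point →+ W.toAffine.Point)
    (hΦ : ∀ (x y : K) (h : W.toAffine.Nonsingular x y),
      ∃ h' : W.toAffine.Nonsingular (σ x) (σ y), Φ (Point.some x y h) = Point.some (σ x) (σ y) h')
    (hreg : ∀ (x y : K) (h : W.toAffine.Nonsingular x y), n • Point.some x y h = 0 →
      A.valuation x < 1 →
        A.valuation W.a₄ < A.valuation x ∧ A.valuation (σ x) = A.valuation x)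
    (P : W.toAffine.Point) (hP : n • P = 0) : Φ (Φ P - P) = Φ P - P := by
  have ha₄A : W.a₄ ∈ A := A.nonunits_subset ha₄
  have ha₁A : W.a₁ ∈ A := h₁ ▸ A.one_mem
  have ha₃A : W.a₃ ∈ A := h₃ ▸ A.zero_mem
  have ha₆A : W.a₆ ∈ A := h₆ ▸ A.zero_mem
  -- the unit case, at the level of `Φ`
  have hunit : ∀ (x y : K) (h : W.toAffine.Nonsingular x y), n • Point.some x y h = 0 →
      A.valuation x = 1 → Φ (Point.some x y h) = Point.some x y h := by
    intro x y h ht hx
    obtain ⟨h', hΦP⟩ := hΦ x y h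
    have ht' : n • Point.some (σ x) (σ y) h' = 0 := by
      rw [← hΦP, ← map_nsmul, ht, map_zero]
    rw [hΦP]
    exact fixed_of_unit A h2 W h₁ h₃ h₆ ha₂ ha₄ n hn σ hσ h h' ht ht' hx
  rcases P with _ | ⟨x, y, h⟩
  · have h0 : Φ (0 : W.toAffine.Point) = 0 := map_zero Φ
    show Φ (Φ 0 - 0) = Φ 0 - 0
    rw [h0, sub_zero, h0]
  · obtain ⟨h', hΦP⟩ := hΦ x y h
    have ht' : n • Point.some (σ x) (σ y) h' = 0 := by
      rw [← hΦP, ← map_nsmul, hP, map_zero]
    have hxle : A.valuation x ≤ 1 := by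
      by_contra hcon
      exact F1 A W ha₁A ha₂ ha₃A ha₄A ha₆A hn h
        (fun hx => hcon ((A.valuation_le_one_iff _).mpr hx)) hP
    rcases hxle.lt_or_eq with hlt | hx1
    · -- the point reduces to the node
      obtain ⟨hε, hσx⟩ := hreg x y h hP hlt
      have hx0 : x ≠ 0 := by
        rintro rfl
        rw [map_zero] at hε
        exact not_lt_zero hε
      have hvx0 : A.valuation x ≠ 0 := (Valuation.ne_zero_iff _).mpr hx0
      have hxA : x ∈ A := (A.valuation_le_one_iff _).mp hlt.le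
      have heq := (nodal_equation_iff W h₁ h₃ h₆ x y).mp h.1
      have heq' := (nodal_equation_iff W h₁ h₃ h₆ (σ x) (σ y)).mp h'.1
      -- `w = y / x` is integral
      have hw : y / x ∈ A := by
        have hq : W.a₄ / x ∈ A := by
          rw [← A.valuation_le_one_iff, map_div₀]
          exact (div_le_one₀ (zero_lt_iff.mpr hvx0)).mpr hε.le
        have hweq : (y / x) ^ 2 + 1 * (y / x) = 1 ^ 3 + (x + W.a₂ + W.a₄ / x - 1) * 1 ^ 2
            + 0 * 1 := by
          field_simp
          linear_combination heq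
        exact y_mem A (sub_mem (add_mem (add_mem hxA ha₂) hq) A.one_mem) A.zero_mem A.one_mem hweq
      have h2w : A.valuation (2 * (y / x) + 1) = 1 := by
        have hlt1 : A.valuation (2 * (y / x)) < A.valuation (1 : K) := by
          rw [map_one]
          exact A.mem_nonunits_iff.mp (Reduction.mul_mem_nonunits' A h2 hw)
        rw [Valuation.map_add_eq_of_lt_right _ hlt1, map_one]
      have hσw : A.valuation (σ (y / x) - y / x) < 1 := A.mem_nonunits_iff.mp (hσ.sub_mem _ hw)
      have hsum : A.valuation (σ (y / x) + y / x + 1) = 1 := by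
        have e : σ (y / x) + y / x + 1 = (2 * (y / x) + 1) + (σ (y / x) - y / x) := by ring
        rw [e, Valuation.map_add_eq_of_lt_left _ (by rw [h2w]; exact hσw), h2w]
      have hσx0 : σ x ≠ 0 := by
        intro h0
        rw [h0, map_zero] at hσx
        exact hvx0 hσx.symm
      by_cases hxeq : σ x = x
      · -- same `x`-coordinate: the point is fixed
        have hprod : (σ y - y) * (σ y + y + x) = 0 := by
          rw [hxeq] at heq'
          linear_combination heq' - heq
        rcases mul_eq_zero.mp hprod with hy | hy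
        · have hyeq : σ y = y := sub_eq_zero.mp hy
          have hfix : Φ (Point.some x y h) = Point.some x y h := by
            rw [hΦP]
            congr 1
          rw [hfix, sub_self, map_zero]
        · exfalso
          have hσy : σ y = -y - x := by linear_combination hy
          have e : σ (y / x) - y / x = -(2 * (y / x) + 1) := by
            rw [map_div₀, hxeq, hσy]
            field_simp
            ring
          rw [e, Valuation.map_neg, h2w] at hσw
          exact lt_irrefl _ hσw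
      · -- different `x`-coordinates: the difference has unit `x`-coordinate
        obtain ⟨x₃, y₃, h₃, hsub, hx₃⟩ := nodal_sub W h₁ h₃ h₆ h' h hxeq
        have h0 : n • Point.some x₃ y₃ h₃ = 0 := by
          rw [← hsub, smul_sub, hP, ht', sub_zero]
        have hx₃le : A.valuation x₃ ≤ 1 := by
          by_contra hcon
          exact F1 A W ha₁A ha₂ ha₃A ha₄A ha₆A hn h₃
            (fun hx => hcon ((A.valuation_le_one_iff _).mpr hx)) h0
        have hfac : x * σ y + σ x * y + σ x * x = x * σ x * (σ (y / x) + y / x + 1) := by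
          rw [map_div₀]
          field_simp
        have hval := congrArg A.valuation hx₃
        rw [hfac] at hval
        simp only [map_mul, map_pow] at hval
        rw [hsum, hσx, mul_one] at hval
        have hval2 : A.valuation x₃ * A.valuation (σ x - x) ^ 2 = A.valuation x ^ 2 := by
          have hne0 : A.valuation x * A.valuation x ≠ 0 := mul_ne_zero hvx0 hvx0
          apply mul_right_cancel₀ hne0
          rw [hval]
          simp only [sq]
        have hdle : A.valuation (σ x - x) ≤ A.valuation x :=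
          Valuation.map_sub_le _ hσx.le le_rfl
        have hx₃ge : 1 ≤ A.valuation x₃ := by
          by_contra hcon
          rw [not_le] at hcon
          have hpos : 0 < A.valuation x ^ 2 := pow_pos (zero_lt_iff.mpr hvx0) 2
          have hdpos : 0 < A.valuation (σ x - x) ^ 2 := by
            rcases eq_or_ne (A.valuation (σ x - x) ^ 2) 0 with h0' | h0'
            · rw [h0', mul_zero] at hval2
              exact absurd hval2.symm hpos.ne'
            · exact zero_lt_iff.mpr h0'
          have hlt2 : A.valuation x₃ * A.valuation (σ x - x) ^ 2 < A.valuation x ^ 2 :=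
            calc A.valuation x₃ * A.valuation (σ x - x) ^ 2
                < 1 * A.valuation (σ x - x) ^ 2 := mul_lt_mul_of_pos_right hcon hdpos
              _ = A.valuation (σ x - x) ^ 2 := one_mul _
              _ ≤ A.valuation x ^ 2 := pow_le_pow_left₀ zero_le hdle 2
          exact hlt2.ne hval2
        have hx₃1 : A.valuation x₃ = 1 := le_antisymm hx₃le hx₃ge
        have hQ : Φ (Point.some x y h) - Point.some x y h = Point.some x₃ y₃ h₃ := by
          rw [hΦP, hsub]
        rw [hQ]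
        exact hunit x₃ y₃ h₃ h0 hx₃1
    · -- unit `x`-coordinate: the point itself is fixed
      rw [hunit x y h hP hx1, sub_self, map_zero]

end TEnd

end Fermat.Agent.S13
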