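/-
S13 team, block [T] at `2`, unipotent half (owner of this file: helper95).

For a Frey package `P`, a valuation subring `A` of `AlgebraicClosure ℚ` above `2` and `σ` in its
inertia group, `(σ - 1)² = 0` on the `p`-torsion of the Frey curve:
`σ • (σ • x - x) = σ • x - x`.

Inputs: `TEnd.unipotent_nodal` (abstract nodal model, helper95), `T2.Node2.torsion_val_two`
(helper65), `FreyAt2.frey2_node2`, `FreyAt2.val_sigma_eq` (helper5), `S05.inertiaLike_of_mem`.
-/
import Fermat.Agent.S05.Inertia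
import Fermat.Agent.S05.Frey
import Fermat.Agent.S13.TEnd
import Fermat.Agent.S13.T2Seq
import Fermat.Agent.S13.FreyAt2

set_option autoImplicit false

namespace Fermat.Agent.S13

namespace AtTwoUnip

open WeierstrassCurve WeierstrassCurve.Affine WeierstrassCurve.Affine.Point Fermat.Agent.S05

local notation "Qbar" => AlgebraicClosure ℚ

/-- Point-level statement: an inertia element at `2` is unipotent on the `p`-torsion points of
the Frey curve. -/
theorem frey_inertia_two_point (P : FreyPackage) (A : ValuationSubring Qbar)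
    (hA : A.LiesOverPrime 2) (σ : Qbar ≃ₐ[ℚ] Qbar) (hσ : σ ∈ A.inertiaSubgroupIn ℚ)
    (Pt : (P.freyCurve⁄Qbar).Point) (htors : P.p • Pt = 0) :
    σ • (σ • Pt - Pt) = σ • Pt - Pt := by
  have hnode := frey2_node2 P A hA
  have h2p : ¬ 2 ∣ P.p := by
    have := P.hp_odd
    intro h
    exact (Nat.not_even_iff_odd.mpr this) (even_iff_two_dvd.mpr h)
  have hn : A.valuation ((P.p : ℕ) : Qbar) = 1 :=
    valuation_natCast_eq_one A Nat.prime_two hA h2p
  have halg : Algebra.IsAlgebraic ℚ Qbar := AlgebraicClosure.isAlgebraic ℚ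
  have hval : ∀ u : Qbar, A.valuation (σ u) = A.valuation u :=
    FreyAt2.val_sigma_eq A σ (fun z => Inertia.mem_iff_of_mem_inertia A hσ z)
  exact TEnd.unipotent_nodal A hnode.two_mem (freyBar P) (freyBar_a₁ P) (freyBar_a₃ P)
    (freyBar_a₆ P) hnode.a₂_mem hnode.a₄_mem P.p hn (σ : Qbar →+* Qbar)
    (inertiaLike_of_mem A σ hσ)
    (Point.map (W' := P.freyCurve) σ.toAlgHom)
    (fun x y h => ⟨_, rfl⟩)
    (fun x y h ht _ => ⟨(hnode.torsion_val_two P.pp P.hp_odd h ht).2.1, hval x⟩)
    Pt htors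

/-- **Unipotent inertia at `2`** on the `p`-torsion of the Frey curve (captain's statement). -/
theorem frey_inertia_two_unipotent (P : FreyPackage) (A : ValuationSubring Qbar)
    (hA : A.LiesOverPrime 2) (σ : Qbar ≃ₐ[ℚ] Qbar) (hσ : σ ∈ A.inertiaSubgroupIn ℚ)
    (x : Submodule.torsionBy ℤ (P.freyCurve⁄Qbar).Point P.p) :
    σ • (σ • x - x) = σ • x - x := by
  apply Subtype.ext
  have hx : ((P.p : ℕ) : ℤ) • x.1 = 0 := (Submodule.mem_torsionBy_iff _ _).1 x.2
  have hx' : P.p • x.1 = 0 := by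
    rw [← hx]
    exact (Nat.cast_smul_eq_nsmul ℤ P.p x.1).symm
  exact frey_inertia_two_point P A hA σ hσ x.1 hx'

end AtTwoUnip

end Fermat.Agent.S13
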