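/-
S13 team, auxiliary arithmetic block (owner of this file: helper99).

For a Frey package `(a, b, c, p)` there is an odd prime `q ≠ p` dividing `a * b * c`
(in fact dividing `a` or `c`).  Used to pick a prime of multiplicative reduction with residue
characteristic different from `2` and `p`.
-/
import Mathlib
import Fermat.Prelude.Def_FLTPrelim_FreyPackage

set_option autoImplicit false

namespace Fermat.Agent.S13

/-- Consecutive `n`-th powers differ by more than one. -/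
theorem auxPrime_succ_pow_gt (w : ℤ) (hw : 1 ≤ w) (n : ℕ) (hn : 2 ≤ n) :
    w ^ n + 1 < (w + 1) ^ n := by
  obtain ⟨k, rfl⟩ : ∃ k, n = k + 2 := ⟨n - 2, by omega⟩
  have h1 : w ^ (k + 1) ≤ (w + 1) ^ (k + 1) :=
    pow_le_pow_left₀ (by linarith) (by linarith) _
  have h2 : (2 : ℤ) ≤ (w + 1) ^ (k + 1) := by
    have h3 : (w + 1) ^ 1 ≤ (w + 1) ^ (k + 1) :=
      pow_le_pow_right₀ (by linarith) (by omega)
    simp only [pow_one] at h3
    linarith
  have h4 : (0 : ℤ) ≤ w ^ (k + 1) := pow_nonneg (by linarith) _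
  have e1 : w ^ (k + 2) = w ^ (k + 1) * w := by ring
  have e2 : (w + 1) ^ (k + 2) = (w + 1) ^ (k + 1) * (w + 1) := by ring
  rw [e1, e2]
  nlinarith

/-- For an odd exponent `n ≥ 3`, a sum of two `n`-th powers of nonzero integers is never `1`. -/
theorem auxPrime_pow_add_pow_ne_one (x y : ℤ) (hx : x ≠ 0) (hy : y ≠ 0) (n : ℕ) (hn : Odd n)
    (hn3 : 3 ≤ n) : x ^ n + y ^ n ≠ 1 := by
  intro h
  have hmono : StrictMono fun a : ℤ => a ^ n := hn.strictMono_pow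
  -- `x ^ n = (-y) ^ n + 1`
  have hneg : (-y) ^ n = -(y ^ n) := hn.neg_pow y
  have h1 : x ^ n = (-y) ^ n + 1 := by rw [hneg]; linarith
  have hlt : (-y) ^ n < x ^ n := by linarith
  have hxy : -y < x := hmono.lt_iff_lt.mp hlt
  have hle : (-y + 1) ^ n ≤ x ^ n := hmono.monotone (by linarith)
  -- so `(z + 1) ^ n ≤ z ^ n + 1` with `z = -y`
  have key : (-y + 1) ^ n ≤ (-y) ^ n + 1 := by linarith
  rcases lt_trichotomy (-y) (-1) with hz | hz | hz
  · -- `z ≤ -2`: put `w = -z - 1 ≥ 1`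
    have hw : (1 : ℤ) ≤ y - 1 := by linarith
    have h5 := auxPrime_succ_pow_gt (y - 1) hw n (by omega)
    have e1 : (-y + 1) ^ n = -((y - 1) ^ n) := by
      have : (-y + 1) = -(y - 1) := by ring
      rw [this, hn.neg_pow]
    have e2 : (y - 1 + 1) ^ n = y ^ n := by ring_nf
    rw [e1, hneg] at key
    rw [e2] at h5
    linarith
  · -- `z = -1`, i.e. `y = 1`, forces `x = 0`
    have hy1 : y = 1 := by linarith
    rw [hy1] at h
    have : x ^ n = 0 := by simpa using h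
    exact hx (pow_eq_zero_iff (by omega : n ≠ 0) |>.mp this)
  · -- `z ≥ 0`, and `z ≠ 0`
    have hz1 : (1 : ℤ) ≤ -y := by
      rcases eq_or_lt_of_le (show (0 : ℤ) ≤ -y by linarith) with h0 | h0
      · exact absurd (by linarith : y = 0) hy
      · linarith
    have h5 := auxPrime_succ_pow_gt (-y) hz1 n (by omega)
    linarith

/-- For an odd exponent `n ≥ 3`, a sum of two `n`-th powers of nonzero integers is never `-1`. -/
theorem auxPrime_pow_add_pow_ne_neg_one (x y : ℤ) (hx : x ≠ 0) (hy : y ≠ 0) (n : ℕ)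
    (hn : Odd n) (hn3 : 3 ≤ n) : x ^ n + y ^ n ≠ -1 := by
  intro h
  apply auxPrime_pow_add_pow_ne_one (-x) (-y) (neg_ne_zero.mpr hx) (neg_ne_zero.mpr hy) n hn hn3
  rw [hn.neg_pow, hn.neg_pow]
  linarith

/-- An odd integer different from `±1` has an odd prime factor. -/
theorem auxPrime_exists_prime_dvd_of_odd (z : ℤ) (hodd : ¬ (2 : ℤ) ∣ z) (h1 : z ≠ 1)
    (h2 : z ≠ -1) : ∃ q : ℕ, q.Prime ∧ q ≠ 2 ∧ (q : ℤ) ∣ z := by
  have hne : z.natAbs ≠ 1 := by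
    intro h
    rcases Int.natAbs_eq z with h' | h'
    · rw [h] at h'; exact h1 (by simpa using h')
    · rw [h] at h'; exact h2 (by simpa using h')
  obtain ⟨q, hq, hqd⟩ := Nat.exists_prime_and_dvd hne
  refine ⟨q, hq, ?_, Int.natCast_dvd.mpr hqd⟩
  rintro rfl
  exact hodd (Int.natCast_dvd.mpr hqd)

/-- There is an odd prime `q ≠ p` dividing `a * b * c` (in fact dividing `a` or `c`). -/
theorem exists_odd_prime_dvd_a_or_c (P : FreyPackage) :
    ∃ q : ℕ, q.Prime ∧ q ≠ 2 ∧ q ≠ P.p ∧ ((q : ℤ) ∣ P.a ∨ (q : ℤ) ∣ P.c) := by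
  have hp_odd : Odd P.p := P.hp_odd
  have hp3 : 3 ≤ P.p := le_trans (by norm_num) P.hp5
  have hFLT := P.hFLT
  -- parity
  have hb_even : (2 : ℤ) ∣ P.b := (ZMod.intCast_zmod_eq_zero_iff_dvd P.b 2).1 P.hb2
  have ha_odd : ¬ (2 : ℤ) ∣ P.a := by
    intro h
    have h4 : ((2 : ℕ) : ℤ) ∣ P.a := by exact_mod_cast h
    have h0 : ((P.a : ZMod 2)) = 0 := (ZMod.intCast_zmod_eq_zero_iff_dvd P.a 2).2 h4
    have hcast : ((P.a : ZMod 4)).cast = (P.a : ZMod 2) :=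
      ZMod.cast_intCast (by norm_num : 2 ∣ 4) P.a
    rw [P.ha4, h0] at hcast
    revert hcast
    decide
  have hc_odd : ¬ (2 : ℤ) ∣ P.c := by
    intro h
    have hcp : (2 : ℤ) ∣ P.c ^ P.p := dvd_pow h P.hp0
    have hbp : (2 : ℤ) ∣ P.b ^ P.p := dvd_pow hb_even P.hp0
    have hap : (2 : ℤ) ∣ P.a ^ P.p := by
      have : P.a ^ P.p = P.c ^ P.p - P.b ^ P.p := by linarith
      rw [this]
      exact dvd_sub hcp hbp
    exact ha_odd (Int.prime_two.dvd_of_dvd_pow hap)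
  -- `a, c ≠ ±1`
  have hc1 : P.c ≠ 1 := by
    intro h
    apply auxPrime_pow_add_pow_ne_one P.a P.b P.ha0 P.hb0 P.p hp_odd hp3
    rw [hFLT, h, one_pow]
  have hc2 : P.c ≠ -1 := by
    intro h
    apply auxPrime_pow_add_pow_ne_neg_one P.a P.b P.ha0 P.hb0 P.p hp_odd hp3
    rw [hFLT, h, hp_odd.neg_one_pow]
  have hnegb : (-P.b) ^ P.p = -(P.b ^ P.p) := hp_odd.neg_pow _
  have ha1 : P.a ≠ 1 := by
    intro h
    apply auxPrime_pow_add_pow_ne_one P.c (-P.b) P.hc0 (neg_ne_zero.mpr P.hb0) P.p hp_odd hp3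
    rw [hnegb, ← hFLT, h, one_pow]
    ring
  have ha2 : P.a ≠ -1 := by
    intro h
    apply auxPrime_pow_add_pow_ne_neg_one P.c (-P.b) P.hc0 (neg_ne_zero.mpr P.hb0) P.p hp_odd hp3
    rw [hnegb, ← hFLT, h, hp_odd.neg_one_pow]
    ring
  obtain ⟨q₁, hq₁, hq₁2, hq₁a⟩ := auxPrime_exists_prime_dvd_of_odd P.a ha_odd ha1 ha2
  obtain ⟨q₂, hq₂, hq₂2, hq₂c⟩ := auxPrime_exists_prime_dvd_of_odd P.c hc_odd hc1 hc2
  have hne : q₁ ≠ q₂ := by
    rintro rfl
    have hdvd : (q₁ : ℤ) ∣ gcd P.a P.c := dvd_gcd hq₁a hq₂c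
    rw [P.hgcdac] at hdvd
    have : (q₁ : ℤ) = 1 ∨ (q₁ : ℤ) = -1 := Int.isUnit_iff.mp (isUnit_of_dvd_one hdvd)
    rcases this with h | h
    · exact hq₁.one_lt.ne' (by exact_mod_cast h)
    · have : (0 : ℤ) ≤ (q₁ : ℤ) := Int.natCast_nonneg _
      omega
  by_cases h : q₁ = P.p
  · refine ⟨q₂, hq₂, hq₂2, ?_, Or.inr hq₂c⟩
    rintro rfl
    exact hne h
  · exact ⟨q₁, hq₁, hq₁2, h, Or.inl hq₁a⟩

/-- There is an odd prime `q ≠ p` dividing `a * b * c`. -/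
theorem exists_odd_prime_dvd_abc (P : FreyPackage) :
    ∃ q : ℕ, q.Prime ∧ q ≠ 2 ∧ q ≠ P.p ∧ (q : ℤ) ∣ P.a * P.b * P.c := by
  obtain ⟨q, hq, hq2, hqp, h | h⟩ := exists_odd_prime_dvd_a_or_c P
  · exact ⟨q, hq, hq2, hqp, dvd_mul_of_dvd_left (dvd_mul_of_dvd_left h _) _⟩
  · exact ⟨q, hq, hq2, hqp, dvd_mul_of_dvd_right h _⟩

end Fermat.Agent.S13
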