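import Mathlib
import Fermat.Agent.S05.LamHom
import Fermat.Agent.S05.FormalGroup
import Fermat.Agent.S05.Frey
import Fermat.Agent.S05.Transfer
import Fermat.Agent.S54.Frobenius
import Fermat.Agent.S13.AuxPrime

/-!
# S13 team, block [M3]: the `p`-torsion of the Frey curve has at most `p²` elements

OWNER: helper50 (only the owner edits this file).

At an odd prime `q ≠ p` of multiplicative reduction, the approximate Tate parameter `lamP` of the
S05 library is a homomorphism from the points of the short model to `Kˣ / U`,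
`U = (1 + m) r^(2ℤ)`, with kernel inside the kernel of reduction, which has no `p`-torsion.
Hence the `p`-torsion injects into the `p`-torsion of `Kˣ / U`, which has at most `p²` elements:
a class is determined by an integer mod `p` and a `p`-th root of unity in the residue field.

Main export: `Fermat.Agent.S13.CardBound.frey_tors_finite_card_le`.
-/

set_option autoImplicit false

namespace Fermat.Agent.S13.CardBound

open WeierstrassCurve Fermat.Agent.S05

section Core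

variable {K : Type*} [Field K]

/-- If `w ^ p ∈ 1 + m` then `w` is a unit of the valuation ring. -/
theorem val_eq_one_of_pow_sub_one (A : ValuationSubring K) {p : ℕ} (hp : p ≠ 0) {w : K}
    (hw : w ^ p - 1 ∈ A.nonunits) : A.valuation w = 1 := by
  have h1 : A.valuation (w ^ p - 1) < 1 := A.mem_nonunits_iff.mp hw
  have h2 : A.valuation (1 + (w ^ p - 1)) = 1 := Valuation.map_one_add_of_lt _ h1
  rw [add_sub_cancel, map_pow] at h2
  exact (pow_eq_one_iff_of_nonneg zero_le hp).mp h2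

variable [DecidableEq K]

variable (A : ValuationSubring K) {e₁ e₂ b : K}

/-- A `p`-torsion point has a parameter whose `p`-th power lies in `(1 + m) r^(2ℤ)`; after
multiplying by a power of a fixed `p`-th root `s` of `r²` it becomes a `p`-th root of unity
modulo `m`. -/
theorem exists_invariant (hA2 : A.valuation (2 : K) = 1) (he₁ : e₁ ∈ A.nonunits)
    (he₁0 : e₁ ≠ 0) (he₂ : A.valuation e₂ = 1) (hb : b ^ 2 = -e₂) {p : ℕ}
    {s : K} (hs : s ^ p = (-e₁ / (16 * e₂)) ^ 2)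
    {P : (shortCurve (-(e₁ + e₂)) (e₁ * e₂)).toAffine.Point} (hP : p • P = 0) :
    ∃ j : ℤ, (lamP A e₁ e₂ b P * s ^ j) ^ p - 1 ∈ A.nonunits := by
  have hN := LamHom.nodeHyp hA2 he₁ he₁0 he₂
  have h1 := lamP_nsmul hA2 he₁ he₁0 he₂ hb p P
  rw [hP] at h1
  have h0 : lamP A e₁ e₂ b (0 : (shortCurve (-(e₁ + e₂)) (e₁ * e₂)).toAffine.Point) = 1 := rfl
  rw [h0] at h1
  have h2 := InU.inv hN h1
  rw [one_div, inv_inv] at h2
  obtain ⟨j, hj⟩ := h2
  refine ⟨j, ?_⟩
  have e : (lamP A e₁ e₂ b P * s ^ j) ^ p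
      = lamP A e₁ e₂ b P ^ p * ((-e₁ / (16 * e₂)) ^ 2) ^ j := by
    rw [mul_pow, ← hs, ← zpow_natCast (s ^ j) p, ← zpow_mul, ← zpow_natCast s p, ← zpow_mul,
      mul_comm (p : ℤ) j]
  rw [e]
  exact hj

/-- Two `p`-torsion points with the same invariants (exponent mod `p`, residue class) are equal. -/
theorem eq_of_invariants (hA2 : A.valuation (2 : K) = 1) (he₁ : e₁ ∈ A.nonunits)
    (he₁0 : e₁ ≠ 0) (he₂ : A.valuation e₂ = 1) (hb : b ^ 2 = -e₂) {p : ℕ} (hp0 : p ≠ 0)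
    (hpv : A.valuation (p : K) = 1) {s : K} (hs : s ^ p = (-e₁ / (16 * e₂)) ^ 2)
    {P Q : (shortCurve (-(e₁ + e₂)) (e₁ * e₂)).toAffine.Point} (hP : p • P = 0) (hQ : p • Q = 0)
    {j j' i : ℤ} (hjj : j - j' = p * i)
    (hw : lamP A e₁ e₂ b P * s ^ j - lamP A e₁ e₂ b Q * s ^ j' ∈ A.nonunits)
    (hw' : (lamP A e₁ e₂ b Q * s ^ j') ^ p - 1 ∈ A.nonunits) : P = Q := by
  have hN := LamHom.nodeHyp hA2 he₁ he₁0 he₂
  have hu : lamP A e₁ e₂ b P ≠ 0 := lamP_ne_zero hA2 he₁ he₁0 he₂ hb P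
  have hu' : lamP A e₁ e₂ b Q ≠ 0 := lamP_ne_zero hA2 he₁ he₁0 he₂ hb Q
  have hn : lamP A e₁ e₂ b (-Q) ≠ 0 := lamP_ne_zero hA2 he₁ he₁0 he₂ hb (-Q)
  have hr2 : (-e₁ / (16 * e₂)) ^ 2 ≠ 0 := pow_ne_zero 2 hN.r_ne
  have hs0 : s ≠ 0 := by
    rintro rfl
    rw [zero_pow hp0] at hs
    exact hr2 hs.symm
  have hv' : A.valuation (lamP A e₁ e₂ b Q * s ^ j') = 1 := val_eq_one_of_pow_sub_one A hp0 hw'
  have hw'0 : lamP A e₁ e₂ b Q * s ^ j' ≠ 0 := mul_ne_zero hu' (zpow_ne_zero _ hs0)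
  -- the quotient of the parameters lies in `U`
  have hquot : InU A (-e₁ / (16 * e₂)) (lamP A e₁ e₂ b P / lamP A e₁ e₂ b Q) := by
    refine ⟨i, ?_⟩
    have e1 : ((-e₁ / (16 * e₂)) ^ 2) ^ i = s ^ j / s ^ j' := by
      rw [← hs, ← zpow_natCast s p, ← zpow_mul, ← hjj, zpow_sub₀ hs0]
    have e2 : lamP A e₁ e₂ b P / lamP A e₁ e₂ b Q * ((-e₁ / (16 * e₂)) ^ 2) ^ i - 1
        = (lamP A e₁ e₂ b P * s ^ j - lamP A e₁ e₂ b Q * s ^ j') /
          (lamP A e₁ e₂ b Q * s ^ j') := by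
      rw [e1]
      have hsj' : s ^ j' ≠ 0 := zpow_ne_zero _ hs0
      field_simp
    rw [e2, A.mem_nonunits_iff, map_div₀, hv', div_one]
    exact A.mem_nonunits_iff.mp hw
  -- hence the parameter of the difference lies in `U`
  have hadd := lamP_add hA2 he₁ he₁0 he₂ hb P (-Q)
  have hneg := lamP_neg hA2 he₁ he₁0 he₂ hb Q
  have hdiff : InU A (-e₁ / (16 * e₂)) (lamP A e₁ e₂ b (P + -Q)) := by
    have e3 : lamP A e₁ e₂ b (P + -Q)
        = lamP A e₁ e₂ b (P + -Q) / (lamP A e₁ e₂ b P * lamP A e₁ e₂ b (-Q)) *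
          (lamP A e₁ e₂ b P / lamP A e₁ e₂ b Q) *
          (lamP A e₁ e₂ b Q * lamP A e₁ e₂ b (-Q)) := by
      field_simp
    rw [e3]
    exact InU.mul hN (InU.mul hN hadd hquot) hneg
  have hE1 : InE1 A (P + -Q) := lamP_kernel hA2 he₁ he₁0 he₂ hb _ hdiff
  have htors : p • (P + -Q) = 0 := by
    rw [smul_add, smul_neg, hP, hQ, neg_zero, add_zero]
  have he₂A : e₂ ∈ A := (A.valuation_le_one_iff _).mp he₂.le
  have he₁A : e₁ ∈ A := A.nonunits_le he₁
  have hzero : P + -Q = 0 :=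
    F1_inE1 A (shortCurve (-(e₁ + e₂)) (e₁ * e₂)) A.zero_mem (neg_mem (add_mem he₁A he₂A))
      A.zero_mem (mul_mem he₁A he₂A) A.zero_mem hpv hE1 htors
  exact add_neg_eq_zero.mp hzero

/-- The `p`-torsion of the short model at a place of multiplicative reduction prime to `2p` is
finite with at most `p²` elements. -/
theorem core_finite_card_le (hA2 : A.valuation (2 : K) = 1) (he₁ : e₁ ∈ A.nonunits)
    (he₁0 : e₁ ≠ 0) (he₂ : A.valuation e₂ = 1) (hb : b ^ 2 = -e₂) {p : ℕ} (hp0 : p ≠ 0)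
    (hpv : A.valuation (p : K) = 1) {s : K} (hs : s ^ p = (-e₁ / (16 * e₂)) ^ 2) :
    {T : (shortCurve (-(e₁ + e₂)) (e₁ * e₂)).toAffine.Point | p • T = 0}.Finite ∧
      {T : (shortCurve (-(e₁ + e₂)) (e₁ * e₂)).toAffine.Point | p • T = 0}.ncard ≤ p ^ 2 := by
  classical
  have : NeZero p := ⟨hp0⟩
  set S : Set (shortCurve (-(e₁ + e₂)) (e₁ * e₂)).toAffine.Point := {T | p • T = 0} with hS
  -- the invariants of a torsion point
  have hex : ∀ T : (shortCurve (-(e₁ + e₂)) (e₁ * e₂)).toAffine.Point, p • T = 0 →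
      ∃ j : ℤ, (lamP A e₁ e₂ b T * s ^ j) ^ p - 1 ∈ A.nonunits := fun T hT =>
    exists_invariant A hA2 he₁ he₁0 he₂ hb hs hT
  choose J hJ using hex
  have hmem : ∀ (T : (shortCurve (-(e₁ + e₂)) (e₁ * e₂)).toAffine.Point) (hT : p • T = 0),
      lamP A e₁ e₂ b T * s ^ J T hT ∈ A := fun T hT =>
    (A.valuation_le_one_iff _).mp (val_eq_one_of_pow_sub_one A hp0 (hJ T hT)).le
  let g : (shortCurve (-(e₁ + e₂)) (e₁ * e₂)).toAffine.Point →
      ZMod p × IsLocalRing.ResidueField A := fun T =>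
    if hT : p • T = 0 then
      ((J T hT : ZMod p), IsLocalRing.residue A ⟨lamP A e₁ e₂ b T * s ^ J T hT, hmem T hT⟩)
    else (0, 0)
  let F : Finset (ZMod p × IsLocalRing.ResidueField A) :=
    (Finset.univ : Finset (ZMod p)) ×ˢ
      Polynomial.nthRootsFinset p (1 : IsLocalRing.ResidueField A)
  have hFcard : F.card ≤ p ^ 2 := by
    rw [Finset.card_product, Finset.card_univ, ZMod.card, pow_two]
    refine Nat.mul_le_mul_left p ?_
    unfold Polynomial.nthRootsFinset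
    exact (Multiset.toFinset_card_le _).trans (Polynomial.card_nthRoots p _)
  have hmaps : ∀ T ∈ S, g T ∈ (F : Set (ZMod p × IsLocalRing.ResidueField A)) := by
    intro T hT
    have hT' : p • T = 0 := hT
    simp only [g, dif_pos hT', F, Finset.coe_product, Finset.coe_univ, Set.mem_prod, Set.mem_univ,
      true_and, Finset.mem_coe]
    rw [Polynomial.mem_nthRootsFinset (Nat.pos_of_ne_zero hp0), ← map_pow, ← sub_eq_zero,
      ← map_one (IsLocalRing.residue A), ← map_sub, IsLocalRing.residue_eq_zero_iff,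
      ← ValuationSubring.coe_mem_nonunits_iff]
    exact hJ T hT'
  have hinj : Set.InjOn g S := by
    intro T hT T' hT' hg
    have h1 : p • T = 0 := hT
    have h2 : p • T' = 0 := hT'
    simp only [g, dif_pos h1, dif_pos h2, Prod.mk.injEq] at hg
    obtain ⟨hg1, hg2⟩ := hg
    obtain ⟨i, hi⟩ := (ZMod.intCast_eq_intCast_iff_dvd_sub _ _ p).mp hg1.symm
    have hw : lamP A e₁ e₂ b T * s ^ J T h1 - lamP A e₁ e₂ b T' * s ^ J T' h2 ∈ A.nonunits := by
      rw [← sub_eq_zero, ← map_sub, IsLocalRing.residue_eq_zero_iff,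
        ← ValuationSubring.coe_mem_nonunits_iff] at hg2
      exact hg2
    exact eq_of_invariants A hA2 he₁ he₁0 he₂ hb hp0 hpv hs h1 h2 hi hw (hJ T' h2)
  refine ⟨Set.Finite.of_injOn hmaps hinj F.finite_toSet, ?_⟩
  calc S.ncard ≤ (F : Set (ZMod p × IsLocalRing.ResidueField A)).ncard :=
        Set.ncard_le_ncard_of_injOn g hmaps hinj F.finite_toSet
    _ = F.card := Set.ncard_coe_finset F
    _ ≤ p ^ 2 := hFcard

end Core

section FreyWiring

open WeierstrassCurve.Affine WeierstrassCurve.Affine.Point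

local notation "Qbar" => AlgebraicClosure ℚ

/-- The cardinality bound for the `p`-torsion of the Frey curve, from a short model
`Y² = X (X - e₁) (X - e₂)` with multiplicative reduction at a valuation subring prime to `2p`. -/
theorem frey_card_of_short (P : FreyPackage) (A : ValuationSubring Qbar)
    (hA2 : A.valuation (2 : Qbar) = 1) (hpv : A.valuation (P.p : Qbar) = 1) (r e₁ e₂ : Qbar)
    (h₂ : 4 * (freyBar P).a₂ + 1 = -(e₁ + e₂) - 3 * r)
    (h₄ : 16 * (freyBar P).a₄ = 3 * r ^ 2 - 2 * (-(e₁ + e₂)) * r + e₁ * e₂)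
    (h₆ : 64 * (freyBar P).a₆ = -r ^ 3 + (-(e₁ + e₂)) * r ^ 2 - (e₁ * e₂) * r)
    (he₁ : e₁ ∈ A.nonunits) (he₁0 : e₁ ≠ 0) (he₂ : A.valuation e₂ = 1) :
    Finite (Submodule.torsionBy ℤ (P.freyCurve⁄Qbar).Point P.p) ∧
      Nat.card (Submodule.torsionBy ℤ (P.freyCurve⁄Qbar).Point P.p) ≤ P.p ^ 2 := by
  obtain ⟨Φ, hinj, -⟩ :
      ∃ Φ : (P.freyCurve⁄Qbar).Point →+ (shortCurve (-(e₁ + e₂)) (e₁ * e₂)).toAffine.Point,
        Function.Injective Φ ∧
        ∀ (x y : Qbar) (h : (P.freyCurve⁄Qbar).Nonsingular x y),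
          ∃ h' : (shortCurve (-(e₁ + e₂)) (e₁ * e₂)).toAffine.Nonsingular
              (4 * x - r) (8 * y + 4 * x),
            Φ (Affine.Point.some x y h) = Affine.Point.some (4 * x - r) (8 * y + 4 * x) h' :=
    exists_toShort (freyBar P) (freyBar_a₁ P) (freyBar_a₃ P) qbar_two_ne_zero r
      (-(e₁ + e₂)) (e₁ * e₂) h₂ h₄ h₆
  obtain ⟨b, hb⟩ := qbar_exists_sq (-e₂)
  obtain ⟨s, hs⟩ := IsAlgClosed.exists_pow_nat_eq ((-e₁ / (16 * e₂)) ^ 2)
    (Nat.pos_of_ne_zero P.hp0)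
  obtain ⟨hfin, hcard⟩ := core_finite_card_le A hA2 he₁ he₁0 he₂ hb P.hp0 hpv hs
  have hmem : ∀ x : Submodule.torsionBy ℤ (P.freyCurve⁄Qbar).Point P.p,
      Φ x.1 ∈ {T : (shortCurve (-(e₁ + e₂)) (e₁ * e₂)).toAffine.Point | P.p • T = 0} := by
    intro x
    have hx : ((P.p : ℕ) : ℤ) • x.1 = 0 := (Submodule.mem_torsionBy_iff _ _).1 x.2
    rw [natCast_zsmul] at hx
    show P.p • Φ x.1 = 0
    rw [← map_nsmul, hx, _root_.map_zero]
  let f : Submodule.torsionBy ℤ (P.freyCurve⁄Qbar).Point P.p →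
      {T : (shortCurve (-(e₁ + e₂)) (e₁ * e₂)).toAffine.Point | P.p • T = 0} :=
    fun x => ⟨Φ x.1, hmem x⟩
  have hf : Function.Injective f := by
    intro x y hxy
    apply Subtype.ext
    apply hinj
    exact congrArg Subtype.val hxy
  have : Finite {T : (shortCurve (-(e₁ + e₂)) (e₁ * e₂)).toAffine.Point | P.p • T = 0} :=
    hfin.to_subtype
  refine ⟨Finite.of_injective f hf, ?_⟩
  calc Nat.card (Submodule.torsionBy ℤ (P.freyCurve⁄Qbar).Point P.p)
      ≤ Nat.card {T : (shortCurve (-(e₁ + e₂)) (e₁ * e₂)).toAffine.Point | P.p • T = 0} :=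
        Nat.card_le_card_of_injective f hf
    _ = {T : (shortCurve (-(e₁ + e₂)) (e₁ * e₂)).toAffine.Point | P.p • T = 0}.ncard :=
        Nat.card_coe_set_eq _
    _ ≤ P.p ^ 2 := hcard

/-- **[M3]** The `p`-torsion of the Frey curve over `AlgebraicClosure ℚ` is finite with at most
`p²` elements. -/
theorem frey_tors_finite_card_le (P : FreyPackage) :
    Finite (Submodule.torsionBy ℤ (P.freyCurve⁄Qbar).Point P.p) ∧
      Nat.card (Submodule.torsionBy ℤ (P.freyCurve⁄Qbar).Point P.p) ≤ P.p ^ 2 := by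
  obtain ⟨q, hq, hq2, hqp, hdvd⟩ := Fermat.Agent.S13.exists_odd_prime_dvd_a_or_c P
  obtain ⟨A, -, hA, -⟩ := Fermat.Agent.S54.exists_isFrobeniusAt q hq
  have hA2 := frey_val_two A hq hq2 hA
  have hpv := frey_val_p P A hq hqp hA
  rcases hdvd with ha | hc
  · obtain ⟨h₂, h₄, h₆⟩ := freyBar_roots_a P
    obtain ⟨he₁, he₁0, he₂⟩ := frey_mult_a P A hq hA ha
    exact frey_card_of_short P A hA2 hpv 0 ((P.a : Qbar) ^ P.p) (-(P.b : Qbar) ^ P.p)
      h₂ h₄ h₆ he₁ he₁0 he₂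
  · obtain ⟨h₂, h₄, h₆⟩ := freyBar_roots_c P
    obtain ⟨he₁, he₁0, he₂⟩ := frey_mult_c P A hq hA hc
    exact frey_card_of_short P A hA2 hpv ((P.a : Qbar) ^ P.p) ((-(P.c : Qbar)) ^ P.p)
      (-(P.a : Qbar) ^ P.p) h₂ h₄ h₆ he₁ he₁0 he₂

theorem frey_tors_finite (P : FreyPackage) :
    Finite (Submodule.torsionBy ℤ (P.freyCurve⁄Qbar).Point P.p) :=
  (frey_tors_finite_card_le P).1

theorem frey_tors_card_le (P : FreyPackage) :
    Nat.card (Submodule.torsionBy ℤ (P.freyCurve⁄Qbar).Point P.p) ≤ P.p ^ 2 :=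
  (frey_tors_finite_card_le P).2

end FreyWiring

end Fermat.Agent.S13.CardBound
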