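/-
S13 team, block [M] (deputy helper18): generic point of the short curve `y² = x³ + αx² + βx`.

Setting: `L` a field (constants), `F` an extension field containing a transcendental `x` and a `y`
with `y² = x³ + αx² + βx` (`GenData`).  The generic point `Pgen = (x, y)` lives on
`shortCurve (φ α) (φ β)` over `F` (`φ = algebraMap L F`), constants are embedded by `constHom`.
Valuation subrings of `F` containing `L` with prescribed centre come from Chevalley's theorem.
`XData G k` packages a representation `xco (k • Pgen) = N(x) / D(x)`.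
-/
import Fermat.Agent.S05.FormalGroup
import Fermat.Agent.S05.Reduction
import Fermat.Agent.S05.PB_Formulas

set_option autoImplicit false

namespace Fermat.Agent.S13

open WeierstrassCurve Polynomial Fermat.Agent.S05

/-! ### Transport of points along an equality of curves -/

section Congr

variable {K : Type*} [Field K] [DecidableEq K]

/-- Points of equal curves. -/
def pointCongr {W W' : WeierstrassCurve K} (e : W = W') :
    W.toAffine.Point ≃+ W'.toAffine.Point := by
  subst e
  exact AddEquiv.refl _

theorem pointCongr_some {W W' : WeierstrassCurve K} (e : W = W') {x y : K}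
    (h : W.toAffine.Nonsingular x y) :
    pointCongr e (Affine.Point.some x y h) = Affine.Point.some x y (e ▸ h) := by
  subst e
  rfl

end Congr

/-! ### The homomorphism on points induced by a field homomorphism -/

section MapHom

variable {L : Type*} {F : Type*} [Field L] [Field F]

/-- The map on points induced by a field homomorphism. -/
noncomputable def mapFun (f : L →+* F) (W : WeierstrassCurve L) :
    W.toAffine.Point → (W.map f).toAffine.Point
  | .zero => 0
  | .some x y h =>
    .some (f x) (f y) ((Affine.map_nonsingular (W := W.toAffine) f.injective x y).mpr h)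

theorem mapFun_some (f : L →+* F) (W : WeierstrassCurve L) {x y : L}
    (h : W.toAffine.Nonsingular x y) :
    mapFun f W (Affine.Point.some x y h) = Affine.Point.some (f x) (f y)
      ((Affine.map_nonsingular (W := W.toAffine) f.injective x y).mpr h) := rfl

theorem mapFun_zero (f : L →+* F) (W : WeierstrassCurve L) :
    mapFun f W (0 : W.toAffine.Point) = 0 := rfl

variable [DecidableEq L] [DecidableEq F]

theorem mapFun_add (f : L →+* F) (W : WeierstrassCurve L) (P Q : W.toAffine.Point) :
    mapFun f W (P + Q) = mapFun f W P + mapFun f W Q := by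
  rcases P with _ | ⟨x₁, y₁, h₁⟩
  · change mapFun f W (0 + Q) = 0 + mapFun f W Q
    rw [zero_add, zero_add]
  rcases Q with _ | ⟨x₂, y₂, h₂⟩
  · change mapFun f W (Affine.Point.some x₁ y₁ h₁ + 0) = mapFun f W (Affine.Point.some x₁ y₁ h₁) + 0
    rw [add_zero, add_zero]
  by_cases hxy : x₁ = x₂ ∧ y₁ = W.toAffine.negY x₂ y₂
  · rw [Affine.Point.add_of_Y_eq hxy.left hxy.right, mapFun_some, mapFun_some]
    exact (Affine.Point.add_of_Y_eq (congr_arg _ hxy.left)
      (by rw [hxy.right, Affine.map_negY])).symm
  · rw [Affine.Point.add_some hxy, mapFun_some, mapFun_some, mapFun_some]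
    have h' : ¬(f x₁ = f x₂ ∧ f y₁ = (W.map f).toAffine.negY (f x₂) (f y₂)) := by
      rintro ⟨h1, h2⟩
      rw [Affine.map_negY] at h2
      exact hxy ⟨f.injective h1, f.injective h2⟩
    rw [Affine.Point.add_some h']
    simp only [Affine.Point.some.injEq]
    rw [Affine.map_slope, Affine.map_addX, Affine.map_addY]
    exact ⟨rfl, rfl⟩

/-- The homomorphism on points induced by a field homomorphism. -/
noncomputable def mapHom (f : L →+* F) (W : WeierstrassCurve L) :
    W.toAffine.Point →+ (W.map f).toAffine.Point where
  toFun := mapFun f W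
  map_zero' := rfl
  map_add' := mapFun_add f W

end MapHom

/-! ### Constant points -/

section Const

variable {L : Type*} [Field L]

theorem shortCurve_map (F : Type*) [Field F] [Algebra L F] (α β : L) :
    (shortCurve α β).map (algebraMap L F) = shortCurve (algebraMap L F α) (algebraMap L F β) := by
  ext <;> simp [shortCurve]

variable [DecidableEq L] (F : Type*) [Field F] [Algebra L F] [DecidableEq F]

/-- Constant points: the homomorphism `E(L) → E(F)`. -/
noncomputable def constHom (α β : L) :
    (shortCurve α β).toAffine.Point →+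
      (shortCurve (algebraMap L F α) (algebraMap L F β)).toAffine.Point :=
  (pointCongr (shortCurve_map F α β)).toAddMonoidHom.comp (mapHom (algebraMap L F) (shortCurve α β))

theorem constHom_some (α β : L) {x₀ y₀ : L} (h : (shortCurve α β).toAffine.Nonsingular x₀ y₀) :
    ∃ h' : (shortCurve (algebraMap L F α) (algebraMap L F β)).toAffine.Nonsingular
        (algebraMap L F x₀) (algebraMap L F y₀),
      constHom F α β (Affine.Point.some x₀ y₀ h) = Affine.Point.some _ _ h' := by
  refine ⟨(shortCurve_map F α β) ▸ ((Affine.map_nonsingular (W := (shortCurve α β).toAffine)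
    (algebraMap L F).injective x₀ y₀).mpr h), ?_⟩
  have h1 : constHom F α β (Affine.Point.some x₀ y₀ h) =
      pointCongr (shortCurve_map F α β)
        (mapFun (algebraMap L F) (shortCurve α β) (Affine.Point.some x₀ y₀ h)) := rfl
  rw [h1, mapFun_some, pointCongr_some]

theorem constHom_zero (α β : L) : constHom F α β 0 = 0 := map_zero _

theorem constHom_injective (α β : L) : Function.Injective (constHom F α β) := by
  have h1 : Function.Injective (mapFun (algebraMap L F) (shortCurve α β)) := by
    rintro (_ | ⟨x₁, y₁, h₁⟩) (_ | ⟨x₂, y₂, h₂⟩) h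
    · rfl
    · rw [mapFun_some] at h
      exact absurd h.symm (Affine.Point.some_ne_zero _)
    · rw [mapFun_some] at h
      exact absurd h (Affine.Point.some_ne_zero _)
    · rw [mapFun_some, mapFun_some] at h
      have := Affine.Point.some.inj h
      have hx := (algebraMap L F).injective this.1
      have hy := (algebraMap L F).injective this.2
      subst hx; subst hy; rfl
  intro P Q hPQ
  unfold constHom at hPQ
  rw [AddMonoidHom.comp_apply, AddMonoidHom.comp_apply] at hPQ
  exact h1 ((pointCongr (shortCurve_map F α β)).injective hPQ)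

theorem constHom_eq_zero_iff (α β : L) (P : (shortCurve α β).toAffine.Point) :
    constHom F α β P = 0 ↔ P = 0 := by
  rw [← constHom_zero F α β]
  exact (constHom_injective F α β).eq_iff

end Const

/-! ### Valuation subrings containing the constants -/

section ValSub

variable {L : Type*} {F : Type*} [Field L] [Field F] [Algebra L F]

/-- Chevalley: for `t` transcendental over `L` and `c : L` there is a valuation subring of `F`
containing the constants in which `t - c` is a non-unit. -/
theorem exists_valSub (t : F) (ht : Transcendental L t) (c : L) :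
    ∃ B : ValuationSubring F, (∀ a : L, algebraMap L F a ∈ B) ∧
      t - algebraMap L F c ∈ B.nonunits := by
  let R : Subring F := (Algebra.adjoin L {t}).toSubring
  have ht' : t ∈ R := Algebra.subset_adjoin (Set.mem_singleton t)
  have hc' : ∀ a : L, algebraMap L F a ∈ R := fun a => (Algebra.adjoin L {t}).algebraMap_mem a
  let e : R := ⟨t - algebraMap L F c, R.sub_mem ht' (hc' c)⟩
  have hI : Ideal.span {e} ≠ ⊤ := by
    intro h
    rw [Ideal.span_singleton_eq_top] at h
    obtain ⟨g, hg⟩ := h.exists_right_inv
    have hg' : (g : F) ∈ Algebra.adjoin L {t} := g.2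
    rw [Algebra.adjoin_singleton_eq_range_aeval] at hg'
    obtain ⟨q, hq⟩ := hg'
    have hq' : aeval t q = (g : F) := hq
    have hg2 : (t - algebraMap L F c) * (g : F) = 1 := congrArg Subtype.val hg
    have h1 : aeval t ((X - C c) * q - 1) = 0 := by
      simp only [map_sub, map_mul, aeval_X, aeval_C, map_one, hq', hg2, sub_self]
    have h2 := (transcendental_iff.mp ht) _ h1
    have h3 := congrArg (eval c) h2
    simp at h3
  obtain ⟨B, hB1, hB2⟩ := Ideal.image_subset_nonunits_valuationSubring _ hI
  exact ⟨B, fun a => hB1 (hc' a), hB2 ⟨e, Ideal.subset_span (Set.mem_singleton e), rfl⟩⟩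

/-- Nonzero constants are units of a valuation subring containing the constants. -/
theorem val_const_eq_one (B : ValuationSubring F) (hB : ∀ a : L, algebraMap L F a ∈ B)
    {a : L} (ha : a ≠ 0) : B.valuation (algebraMap L F a) = 1 := by
  have h1 : B.valuation (algebraMap L F a) ≤ 1 := (B.valuation_le_one_iff _).mpr (hB a)
  have h2 : B.valuation (algebraMap L F a⁻¹) ≤ 1 := (B.valuation_le_one_iff _).mpr (hB a⁻¹)
  have h3 : B.valuation (algebraMap L F a) * B.valuation (algebraMap L F a⁻¹) = 1 := by
    rw [← map_mul, ← map_mul, mul_inv_cancel₀ ha, map_one, map_one]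
  refine le_antisymm h1 ?_
  calc (1 : _) = B.valuation (algebraMap L F a) * B.valuation (algebraMap L F a⁻¹) := h3.symm
    _ ≤ B.valuation (algebraMap L F a) * 1 := mul_le_mul' le_rfl h2
    _ = _ := mul_one _

/-- A constant which is a non-unit of a valuation subring containing the constants is zero. -/
theorem const_eq_zero_of_val_lt_one (B : ValuationSubring F) (hB : ∀ a : L, algebraMap L F a ∈ B)
    {a : L} (ha : B.valuation (algebraMap L F a) < 1) : a = 0 := by
  by_contra h
  exact absurd (val_const_eq_one B hB h) ha.ne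

/-- Nonzero natural numbers are units (characteristic zero constants). -/
theorem val_natCast_eq_one [CharZero L] (B : ValuationSubring F)
    (hB : ∀ a : L, algebraMap L F a ∈ B) {k : ℕ} (hk : k ≠ 0) : B.valuation (k : F) = 1 := by
  have := val_const_eq_one B hB (a := (k : L)) (Nat.cast_ne_zero.mpr hk)
  rwa [map_natCast] at this

/-- Polynomials with constant coefficients take integral values at integral arguments. -/
theorem aeval_mem (B : ValuationSubring F) (hB : ∀ a : L, algebraMap L F a ∈ B) {t : F}
    (ht : t ∈ B) (P : L[X]) : aeval t P ∈ B := by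
  rw [aeval_eq_sum_range]
  refine Subring.sum_mem B.toSubring fun i _ => ?_
  rw [Algebra.smul_def]
  exact B.mul_mem _ _ (hB _) (pow_mem ht i)

/-- Specialisation: if `t ≡ c` then `P(t) ≡ P(c)`. -/
theorem aeval_sub_eval_mem_nonunits (B : ValuationSubring F)
    (hB : ∀ a : L, algebraMap L F a ∈ B) {t : F} {c : L}
    (ht : t - algebraMap L F c ∈ B.nonunits) (P : L[X]) :
    aeval t P - algebraMap L F (P.eval c) ∈ B.nonunits := by
  obtain ⟨Q, hQ⟩ := X_sub_C_dvd_sub_C_eval (a := c) (p := P)
  have h1 : aeval t P - algebraMap L F (P.eval c) = (t - algebraMap L F c) * aeval t Q := by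
    have := congrArg (aeval t) hQ
    simpa only [map_sub, map_mul, aeval_X, aeval_C] using this
  have htB : t ∈ B := by
    have : t = (t - algebraMap L F c) + algebraMap L F c := by ring
    rw [this]
    exact B.add_mem _ _ (B.nonunits_subset ht) (hB c)
  rw [h1, B.mem_nonunits_iff, map_mul]
  have h2 : B.valuation (aeval t Q) ≤ 1 := (B.valuation_le_one_iff _).mpr (aeval_mem B hB htB Q)
  have h3 : B.valuation (t - algebraMap L F c) < 1 := (B.mem_nonunits_iff).mp ht
  calc _ ≤ B.valuation (t - algebraMap L F c) * 1 := mul_le_mul' le_rfl h2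
    _ = _ := mul_one _
    _ < 1 := h3

end ValSub

/-! ### Generic point data -/

section Gen

/-- A generic point: `x` transcendental over the constants, `y² = x³ + αx² + βx`. -/
structure GenData (L : Type*) (F : Type*) [Field L] [Field F] [Algebra L F] (α β : L) where
  /-- the transcendental `x`-coordinate -/
  x : F
  /-- the `y`-coordinate -/
  y : F
  trans : Transcendental L x
  eqn : y ^ 2 = x ^ 3 + algebraMap L F α * x ^ 2 + algebraMap L F β * x

/-- Generic point data exist over the algebraic closure of the rational function field. -/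
theorem exists_genData (L : Type*) [Field L] (α β : L) :
    Nonempty (GenData L (AlgebraicClosure (RatFunc L)) α β) := by
  have hx : Transcendental L
      (algebraMap (RatFunc L) (AlgebraicClosure (RatFunc L)) RatFunc.X) :=
    (transcendental_algebraMap_iff
      (algebraMap (RatFunc L) (AlgebraicClosure (RatFunc L))).injective).mpr
      RatFunc.transcendental_X
  obtain ⟨y, hy⟩ := IsAlgClosed.exists_pow_nat_eq
    ((algebraMap (RatFunc L) (AlgebraicClosure (RatFunc L)) RatFunc.X) ^ 3
      + algebraMap L (AlgebraicClosure (RatFunc L)) α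
        * (algebraMap (RatFunc L) (AlgebraicClosure (RatFunc L)) RatFunc.X) ^ 2
      + algebraMap L (AlgebraicClosure (RatFunc L)) β
        * (algebraMap (RatFunc L) (AlgebraicClosure (RatFunc L)) RatFunc.X))
    (n := 2) (by norm_num)
  exact ⟨⟨_, y, hx, hy⟩⟩

variable {L : Type*} {F : Type*} [Field L] [Field F] [Algebra L F] {α β : L}

namespace GenData

variable (G : GenData L F α β)

/-- Nonzero polynomials do not vanish at `x`. -/
theorem aeval_ne_zero {P : L[X]} (hP : P ≠ 0) : aeval G.x P ≠ 0 :=
  fun h => hP (transcendental_iff.mp G.trans P h)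

theorem x_sub_ne_zero (c : L) : G.x - algebraMap L F c ≠ 0 := by
  have := G.aeval_ne_zero (P := X - C c) (X_sub_C_ne_zero c)
  simpa only [map_sub, aeval_X, aeval_C] using this

theorem x_ne_zero : G.x ≠ 0 := by
  have := G.x_sub_ne_zero 0
  simpa using this

/-- `x` is not a constant. -/
theorem x_ne_const (c : L) : G.x ≠ algebraMap L F c := fun h => G.x_sub_ne_zero c (by rw [h, sub_self])

theorem y_ne_zero (hβ : β ≠ 0) : G.y ≠ 0 := by
  intro h
  have h1 : aeval G.x (X ^ 3 + C α * X ^ 2 + C β * X : L[X]) = 0 := by
    simp only [map_add, map_mul, map_pow, aeval_X, aeval_C]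
    rw [← G.eqn, h]; ring
  have h2 := transcendental_iff.mp G.trans _ h1
  have h3 := congrArg (fun P : L[X] => P.coeff 1) h2
  simp [coeff_X_pow] at h3
  exact hβ h3

/-- The place at infinity: a valuation subring containing the constants with `x ∉ B`. -/
theorem exists_valSub_inf :
    ∃ B : ValuationSubring F, (∀ a : L, algebraMap L F a ∈ B) ∧ 1 < B.valuation G.x := by
  have ht : Transcendental L G.x⁻¹ := fun h => G.trans (IsAlgebraic.inv_iff.mp h)
  obtain ⟨B, hB, h⟩ := exists_valSub G.x⁻¹ ht 0
  refine ⟨B, hB, ?_⟩
  rw [map_zero, sub_zero, B.mem_nonunits_iff, map_inv₀] at h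
  have hpos : 0 < B.valuation G.x := zero_lt_iff.mpr ((_root_.map_ne_zero _).mpr G.x_ne_zero)
  exact (inv_lt_one₀ hpos).mp h

/-- A place over a constant point `(x₀, y₀)`, up to the sign of `y₀`. -/
theorem exists_valSub_at {x₀ y₀ : L} (h : y₀ ^ 2 = x₀ ^ 3 + α * x₀ ^ 2 + β * x₀) :
    ∃ B : ValuationSubring F, (∀ a : L, algebraMap L F a ∈ B) ∧
      G.x - algebraMap L F x₀ ∈ B.nonunits ∧
      (G.y - algebraMap L F y₀ ∈ B.nonunits ∨ G.y + algebraMap L F y₀ ∈ B.nonunits) := by
  obtain ⟨B, hB, hx⟩ := exists_valSub G.x G.trans x₀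
  refine ⟨B, hB, hx, ?_⟩
  have hxB : G.x ∈ B := by
    have : G.x = (G.x - algebraMap L F x₀) + algebraMap L F x₀ := by ring
    rw [this]
    exact B.add_mem _ _ (B.nonunits_subset hx) (hB x₀)
  have h' : (algebraMap L F y₀) ^ 2 = (algebraMap L F x₀) ^ 3
      + algebraMap L F α * (algebraMap L F x₀) ^ 2 + algebraMap L F β * algebraMap L F x₀ := by
    rw [← map_pow, h]; simp only [map_add, map_mul, map_pow]
  have key : (G.y - algebraMap L F y₀) * (G.y + algebraMap L F y₀)
      = (G.x - algebraMap L F x₀) * (G.x ^ 2 + G.x * algebraMap L F x₀ + (algebraMap L F x₀) ^ 2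
        + algebraMap L F α * (G.x + algebraMap L F x₀) + algebraMap L F β) := by
    linear_combination G.eqn - h'
  have hq : G.x ^ 2 + G.x * algebraMap L F x₀ + (algebraMap L F x₀) ^ 2
        + algebraMap L F α * (G.x + algebraMap L F x₀) + algebraMap L F β ∈ B :=
    B.add_mem _ _ (B.add_mem _ _ (B.add_mem _ _ (B.add_mem _ _ (pow_mem hxB 2)
      (B.mul_mem _ _ hxB (hB x₀))) (pow_mem (hB x₀) 2))
      (B.mul_mem _ _ (hB α) (B.add_mem _ _ hxB (hB x₀)))) (hB β)
  have h1 : B.valuation ((G.y - algebraMap L F y₀) * (G.y + algebraMap L F y₀)) < 1 := by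
    rw [key, map_mul]
    calc _ ≤ B.valuation (G.x - algebraMap L F x₀) * 1 :=
          mul_le_mul' le_rfl ((B.valuation_le_one_iff _).mpr hq)
      _ = _ := mul_one _
      _ < 1 := (B.mem_nonunits_iff).mp hx
  rw [B.mem_nonunits_iff, B.mem_nonunits_iff]
  by_contra hcon
  rw [not_or, not_lt, not_lt] at hcon
  rw [map_mul] at h1
  exact absurd h1 (not_lt.mpr (one_le_mul_of_one_le_of_one_le hcon.1 hcon.2))

variable [CharZero L]

include G in
theorem charZero : CharZero F :=
  have _ := G
  charZero_of_injective_algebraMap (algebraMap L F).injective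

theorem nonsingular (hβ : β ≠ 0) :
    (shortCurve (algebraMap L F α) (algebraMap L F β)).toAffine.Nonsingular G.x G.y := by
  have := G.charZero
  rw [Affine.nonsingular_iff]
  refine ⟨(PB.equation_iff _ _ _ _).mpr G.eqn, Or.inr ?_⟩
  simp only [shortCurve_a₁, shortCurve_a₃, zero_mul, sub_zero]
  intro h
  have h2 : (2 : F) * G.y = 0 := by linear_combination h
  rcases mul_eq_zero.mp h2 with h3 | h3
  · exact two_ne_zero h3
  · exact G.y_ne_zero hβ h3

/-- The generic point. -/
noncomputable def Pgen (hβ : β ≠ 0) :
    (shortCurve (algebraMap L F α) (algebraMap L F β)).toAffine.Point :=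
  Affine.Point.some G.x G.y (G.nonsingular hβ)

theorem Pgen_ne_zero (hβ : β ≠ 0) : G.Pgen hβ ≠ 0 := Affine.Point.some_ne_zero _

theorem xco_Pgen (hβ : β ≠ 0) : PB.xco (G.Pgen hβ) = G.x := rfl

variable [DecidableEq F]

/-- Multiples of the generic point are nonzero. -/
theorem nsmul_Pgen_ne_zero (hβ : β ≠ 0) {k : ℕ} (hk : k ≠ 0) : k • G.Pgen hβ ≠ 0 := by
  obtain ⟨B, hB, hx⟩ := G.exists_valSub_inf
  exact F1_short B _ _ (hB α) (hB β) k (val_natCast_eq_one B hB hk) (G.nonsingular hβ)
    (fun hmem => absurd ((B.valuation_le_one_iff _).mpr hmem) (not_le.mpr hx))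

end GenData

/-- A representation `x(k • Pgen) = N(x) / D(x)` with `N`, `D` coprime and `D` monic. -/
structure XData [CharZero L] [DecidableEq F] (G : GenData L F α β) (hβ : β ≠ 0) (k : ℕ) where
  /-- numerator -/
  N : L[X]
  /-- denominator -/
  D : L[X]
  monic : D.Monic
  coprime : IsCoprime N D
  rel : PB.xco (k • G.Pgen hβ) * aeval G.x D = aeval G.x N

end Gen

end Fermat.Agent.S13
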