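/-
S13 team, block [M], sub-block [MInf] (owner: helper43): behaviour at infinity.

Abstract core, independent of `MGen` (Mathlib + S05 library only).

* `MInf.xco_nsmul_inE1`: on the short curve `y² = x³ + αx² + βx` with `α, β ∈ B`, for a point
  `P ≠ 0` of the kernel of reduction and `k` a unit of `B`:
  `k • P ≠ 0`, `k • P` is in the kernel of reduction, and `k² · x(k • P) / x(P) ∈ 1 + 𝔪_B`.
* `MInf.aeval_div_pow_sub_leadingCoeff_mem`: if `B ⊇ L` and `x ∉ B`, then for `f ∈ L[X]`:
  `f(x) / x ^ deg f - lc f ∈ 𝔪_B`.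
* `MInf.natDegree_leadingCoeff_of_infinity`: if `D` is monic, `Xk · D(x) = N(x)` and
  `c · Xk / x ∈ 1 + 𝔪_B` with `c ∈ L`, then `deg N = deg D + 1` and `c · lc N = 1`.
-/
import Fermat.Agent.S05.FormalGroup
import Fermat.Agent.S05.PB_Formulas

set_option autoImplicit false

namespace Fermat.Agent.S13.MInf

open WeierstrassCurve Polynomial Fermat.Agent.S05 Fermat.Agent.S05.FormalGroup

/-! ### Principal units of a valuation -/

section U1

variable {F : Type*} [Field F] {Γ₀ : Type*} [LinearOrderedCommGroupWithZero Γ₀]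
  (v : Valuation F Γ₀)

lemma u1_val {a : F} (ha : v (a - 1) < 1) : v a = 1 := by
  have e : a = 1 + (a - 1) := by ring
  rw [e]
  exact v.map_one_add_of_lt ha

lemma u1_ne_zero {a : F} (ha : v (a - 1) < 1) : a ≠ 0 := by
  rintro rfl
  have := u1_val v ha
  simp at this

lemma u1_mul {a b : F} (ha : v (a - 1) < 1) (hb : v (b - 1) < 1) : v (a * b - 1) < 1 := by
  have e : a * b - 1 = (a - 1) * b + (b - 1) := by ring
  rw [e]
  refine v.map_add_lt ?_ hb
  rw [map_mul, u1_val v hb, mul_one]
  exact ha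

lemma u1_inv {a : F} (ha : v (a - 1) < 1) : v (a⁻¹ - 1) < 1 := by
  have h1 := u1_val v ha
  have ha0 : a ≠ 0 := u1_ne_zero v ha
  have e : a⁻¹ - 1 = -(a - 1) * a⁻¹ := by
    field_simp
    ring
  rw [e, map_mul, map_inv₀, h1, inv_one, mul_one, v.map_neg]
  exact ha

lemma u1_div {a b : F} (ha : v (a - 1) < 1) (hb : v (b - 1) < 1) : v (a / b - 1) < 1 := by
  rw [div_eq_mul_inv]
  exact u1_mul v ha (u1_inv v hb)

lemma u1_pow {a : F} (ha : v (a - 1) < 1) (n : ℕ) : v (a ^ n - 1) < 1 := by
  induction n with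
  | zero => simp
  | succ n ih => rw [pow_succ]; exact u1_mul v ih ha

/-- The "unit at infinity" of the short curve: for `1 < v x`, `(x² + αx + β)/x² ∈ 1 + 𝔪`. -/
lemma u1_short {α β x : F} (hα : v α ≤ 1) (hβ : v β ≤ 1) (hx : 1 < v x) :
    v ((x ^ 2 + α * x + β) / x ^ 2 - 1) < 1 := by
  have hx0 : x ≠ 0 := by
    rintro rfl
    simp at hx
  have hvx : 0 < v x := zero_lt_one.trans hx
  have hinv : v x⁻¹ < 1 := by
    rw [map_inv₀]
    exact inv_lt_one_of_one_lt₀ hx
  have e : (x ^ 2 + α * x + β) / x ^ 2 - 1 = α * x⁻¹ + β * x⁻¹ ^ 2 := by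
    field_simp
    ring
  rw [e]
  refine v.map_add_lt ?_ ?_
  · rw [map_mul]
    exact mul_lt_one_of_nonneg_of_lt_one_right hα zero_le hinv
  · rw [map_mul, map_pow]
    exact mul_lt_one_of_nonneg_of_lt_one_right hβ zero_le (pow_lt_one₀ zero_le hinv two_ne_zero)

/-- Algebraic core: two points at infinity of the short curve with chart coordinates
`z' ≡ k z` (second order), `k` a unit. -/
lemma core_val {α β x X z z' κ : F} (hα : v α ≤ 1) (hβ : v β ≤ 1) (hx : 1 < v x) (hX : 1 < v X)
    (hz : z ^ 2 * (x ^ 2 + α * x + β) = x) (hz' : z' ^ 2 * (X ^ 2 + α * X + β) = X)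
    (hκ : v κ = 1) (hzz : v (z' - κ * z) ≤ v z ^ 2) (hz1 : v z < 1) :
    v (κ ^ 2 * X / x - 1) < 1 := by
  have hx0 : x ≠ 0 := by
    rintro rfl
    simp at hx
  have hX0 : X ≠ 0 := by
    rintro rfl
    simp at hX
  have hz0 : z ≠ 0 := by
    rintro rfl
    rw [zero_pow two_ne_zero, zero_mul] at hz
    exact hx0 hz.symm
  have hκ0 : κ ≠ 0 := by
    rintro rfl
    simp at hκ
  have hvz : 0 < v z := by
    rw [Valuation.pos_iff]
    exact hz0
  have hu := u1_short v hα hβ hx
  have hU := u1_short v hα hβ hX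
  -- t = z' / (κ z) is a principal unit
  have ht : v (z' / (κ * z) - 1) < 1 := by
    have e : z' / (κ * z) - 1 = (z' - κ * z) / (κ * z) := by
      field_simp
    rw [e, map_div₀, map_mul, hκ, one_mul]
    rw [div_lt_one₀ hvz]
    refine lt_of_le_of_lt hzz ?_
    rw [sq]
    exact mul_lt_of_lt_one_left hvz hz1
  have ht0 := u1_ne_zero v ht
  have hu0 := u1_ne_zero v hu
  have hU0 := u1_ne_zero v hU
  have hz'0 : z' ≠ 0 := by
    rintro rfl
    rw [zero_div] at ht0
    exact ht0 rfl
  have hq : x ^ 2 + α * x + β ≠ 0 := by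
    intro h0
    rw [h0, zero_div] at hu0
    exact hu0 rfl
  have hQ : X ^ 2 + α * X + β ≠ 0 := by
    intro h0
    rw [h0, zero_div] at hU0
    exact hU0 rfl
  have key : κ ^ 2 * X / x
      = ((x ^ 2 + α * x + β) / x ^ 2) / (((X ^ 2 + α * X + β) / X ^ 2) * (z' / (κ * z)) ^ 2) := by
    have h1 : x ^ 2 + α * x + β = x / z ^ 2 := by
      rw [eq_div_iff (pow_ne_zero 2 hz0)]
      linear_combination hz
    have h2 : X ^ 2 + α * X + β = X / z' ^ 2 := by
      rw [eq_div_iff (pow_ne_zero 2 hz'0)]
      linear_combination hz'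
    rw [h1, h2]
    field_simp
  rw [key]
  exact u1_div v hu (u1_mul v hU (u1_pow v ht 2))

end U1

/-! ### Multiples of a point at infinity on the short curve -/

section Point

variable {F : Type*} [Field F] [DecidableEq F]

/-- On the short curve with integral coefficients, for a nonzero point `P` of the kernel of
reduction and `k` a unit of `B`: `k • P` is a nonzero point of the kernel of reduction and
`k² · x(k • P) / x(P) ∈ 1 + 𝔪_B`. -/
theorem xco_nsmul_inE1 (B : ValuationSubring F) (α β : F) (hα : α ∈ B) (hβ : β ∈ B)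
    (k : ℕ) (hk : B.valuation (k : F) = 1)
    (P : (shortCurve α β).toAffine.Point) (hP0 : P ≠ 0) (hP : InE1 B P) :
    k • P ≠ 0 ∧ InE1 B (k • P) ∧
      (k : F) ^ 2 * PB.xco (k • P) / PB.xco P - 1 ∈ B.nonunits := by
  have hW := FormalGroup.intCoeff_of_mem B (shortCurve α β) B.zero_mem hα B.zero_mem hβ B.zero_mem
  have hvα : B.valuation α ≤ 1 := (B.valuation_le_one_iff _).mpr hα
  have hvβ : B.valuation β ≤ 1 := (B.valuation_le_one_iff _).mpr hβ
  rcases P with _ | ⟨x, y, h⟩
  · exact absurd rfl hP0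
  have hx : 1 < B.valuation x := by
    rw [← not_le, B.valuation_le_one_iff]
    exact hP
  have hne : k • Affine.Point.some x y h ≠ 0 := F1_short B α β hα hβ k hk h hP
  have hPv : InE1v B.valuation (Affine.Point.some x y h) := hx
  obtain ⟨hE, hzz⟩ := nsmul_pt hW _ hPv k
  refine ⟨hne, (FormalGroup.inE1_iff B _).mpr hE, ?_⟩
  obtain ⟨hx0, hy0, hz1, -, -⟩ := chart_of_point hW h.1 hx
  generalize hQ : k • Affine.Point.some x y h = Q at hne hE hzz ⊢
  rcases Q with _ | ⟨X, Y, h'⟩
  · exact absurd rfl hne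
  have hX : 1 < B.valuation X := hE
  obtain ⟨hX0, hY0, -, -, -⟩ := chart_of_point hW h'.1 hX
  rw [zOf_some, zOf_some] at hzz
  have e1 := (PB.equation_iff α β x y).mp h.1
  have e2 := (PB.equation_iff α β X Y).mp h'.1
  have hz : (-x / y) ^ 2 * (x ^ 2 + α * x + β) = x := by
    field_simp
    linear_combination (-1 : F) * e1
  have hz' : (-X / Y) ^ 2 * (X ^ 2 + α * X + β) = X := by
    field_simp
    linear_combination (-1 : F) * e2
  have := core_val B.valuation hvα hvβ hx hX hz hz' hk hzz hz1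
  rw [ValuationSubring.mem_nonunits_iff]
  simpa [PB.xco_some] using this

end Point

/-! ### Degrees and leading coefficients from the valuation at infinity -/

section Degree

variable {L F : Type*} [Field L] [Field F] [Algebra L F]

lemma inv_mem_nonunits (B : ValuationSubring F) {x : F} (hx : x ∉ B) : x⁻¹ ∈ B.nonunits := by
  rw [ValuationSubring.mem_nonunits_iff, map_inv₀]
  have h1 : 1 < B.valuation x := by
    rw [← not_le, B.valuation_le_one_iff]
    exact hx
  exact inv_lt_one_of_one_lt₀ h1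

/-- Nonzero constants are units of a valuation subring containing the constant field. -/
lemma val_algebraMap_eq_one (B : ValuationSubring F) (hL : ∀ c : L, algebraMap L F c ∈ B)
    {c : L} (hc : c ≠ 0) : B.valuation (algebraMap L F c) = 1 := by
  have h1 : B.valuation (algebraMap L F c) ≤ 1 := (B.valuation_le_one_iff _).mpr (hL c)
  have h2 : B.valuation (algebraMap L F c⁻¹) ≤ 1 := (B.valuation_le_one_iff _).mpr (hL c⁻¹)
  rw [map_inv₀, map_inv₀] at h2
  have h0 : algebraMap L F c ≠ 0 := by
    rw [Ne, map_eq_zero]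
    exact hc
  have hpos : 0 < B.valuation (algebraMap L F c) := by
    rw [Valuation.pos_iff]
    exact h0
  refine le_antisymm h1 ?_
  exact (inv_le_one₀ hpos).mp h2

/-- If `B ⊇ L` and `x ∉ B`, then `f(x) / x ^ deg f ≡ lc f` modulo the maximal ideal of `B`. -/
theorem aeval_div_pow_sub_leadingCoeff_mem (B : ValuationSubring F)
    (hL : ∀ c : L, algebraMap L F c ∈ B) {x : F} (hx : x ∉ B) (f : L[X]) :
    aeval x f / x ^ f.natDegree - algebraMap L F f.leadingCoeff ∈ B.nonunits := by
  have hx0 : x ≠ 0 := by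
    rintro rfl
    exact hx B.zero_mem
  have hinv := inv_mem_nonunits B hx
  rw [aeval_eq_sum_range, Finset.sum_range_succ, add_div, Algebra.smul_def,
    mul_div_assoc, div_self (pow_ne_zero _ hx0), mul_one]
  change _ + algebraMap L F (f.coeff f.natDegree) - algebraMap L F (f.coeff f.natDegree)
    ∈ B.nonunits
  rw [add_sub_cancel_right, Finset.sum_div, ValuationSubring.mem_nonunits_iff]
  refine Valuation.map_sum_lt _ one_ne_zero ?_
  intro i hi
  rw [Finset.mem_range] at hi
  have e : f.coeff i • x ^ i / x ^ f.natDegree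
      = algebraMap L F (f.coeff i) * x⁻¹ ^ (f.natDegree - i) := by
    rw [Algebra.smul_def, mul_div_assoc]
    congr 1
    have hpow : x ^ f.natDegree = x ^ i * x ^ (f.natDegree - i) := by
      rw [← pow_add, Nat.add_sub_cancel' hi.le]
    rw [hpow, ← div_div, div_self (pow_ne_zero _ hx0), one_div, inv_pow]
  rw [e, map_mul, map_pow]
  have h1 : B.valuation (algebraMap L F (f.coeff i)) ≤ 1 := (B.valuation_le_one_iff _).mpr (hL _)
  have h2 : B.valuation x⁻¹ < 1 := (B.mem_nonunits_iff).mp hinv
  exact mul_lt_one_of_nonneg_of_lt_one_right h1 zero_le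
    (pow_lt_one₀ zero_le h2 (Nat.sub_ne_zero_of_lt hi))

/-- If `B ⊇ L`, `x ∉ B` and `f ≠ 0`, then `v (f(x)) = v(x) ^ deg f`. -/
theorem val_aeval_eq (B : ValuationSubring F)
    (hL : ∀ c : L, algebraMap L F c ∈ B) {x : F} (hx : x ∉ B) {f : L[X]} (hf : f ≠ 0) :
    B.valuation (aeval x f) = B.valuation x ^ f.natDegree := by
  have hx0 : x ≠ 0 := by
    rintro rfl
    exact hx B.zero_mem
  have h := aeval_div_pow_sub_leadingCoeff_mem B hL hx f
  rw [ValuationSubring.mem_nonunits_iff] at h
  have hlc : B.valuation (algebraMap L F f.leadingCoeff) = 1 :=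
    val_algebraMap_eq_one B hL (leadingCoeff_ne_zero.mpr hf)
  have e : aeval x f / x ^ f.natDegree
      = algebraMap L F f.leadingCoeff
        + (aeval x f / x ^ f.natDegree - algebraMap L F f.leadingCoeff) := by ring
  have h2 : B.valuation (aeval x f / x ^ f.natDegree) = 1 := by
    rw [e, Valuation.map_add_eq_of_lt_left _ (by rw [hlc]; exact h), hlc]
  rw [map_div₀, map_pow] at h2
  have hpos : B.valuation x ^ f.natDegree ≠ 0 := by
    rw [← map_pow, Ne, map_eq_zero]
    exact pow_ne_zero _ hx0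
  exact (div_eq_one_iff_eq hpos).mp h2

/-- Degree and leading coefficient at infinity: if `D` is monic, `Xk · D(x) = N(x)` and
`c · Xk / x ∈ 1 + 𝔪_B` for a constant `c`, then `deg N = deg D + 1` and `c · lc N = 1`. -/
theorem natDegree_leadingCoeff_of_infinity (B : ValuationSubring F)
    (hL : ∀ c : L, algebraMap L F c ∈ B) {x : F} (hx : x ∉ B) {N D : L[X]} (hD : D.Monic)
    {Xk : F} (hrel : Xk * aeval x D = aeval x N) {c : L}
    (h : algebraMap L F c * Xk / x - 1 ∈ B.nonunits) :
    N.natDegree = D.natDegree + 1 ∧ c * N.leadingCoeff = 1 := by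
  have hx0 : x ≠ 0 := by
    rintro rfl
    exact hx B.zero_mem
  have hvx : 1 < B.valuation x := by
    rw [← not_le, B.valuation_le_one_iff]
    exact hx
  rw [ValuationSubring.mem_nonunits_iff] at h
  have hunit := u1_val B.valuation h
  have hne := u1_ne_zero B.valuation h
  have hc0 : c ≠ 0 := by
    rintro rfl
    rw [map_zero, zero_mul, zero_div] at hne
    exact hne rfl
  have hXk0 : Xk ≠ 0 := by
    rintro rfl
    rw [mul_zero, zero_div] at hne
    exact hne rfl
  have hD0 : D ≠ 0 := hD.ne_zero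
  have hvD := val_aeval_eq B hL hx hD0
  have hDx0 : aeval x D ≠ 0 := by
    intro h0
    rw [h0, map_zero] at hvD
    exact pow_ne_zero _ (zero_lt_one.trans hvx).ne' hvD.symm
  have hN0 : N ≠ 0 := by
    rintro rfl
    rw [map_zero] at hrel
    exact mul_ne_zero hXk0 hDx0 hrel
  have hvN := val_aeval_eq B hL hx hN0
  -- degrees
  have hdeg : N.natDegree = D.natDegree + 1 := by
    have hv : B.valuation (algebraMap L F c * Xk / x) * B.valuation (aeval x D) * B.valuation x
        = B.valuation (algebraMap L F c) * B.valuation (aeval x N) := by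
      rw [← map_mul, ← map_mul, ← map_mul, ← hrel]
      congr 1
      field_simp
    rw [hunit, one_mul, hvD, hvN, val_algebraMap_eq_one B hL hc0, one_mul, ← pow_succ] at hv
    exact (pow_right_injective₀ (zero_lt_one.trans hvx) hvx.ne' hv).symm
  refine ⟨hdeg, ?_⟩
  -- leading coefficient
  have hn := aeval_div_pow_sub_leadingCoeff_mem B hL hx N
  have hd := aeval_div_pow_sub_leadingCoeff_mem B hL hx D
  rw [hD.leadingCoeff, map_one, ValuationSubring.mem_nonunits_iff] at hd
  rw [ValuationSubring.mem_nonunits_iff] at hn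
  -- `c * Xk / x = c * (N(x)/x^n) / (D(x)/x^d)`
  have hd0 := u1_ne_zero B.valuation hd
  have e : algebraMap L F c * Xk / x
      = algebraMap L F c * (aeval x N / x ^ N.natDegree) / (aeval x D / x ^ D.natDegree) := by
    rw [← hrel, hdeg, pow_succ]
    field_simp
  -- hence `c * (N(x)/x^n) ∈ 1 + 𝔪`
  have h3 : B.valuation (algebraMap L F c * (aeval x N / x ^ N.natDegree) - 1) < 1 := by
    have := u1_mul B.valuation h hd
    rw [e, div_mul_cancel₀ _ hd0] at this
    exact this
  have h4 : B.valuation (algebraMap L F (c * N.leadingCoeff - 1)) < 1 := by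
    have e2 : algebraMap L F (c * N.leadingCoeff - 1)
        = (algebraMap L F c * (aeval x N / x ^ N.natDegree) - 1)
          - algebraMap L F c * (aeval x N / x ^ N.natDegree - algebraMap L F N.leadingCoeff) := by
      rw [map_sub, map_mul, map_one]
      ring
    rw [e2]
    refine Valuation.map_sub_lt _ h3 ?_
    rw [map_mul, val_algebraMap_eq_one B hL hc0, one_mul]
    exact hn
  by_contra hcon
  have h5 := val_algebraMap_eq_one B hL (sub_ne_zero.mpr hcon)
  rw [h5] at h4
  exact lt_irrefl _ h4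

end Degree

end Fermat.Agent.S13.MInf
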