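/-
S13 team, block [M], sub-block [MInf] (owner: helper43): degree and leading coefficient of the
numerator of `x(k • Pgen) = N(x) / D(x)`, read off at the place at infinity.

`MInf.deg_lead`: for any representation `XData G hβ k` (`k ≥ 1`),
`deg N = deg D + 1` and `k² · lc N = 1`.
-/
import Fermat.Agent.S13.MGen
import Fermat.Agent.S13.MInfCore

set_option autoImplicit false

namespace Fermat.Agent.S13.MInf

open WeierstrassCurve Polynomial Fermat.Agent.S05

variable {L : Type*} {F : Type*} [Field L] [Field F] [Algebra L F] [CharZero L]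
  [DecidableEq L] [DecidableEq F] {α β : L}

/-- At a place at infinity `B` (constants in `B`, `x ∉ B`): `k² · x(k • Pgen) / x ∈ 1 + 𝔪_B`. -/
theorem xco_nsmul_Pgen (G : GenData L F α β) (hβ : β ≠ 0) {k : ℕ} (hk : 1 ≤ k)
    (B : ValuationSubring F) (hB : ∀ a : L, algebraMap L F a ∈ B) (hx : G.x ∉ B) :
    (k : F) ^ 2 * PB.xco (k • G.Pgen hβ) / G.x - 1 ∈ B.nonunits := by
  have hk0 : k ≠ 0 := by omega
  obtain ⟨-, -, h⟩ := xco_nsmul_inE1 B _ _ (hB α) (hB β) k (val_natCast_eq_one B hB hk0)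
    (G.Pgen hβ) (G.Pgen_ne_zero hβ) hx
  rw [G.xco_Pgen hβ] at h
  exact h

/-- **MInf**: `deg N = deg D + 1` and `k² · lc N = 1`. -/
theorem deg_lead (G : GenData L F α β) (hβ : β ≠ 0) {k : ℕ} (hk : 1 ≤ k) (X : XData G hβ k) :
    X.N.natDegree = X.D.natDegree + 1 ∧ (k : L) ^ 2 * X.N.leadingCoeff = 1 := by
  obtain ⟨B, hB, hx⟩ := G.exists_valSub_inf
  have hxB : G.x ∉ B := fun hmem => absurd ((B.valuation_le_one_iff _).mpr hmem) (not_le.mpr hx)
  have h := xco_nsmul_Pgen G hβ hk B hB hxB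
  have h' : algebraMap L F ((k : L) ^ 2) * PB.xco (k • G.Pgen hβ) / G.x - 1 ∈ B.nonunits := by
    rw [map_pow, map_natCast]
    exact h
  exact natDegree_leadingCoeff_of_infinity B hB hxB X.monic X.rel h'

end Fermat.Agent.S13.MInf
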