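/-
Team S13, block [MRat] (owner: helper86).

Rationality of the `x`-coordinates of the multiples of a point on the short curve
`y² = x³ + a x² + b x` by Galois invariance: if `F / E` is Galois, `a`, `b` and `x(P)` lie in `E`,
then `x(k • P) ∈ E` for all `k` (`MRat.xco_nsmul_mem_range`).  For `E = RatFunc L` this gives
`X_k = N_k / D_k` with `N_k`, `D_k` coprime polynomials and `D_k` monic (`MRat.exists_num_denom`).
No induction on `k`, no division polynomials.
-/
import Mathlib
import Fermat.Agent.S05.Defs
import Fermat.Agent.S05.PB_Formulas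
import Fermat.Agent.S05.PB_Sigma

set_option autoImplicit false

namespace Fermat.Agent.S13

namespace MRat

open WeierstrassCurve Fermat.Agent.S05

/-- A ring endomorphism fixing `a`, `b` fixes the short curve. -/
theorem map_shortCurve {F : Type*} [Field F] (a b : F) (σ : F →+* F)
    (ha : σ a = a) (hb : σ b = b) : (shortCurve a b).map σ = shortCurve a b := by
  ext <;> simp [shortCurve, WeierstrassCurve.map, ha, hb]

/-- Galois invariance: if `σ` fixes `a`, `b` and the `x`-coordinate of an affine point `P` of the
short curve, then it fixes the `x`-coordinate of every multiple of `P`. -/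
theorem map_xco_nsmul {F : Type*} [Field F] [DecidableEq F] (a b : F) (σ : F →+* F)
    (ha : σ a = a) (hb : σ b = b) {x y : F} (h : (shortCurve a b).toAffine.Nonsingular x y)
    (hx : σ x = x) (k : ℕ) :
    σ (PB.xco (k • Affine.Point.some x y h)) = PB.xco (k • Affine.Point.some x y h) := by
  obtain ⟨Φ, hΦ⟩ := exists_sigma_hom (shortCurve a b) σ (map_shortCurve a b σ ha hb)
  -- `Φ` acts by `σ` on `x`-coordinates
  have hΦx : ∀ Q : (shortCurve a b).toAffine.Point, PB.xco (Φ Q) = σ (PB.xco Q) := by
    intro Q
    cases Q with
    | zero =>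
      have : Φ (0 : (shortCurve a b).toAffine.Point) = 0 := map_zero Φ
      show PB.xco (Φ 0) = σ 0
      rw [this, map_zero]
      rfl
    | some x' y' h' =>
      obtain ⟨h'', e⟩ := hΦ x' y' h'
      rw [e]
      rfl
  -- `Φ P = ± P`
  have hP : Φ (Affine.Point.some x y h) = Affine.Point.some x y h ∨
      Φ (Affine.Point.some x y h) = -Affine.Point.some x y h := by
    obtain ⟨h'', e⟩ := hΦ x y h
    rw [e]
    exact Affine.Point.X_eq_iff.mp hx
  rw [← hΦx, map_nsmul]
  rcases hP with hP | hP
  · rw [hP]
  · rw [hP, smul_neg, PB.xco_neg]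

/-- Rationality: over a Galois extension `F / E`, if `a`, `b` and the `x`-coordinate of the affine
point `P` of the short curve lie in `E`, then so does the `x`-coordinate of every multiple
of `P`. -/
theorem xco_nsmul_mem_range {E F : Type*} [Field E] [Field F] [Algebra E F] [IsGalois E F]
    [DecidableEq F] (a b x : E) {y : F}
    (h : (shortCurve (algebraMap E F a) (algebraMap E F b)).toAffine.Nonsingular
      (algebraMap E F x) y) (k : ℕ) :
    PB.xco (k • Affine.Point.some (algebraMap E F x) y h) ∈ Set.range (algebraMap E F) := by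
  rw [InfiniteGalois.mem_range_algebraMap_iff_fixed]
  intro f
  exact map_xco_nsmul _ _ (f : F →+* F) (f.commutes a) (f.commutes b) h (f.commutes x) k

/-- `[MRat]`: over a Galois extension `F` of `RatFunc L`, the `x`-coordinate `X_k` of `k • P`,
for an affine point `P` of a short curve with coefficients in `RatFunc L` and `x`-coordinate in
`RatFunc L`, is a quotient `N / D` of coprime polynomials with `D` monic. -/
theorem exists_num_denom {L F : Type*} [Field L] [Field F] [Algebra (RatFunc L) F]
    [IsGalois (RatFunc L) F] [DecidableEq F] (a b x : RatFunc L) {y : F}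
    (h : (shortCurve (algebraMap (RatFunc L) F a) (algebraMap (RatFunc L) F b)).toAffine.Nonsingular
      (algebraMap (RatFunc L) F x) y) (k : ℕ) :
    ∃ N D : Polynomial L, D.Monic ∧ IsCoprime N D ∧
      PB.xco (k • Affine.Point.some (algebraMap (RatFunc L) F x) y h) *
          algebraMap (RatFunc L) F (algebraMap (Polynomial L) (RatFunc L) D) =
        algebraMap (RatFunc L) F (algebraMap (Polynomial L) (RatFunc L) N) := by
  obtain ⟨r, hr⟩ := xco_nsmul_mem_range a b x h k
  refine ⟨r.num, r.denom, RatFunc.monic_denom r, RatFunc.isCoprime_num_denom r, ?_⟩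
  rw [← hr, ← map_mul]
  congr 1
  have h0 : algebraMap (Polynomial L) (RatFunc L) r.denom ≠ 0 :=
    RatFunc.algebraMap_ne_zero (RatFunc.denom_ne_zero r)
  have h1 := RatFunc.num_div_denom r
  rw [div_eq_iff h0] at h1
  exact h1.symm

end MRat

end Fermat.Agent.S13
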