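/-
Team S13, block [MRat], adapter to `MGen` (owner: helper86).

Over `F = AlgebraicClosure (RatFunc L)` there is generic point data `G` (with `G.x` the image of
`RatFunc.X`) such that every multiple `k • Pgen` has `x`-coordinate `N_k(x) / D_k(x)` with
`N_k`, `D_k` coprime and `D_k` monic: `MRatGen.exists_gen_xdata`.
Proof: Galois invariance (`MRat.exists_num_denom`).
-/
import Fermat.Agent.S13.MGen
import Fermat.Agent.S13.MRat

set_option autoImplicit false

namespace Fermat.Agent.S13.MRatGen

open WeierstrassCurve Polynomial Fermat.Agent.S05 Fermat.Agent.S13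

/-- The generic point data over `AlgebraicClosure (RatFunc L)` with `x = X`, for a chosen square
root `y` of `x³ + αx² + βx`. -/
noncomputable def genOfRoot {L : Type*} [Field L] (α β : L) (y : AlgebraicClosure (RatFunc L))
    (hy : y ^ 2 = (algebraMap (RatFunc L) (AlgebraicClosure (RatFunc L)) RatFunc.X) ^ 3
      + algebraMap L (AlgebraicClosure (RatFunc L)) α
        * (algebraMap (RatFunc L) (AlgebraicClosure (RatFunc L)) RatFunc.X) ^ 2
      + algebraMap L (AlgebraicClosure (RatFunc L)) β
        * (algebraMap (RatFunc L) (AlgebraicClosure (RatFunc L)) RatFunc.X)) :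
    GenData L (AlgebraicClosure (RatFunc L)) α β where
  x := algebraMap (RatFunc L) (AlgebraicClosure (RatFunc L)) RatFunc.X
  y := y
  trans := (transcendental_algebraMap_iff
      (algebraMap (RatFunc L) (AlgebraicClosure (RatFunc L))).injective).mpr
      RatFunc.transcendental_X
  eqn := hy

theorem aeval_X_eq {L : Type*} [Field L] (D : L[X]) :
    aeval (algebraMap (RatFunc L) (AlgebraicClosure (RatFunc L)) RatFunc.X) D =
      algebraMap (RatFunc L) (AlgebraicClosure (RatFunc L)) (algebraMap L[X] (RatFunc L) D) := by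
  rw [aeval_algebraMap_apply, RatFunc.aeval_X_left_eq_algebraMap]

/-- `[MRat]` for the generic point data `genOfRoot`. -/
theorem xdata_genOfRoot {L : Type*} [Field L] [CharZero L]
    [DecidableEq (AlgebraicClosure (RatFunc L))] (α β : L) (hβ : β ≠ 0)
    (y : AlgebraicClosure (RatFunc L))
    (hy : y ^ 2 = (algebraMap (RatFunc L) (AlgebraicClosure (RatFunc L)) RatFunc.X) ^ 3
      + algebraMap L (AlgebraicClosure (RatFunc L)) α
        * (algebraMap (RatFunc L) (AlgebraicClosure (RatFunc L)) RatFunc.X) ^ 2
      + algebraMap L (AlgebraicClosure (RatFunc L)) β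
        * (algebraMap (RatFunc L) (AlgebraicClosure (RatFunc L)) RatFunc.X)) (k : ℕ) :
    Nonempty (XData (genOfRoot α β y hy) hβ k) := by
  have hnons : (shortCurve
      (algebraMap (RatFunc L) (AlgebraicClosure (RatFunc L)) (algebraMap L (RatFunc L) α))
      (algebraMap (RatFunc L) (AlgebraicClosure (RatFunc L))
        (algebraMap L (RatFunc L) β))).toAffine.Nonsingular
      (algebraMap (RatFunc L) (AlgebraicClosure (RatFunc L)) RatFunc.X) y :=
    (genOfRoot α β y hy).nonsingular hβ
  obtain ⟨N, D, hD, hND, hrel⟩ := MRat.exists_num_denom (algebraMap L (RatFunc L) α)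
    (algebraMap L (RatFunc L) β) RatFunc.X hnons k
  refine ⟨⟨N, D, hD, hND, ?_⟩⟩
  show PB.xco (k • (genOfRoot α β y hy).Pgen hβ) *
      aeval (algebraMap (RatFunc L) (AlgebraicClosure (RatFunc L)) RatFunc.X) D =
    aeval (algebraMap (RatFunc L) (AlgebraicClosure (RatFunc L)) RatFunc.X) N
  rw [aeval_X_eq, aeval_X_eq]
  exact hrel

/-- `[MRat]`, Galois variant: generic point data over `AlgebraicClosure (RatFunc L)` together
with a representation `x(k • Pgen) = N_k(x) / D_k(x)` for every `k`. -/
theorem exists_gen_xdata {L : Type*} [Field L] [CharZero L] [DecidableEq L]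
    [DecidableEq (AlgebraicClosure (RatFunc L))] (α β : L) (hβ : β ≠ 0) :
    ∃ G : GenData L (AlgebraicClosure (RatFunc L)) α β, ∀ k : ℕ, Nonempty (XData G hβ k) := by
  obtain ⟨y, hy⟩ := IsAlgClosed.exists_pow_nat_eq
    ((algebraMap (RatFunc L) (AlgebraicClosure (RatFunc L)) RatFunc.X) ^ 3
      + algebraMap L (AlgebraicClosure (RatFunc L)) α
        * (algebraMap (RatFunc L) (AlgebraicClosure (RatFunc L)) RatFunc.X) ^ 2
      + algebraMap L (AlgebraicClosure (RatFunc L)) β
        * (algebraMap (RatFunc L) (AlgebraicClosure (RatFunc L)) RatFunc.X))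
    (n := 2) (by norm_num)
  exact ⟨genOfRoot α β y hy, fun k => xdata_genOfRoot α β hβ y hy k⟩

end Fermat.Agent.S13.MRatGen
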