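/-
S13 team, block [M] / MSpec (owner: helper25): specialisation of the generic point.

For a representation `x(k • Pgen) · D(x) = N(x)` (`XData`) and a constant point `P₀ = (x₀, y₀)`:
`k • P₀ = 0 ↔ D(x₀) = 0`, and `k • P₀ ≠ 0 → x(k • P₀) · D(x₀) = N(x₀)`.

Proof: take a valuation subring `B ⊇ L` of `F` with `x ≡ x₀`, `y ≡ ±y₀` (Chevalley, `MGen`).
Then `R := Pgen − constHom (±P₀)` lies in the kernel of reduction `E1(B)` (`S05.F2_inE1`), hence
so does `k • R = k • Pgen − constHom (k • ±P₀)`.
* If `k • P₀ = 0`, then `k • Pgen ∈ E1(B)`, so `x(k • Pgen) ∉ B`, so `D(x)` is a non-unit of `B`,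
  so `D(x₀) = 0`.
* If `k • P₀ ≠ 0`, then `x(k • Pgen) ≡ x(k • P₀)` (`xco_add_sub_mem`), and reducing the relation
  gives `x(k • P₀) · D(x₀) = N(x₀)`; coprimality then forces `D(x₀) ≠ 0`.

* `MSpec.xco_add_sub_mem` : adding a point of the kernel of reduction to an integral affine
  point does not change the `x`-coordinate modulo the maximal ideal.
* `MSpec.spec_core` : abstract version (any `Ψ`, `B`, `Pgen`).
* `MSpec.spec` : the exported statement for `GenData` / `XData`.
-/
import Fermat.Agent.S13.MGen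

set_option autoImplicit false

namespace Fermat.Agent.S13.MSpec

open WeierstrassCurve Polynomial
open Fermat.Agent.S05 Fermat.Agent.S05.PB

/-! ### Valuation subring helpers -/

section Val

variable {F : Type*} [Field F]

theorem mem_of_sq_mem (B : ValuationSubring F) {y : F} (h : y ^ 2 ∈ B) : y ∈ B := by
  rw [← B.valuation_le_one_iff] at h ⊢
  rw [map_pow] at h
  exact (pow_le_one_iff_of_nonneg zero_le (by norm_num)).mp h

theorem mem_nonunits_of_sq_mem (B : ValuationSubring F) {y : F} (h : y ^ 2 ∈ B.nonunits) :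
    y ∈ B.nonunits := by
  rw [ValuationSubring.mem_nonunits_iff] at h ⊢
  rw [map_pow] at h
  by_contra hcon
  rw [not_lt] at hcon
  exact absurd h (not_lt.mpr (one_le_pow_of_one_le' hcon 2))

theorem mul_mem_nonunits_left (B : ValuationSubring F) {a b : F} (ha : a ∈ B)
    (hb : b ∈ B.nonunits) : a * b ∈ B.nonunits :=
  Reduction.mul_mem_nonunits B ha hb

theorem mul_mem_nonunits_right (B : ValuationSubring F) {a b : F} (ha : a ∈ B.nonunits)
    (hb : b ∈ B) : a * b ∈ B.nonunits :=
  Reduction.mul_mem_nonunits' B ha hb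

/-- An element of `B` which is not in the maximal ideal has its inverse in `B`. -/
theorem inv_mem_of_not_mem_nonunits (B : ValuationSubring F) {u : F} (hu : u ∈ B)
    (hu' : u ∉ B.nonunits) : u⁻¹ ∈ B := by
  rw [ValuationSubring.mem_nonunits_iff, not_lt] at hu'
  rw [← B.valuation_le_one_iff] at hu ⊢
  have h1 : B.valuation u = 1 := le_antisymm hu hu'
  rw [map_inv₀, h1, inv_one]

/-- The inverse of a non-integral element is a non-unit. -/
theorem inv_mem_nonunits_of_not_mem (B : ValuationSubring F) {u : F} (hu : u ∉ B) :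
    u⁻¹ ∈ B.nonunits := by
  rw [ValuationSubring.inv_mem_nonunits_iff]
  exact Or.inr hu

end Val

/-! ### Adding a point of the kernel of reduction -/

section Add

variable {F : Type*} [Field F] [DecidableEq F]

/-- Coordinates: `Q = (x₁, y₁)` integral, `R = (x₂, y₂)` with `x₂ ∉ B`; then `Q + R` is affine and
`x(Q + R) ≡ x(Q)` modulo the maximal ideal. -/
theorem add_coord_close (B : ValuationSubring F) (a b : F) (ha : a ∈ B) (hb : b ∈ B)
    {x₁ y₁ x₂ y₂ : F} (h₁ : (shortCurve a b).toAffine.Nonsingular x₁ y₁)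
    (h₂ : (shortCurve a b).toAffine.Nonsingular x₂ y₂) (hx₁ : x₁ ∈ B) (hx₂ : x₂ ∉ B) :
    ∃ x₃ y₃, ∃ h₃ : (shortCurve a b).toAffine.Nonsingular x₃ y₃,
      Affine.Point.some x₁ y₁ h₁ + Affine.Point.some x₂ y₂ h₂ = Affine.Point.some x₃ y₃ h₃ ∧
      x₃ - x₁ ∈ B.nonunits := by
  have hne : x₁ ≠ x₂ := fun h => hx₂ (h ▸ hx₁)
  obtain ⟨x₃, y₃, h₃, e₃, hx₃⟩ := add_x a b h₁ h₂ hne
  refine ⟨x₃, y₃, h₃, e₃, ?_⟩
  have E₁ := (equation_iff a b x₁ y₁).mp h₁.1
  have E₂ := (equation_iff a b x₂ y₂).mp h₂.1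
  have hx₂0 : x₂ ≠ 0 := fun h => hx₂ (h ▸ B.zero_mem)
  -- `t = 1 / x₂` and `s = y₂ / x₂²` are non-units
  set t : F := x₂⁻¹ with ht
  set s : F := y₂ * x₂⁻¹ ^ 2 with hs
  have htm : t ∈ B.nonunits := inv_mem_nonunits_of_not_mem B hx₂
  have htB : t ∈ B := B.nonunits_subset htm
  have hy₁ : y₁ ∈ B := by
    apply mem_of_sq_mem
    rw [E₁]
    exact add_mem (add_mem (pow_mem hx₁ 3) (mul_mem ha (pow_mem hx₁ 2))) (mul_mem hb hx₁)
  have hs2 : s ^ 2 = t + a * t ^ 2 + b * t ^ 3 := by
    rw [hs, ht, mul_pow, E₂]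
    field_simp
  have hsm : s ∈ B.nonunits := by
    apply mem_nonunits_of_sq_mem
    have e : s ^ 2 = t * (1 + a * t + b * t ^ 2) := by rw [hs2]; ring
    rw [e]
    exact mul_mem_nonunits_right B htm
      (add_mem (add_mem B.one_mem (mul_mem ha htB)) (mul_mem hb (pow_mem htB 2)))
  -- the unit `u = x₁ t - 1`
  have hu : x₁ * t - 1 ∈ B := sub_mem (mul_mem hx₁ htB) B.one_mem
  have hu' : x₁ * t - 1 ∉ B.nonunits := by
    intro h
    have h1 : (1 : F) ∈ B.nonunits := by
      have : (1 : F) = x₁ * t - (x₁ * t - 1) := by ring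
      rw [this]
      exact sub_mem (mul_mem_nonunits_left B hx₁ htm) h
    rw [ValuationSubring.mem_nonunits_iff, map_one] at h1
    exact lt_irrefl _ h1
  have huinv : (x₁ * t - 1)⁻¹ ∈ B := inv_mem_of_not_mem_nonunits B hu hu'
  have hu0 : x₁ * t - 1 ≠ 0 := fun h => hu' (h ▸ B.nonunits.zero_mem)
  -- the key identity
  have key : x₃ - x₁ = (t * (b + 3 * x₁ ^ 2 + 2 * a * x₁) - 2 * y₁ * s
      + t ^ 2 * (y₁ ^ 2 - a * x₁ ^ 2 - 2 * x₁ ^ 3)) * ((x₁ * t - 1) ^ 2)⁻¹ := by
    have hd : x₁ - x₂ ≠ 0 := sub_ne_zero.mpr hne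
    have h1 : x₁ * t - 1 = (x₁ - x₂) * t := by
      rw [ht]; field_simp
    have h2 : (x₃ - x₁) * (x₁ - x₂) ^ 2 = x₂ * (b + 3 * x₁ ^ 2 + 2 * a * x₁) - 2 * y₁ * y₂
        + (y₁ ^ 2 - a * x₁ ^ 2 - 2 * x₁ ^ 3) := by
      linear_combination hx₃ + E₂
    have ht0 : t ≠ 0 := inv_ne_zero hx₂0
    have hxt : x₂ * t = 1 := by rw [ht]; exact mul_inv_cancel₀ hx₂0
    have hst : s = y₂ * t ^ 2 := by rw [hs]
    rw [eq_mul_inv_iff_mul_eq₀ (pow_ne_zero 2 hu0), h1, mul_pow, ← mul_assoc, h2, hst]
    linear_combination (t * (b + 3 * x₁ ^ 2 + 2 * a * x₁)) * hxt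
  rw [key]
  refine mul_mem_nonunits_right B ?_ (by rw [← inv_pow]; exact pow_mem huinv 2)
  have h3 : (3 : F) ∈ B := by
    have : (3 : F) = ((3 : ℕ) : F) := by norm_num
    rw [this]; exact natCast_mem B 3
  have h2' : (2 : F) ∈ B := by
    have : (2 : F) = ((2 : ℕ) : F) := by norm_num
    rw [this]; exact natCast_mem B 2
  refine add_mem (sub_mem ?_ ?_) ?_
  · exact mul_mem_nonunits_right B htm
      (add_mem (add_mem hb (mul_mem h3 (pow_mem hx₁ 2))) (mul_mem (mul_mem h2' ha) hx₁))
  · exact mul_mem_nonunits_left B (mul_mem h2' hy₁) hsm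
  · have : t ^ 2 = t * t := by ring
    rw [this]
    exact mul_mem_nonunits_right B (mul_mem_nonunits_left B htB htm)
      (sub_mem (sub_mem (pow_mem hy₁ 2) (mul_mem ha (pow_mem hx₁ 2)))
        (mul_mem h2' (pow_mem hx₁ 3)))

/-- Adding a point of the kernel of reduction to an integral affine point gives an affine point
with the same `x`-coordinate modulo the maximal ideal. -/
theorem xco_add_sub_mem (B : ValuationSubring F) (a b : F) (ha : a ∈ B) (hb : b ∈ B)
    {Q R : (shortCurve a b).toAffine.Point} (hQ0 : Q ≠ 0) (hQ : xco Q ∈ B) (hR : InE1 B R) :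
    Q + R ≠ 0 ∧ xco (Q + R) - xco Q ∈ B.nonunits := by
  rcases Q with _ | ⟨x₁, y₁, h₁⟩
  · exact absurd rfl hQ0
  rcases R with _ | ⟨x₂, y₂, h₂⟩
  · change Affine.Point.some x₁ y₁ h₁ + 0 ≠ 0 ∧
      xco (Affine.Point.some x₁ y₁ h₁ + 0) - xco (Affine.Point.some x₁ y₁ h₁) ∈ B.nonunits
    rw [add_zero, sub_self]
    exact ⟨hQ0, B.nonunits.zero_mem⟩
  · obtain ⟨x₃, y₃, h₃, e₃, hx₃⟩ := add_coord_close B a b ha hb h₁ h₂ hQ hR
    rw [e₃]
    exact ⟨Affine.Point.some_ne_zero _, hx₃⟩

/-- The kernel of reduction is closed under multiples. -/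
theorem inE1_nsmul (B : ValuationSubring F) (a b : F) (ha : a ∈ B) (hb : b ∈ B)
    {R : (shortCurve a b).toAffine.Point} (hR : InE1 B R) (k : ℕ) : InE1 B (k • R) := by
  induction k with
  | zero => rw [zero_nsmul]; trivial
  | succ k ih =>
    rw [succ_nsmul]
    exact inE1_add B (shortCurve a b) B.zero_mem ha B.zero_mem hb B.zero_mem ih hR

end Add

/-! ### Specialisation -/

section Spec

variable {L : Type*} {F : Type*} [Field L] [Field F] [Algebra L F] [DecidableEq L] [DecidableEq F]

/-- Abstract specialisation, assuming `x ≡ x₀` and `y ≡ y₀` modulo the maximal ideal of `B`. -/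
theorem spec_aux (α β : L) (B : ValuationSubring F) (hLB : ∀ c : L, algebraMap L F c ∈ B)
    (Ψ : (shortCurve α β).toAffine.Point →+
      (shortCurve (algebraMap L F α) (algebraMap L F β)).toAffine.Point)
    (hΨ : ∀ (x y : L) (h : (shortCurve α β).toAffine.Nonsingular x y),
      ∃ h' : (shortCurve (algebraMap L F α) (algebraMap L F β)).toAffine.Nonsingular
          (algebraMap L F x) (algebraMap L F y),
        Ψ (Affine.Point.some x y h) = Affine.Point.some _ _ h')
    {x y : F} (hgen : (shortCurve (algebraMap L F α) (algebraMap L F β)).toAffine.Nonsingular x y)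
    {x₀ y₀ : L} (h₀ : (shortCurve α β).toAffine.Nonsingular x₀ y₀)
    (hx : x - algebraMap L F x₀ ∈ B.nonunits) (hy : y - algebraMap L F y₀ ∈ B.nonunits)
    (k : ℕ) (hk : k • Affine.Point.some x y hgen ≠ 0) (N D : L[X]) (hcop : IsCoprime N D)
    (hrel : xco (k • Affine.Point.some x y hgen) * aeval x D = aeval x N) :
    (k • Affine.Point.some x₀ y₀ h₀ = 0 ↔ D.eval x₀ = 0) ∧
    (k • Affine.Point.some x₀ y₀ h₀ ≠ 0 →
      xco (k • Affine.Point.some x₀ y₀ h₀) * D.eval x₀ = N.eval x₀) := by
  obtain ⟨h', hΨ₀⟩ := hΨ x₀ y₀ h₀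
  have hxB : x ∈ B := by
    have : x = (x - algebraMap L F x₀) + algebraMap L F x₀ := by ring
    rw [this]
    exact add_mem (B.nonunits_subset hx) (hLB x₀)
  have hzero : ∀ c : L, algebraMap L F c ∈ B.nonunits → c = 0 := fun c hc =>
    const_eq_zero_of_val_lt_one B hLB ((B.mem_nonunits_iff).mp hc)
  -- the reduction of `P₀` is nonsingular
  have hns : 2 * algebraMap L F y₀
        + (shortCurve (algebraMap L F α) (algebraMap L F β)).a₁ * algebraMap L F x₀
        + (shortCurve (algebraMap L F α) (algebraMap L F β)).a₃ ∉ B.nonunits ∨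
      3 * algebraMap L F x₀ ^ 2
        + 2 * (shortCurve (algebraMap L F α) (algebraMap L F β)).a₂ * algebraMap L F x₀
        + (shortCurve (algebraMap L F α) (algebraMap L F β)).a₄
        - (shortCurve (algebraMap L F α) (algebraMap L F β)).a₁ * algebraMap L F y₀
          ∉ B.nonunits := by
    simp only [shortCurve_a₁, shortCurve_a₂, shortCurve_a₃, shortCurve_a₄, zero_mul, add_zero,
      sub_zero]
    have h1 := ((Affine.nonsingular_iff ..).mp h₀).2
    simp only [shortCurve_a₁, shortCurve_a₂, shortCurve_a₃, shortCurve_a₄, zero_mul,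
      sub_zero] at h1
    rcases h1 with h1 | h1
    · right
      intro hm
      apply h1
      have e : 3 * algebraMap L F x₀ ^ 2 + 2 * algebraMap L F α * algebraMap L F x₀
          + algebraMap L F β = algebraMap L F (3 * x₀ ^ 2 + 2 * α * x₀ + β) := by
        simp only [map_add, map_mul, map_pow, map_ofNat]
      rw [e] at hm
      exact (hzero _ hm).symm
    · left
      intro hm
      apply h1
      have e : 2 * algebraMap L F y₀ = algebraMap L F (2 * y₀) := by
        simp only [map_mul, map_ofNat]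
      rw [e] at hm
      have := hzero _ hm
      linear_combination this
  have hE : InE1 B (Affine.Point.some (algebraMap L F x₀) (algebraMap L F y₀) h'
      - Affine.Point.some x y hgen) := by
    refine F2_inE1 B _ (by simp [B.zero_mem]) (by simpa using hLB α) h' hgen (hLB x₀) ?_ ?_ hns
    · have := neg_mem hx
      rwa [neg_sub] at this
    · have := neg_mem hy
      rwa [neg_sub] at this
  have hR : InE1 B (Affine.Point.some x y hgen - Ψ (Affine.Point.some x₀ y₀ h₀)) := by
    have e : Affine.Point.some x y hgen - Ψ (Affine.Point.some x₀ y₀ h₀)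
        = -(Affine.Point.some (algebraMap L F x₀) (algebraMap L F y₀) h'
          - Affine.Point.some x y hgen) := by
      rw [neg_sub, hΨ₀]
    rw [e]
    exact inE1_neg B hE
  have hkR := inE1_nsmul B _ _ (hLB α) (hLB β) hR k
  have hsum : k • Affine.Point.some x y hgen = Ψ (k • Affine.Point.some x₀ y₀ h₀)
      + k • (Affine.Point.some x y hgen - Ψ (Affine.Point.some x₀ y₀ h₀)) := by
    rw [map_nsmul, smul_sub]
    abel
  have hDx : aeval x D ∈ B := aeval_mem B hLB hxB D
  have hNx : aeval x N ∈ B := aeval_mem B hLB hxB N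
  have hDs := aeval_sub_eval_mem_nonunits B hLB hx D
  have hNs := aeval_sub_eval_mem_nonunits B hLB hx N
  by_cases hkP : k • Affine.Point.some x₀ y₀ h₀ = 0
  · -- `k • Pgen` lies in the kernel of reduction
    have hkPg : InE1 B (k • Affine.Point.some x y hgen) := by
      rw [hsum, hkP, map_zero, zero_add]
      exact hkR
    have hD0 : D.eval x₀ = 0 := by
      by_contra hD
      have hu : aeval x D ∉ B.nonunits := by
        intro hm
        apply hD
        apply hzero
        have e : algebraMap L F (D.eval x₀)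
            = aeval x D - (aeval x D - algebraMap L F (D.eval x₀)) := by ring
        rw [e]
        exact sub_mem hm hDs
      have hinv := inv_mem_of_not_mem_nonunits B hDx hu
      have hDne : aeval x D ≠ 0 := fun h => hu (h ▸ B.nonunits.zero_mem)
      have hX : xco (k • Affine.Point.some x y hgen) ∈ B := by
        have e : xco (k • Affine.Point.some x y hgen) = aeval x N * (aeval x D)⁻¹ := by
          rw [← hrel]
          field_simp
        rw [e]
        exact mul_mem hNx hinv
      revert hkPg hX hk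
      generalize k • Affine.Point.some x y hgen = T
      rcases T with _ | ⟨X, Y, hXY⟩
      · intro hk
        exact absurd rfl hk
      · intro _ hE hX
        exact hE hX
    exact ⟨⟨fun _ => hD0, fun _ => hkP⟩, fun h => absurd hkP h⟩
  · -- `k • P₀ ≠ 0`
    obtain ⟨c, d, hcd, hkc⟩ : ∃ c d, ∃ hcd : (shortCurve α β).toAffine.Nonsingular c d,
        k • Affine.Point.some x₀ y₀ h₀ = Affine.Point.some c d hcd := by
      rcases hT : k • Affine.Point.some x₀ y₀ h₀ with _ | ⟨c, d, hcd⟩
      · exact absurd hT hkP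
      · exact ⟨c, d, hcd, rfl⟩
    obtain ⟨hcd', hΨc⟩ := hΨ c d hcd
    have hclose := xco_add_sub_mem B (algebraMap L F α) (algebraMap L F β) (hLB α) (hLB β)
      (Q := Ψ (k • Affine.Point.some x₀ y₀ h₀))
      (R := k • (Affine.Point.some x y hgen - Ψ (Affine.Point.some x₀ y₀ h₀)))
      (by rw [hkc, hΨc]; exact Affine.Point.some_ne_zero _)
      (by rw [hkc, hΨc]; exact hLB c) hkR
    rw [← hsum, hkc, hΨc] at hclose
    have hXc : xco (k • Affine.Point.some x y hgen) - algebraMap L F c ∈ B.nonunits := hclose.2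
    have hX : xco (k • Affine.Point.some x y hgen) ∈ B := by
      have e : xco (k • Affine.Point.some x y hgen)
          = (xco (k • Affine.Point.some x y hgen) - algebraMap L F c) + algebraMap L F c := by
        ring
      rw [e]
      exact add_mem (B.nonunits_subset hXc) (hLB c)
    have hval : c * D.eval x₀ = N.eval x₀ := by
      rw [← sub_eq_zero]
      apply hzero
      have e : algebraMap L F (c * D.eval x₀ - N.eval x₀)
          = -((xco (k • Affine.Point.some x y hgen) - algebraMap L F c)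
              * algebraMap L F (D.eval x₀))
            - xco (k • Affine.Point.some x y hgen) * (aeval x D - algebraMap L F (D.eval x₀))
            + (aeval x N - algebraMap L F (N.eval x₀)) := by
        rw [map_sub, map_mul]
        linear_combination hrel
      rw [e]
      exact add_mem (sub_mem (neg_mem (mul_mem_nonunits_right B hXc (hLB _)))
        (mul_mem_nonunits_left B hX hDs)) hNs
    have hD : D.eval x₀ ≠ 0 := by
      intro hD
      rw [hD, mul_zero] at hval
      obtain ⟨u, v, huv⟩ := hcop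
      have := congrArg (eval x₀) huv
      simp [hD, ← hval] at this
    refine ⟨⟨fun h => absurd h hkP, fun h => absurd h hD⟩, fun _ => ?_⟩
    rw [hkc]
    exact hval

/-- Abstract specialisation: `x ≡ x₀` and `y ≡ ±y₀` modulo the maximal ideal of `B`. -/
theorem spec_core (α β : L) (B : ValuationSubring F) (hLB : ∀ c : L, algebraMap L F c ∈ B)
    (Ψ : (shortCurve α β).toAffine.Point →+
      (shortCurve (algebraMap L F α) (algebraMap L F β)).toAffine.Point)
    (hΨ : ∀ (x y : L) (h : (shortCurve α β).toAffine.Nonsingular x y),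
      ∃ h' : (shortCurve (algebraMap L F α) (algebraMap L F β)).toAffine.Nonsingular
          (algebraMap L F x) (algebraMap L F y),
        Ψ (Affine.Point.some x y h) = Affine.Point.some _ _ h')
    {x y : F} (hgen : (shortCurve (algebraMap L F α) (algebraMap L F β)).toAffine.Nonsingular x y)
    {x₀ y₀ : L} (h₀ : (shortCurve α β).toAffine.Nonsingular x₀ y₀)
    (hx : x - algebraMap L F x₀ ∈ B.nonunits)
    (hy : y - algebraMap L F y₀ ∈ B.nonunits ∨ y + algebraMap L F y₀ ∈ B.nonunits)
    (k : ℕ) (hk : k • Affine.Point.some x y hgen ≠ 0) (N D : L[X]) (hcop : IsCoprime N D)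
    (hrel : xco (k • Affine.Point.some x y hgen) * aeval x D = aeval x N) :
    (k • Affine.Point.some x₀ y₀ h₀ = 0 ↔ D.eval x₀ = 0) ∧
    (k • Affine.Point.some x₀ y₀ h₀ ≠ 0 →
      xco (k • Affine.Point.some x₀ y₀ h₀) * D.eval x₀ = N.eval x₀) := by
  rcases hy with hy | hy
  · exact spec_aux α β B hLB Ψ hΨ hgen h₀ hx hy k hk N D hcop hrel
  · have h₀' : (shortCurve α β).toAffine.Nonsingular x₀ (-y₀) := by
      have := (Affine.nonsingular_neg ..).mpr h₀
      rwa [negY_eq] at this
    have hneg : Affine.Point.some x₀ (-y₀) h₀' = -Affine.Point.some x₀ y₀ h₀ := by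
      rw [Affine.Point.neg_some]
      simp only [Affine.Point.some.injEq, true_and]
      exact (negY_eq ..).symm
    have key := spec_aux α β B hLB Ψ hΨ hgen h₀' hx
      (by rw [map_neg, sub_neg_eq_add]; exact hy) k hk N D hcop hrel
    rw [hneg, smul_neg, neg_eq_zero, xco_neg, neg_ne_zero] at key
    exact key

variable [CharZero L] {α β : L}

/-- **MSpec**: specialisation of a representation `x(k • Pgen) · D(x) = N(x)` at a constant point
`(x₀, y₀)`: the `k`-torsion points are the zeros of `D`, and `x(k • P₀) = N(x₀) / D(x₀)`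
otherwise. -/
theorem spec (G : GenData L F α β) (hβ : β ≠ 0) {k : ℕ} (hk : 1 ≤ k) (X : XData G hβ k)
    {x₀ y₀ : L} (h : (shortCurve α β).toAffine.Nonsingular x₀ y₀) :
    (k • (Affine.Point.some x₀ y₀ h) = 0 ↔ X.D.eval x₀ = 0) ∧
    (k • (Affine.Point.some x₀ y₀ h) ≠ 0 →
      PB.xco (k • (Affine.Point.some x₀ y₀ h)) * X.D.eval x₀ = X.N.eval x₀) := by
  obtain ⟨B, hB, hx, hy⟩ := G.exists_valSub_at ((equation_iff α β x₀ y₀).mp h.1)
  exact spec_core α β B hB (constHom F α β) (fun _ _ h => constHom_some F α β h)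
    (G.nonsingular hβ) h hx hy k (G.nsmul_Pgen_ne_zero hβ (by omega)) X.N X.D X.coprime X.rel

end Spec

end Fermat.Agent.S13.MSpec
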