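/-
S13 team, block [M] (M1) core (owner of this file: helper68).

Abstract form of "(M1) from MSpec + MInf": on the short curve `y² = x³ + α x² + β x` over an
algebraically closed field of characteristic zero, if the `x`-coordinate of `p • P` is given by a
rational function `N / D` in the `x`-coordinate of `P` (with `D` monic vanishing exactly at the
`x`-coordinates of the affine `p`-torsion points, `deg N = deg D + 1` and `lc N = 1 / p²`), then
there is a nonzero `p`-torsion point.
-/
import Fermat.Agent.S05.PB_Formulas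

set_option autoImplicit false

namespace Fermat.Agent.S13.MTors

open WeierstrassCurve Polynomial Fermat.Agent.S05 Fermat.Agent.S05.PB

variable {L : Type*} [Field L]

/-- Every point of the short curve satisfying the equation is nonsingular when `β ≠ 0` and
`α² - 4β ≠ 0` (characteristic `≠ 2`). -/
theorem nonsingular_of_eq (α β : L) (h2 : (2 : L) ≠ 0) (hβ : β ≠ 0) (hd : α ^ 2 - 4 * β ≠ 0)
    {x y : L} (h : y ^ 2 = x ^ 3 + α * x ^ 2 + β * x) :
    (shortCurve α β).toAffine.Nonsingular x y := by
  rw [Affine.nonsingular_iff]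
  refine ⟨(equation_iff α β x y).mpr h, ?_⟩
  simp only [shortCurve_a₁, shortCurve_a₂, shortCurve_a₃, shortCurve_a₄]
  by_cases hy : y = 0
  · left
    subst hy
    intro h3
    have h0 : x * (x ^ 2 + α * x + β) = 0 := by linear_combination -h
    rcases mul_eq_zero.mp h0 with hx | hx
    · subst hx
      apply hβ
      linear_combination -h3
    · have hx0 : x ≠ 0 := by
        rintro rfl
        apply hβ
        linear_combination hx
      have h4 : x * (2 * x + α) = 0 := by linear_combination -h3 - hx
      rcases mul_eq_zero.mp h4 with h5 | h5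
      · exact hx0 h5
      · apply hd
        linear_combination (2 * x + α) * h5 - 4 * hx
  · right
    intro h3
    apply hy
    have : 2 * y = 0 := by linear_combination h3
    rcases mul_eq_zero.mp this with h4 | h4
    · exact absurd h4 h2
    · exact h4


variable [DecidableEq L]

/-- A point with `y = 0` on the short curve has order dividing two. -/
theorem two_nsmul_of_y_zero (α β : L) {x : L} (h : (shortCurve α β).toAffine.Nonsingular x 0) :
    (2 : ℕ) • (Affine.Point.some x 0 h) = 0 := by
  rw [two_nsmul]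
  apply Affine.Point.add_of_Y_eq rfl
  rw [negY_eq]; simp

/-- A point with `y = 0`: odd multiples are the point itself. -/
theorem odd_nsmul_of_y_zero (α β : L) {x : L} (h : (shortCurve α β).toAffine.Nonsingular x 0)
    {p : ℕ} (hp : Odd p) : p • (Affine.Point.some x 0 h) = Affine.Point.some x 0 h := by
  obtain ⟨k, rfl⟩ := hp
  rw [add_nsmul, mul_nsmul, two_nsmul_of_y_zero, nsmul_zero, zero_add, one_nsmul]

/-- A point with `y = 0`: even multiples vanish. -/
theorem even_nsmul_of_y_zero (α β : L) {x : L} (h : (shortCurve α β).toAffine.Nonsingular x 0)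
    {p : ℕ} (hp : Even p) : p • (Affine.Point.some x 0 h) = 0 := by
  obtain ⟨k, rfl⟩ := hp
  rw [← two_mul, mul_nsmul, two_nsmul_of_y_zero, nsmul_zero]

/-- **(M1), abstract form.** -/
theorem exists_torsion_of_data [IsAlgClosed L] [CharZero L]
    (α β : L) (hβ : β ≠ 0) (hd : α ^ 2 - 4 * β ≠ 0) (p : ℕ) (hp : 2 ≤ p)
    (N D : L[X]) (hD : D.Monic)
    (hspec0 : ∀ P₀ : (shortCurve α β).toAffine.Point, P₀ ≠ 0 → p • P₀ ≠ 0 →
      D.eval (xco P₀) ≠ 0)
    (hspec1 : ∀ P₀ : (shortCurve α β).toAffine.Point, P₀ ≠ 0 → p • P₀ ≠ 0 →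
      xco (p • P₀) * D.eval (xco P₀) = N.eval (xco P₀))
    (hdeg : N.natDegree = D.natDegree + 1) (hlc : N.leadingCoeff * (p : L) ^ 2 = 1) :
    ∃ T : (shortCurve α β).toAffine.Point, T ≠ 0 ∧ p • T = 0 := by
  have h2 : (2 : L) ≠ 0 := two_ne_zero
  have h00 : (shortCurve α β).toAffine.Nonsingular 0 0 :=
    nonsingular_of_eq α β h2 hβ hd (by ring)
  rcases Nat.even_or_odd p with hev | hodd
  · exact ⟨Affine.Point.some 0 0 h00, Affine.Point.some_ne_zero _,
      even_nsmul_of_y_zero α β h00 hev⟩
  by_contra hno
  push Not at hno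
  -- `D` has no root
  have hDroot : ∀ x₀ : L, D.eval x₀ ≠ 0 := by
    intro x₀
    obtain ⟨y₀, hy₀⟩ := IsAlgClosed.exists_pow_nat_eq (x₀ ^ 3 + α * x₀ ^ 2 + β * x₀)
      (n := 2) (by norm_num)
    have hns := nonsingular_of_eq α β h2 hβ hd hy₀
    have := hspec0 (Affine.Point.some x₀ y₀ hns) (Affine.Point.some_ne_zero _)
      (hno _ (Affine.Point.some_ne_zero _))
    simpa using this
  have hD0 : D.natDegree = 0 := by
    by_contra hne
    have hdeg' : D.degree ≠ 0 := by
      rw [Polynomial.degree_eq_natDegree hD.ne_zero]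
      exact_mod_cast hne
    obtain ⟨r, hr⟩ := IsAlgClosed.exists_root D hdeg'
    exact hDroot r hr
  have hD1 : D = 1 := by
    have := Polynomial.eq_C_of_natDegree_eq_zero hD0
    rw [this]
    have hc : D.coeff 0 = 1 := by
      have := hD.leadingCoeff
      rwa [Polynomial.leadingCoeff, hD0] at this
    rw [hc, Polynomial.C_1]
  subst hD1
  have hN1 : N.natDegree = 1 := by rw [hdeg]; simp
  -- `N = a X + c`
  have hNform : ∀ x : L, N.eval x = N.leadingCoeff * x + N.coeff 0 := by
    intro x
    have h := Polynomial.eq_X_add_C_of_natDegree_le_one (p := N) (by rw [hN1])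
    have hl : N.coeff 1 = N.leadingCoeff := by rw [Polynomial.leadingCoeff, hN1]
    conv_lhs => rw [h]
    simp [hl]
  have hx : ∀ P₀ : (shortCurve α β).toAffine.Point, P₀ ≠ 0 →
      xco (p • P₀) = N.leadingCoeff * xco P₀ + N.coeff 0 := by
    intro P₀ hP₀
    have := hspec1 P₀ hP₀ (hno P₀ hP₀)
    rw [Polynomial.eval_one, mul_one] at this
    rw [this, hNform]
  -- the two-torsion point `(0,0)`
  have hc0 : N.coeff 0 = 0 := by
    have := hx (Affine.Point.some 0 0 h00) (Affine.Point.some_ne_zero _)
    rw [odd_nsmul_of_y_zero α β h00 hodd] at this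
    simpa using this.symm
  -- the two-torsion point `(e,0)`
  obtain ⟨e, he⟩ := IsAlgClosed.exists_root (X ^ 2 + C α * X + C β : L[X]) (by
    have : (X ^ 2 + C α * X + C β : L[X]).degree = 2 := by
      compute_degree!
    rw [this]; norm_num)
  have he' : e ^ 2 + α * e + β = 0 := by simpa using he
  have he0 : e ≠ 0 := by
    rintro rfl
    apply hβ
    linear_combination he'
  have hee : (shortCurve α β).toAffine.Nonsingular e 0 :=
    nonsingular_of_eq α β h2 hβ hd (by linear_combination -e * he')
  have h1 := hx (Affine.Point.some e 0 hee) (Affine.Point.some_ne_zero _)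
  rw [odd_nsmul_of_y_zero α β hee hodd, hc0, add_zero] at h1
  simp only [xco_some] at h1
  have hlc1 : N.leadingCoeff = 1 := by
    have : e * (N.leadingCoeff - 1) = 0 := by linear_combination -h1
    rcases mul_eq_zero.mp this with h | h
    · exact absurd h he0
    · linear_combination h
  rw [hlc1, one_mul] at hlc
  have hp1 : ((p ^ 2 : ℕ) : L) = ((1 : ℕ) : L) := by push_cast; exact hlc
  have := Nat.cast_injective hp1
  nlinarith

end Fermat.Agent.S13.MTors
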