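/-
S13 team, block [M] (M1) (owner of this file: helper68).

`MTors.torsion_of_xdata`: (M1) from an `XData` at `p` together with its MSpec and MInf properties.
-/
import Fermat.Agent.S13.MGen
import Fermat.Agent.S13.MTorsCore

set_option autoImplicit false

namespace Fermat.Agent.S13.MTors

open WeierstrassCurve Polynomial Fermat.Agent.S05

variable {L : Type*} {F : Type*} [Field L] [Field F] [Algebra L F] [CharZero L]
  [DecidableEq L] [DecidableEq F] {α β : L}

/-- MTors core: (M1) from an `XData` at `p` with its MSpec and MInf properties. -/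
theorem torsion_of_xdata [IsAlgClosed L] (G : GenData L F α β) (hβ : β ≠ 0)
    (hd : α ^ 2 - 4 * β ≠ 0) {p : ℕ} (hp : 2 ≤ p) (X : XData G hβ p)
    (hspec : ∀ {x₀ y₀ : L} (h : (shortCurve α β).toAffine.Nonsingular x₀ y₀),
      (p • (Affine.Point.some x₀ y₀ h) = 0 ↔ X.D.eval x₀ = 0) ∧
      (p • (Affine.Point.some x₀ y₀ h) ≠ 0 →
        PB.xco (p • (Affine.Point.some x₀ y₀ h)) * X.D.eval x₀ = X.N.eval x₀))
    (hinf : X.N.natDegree = X.D.natDegree + 1 ∧ (p : L) ^ 2 * X.N.leadingCoeff = 1) :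
    ∃ T : (shortCurve α β).toAffine.Point, T ≠ 0 ∧ p • T = 0 := by
  refine exists_torsion_of_data α β hβ hd p hp X.N X.D X.monic ?_ ?_ hinf.1
    (by rw [mul_comm]; exact hinf.2)
  · rintro (_ | ⟨x₀, y₀, h⟩) hP hpP
    · exact absurd rfl hP
    · exact fun h0 => hpP ((hspec h).1.mpr h0)
  · rintro (_ | ⟨x₀, y₀, h⟩) hP hpP
    · exact absurd rfl hP
    · exact (hspec h).2 hpP

end Fermat.Agent.S13.MTors
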