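/-
S13 team, block [G] (Minkowski), part (2) (owner: helper37): lifting inertia elements from a
finite Galois subextension `F/ℚ` of `AlgebraicClosure ℚ` to the inertia group of a valuation
subring of `AlgebraicClosure ℚ`, and transitivity of the Galois group on the valuation
subrings above a prime (both at the level of integral elements).
-/
import Mathlib
import Fermat.Prelude.Def_FLTPrelim_Ramification

set_option autoImplicit false

open scoped Pointwise

namespace Fermat.Agent.S13.InertiaLift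

/-- The field of algebraic numbers. -/
local notation "Qb" => AlgebraicClosure ℚ
/-- Its Galois group. -/
local notation "GQ" => (AlgebraicClosure ℚ ≃ₐ[ℚ] AlgebraicClosure ℚ)
/-- The ring of all algebraic integers. -/
local notation "Zb" => integralClosure ℤ (AlgebraicClosure ℚ)

theorem isAlgClosure_rat : IsAlgClosure ℚ Qb := by
  have h : (DivisionRing.toRatAlgebra : Algebra ℚ Qb) = AlgebraicClosure.instAlgebra ℚ :=
    Subsingleton.elim _ _
  rw [h]
  infer_instance

theorem isGalois_rat : IsGalois ℚ Qb :=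
  have := isAlgClosure_rat
  inferInstance

attribute [local instance] isAlgClosure_rat isGalois_rat

theorem coe_smul_Zb (g : GQ) (b : Zb) : ((g • b : Zb) : Qb) = g (b : Qb) := rfl

/-- The discrete topology on the ring of algebraic integers. -/
local instance topZb : TopologicalSpace Zb := ⊥

local instance discreteZb : DiscreteTopology Zb := ⟨rfl⟩

theorem continuousSMul_Zb : ContinuousSMul GQ Zb := by
  rw [continuousSMul_iff_stabilizer_isOpen]
  intro b
  have h := stabilizer_isOpen_of_isIntegral (K := ℚ) (L := Qb) (b : Qb)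
  convert h using 1
  ext g
  simp only [SetLike.mem_coe, MulAction.mem_stabilizer_iff]
  constructor
  · intro hg
    have := congrArg (Subtype.val) hg
    simpa using this
  · intro hg
    apply Subtype.ext
    simpa using hg

attribute [local instance] continuousSMul_Zb

theorem isInvariant_int : Algebra.IsInvariant ℤ Zb GQ := by
  refine ⟨fun b hb => ?_⟩
  have h1 : ∀ f : GQ, f (b : Qb) = (b : Qb) := fun f => by
    have := congrArg Subtype.val (hb f)
    simpa using this
  obtain ⟨r, hr⟩ :=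
    (InfiniteGalois.mem_range_algebraMap_iff_fixed (k := ℚ) (K := Qb) (b : Qb)).mpr h1
  have h2 : IsIntegral ℤ r := by
    have h3 : IsIntegral ℤ (algebraMap ℚ Qb r) := by rw [hr]; exact b.2
    exact (isIntegral_algebraMap_iff (algebraMap ℚ Qb).injective).mp h3
  obtain ⟨n, hn⟩ := (IsIntegrallyClosed.isIntegral_iff (R := ℤ) (K := ℚ)).mp h2
  refine ⟨n, ?_⟩
  apply Subtype.ext
  rw [← hr, ← hn]
  simp

attribute [local instance] isInvariant_int

/-- Integral elements lie in every valuation subring. -/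
theorem mem_of_isIntegral {K : Type*} [Field K] (A : ValuationSubring K) {b : K}
    (hb : IsIntegral ℤ b) : b ∈ A := by
  have h1 : IsIntegral A b := hb.tower_top
  obtain ⟨y, hy⟩ := (IsIntegrallyClosed.isIntegral_iff (R := A) (K := K)).mp h1
  rw [← hy]
  exact y.2

theorem valuation_le_one_of_isIntegral {K : Type*} [Field K] (A : ValuationSubring K) {b : K}
    (hb : IsIntegral ℤ b) : A.valuation b ≤ 1 :=
  (A.valuation_le_one_iff _).mpr (mem_of_isIntegral A hb)

/-- The prime ideal of the ring of algebraic integers cut out by a valuation subring. -/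
def primeOf (A : ValuationSubring Qb) : Ideal Zb where
  carrier := {b | (b : Qb) ∈ A.nonunits}
  add_mem' := by
    intro a b ha hb
    simp only [Set.mem_ofPred_eq, ValuationSubring.mem_nonunits_iff] at ha hb ⊢
    exact lt_of_le_of_lt (A.valuation.map_add _ _) (max_lt ha hb)
  zero_mem' := by
    simp only [Set.mem_ofPred_eq, ValuationSubring.mem_nonunits_iff]
    simp
  smul_mem' := by
    intro c b hb
    simp only [Set.mem_ofPred_eq, ValuationSubring.mem_nonunits_iff, smul_eq_mul] at hb ⊢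
    have hc : A.valuation (c : Qb) ≤ 1 := valuation_le_one_of_isIntegral A c.2
    have : ((c * b : Zb) : Qb) = (c : Qb) * (b : Qb) := rfl
    rw [this, map_mul]
    exact mul_lt_one_of_nonneg_of_lt_one_right hc zero_le hb

theorem mem_primeOf (A : ValuationSubring Qb) (b : Zb) :
    b ∈ primeOf A ↔ (b : Qb) ∈ A.nonunits := Iff.rfl

theorem primeOf_isPrime (A : ValuationSubring Qb) : (primeOf A).IsPrime := by
  refine ⟨?_, ?_⟩
  · rw [Ideal.ne_top_iff_one]
    rw [mem_primeOf, ValuationSubring.mem_nonunits_iff]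
    simp
  · intro a b hab
    rw [mem_primeOf, ValuationSubring.mem_nonunits_iff] at hab
    simp only [mem_primeOf, ValuationSubring.mem_nonunits_iff]
    have ha : A.valuation (a : Qb) ≤ 1 := valuation_le_one_of_isIntegral A a.2
    have hb : A.valuation (b : Qb) ≤ 1 := valuation_le_one_of_isIntegral A b.2
    have : ((a * b : Zb) : Qb) = (a : Qb) * (b : Qb) := rfl
    rw [this, map_mul] at hab
    by_contra hcon
    rw [not_or, not_lt, not_lt] at hcon
    have ha1 : A.valuation (a : Qb) = 1 := le_antisymm ha hcon.1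
    have hb1 : A.valuation (b : Qb) = 1 := le_antisymm hb hcon.2
    rw [ha1, hb1, one_mul] at hab
    exact lt_irrefl _ hab

attribute [local instance] primeOf_isPrime

/-- The prime of `ℤ` below `primeOf A` is `(q)` when `A` lies over `q`. -/
theorem under_primeOf (A : ValuationSubring Qb) (q : ℕ) (hq : q.Prime)
    (hA : A.LiesOverPrime q) : (primeOf A).under ℤ = Ideal.span {(q : ℤ)} := by
  haveI : Fact q.Prime := ⟨hq⟩
  have hmax : (Ideal.span {(q : ℤ)}).IsMaximal := Int.ideal_span_isMaximal_of_prime q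
  symm
  apply hmax.eq_of_le
  · exact Ideal.IsPrime.ne_top inferInstance
  · rw [Ideal.span_le, Set.singleton_subset_iff]
    show (algebraMap ℤ Zb (q : ℤ)) ∈ primeOf A
    rw [mem_primeOf]
    have : ((algebraMap ℤ Zb (q : ℤ) : Zb) : Qb) = (q : Qb) := by simp
    rw [this]
    exact hA

/-- Transitivity of the Galois group on the primes of the ring of all algebraic integers above a
rational prime `q`. -/
theorem exists_smul_integral_nonunits (A A' : ValuationSubring (AlgebraicClosure ℚ)) (q : ℕ)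
    (hq : q.Prime) (hA : A.LiesOverPrime q) (hA' : A'.LiesOverPrime q) :
    ∃ g : AlgebraicClosure ℚ ≃ₐ[ℚ] AlgebraicClosure ℚ,
      ∀ b : AlgebraicClosure ℚ, IsIntegral ℤ b → (b ∈ A.nonunits ↔ g b ∈ A'.nonunits) := by
  have hPQ : (primeOf A).under ℤ = (primeOf A').under ℤ := by
    rw [under_primeOf A q hq hA, under_primeOf A' q hq hA']
  obtain ⟨g, hg⟩ := Algebra.IsInvariant.exists_smul_of_under_eq_of_profinite (A := ℤ) (B := Zb)
    (G := GQ) (primeOf A) (primeOf A') hPQ
  refine ⟨g, fun b hb => ?_⟩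
  have h1 : (⟨b, hb⟩ : Zb) ∈ primeOf A ↔ g • (⟨b, hb⟩ : Zb) ∈ g • primeOf A :=
    Ideal.smul_mem_pointwise_smul_iff.symm
  rw [← hg] at h1
  exact h1


section lift

variable (F : IntermediateField ℚ (AlgebraicClosure ℚ))

/-- The ring of algebraic integers fixed by `Gal(ℚ̄/F)`. -/
noncomputable abbrev fixedRing : Subalgebra ℤ Zb := FixedPoints.subalgebra ℤ Zb F.fixingSubgroup

theorem mem_fixedRing (b : Zb) : b ∈ fixedRing F ↔ ∀ g : F.fixingSubgroup, g • b = b := Iff.rfl

theorem smulCommClass_fixedRing : SMulCommClass F.fixingSubgroup (fixedRing F) Zb :=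
  ⟨fun g a b => by
    show g • ((a : Zb) * b) = (a : Zb) * g • b
    rw [smul_mul', a.2 g]⟩

attribute [local instance] smulCommClass_fixedRing

theorem isInvariant_fixedRing : Algebra.IsInvariant (fixedRing F) Zb F.fixingSubgroup :=
  ⟨fun b hb => ⟨⟨b, hb⟩, rfl⟩⟩

attribute [local instance] isInvariant_fixedRing

theorem compactSpace_fixingSubgroup [FiniteDimensional ℚ F] : CompactSpace F.fixingSubgroup :=
  isCompact_iff_compactSpace.mp (IntermediateField.fixingSubgroup_isClosed F).isCompact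

attribute [local instance] compactSpace_fixingSubgroup

/-- Elements of the fixed ring lie in `F`. -/
theorem coe_mem_of_mem_fixedRing (a : fixedRing F) : ((a : Zb) : Qb) ∈ F := by
  have h := InfiniteGalois.fixedField_fixingSubgroup (k := ℚ) (K := Qb) F
  have key : ((a : Zb) : Qb) ∈ IntermediateField.fixedField F.fixingSubgroup := by
    rw [IntermediateField.mem_fixedField_iff]
    intro g hg
    have := congrArg Subtype.val (a.2 ⟨g, hg⟩)
    simpa using this
  rwa [h] at key

/-- Integral elements of `F` give elements of the fixed ring. -/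
theorem mem_fixedRing_of_mem (b : Zb) (hb : (b : Qb) ∈ F) : b ∈ fixedRing F := by
  intro g
  apply Subtype.ext
  exact g.2 ⟨(b : Qb), hb⟩

theorem mem_nonunits_iff_of_sub_mem {K : Type*} [Field K] (A : ValuationSubring K) {x y : K}
    (h : y - x ∈ A.nonunits) : x ∈ A.nonunits ↔ y ∈ A.nonunits := by
  rw [ValuationSubring.mem_nonunits_iff] at h ⊢
  rw [ValuationSubring.mem_nonunits_iff]
  constructor
  · intro hx
    have : y = (y - x) + x := by ring
    rw [this]
    exact lt_of_le_of_lt (A.valuation.map_add _ _) (max_lt h hx)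
  · intro hy
    have : x = y - (y - x) := by ring
    rw [this]
    exact lt_of_le_of_lt (A.valuation.map_sub _ _) (max_lt hy h)

theorem exists_lift_inertia_aux (A : ValuationSubring (AlgebraicClosure ℚ))
    [FiniteDimensional ℚ F] [IsGalois ℚ F]
    (τ : F ≃ₐ[ℚ] F)
    (hτ : ∀ x : F, IsIntegral ℤ (x : AlgebraicClosure ℚ) →
      ((τ x : F) : AlgebraicClosure ℚ) - (x : AlgebraicClosure ℚ) ∈ A.nonunits) :
    ∃ σ : AlgebraicClosure ℚ ≃ₐ[ℚ] AlgebraicClosure ℚ,
      (∀ x : F, σ (x : AlgebraicClosure ℚ) = ((τ x : F) : AlgebraicClosure ℚ)) ∧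
      ∀ b : AlgebraicClosure ℚ, IsIntegral ℤ b → σ b - b ∈ A.nonunits := by
  -- Step 1: lift `τ` to `σ₀`
  obtain ⟨σ₀, hσ₀⟩ := AlgEquiv.restrictNormalHom_surjective (F := ℚ) (K₁ := F) Qb τ
  have hσ₀F : ∀ x : F, σ₀ (x : Qb) = ((τ x : F) : Qb) := by
    intro x
    rw [← hσ₀]
    exact (AlgEquiv.restrictNormal_commutes σ₀ F x).symm
  -- Step 2: move `σ₀ • Q` back to `Q` by an element of the fixing subgroup
  set Q : Ideal Zb := primeOf A with hQ
  have hPQ : (σ₀ • Q).under (fixedRing F) = Q.under (fixedRing F) := by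
    ext a
    show (a : Zb) ∈ σ₀ • Q ↔ (a : Zb) ∈ Q
    rw [Ideal.mem_pointwise_smul_iff_inv_smul_mem, mem_primeOf, mem_primeOf, coe_smul_Zb]
    have haF := coe_mem_of_mem_fixedRing F a
    have hy1 : σ₀ ((τ.symm ⟨_, haF⟩ : F) : Qb) = ((a : Zb) : Qb) := by
      rw [hσ₀F, AlgEquiv.apply_symm_apply]
    have hy2 : σ₀⁻¹ ((a : Zb) : Qb) = ((τ.symm ⟨_, haF⟩ : F) : Qb) := by
      have h0 := congrArg (σ₀⁻¹ : GQ) hy1
      exact h0.symm.trans (σ₀.symm_apply_apply _)
    have hyint : IsIntegral ℤ ((τ.symm ⟨_, haF⟩ : F) : Qb) := by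
      rw [← hy2]
      exact (σ₀⁻¹ • (a : Zb)).2
    have h1 := hτ _ hyint
    rw [AlgEquiv.apply_symm_apply] at h1
    rw [hy2]
    exact mem_nonunits_iff_of_sub_mem A h1
  obtain ⟨ρ, hρ⟩ := Algebra.IsInvariant.exists_smul_of_under_eq_of_profinite
    (A := fixedRing F) (B := Zb) (G := F.fixingSubgroup) (σ₀ • Q) Q hPQ
  set σ₁ : GQ := (ρ : GQ) * σ₀ with hσ₁
  have hσ₁Q : σ₁ • Q = Q := by
    rw [hσ₁, mul_smul]
    exact hρ.symm
  have hσ₁F : ∀ x : F, σ₁ (x : Qb) = ((τ x : F) : Qb) := by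
    intro x
    rw [hσ₁, AlgEquiv.mul_apply, hσ₀F]
    exact ρ.2 ⟨_, (τ x).2⟩
  -- Step 3: correct `σ₁` by an element of the fixing subgroup inducing the same automorphism
  -- of the residue ring
  let φ₀ := Ideal.Quotient.stabilizerHom Q (Q.under ℤ) GQ ⟨σ₁, hσ₁Q⟩
  have hφ₀ : ∀ b : Zb, φ₀ (Ideal.Quotient.mk Q b) = Ideal.Quotient.mk Q (σ₁ • b) := fun b => rfl
  let φ : (Zb ⧸ Q) ≃ₐ[fixedRing F ⧸ Q.under (fixedRing F)] (Zb ⧸ Q) :=
    AlgEquiv.ofRingEquiv (f := φ₀.toRingEquiv) (by
      intro r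
      obtain ⟨a, rfl⟩ := Ideal.Quotient.mk_surjective r
      show φ₀ (Ideal.Quotient.mk Q (a : Zb)) = Ideal.Quotient.mk Q (a : Zb)
      rw [hφ₀, Ideal.Quotient.eq, mem_primeOf]
      have haF := coe_mem_of_mem_fixedRing F a
      have h1 := hτ ⟨_, haF⟩ (a : Zb).2
      rw [← hσ₁F] at h1
      exact h1)
  obtain ⟨ρ', hρ'⟩ := Ideal.Quotient.stabilizerHom_surjective_of_profinite
    (G := F.fixingSubgroup) (Q.under (fixedRing F)) Q φ
  have hρ'b : ∀ b : Zb, (ρ' : F.fixingSubgroup) • b - σ₁ • b ∈ Q := by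
    intro b
    have h := congrArg (fun f => f (Ideal.Quotient.mk Q b)) hρ'
    exact Ideal.Quotient.eq.mp h
  refine ⟨((ρ' : F.fixingSubgroup) : GQ)⁻¹ * σ₁, ?_, ?_⟩
  · intro x
    rw [AlgEquiv.mul_apply, hσ₁F]
    exact (F.fixingSubgroup.inv_mem (ρ' : F.fixingSubgroup).2) ⟨_, (τ x).2⟩
  · intro b hb
    have h1 := hρ'b ⟨b, hb⟩
    have hstab : ((ρ' : F.fixingSubgroup) : GQ) • Q = Q := ρ'.2
    have h2 : (((ρ' : F.fixingSubgroup) : GQ) • (⟨b, hb⟩ : Zb) - σ₁ • (⟨b, hb⟩ : Zb))
        ∈ ((ρ' : F.fixingSubgroup) : GQ) • Q := by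
      rw [hstab]
      exact h1
    rw [Ideal.mem_pointwise_smul_iff_inv_smul_mem, mem_primeOf, coe_smul_Zb] at h2
    have h3 : (((ρ' : F.fixingSubgroup) : GQ)⁻¹ * σ₁) b - b
        = -(((ρ' : F.fixingSubgroup) : GQ)⁻¹
            ((((ρ' : F.fixingSubgroup) : GQ) • (⟨b, hb⟩ : Zb) - σ₁ • (⟨b, hb⟩ : Zb) : Zb) : Qb)) := by
      have e1 : ((((ρ' : F.fixingSubgroup) : GQ) • (⟨b, hb⟩ : Zb) - σ₁ • (⟨b, hb⟩ : Zb) : Zb) : Qb)
          = ((ρ' : F.fixingSubgroup) : GQ) b - σ₁ b := rfl
      rw [e1, map_sub, AlgEquiv.mul_apply]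
      have e2 : ((ρ' : F.fixingSubgroup) : GQ)⁻¹ (((ρ' : F.fixingSubgroup) : GQ) b) = b :=
        AlgEquiv.symm_apply_apply _ b
      rw [e2]
      ring
    rw [h3, ValuationSubring.mem_nonunits_iff, Valuation.map_neg,
      ← ValuationSubring.mem_nonunits_iff]
    exact h2

end lift

/-- Lifting: an automorphism `τ` of a finite Galois `F/ℚ` acting trivially modulo `A.nonunits` on
the integers of `F` lifts to an automorphism of `AlgebraicClosure ℚ` acting trivially modulo
`A.nonunits` on all algebraic integers. -/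
theorem exists_lift_inertia (A : ValuationSubring (AlgebraicClosure ℚ))
    (F : IntermediateField ℚ (AlgebraicClosure ℚ)) [FiniteDimensional ℚ F] [IsGalois ℚ F]
    (τ : F ≃ₐ[ℚ] F)
    (hτ : ∀ x : F, IsIntegral ℤ (x : AlgebraicClosure ℚ) →
      ((τ x : F) : AlgebraicClosure ℚ) - (x : AlgebraicClosure ℚ) ∈ A.nonunits) :
    ∃ σ : AlgebraicClosure ℚ ≃ₐ[ℚ] AlgebraicClosure ℚ,
      (∀ x : F, σ (x : AlgebraicClosure ℚ) = ((τ x : F) : AlgebraicClosure ℚ)) ∧
      ∀ b : AlgebraicClosure ℚ, IsIntegral ℤ b → σ b - b ∈ A.nonunits :=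
  exists_lift_inertia_aux F A τ hτ

end Fermat.Agent.S13.InertiaLift
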