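/-
S13 team, block [G] part (3) (owner: helper11): valuation subrings of `AlgebraicClosure ℚ`
versus algebraic integers.  Every valuation subring `A` is the localisation of the ring of all
algebraic integers at the prime `A.nonunits ∩ (integers)`; consequences for inertia subgroups.
-/
import Mathlib
import Fermat.Prelude.Def_FLTPrelim_Ramification

set_option autoImplicit false

namespace Fermat.Agent.S13.ValSub

open scoped Pointwise
open Polynomial

section General

variable {K : Type*} [Field K]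

/-- The "tail" elements `y r = ∑_{i} c (i + r) x ^ i` attached to a relation
`∑_{i ≤ n} c i x ^ i = 0`. -/
noncomputable def tail (c : ℕ → ℤ) (n : ℕ) (x : K) (r : ℕ) : K :=
  ∑ i ∈ Finset.range (n + 1 - r), (c (i + r) : K) * x ^ i

theorem tail_zero (c : ℕ → ℤ) (n : ℕ) (x : K) :
    tail c n x 0 = ∑ i ∈ Finset.range (n + 1), (c i : K) * x ^ i := by
  simp [tail]

/-- `x ^ r * y r = ∑_{r ≤ i ≤ n} c i x ^ i`. -/
theorem pow_mul_tail (c : ℕ → ℤ) (n : ℕ) (x : K) (r : ℕ) (hr : r ≤ n + 1) :
    x ^ r * tail c n x r + ∑ i ∈ Finset.range r, (c i : K) * x ^ i =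
      ∑ i ∈ Finset.range (n + 1), (c i : K) * x ^ i := by
  unfold tail
  rw [Finset.mul_sum]
  have h1 : ∑ i ∈ Finset.range (n + 1 - r), x ^ r * ((c (i + r) : K) * x ^ i) =
      ∑ i ∈ Finset.range (n + 1 - r), (c (r + i) : K) * x ^ (r + i) := by
    refine Finset.sum_congr rfl fun i _ => ?_
    rw [add_comm i r, pow_add]; ring
  rw [h1, add_comm]
  have h2 := Finset.sum_range_add (fun i => (c i : K) * x ^ i) r (n + 1 - r)
  rw [show r + (n + 1 - r) = n + 1 by omega] at h2
  exact h2.symm

theorem tail_mem_of_mem (A : ValuationSubring K) (c : ℕ → ℤ) (n : ℕ) {x : K} (hx : x ∈ A)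
    (r : ℕ) : tail c n x r ∈ A := by
  unfold tail
  exact sum_mem fun i _ => A.mul_mem _ _ (intCast_mem A _) (pow_mem hx i)

/-- The low part, written in terms of `x⁻¹`. -/
theorem tail_eq_neg_sum_inv (c : ℕ → ℤ) (n : ℕ) {x : K} (hx0 : x ≠ 0)
    (hroot : ∑ i ∈ Finset.range (n + 1), (c i : K) * x ^ i = 0) (r : ℕ) (hr : r ≤ n + 1) :
    tail c n x r = -∑ i ∈ Finset.range r, (c i : K) * x⁻¹ ^ (r - i) := by
  have h := pow_mul_tail c n x r hr
  rw [hroot] at h
  have hxr : x ^ r ≠ 0 := pow_ne_zero r hx0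
  have h3 : x ^ r * tail c n x r = x ^ r * (-∑ i ∈ Finset.range r, (c i : K) * x⁻¹ ^ (r - i)) := by
    rw [mul_neg, Finset.mul_sum]
    have h4 : ∑ i ∈ Finset.range r, x ^ r * ((c i : K) * x⁻¹ ^ (r - i)) =
        ∑ i ∈ Finset.range r, (c i : K) * x ^ i := by
      refine Finset.sum_congr rfl fun i hi => ?_
      have hi' : i < r := Finset.mem_range.mp hi
      have : x ^ r = x ^ i * x ^ (r - i) := by rw [← pow_add]; congr 1; omega
      rw [this, inv_pow]
      have hxi : x ^ (r - i) ≠ 0 := pow_ne_zero _ hx0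
      field_simp
    rw [h4]
    linear_combination h
  exact mul_left_cancel₀ hxr h3

theorem tail_mem_of_inv_mem (A : ValuationSubring K) (c : ℕ → ℤ) (n : ℕ) {x : K} (hx0 : x ≠ 0)
    (hx : x⁻¹ ∈ A) (hroot : ∑ i ∈ Finset.range (n + 1), (c i : K) * x ^ i = 0)
    (r : ℕ) (hr : r ≤ n + 1) : tail c n x r ∈ A := by
  rw [tail_eq_neg_sum_inv c n hx0 hroot r hr]
  exact neg_mem (sum_mem fun i _ => A.mul_mem _ _ (intCast_mem A _) (pow_mem hx _))

theorem mul_tail_mem_of_inv_mem (A : ValuationSubring K) (c : ℕ → ℤ) (n : ℕ) {x : K}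
    (hx0 : x ≠ 0) (hx : x⁻¹ ∈ A) (hroot : ∑ i ∈ Finset.range (n + 1), (c i : K) * x ^ i = 0)
    (r : ℕ) (_hr1 : 1 ≤ r) (hr : r ≤ n + 1) : x * tail c n x r ∈ A := by
  rw [tail_eq_neg_sum_inv c n hx0 hroot r hr, mul_neg, Finset.mul_sum]
  refine neg_mem (sum_mem fun i hi => ?_)
  have hi' : i < r := Finset.mem_range.mp hi
  have : x * ((c i : K) * x⁻¹ ^ (r - i)) = (c i : K) * x⁻¹ ^ (r - i - 1) := by
    have h1 : x⁻¹ ^ (r - i) = x⁻¹ ^ (r - i - 1) * x⁻¹ := by
      rw [← pow_succ]; congr 1; omega
    rw [h1]; field_simp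
  rw [this]
  exact A.mul_mem _ _ (intCast_mem A _) (pow_mem hx _)

/-- An element lying in every valuation subring is integral over `ℤ`. -/
theorem isIntegral_of_forall_mem {y : K} (h : ∀ A : ValuationSubring K, y ∈ A) :
    IsIntegral ℤ y := by
  have h1 : y ∈ (⨅ V : {V : ValuationSubring K // (∅ : Set K) ⊆ V.toSubring}, V.1.toSubring) := by
    rw [Subring.mem_iInf]
    intro V
    exact h V.1
  rw [iInf_valuationSubring_superset] at h1
  have h2 : IsIntegral (Subring.closure (∅ : Set K)) y := h1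
  have h3 : Algebra.IsIntegral ℤ (Subring.closure (∅ : Set K)) := by
    constructor
    intro z
    have hz : (z : K) ∈ (⊥ : Subring K) := by
      have h5 : Subring.closure (∅ : Set K) = ⊥ := Subring.closure_empty
      exact h5 ▸ z.2
    obtain ⟨m, hm⟩ := Subring.mem_bot.mp hz
    have : z = algebraMap ℤ (Subring.closure (∅ : Set K)) m := by
      apply Subtype.ext
      simp [← hm]
    rw [this]
    exact isIntegral_algebraMap
  exact isIntegral_trans (A := Subring.closure (∅ : Set K)) y h2

theorem isIntegral_tail (c : ℕ → ℤ) (n : ℕ) (x : K)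
    (hroot : ∑ i ∈ Finset.range (n + 1), (c i : K) * x ^ i = 0) (r : ℕ) (hr : r ≤ n + 1) :
    IsIntegral ℤ (tail c n x r) := by
  refine isIntegral_of_forall_mem fun A => ?_
  by_cases hx0 : x = 0
  · subst hx0
    exact tail_mem_of_mem A c n (zero_mem A) r
  rcases A.mem_or_inv_mem x with hx | hx
  · exact tail_mem_of_mem A c n hx r
  · exact tail_mem_of_inv_mem A c n hx0 hx hroot r hr

theorem isIntegral_mul_tail (c : ℕ → ℤ) (n : ℕ) (x : K)
    (hroot : ∑ i ∈ Finset.range (n + 1), (c i : K) * x ^ i = 0) (r : ℕ) (hr1 : 1 ≤ r)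
    (hr : r ≤ n + 1) : IsIntegral ℤ (x * tail c n x r) := by
  refine isIntegral_of_forall_mem fun A => ?_
  by_cases hx0 : x = 0
  · subst hx0
    simp
  rcases A.mem_or_inv_mem x with hx | hx
  · exact A.mul_mem _ _ hx (tail_mem_of_mem A c n hx r)
  · exact mul_tail_mem_of_inv_mem A c n hx0 hx hroot r hr1 hr


/-- Integral elements lie in every valuation subring. -/
theorem mem_of_isIntegral (A : ValuationSubring K) {b : K} (hb : IsIntegral ℤ b) : b ∈ A := by
  have h1 : IsIntegral A b := hb.tower_top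
  obtain ⟨y, hy⟩ := IsIntegrallyClosed.isIntegral_iff.mp h1
  rw [← hy]
  exact y.2

/-- A primitive integer polynomial has a coefficient that is a unit of `A`. -/
theorem exists_coeff_not_mem_nonunits (A : ValuationSubring K) {g : ℤ[X]} (hg : g.IsPrimitive) :
    ∃ i, i ≤ g.natDegree ∧ ((g.coeff i : ℤ) : K) ∉ A.nonunits := by
  by_contra hcon
  push Not at hcon
  let J : Ideal ℤ := Ideal.comap (Int.castRingHom A) (IsLocalRing.maximalIdeal A)
  have hJ : ∀ m : ℤ, m ∈ J ↔ (m : K) ∈ A.nonunits := by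
    intro m
    rw [Ideal.mem_comap, ← ValuationSubring.coe_mem_nonunits_iff]
    simp
  have hJtop : J ≠ ⊤ := Ideal.comap_ne_top _ (IsLocalRing.maximalIdeal.isMaximal A).ne_top
  have hall : ∀ i, g.coeff i ∈ J := by
    intro i
    by_cases hi : i ≤ g.natDegree
    · exact (hJ _).mpr (hcon i hi)
    · rw [Polynomial.coeff_eq_zero_of_natDegree_lt (not_le.mp hi)]
      exact J.zero_mem
  obtain ⟨d, hd⟩ : ∃ d : ℤ, J = Ideal.span {d} := ⟨_, (Ideal.span_singleton_generator J).symm⟩
  have hdvd : ∀ i, d ∣ g.coeff i := by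
    intro i
    have := hall i
    rw [hd, Ideal.mem_span_singleton] at this
    exact this
  have hunit : IsUnit d := hg d ((Polynomial.C_dvd_iff_dvd_coeff d g).mpr hdvd)
  apply hJtop
  rw [hd]
  exact Ideal.span_singleton_eq_top.mpr hunit

/-- **Valuation subrings are localisations of the ring of algebraic integers.**
Every element of a valuation subring `A` which is algebraic over `ℤ` is a quotient `a / b` of
integral elements with `b` a unit of `A`. -/
theorem exists_integral_div_of_isAlgebraic [CharZero K] (A : ValuationSubring K) {x : K}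
    (hx : x ∈ A) (halg : IsAlgebraic ℤ x) :
    ∃ a b : K, IsIntegral ℤ a ∧ IsIntegral ℤ b ∧ b ∉ A.nonunits ∧ x * b = a := by
  classical
  obtain ⟨f, hf0, hfx⟩ := halg
  set g := f.primPart with hgdef
  have hgprim : g.IsPrimitive := Polynomial.isPrimitive_primPart f
  have hfg : f = Polynomial.C f.content * g := Polynomial.eq_C_content_mul_primPart f
  have hcont : f.content ≠ 0 := by
    intro h
    apply hf0
    rw [hfg, h]; simp
  have hgx : Polynomial.aeval x g = 0 := by
    have h1 : Polynomial.aeval x f = (f.content : K) * Polynomial.aeval x g := by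
      conv_lhs => rw [hfg]
      simp
    rw [hfx] at h1
    rcases mul_eq_zero.mp h1.symm with h | h
    · exact absurd (by exact_mod_cast h) hcont
    · exact h
  set n := g.natDegree with hn
  set c : ℕ → ℤ := fun i => g.coeff i with hc
  have hroot : ∑ i ∈ Finset.range (n + 1), (c i : K) * x ^ i = 0 := by
    have := Polynomial.aeval_eq_sum_range (p := g) x
    rw [hgx] at this
    rw [this]
    refine Finset.sum_congr rfl fun i _ => ?_
    simp [hc, zsmul_eq_mul]
  obtain ⟨i₀, hi₀n, hi₀⟩ := exists_coeff_not_mem_nonunits A hgprim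
  set P : ℕ → Prop := fun i => (c i : K) ∉ A.nonunits with hP
  set r := Nat.findGreatest P n with hr
  have hrP : P r := Nat.findGreatest_spec (P := P) hi₀n hi₀
  have hrn : r ≤ n := Nat.findGreatest_le n
  have hgreat : ∀ k, r < k → k ≤ n → (c k : K) ∈ A.nonunits := by
    intro k hk hkn
    have := Nat.findGreatest_is_greatest (P := P) hk hkn
    simpa [hP] using this
  -- valuation of the tail
  have hcr1 : A.valuation (c r : K) = 1 := by
    have h1 : A.valuation (c r : K) ≤ 1 := (A.valuation_le_one_iff _).mpr (intCast_mem A _)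
    have h2 : ¬ A.valuation (c r : K) < 1 := fun h => hrP (A.mem_nonunits_iff.mpr h)
    exact le_antisymm h1 (not_lt.mp h2)
  have htail : tail c n x r =
      (∑ i ∈ Finset.range (n - r), (c (i + 1 + r) : K) * x ^ (i + 1)) + (c r : K) := by
    unfold tail
    rw [show n + 1 - r = (n - r) + 1 by omega, Finset.sum_range_succ']
    simp
  have hsum : A.valuation (∑ i ∈ Finset.range (n - r), (c (i + 1 + r) : K) * x ^ (i + 1)) < 1 := by
    refine A.valuation.map_sum_lt one_ne_zero fun i hi => ?_
    have hi' : i < n - r := Finset.mem_range.mp hi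
    have h1 : A.valuation (c (i + 1 + r) : K) < 1 :=
      A.mem_nonunits_iff.mp (hgreat _ (by omega) (by omega))
    have h2 : A.valuation (x ^ (i + 1)) ≤ 1 := (A.valuation_le_one_iff _).mpr (pow_mem hx _)
    rw [map_mul]
    exact mul_lt_one_of_nonneg_of_lt_one_left zero_le h1 h2
  have hval : A.valuation (tail c n x r) = 1 := by
    rw [htail, add_comm, A.valuation.map_add_eq_of_lt_left (by rw [hcr1]; exact hsum), hcr1]
  have hr1 : 1 ≤ r := by
    by_contra h
    have h0 : r = 0 := by omega
    rw [h0, tail_zero, hroot] at hval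
    simp at hval
  refine ⟨x * tail c n x r, tail c n x r, isIntegral_mul_tail c n x hroot r hr1 (by omega),
    isIntegral_tail c n x hroot r (by omega), ?_, rfl⟩
  intro h
  have := A.mem_nonunits_iff.mp h
  rw [hval] at this
  exact lt_irrefl _ this

end General

section Inertia

variable {k L : Type*} [Field k] [Field L] [Algebra k L]

/-- Membership in the inertia subgroup from element-wise conditions. -/
theorem mem_inertiaSubgroupIn_of_forall (A : ValuationSubring L) (σ : L ≃ₐ[k] L)
    (h1 : ∀ x ∈ A, σ x ∈ A) (h2 : ∀ x ∈ A, σ.symm x ∈ A)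
    (h3 : ∀ x ∈ A, σ x - x ∈ A.nonunits) : σ ∈ A.inertiaSubgroupIn k := by
  have hstab : σ ∈ A.decompositionSubgroup k := by
    rw [MulAction.mem_stabilizer_iff]
    apply le_antisymm
    · intro x hx
      rw [ValuationSubring.mem_pointwise_smul_iff_inv_smul_mem] at hx
      have := h1 _ hx
      simpa using this
    · intro x hx
      rw [ValuationSubring.mem_pointwise_smul_iff_inv_smul_mem]
      exact h2 x hx
  refine ⟨⟨σ, hstab⟩, ?_, rfl⟩
  rw [ValuationSubring.inertiaSubgroup, SetLike.mem_coe, MonoidHom.mem_ker]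
  ext z
  obtain ⟨a, rfl⟩ := IsLocalRing.residue_surjective z
  change (⟨σ, hstab⟩ : A.decompositionSubgroup k) • IsLocalRing.residue A a =
    IsLocalRing.residue A a
  rw [← IsLocalRing.ResidueField.residue_smul, ← sub_eq_zero, ← map_sub,
    IsLocalRing.residue_eq_zero_iff, ← ValuationSubring.coe_mem_nonunits_iff]
  exact h3 a a.2

/-- Elements of the inertia subgroup preserve the valuation subring. -/
theorem apply_mem_iff_of_mem_inertia (A : ValuationSubring L) {σ : L ≃ₐ[k] L}
    (hσ : σ ∈ A.inertiaSubgroupIn k) (x : L) : σ x ∈ A ↔ x ∈ A := by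
  obtain ⟨τ, -, rfl⟩ := hσ
  have h : (τ : L ≃ₐ[k] L) • A = A := τ.2
  constructor
  · intro hx
    have : (τ : L ≃ₐ[k] L) • x ∈ (τ : L ≃ₐ[k] L) • A := by rw [h]; exact hx
    exact ValuationSubring.smul_mem_pointwise_smul_iff.mp this
  · intro hx
    have : (τ : L ≃ₐ[k] L) • x ∈ (τ : L ≃ₐ[k] L) • A :=
      ValuationSubring.smul_mem_pointwise_smul _ x A hx
    rw [h] at this
    exact this

/-- Elements of the inertia subgroup act trivially on the residue field. -/
theorem apply_sub_mem_nonunits_of_mem_inertia (A : ValuationSubring L) {σ : L ≃ₐ[k] L}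
    (hσ : σ ∈ A.inertiaSubgroupIn k) {x : L} (hx : x ∈ A) : σ x - x ∈ A.nonunits := by
  obtain ⟨τ, hτ, rfl⟩ := hσ
  have h1 : τ • (IsLocalRing.residue A ⟨x, hx⟩) = IsLocalRing.residue A ⟨x, hx⟩ := by
    have := congrArg (fun f => f (IsLocalRing.residue A ⟨x, hx⟩)) (MonoidHom.mem_ker.mp hτ)
    simpa using this
  rw [← IsLocalRing.ResidueField.residue_smul, ← sub_eq_zero, ← map_sub,
    IsLocalRing.residue_eq_zero_iff] at h1
  exact ValuationSubring.coe_mem_nonunits_iff.mpr h1

/-- Transport of nonunits under the pointwise action. -/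
theorem apply_mem_nonunits_smul (A : ValuationSubring L) (g : L ≃ₐ[k] L) {z : L}
    (hz : z ∈ A.nonunits) : g z ∈ (g • A).nonunits := by
  rw [ValuationSubring.mem_nonunits_iff_or] at hz ⊢
  rcases hz with hz | hz
  · left; rw [hz, map_zero]
  · right
    intro h
    apply hz
    rw [ValuationSubring.mem_pointwise_smul_iff_inv_smul_mem] at h
    have h' : g⁻¹ ((g z)⁻¹) ∈ A := h
    rw [map_inv₀] at h'
    have h2 : g⁻¹ (g z) = z := by
      change g.symm (g z) = z
      simp
    rwa [h2] at h'

/-- Conjugating an inertia element gives an inertia element of the translated subring. -/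
theorem conj_mem_inertiaSubgroupIn_general (A : ValuationSubring L) (g σ : L ≃ₐ[k] L)
    (hσ : σ ∈ A.inertiaSubgroupIn k) : g * σ * g⁻¹ ∈ (g • A).inertiaSubgroupIn k := by
  have hginv : ∀ x : L, g⁻¹ x = g.symm x := fun _ => rfl
  have key : ∀ τ : L ≃ₐ[k] L, (∀ y, τ y ∈ A ↔ y ∈ A) → ∀ x ∈ g • A, (g * τ * g⁻¹) x ∈ g • A := by
    intro τ hτ x hx
    rw [ValuationSubring.mem_pointwise_smul_iff_inv_smul_mem] at hx ⊢
    have hx' : g⁻¹ x ∈ A := hx
    change g⁻¹ ((g * τ * g⁻¹) x) ∈ A
    have : g⁻¹ ((g * τ * g⁻¹) x) = τ (g⁻¹ x) := by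
      simp [AlgEquiv.mul_apply, hginv]
    rw [this]
    exact (hτ _).mpr hx'
  refine mem_inertiaSubgroupIn_of_forall (g • A) (g * σ * g⁻¹)
    (key σ (apply_mem_iff_of_mem_inertia A hσ)) ?_ ?_
  · have hsymm : (g * σ * g⁻¹).symm = g * σ⁻¹ * g⁻¹ := by
      change (g * σ * g⁻¹)⁻¹ = _
      group
    rw [hsymm]
    have hσinv : ∀ y, σ⁻¹ y ∈ A ↔ y ∈ A := by
      intro y
      have := apply_mem_iff_of_mem_inertia A hσ (σ⁻¹ y)
      have h2 : σ (σ⁻¹ y) = y := by
        change σ (σ.symm y) = y
        simp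
      rw [h2] at this
      exact this.symm
    exact key σ⁻¹ hσinv
  · intro x hx
    rw [ValuationSubring.mem_pointwise_smul_iff_inv_smul_mem] at hx
    have hx' : g⁻¹ x ∈ A := hx
    have h1 := apply_sub_mem_nonunits_of_mem_inertia A hσ hx'
    have h2 := apply_mem_nonunits_smul A g h1
    have h3 : g (σ (g⁻¹ x) - g⁻¹ x) = (g * σ * g⁻¹) x - x := by
      rw [map_sub]
      have : g (g⁻¹ x) = x := by
        change g (g.symm x) = x
        simp
      rw [this]
      rfl
    rwa [h3] at h2

variable [CharZero L]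

/-- If `σ` moves every algebraic integer by a nonunit of `A`, then `σ` maps `A` into itself and
moves every element of `A` by a nonunit. -/
theorem apply_mem_and_sub_mem_of_integral (halg : ∀ x : L, IsAlgebraic ℤ x)
    (A : ValuationSubring L) (σ : L ≃ₐ[k] L)
    (h : ∀ b : L, IsIntegral ℤ b → σ b - b ∈ A.nonunits) {x : L} (hx : x ∈ A) :
    σ x ∈ A ∧ σ x - x ∈ A.nonunits := by
  obtain ⟨a, b, ha, hb, hbn, hab⟩ := exists_integral_div_of_isAlgebraic A hx (halg x)
  have hbA : b ∈ A := mem_of_isIntegral A hb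
  have haA : a ∈ A := mem_of_isIntegral A ha
  have hvb : A.valuation b = 1 :=
    le_antisymm ((A.valuation_le_one_iff _).mpr hbA)
      (not_lt.mp fun hlt => hbn (A.mem_nonunits_iff.mpr hlt))
  have hb0 : b ≠ 0 := by
    intro h0
    rw [h0, map_zero] at hvb
    exact zero_ne_one hvb
  have hσb : A.valuation (σ b - b) < 1 := A.mem_nonunits_iff.mp (h b hb)
  have hσa : A.valuation (σ a - a) < 1 := A.mem_nonunits_iff.mp (h a ha)
  have hvσb : A.valuation (σ b) = 1 := by
    have : σ b = b + (σ b - b) := by ring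
    rw [this, A.valuation.map_add_eq_of_lt_left (by rw [hvb]; exact hσb), hvb]
  have hσb0 : σ b ≠ 0 := by
    intro h0
    rw [h0, map_zero] at hvσb
    exact zero_ne_one hvσb
  have hσaA : σ a ∈ A := mem_of_isIntegral A (map_isIntegral_int σ ha)
  have hxab : x = a / b := by
    rw [eq_div_iff hb0]; exact hab
  have hσx : σ x = σ a / σ b := by rw [hxab, map_div₀]
  constructor
  · rw [hσx, ← A.valuation_le_one_iff, map_div₀, hvσb, div_one]
    exact (A.valuation_le_one_iff _).mpr hσaA
  · rw [A.mem_nonunits_iff]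
    have hdiff : σ x - x = (b * (σ a - a) - a * (σ b - b)) / (b * σ b) := by
      rw [hσx, hxab]; field_simp; ring
    rw [hdiff, map_div₀, map_mul, hvb, hvσb, mul_one, div_one]
    refine lt_of_le_of_lt (A.valuation.map_sub _ _) (max_lt ?_ ?_)
    · rw [map_mul, hvb, one_mul]; exact hσa
    · rw [map_mul]
      exact mul_lt_one_of_nonneg_of_lt_one_right ((A.valuation_le_one_iff _).mpr haA) zero_le hσb

/-- **Inertia criterion on algebraic integers.** -/
theorem mem_inertiaSubgroupIn_of_integral_general (halg : ∀ x : L, IsAlgebraic ℤ x)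
    (A : ValuationSubring L) (σ : L ≃ₐ[k] L)
    (h : ∀ b : L, IsIntegral ℤ b → σ b - b ∈ A.nonunits) : σ ∈ A.inertiaSubgroupIn k := by
  have hsymm : ∀ b : L, IsIntegral ℤ b → σ.symm b - b ∈ A.nonunits := by
    intro b hb
    have hb' : IsIntegral ℤ (σ.symm b) := map_isIntegral_int σ.symm hb
    have := h _ hb'
    rw [AlgEquiv.apply_symm_apply] at this
    have h2 : σ.symm b - b = -(b - σ.symm b) := by ring
    rw [h2]
    exact neg_mem this
  exact mem_inertiaSubgroupIn_of_forall A σ
    (fun x hx => (apply_mem_and_sub_mem_of_integral halg A σ h hx).1)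
    (fun x hx => (apply_mem_and_sub_mem_of_integral halg A σ.symm hsymm hx).1)
    (fun x hx => (apply_mem_and_sub_mem_of_integral halg A σ h hx).2)

/-- A valuation subring is determined by the algebraic integers among its nonunits,
equivariantly. -/
theorem smul_eq_of_integral_nonunits_general (halg : ∀ x : L, IsAlgebraic ℤ x)
    (A A' : ValuationSubring L) (g : L ≃ₐ[k] L)
    (h : ∀ b : L, IsIntegral ℤ b → (b ∈ A.nonunits ↔ g b ∈ A'.nonunits)) : g • A = A' := by
  have unit_of : ∀ (B : ValuationSubring L) {b : L}, IsIntegral ℤ b → b ∉ B.nonunits →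
      B.valuation b = 1 := by
    intro B b hb hbn
    exact le_antisymm ((B.valuation_le_one_iff _).mpr (mem_of_isIntegral B hb))
      (not_lt.mp fun hlt => hbn (B.mem_nonunits_iff.mpr hlt))
  apply le_antisymm
  · intro x hx
    rw [ValuationSubring.mem_pointwise_smul_iff_inv_smul_mem] at hx
    have hx' : g.symm x ∈ A := hx
    obtain ⟨a, b, ha, hb, hbn, hab⟩ := exists_integral_div_of_isAlgebraic A hx' (halg _)
    have hgb : g b ∉ A'.nonunits := fun hgb => hbn ((h b hb).mpr hgb)
    have hvgb := unit_of A' (map_isIntegral_int g hb) hgb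
    have hga : g a ∈ A' := mem_of_isIntegral A' (map_isIntegral_int g ha)
    have hgb0 : g b ≠ 0 := by
      intro h0
      rw [h0, map_zero] at hvgb
      exact zero_ne_one hvgb
    have hx2 : x * g b = g a := by
      have := congrArg g hab
      rwa [map_mul, AlgEquiv.apply_symm_apply] at this
    have hx3 : x = g a / g b := by rw [eq_div_iff hgb0]; exact hx2
    rw [hx3, ← A'.valuation_le_one_iff, map_div₀, hvgb, div_one]
    exact (A'.valuation_le_one_iff _).mpr hga
  · intro x hx
    rw [ValuationSubring.mem_pointwise_smul_iff_inv_smul_mem]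
    change g.symm x ∈ A
    obtain ⟨a, b, ha, hb, hbn, hab⟩ := exists_integral_div_of_isAlgebraic A' hx (halg _)
    have hsb : IsIntegral ℤ (g.symm b) := map_isIntegral_int g.symm hb
    have hgb : g.symm b ∉ A.nonunits := by
      intro hgb
      apply hbn
      have := (h _ hsb).mp hgb
      rwa [AlgEquiv.apply_symm_apply] at this
    have hvgb := unit_of A hsb hgb
    have hga : g.symm a ∈ A := mem_of_isIntegral A (map_isIntegral_int g.symm ha)
    have hgb0 : g.symm b ≠ 0 := by
      intro h0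
      rw [h0, map_zero] at hvgb
      exact zero_ne_one hvgb
    have hx2 : g.symm x * g.symm b = g.symm a := by
      have := congrArg g.symm hab
      rwa [map_mul] at this
    have hx3 : g.symm x = g.symm a / g.symm b := by rw [eq_div_iff hgb0]; exact hx2
    rw [hx3, ← A.valuation_le_one_iff, map_div₀, hvgb, div_one]
    exact (A.valuation_le_one_iff _).mpr hga

end Inertia

/-! ### Specialisation to `AlgebraicClosure ℚ` (the interface used by the S13 team) -/

section Qbar

theorem isAlgebraic_int (x : AlgebraicClosure ℚ) : IsAlgebraic ℤ x :=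
  (IsFractionRing.isAlgebraic_iff ℤ ℚ (AlgebraicClosure ℚ)).mpr
    ((AlgebraicClosure.isAlgebraic ℚ).isAlgebraic x)

/-- (3a) `A` is the localisation of the ring of all algebraic integers at `A.nonunits`. -/
theorem exists_integral_div (A : ValuationSubring (AlgebraicClosure ℚ)) {x : AlgebraicClosure ℚ}
    (hx : x ∈ A) :
    ∃ a b : AlgebraicClosure ℚ, IsIntegral ℤ a ∧ IsIntegral ℤ b ∧ b ∉ A.nonunits ∧ x * b = a :=
  exists_integral_div_of_isAlgebraic A hx (isAlgebraic_int x)

/-- (3b) inertia criterion on algebraic integers. -/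
theorem mem_inertiaSubgroupIn_of_integral (A : ValuationSubring (AlgebraicClosure ℚ))
    (σ : AlgebraicClosure ℚ ≃ₐ[ℚ] AlgebraicClosure ℚ)
    (h : ∀ b : AlgebraicClosure ℚ, IsIntegral ℤ b → σ b - b ∈ A.nonunits) :
    σ ∈ A.inertiaSubgroupIn ℚ :=
  mem_inertiaSubgroupIn_of_integral_general isAlgebraic_int A σ h

/-- (3c) conjugation of inertia. -/
theorem conj_mem_inertiaSubgroupIn (A : ValuationSubring (AlgebraicClosure ℚ))
    (g σ : AlgebraicClosure ℚ ≃ₐ[ℚ] AlgebraicClosure ℚ) (hσ : σ ∈ A.inertiaSubgroupIn ℚ) :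
    g * σ * g⁻¹ ∈ (g • A).inertiaSubgroupIn ℚ :=
  conj_mem_inertiaSubgroupIn_general A g σ hσ

/-- (3d) a valuation subring is determined by its integral nonunits. -/
theorem smul_eq_of_integral_nonunits (A A' : ValuationSubring (AlgebraicClosure ℚ))
    (g : AlgebraicClosure ℚ ≃ₐ[ℚ] AlgebraicClosure ℚ)
    (h : ∀ b : AlgebraicClosure ℚ, IsIntegral ℤ b → (b ∈ A.nonunits ↔ g b ∈ A'.nonunits)) :
    g • A = A' :=
  smul_eq_of_integral_nonunits_general isAlgebraic_int A A' g h

end Qbar

end Fermat.Agent.S13.ValSub
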