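/-
S13 team, block [G] (Minkowski) (owner: helper37): an open normal subgroup of the absolute
Galois group of `ℚ` containing all inertia subgroups is everything.

Glue of `MinkGlue` (helper88: fixed field of an open normal subgroup + a ramified prime),
`InertiaLift` (helper37: profinite lifting of inertia) and `ValSub` (helper11: inertia criterion on
algebraic integers).
-/
import Mathlib
import Fermat.Prelude.Def_FLTPrelim_Ramification
import Fermat.Agent.S13.InertiaLift
import Fermat.Agent.S13.MinkGlue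
import Fermat.Agent.S13.ValSub

set_option autoImplicit false

namespace Fermat.Agent.S13

/-- **Minkowski**: `ℚ` has no nontrivial everywhere unramified extension.  A normal subgroup of
`Gal(ℚ̄/ℚ)` which is open (contains the fixing subgroup of a finite extension) and contains the
inertia subgroups of all valuation subrings lying over all primes is the whole group. -/
theorem eq_top_of_inertia_le
    (H : Subgroup (AlgebraicClosure ℚ ≃ₐ[ℚ] AlgebraicClosure ℚ)) [H.Normal]
    (hopen : ∃ E : IntermediateField ℚ (AlgebraicClosure ℚ),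
      FiniteDimensional ℚ E ∧ E.fixingSubgroup ≤ H)
    (hI : ∀ q : ℕ, q.Prime → ∀ A : ValuationSubring (AlgebraicClosure ℚ),
      A.LiesOverPrime q → A.inertiaSubgroupIn ℚ ≤ H) : H = ⊤ := by
  by_contra hH
  obtain ⟨F, hFfin, hFgal, hFH, q, A, τ, hq, hA, hτ1, hint⟩ :=
    MinkGlue.exists_ramified_of_open_normal_ne_top H hopen hH
  obtain ⟨σ, hσF, hσint⟩ := InertiaLift.exists_lift_inertia A F τ hint
  have hσI : σ ∈ A.inertiaSubgroupIn ℚ := ValSub.mem_inertiaSubgroupIn_of_integral A σ hσint
  have hσH : σ ∈ H := hI q hq A hA hσI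
  rw [← hFH] at hσH
  apply hτ1
  ext x
  show ((τ x : F) : AlgebraicClosure ℚ) = (x : AlgebraicClosure ℚ)
  rw [← hσF x]
  exact hσH ⟨x, x.2⟩

/-- Version with an open subgroup for the Krull topology. -/
theorem eq_top_of_isOpen_of_inertia_le
    (H : Subgroup (AlgebraicClosure ℚ ≃ₐ[ℚ] AlgebraicClosure ℚ)) [H.Normal]
    (hopen : IsOpen (H : Set (AlgebraicClosure ℚ ≃ₐ[ℚ] AlgebraicClosure ℚ)))
    (hI : ∀ q : ℕ, q.Prime → ∀ A : ValuationSubring (AlgebraicClosure ℚ),
      A.LiesOverPrime q → A.inertiaSubgroupIn ℚ ≤ H) : H = ⊤ := by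
  refine eq_top_of_inertia_le H ?_ hI
  have h1 : (H : Set (AlgebraicClosure ℚ ≃ₐ[ℚ] AlgebraicClosure ℚ)) ∈ nhds 1 :=
    hopen.mem_nhds H.one_mem
  obtain ⟨E, hE, hEH⟩ := (krullTopology_mem_nhds_one_iff ℚ (AlgebraicClosure ℚ) _).mp h1
  exact ⟨E, hE, hEH⟩

end Fermat.Agent.S13
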