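/-
S13 team, block `hnt` (owner: helper98): the `p`-torsion of the Frey curve over
`AlgebraicClosure ℚ` is nontrivial, *given* the existence of a nonzero `p`-torsion point on the
short model `Y² = X³ + αX² + βX` (block [M], statement (M1)).

The short model used here is the one of `S05.freyBar_transfer_zero`:
`r = 0`, `α = b^p - a^p`, `β = -(a^p b^p)`; then `β ≠ 0` and `α² - 4β = (c^p)² ≠ 0`.
The transfer map `(x, y) ↦ (4x - r, 8y + 4x)` of `S05/Transfer.lean` is a bijection on points;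
its inverse is `(X, Y) ↦ ((X + r)/4, (Y - X - r)/8)`.
-/
import Fermat.Agent.S05.Transfer
import Fermat.Agent.S05.Frey

set_option autoImplicit false

namespace Fermat.Agent.S13.Torsion

open WeierstrassCurve WeierstrassCurve.Affine WeierstrassCurve.Affine.Point
open Fermat.Agent.S05

local notation "Qbar" => AlgebraicClosure ℚ

section Transfer

variable {K : Type*} [Field K] {W : WeierstrassCurve K} {r α β : K}

/-- Converse of `S05.Transfer.nonsingular_of_nonsingular`. -/
theorem nonsingular_of_nonsingular_short (h : Transfer.Hyp W r α β) {x y : K}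
    (hxy : (shortCurve α β).toAffine.Nonsingular (4 * x - r) (8 * y + 4 * x)) :
    W.toAffine.Nonsingular x y := by
  rw [Affine.nonsingular_iff'] at hxy ⊢
  refine ⟨(Transfer.equation_iff h x y).mp hxy.1, ?_⟩
  have hs := hxy.2
  rw [shortCurve_a₁, shortCurve_a₂, shortCurve_a₃, shortCurve_a₄] at hs
  have e₂ := h.h₂
  have e₄ := h.h₄
  rw [h.a₁, h.a₃]
  by_contra hcon
  rw [not_or, not_not, not_not] at hcon
  obtain ⟨hX, hY⟩ := hcon
  rcases hs with hs | hs
  · apply hs
    linear_combination 16 * hX - 8 * hY + 8 * x * e₂ + e₄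
  · apply hs
    linear_combination 8 * hY

variable [DecidableEq K]

omit [DecidableEq K] in
/-- The transfer map of `S05/Transfer.lean` is surjective on points. -/
theorem toFun_surjective (h : Transfer.Hyp W r α β) : Function.Surjective (Transfer.toFun h) := by
  have h2 := h.two
  have h4 : (4 : K) ≠ 0 := by
    have : (4 : K) = 2 ^ 2 := by norm_num
    rw [this]; exact pow_ne_zero _ h2
  have h8 : (8 : K) ≠ 0 := by
    have : (8 : K) = 2 ^ 3 := by norm_num
    rw [this]; exact pow_ne_zero _ h2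
  rintro (_ | ⟨X, Y, hXY⟩)
  · exact ⟨0, rfl⟩
  · have eX : 4 * ((X + r) / 4) - r = X := by field_simp; ring
    have eY : 8 * ((Y - X - r) / 8) + 4 * ((X + r) / 4) = Y := by field_simp; ring
    have hns : (shortCurve α β).toAffine.Nonsingular (4 * ((X + r) / 4) - r)
        (8 * ((Y - X - r) / 8) + 4 * ((X + r) / 4)) := by
      rw [eX, eY]; exact hXY
    refine ⟨Point.some ((X + r) / 4) ((Y - X - r) / 8)
      (nonsingular_of_nonsingular_short h hns), ?_⟩
    rw [Transfer.toFun_some]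
    simp only [Point.some.injEq]
    exact ⟨eX, eY⟩

/-- A nonzero `n`-torsion point on the short model comes from a nonzero `n`-torsion point of
the original curve. -/
theorem exists_torsion_of_short (h : Transfer.Hyp W r α β) (n : ℕ)
    (hT : ∃ T : (shortCurve α β).toAffine.Point, T ≠ 0 ∧ n • T = 0) :
    ∃ T : W.toAffine.Point, T ≠ 0 ∧ n • T = 0 := by
  obtain ⟨T, hT0, hnT⟩ := hT
  obtain ⟨T', rfl⟩ := toFun_surjective h T
  let Φ : W.toAffine.Point →+ (shortCurve α β).toAffine.Point :=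
    ⟨⟨Transfer.toFun h, rfl⟩, Transfer.toFun_add h⟩
  have hΦ : ∀ Q, Φ Q = Transfer.toFun h Q := fun _ => rfl
  refine ⟨T', ?_, ?_⟩
  · rintro rfl
    exact hT0 rfl
  · apply Transfer.toFun_injective h
    rw [← hΦ, map_nsmul, hΦ, hnT]
    rfl

end Transfer

section Frey

variable (P : FreyPackage)

/-- `β = -(a^p b^p) ≠ 0` for the short model of the Frey curve. -/
theorem frey_short_beta_ne_zero : -((P.a : Qbar) ^ P.p * (P.b : Qbar) ^ P.p) ≠ 0 := by
  have ha : (P.a : Qbar) ≠ 0 := by exact_mod_cast P.ha0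
  have hb : (P.b : Qbar) ≠ 0 := by exact_mod_cast P.hb0
  exact neg_ne_zero.mpr (mul_ne_zero (pow_ne_zero _ ha) (pow_ne_zero _ hb))

/-- `α² - 4β = (c^p)² ≠ 0` for the short model of the Frey curve. -/
theorem frey_short_disc_ne_zero :
    ((P.b : Qbar) ^ P.p - (P.a : Qbar) ^ P.p) ^ 2
      - 4 * (-((P.a : Qbar) ^ P.p * (P.b : Qbar) ^ P.p)) ≠ 0 := by
  have hc : (P.c : Qbar) ≠ 0 := by exact_mod_cast P.hc0
  have e : ((P.b : Qbar) ^ P.p - (P.a : Qbar) ^ P.p) ^ 2
      - 4 * (-((P.a : Qbar) ^ P.p * (P.b : Qbar) ^ P.p)) = ((P.c : Qbar) ^ P.p) ^ 2 := by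
    rw [← frey_flt_bar P]; ring
  rw [e]
  exact pow_ne_zero _ (pow_ne_zero _ hc)

/-- The transfer hypotheses for the Frey curve with `r = 0`, `α = b^p - a^p`,
`β = -(a^p b^p)`. -/
theorem frey_transfer_hyp :
    Transfer.Hyp (freyBar P) (0 : Qbar) ((P.b : Qbar) ^ P.p - (P.a : Qbar) ^ P.p)
      (-((P.a : Qbar) ^ P.p * (P.b : Qbar) ^ P.p)) :=
  ⟨freyBar_a₁ P, freyBar_a₃ P, qbar_two_ne_zero, (freyBar_transfer_zero P).1,
    (freyBar_transfer_zero P).2.1, (freyBar_transfer_zero P).2.2⟩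

/-- A nonzero point killed by `p` gives nontriviality of the `p`-torsion module. -/
theorem nontrivial_torsionBy_of_exists
    (h : ∃ T : (P.freyCurve⁄Qbar).Point, T ≠ 0 ∧ P.p • T = 0) :
    Nontrivial (Submodule.torsionBy ℤ (P.freyCurve⁄Qbar).Point P.p) := by
  obtain ⟨T, hT0, hpT⟩ := h
  have hmem : T ∈ Submodule.torsionBy ℤ (P.freyCurve⁄Qbar).Point P.p := by
    rw [Submodule.mem_torsionBy_iff, Nat.cast_smul_eq_nsmul]
    exact hpT
  refine ⟨⟨⟨T, hmem⟩, 0, ?_⟩⟩
  intro h0
  exact hT0 (congrArg Subtype.val h0)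

/-- **hnt**, pointwise form: a nonzero `p`-torsion point on the short model
`Y² = X³ + (b^p - a^p) X² - a^p b^p X` makes the `p`-torsion of the Frey curve nontrivial. -/
theorem frey_torsion_nontrivial_of_exists
    (hM1 : ∃ T : (shortCurve ((P.b : Qbar) ^ P.p - (P.a : Qbar) ^ P.p)
        (-((P.a : Qbar) ^ P.p * (P.b : Qbar) ^ P.p))).toAffine.Point, T ≠ 0 ∧ P.p • T = 0) :
    Nontrivial (Submodule.torsionBy ℤ (P.freyCurve⁄Qbar).Point P.p) :=
  nontrivial_torsionBy_of_exists P (exists_torsion_of_short (frey_transfer_hyp P) P.p hM1)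

end Frey

/-- **hnt** from (M1): if every nonsingular short curve over `Qbar` has a nonzero point of every
order `p ≥ 2`, then the `p`-torsion of the Frey curve is nontrivial. -/
theorem frey_torsion_nontrivial_of_M1
    (hM1 : ∀ (α β : Qbar), β ≠ 0 → α ^ 2 - 4 * β ≠ 0 → ∀ p : ℕ, 2 ≤ p →
      ∃ T : (shortCurve α β).toAffine.Point, T ≠ 0 ∧ p • T = 0)
    (P : FreyPackage) :
    Nontrivial (Submodule.torsionBy ℤ (P.freyCurve⁄Qbar).Point P.p) :=
  frey_torsion_nontrivial_of_exists P
    (hM1 _ _ (frey_short_beta_ne_zero P) (frey_short_disc_ne_zero P) P.p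
      (le_trans (by norm_num) P.hp5))

end Fermat.Agent.S13.Torsion
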