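/-
S13 team, wiring (owner: helper36): the Frey instantiation of the abstract assembly
`Abstract.cofixedLine_of_local_data_forall`.

* `exists_fixingSubgroup_le_of_isOpen`: a Krull-open subgroup contains the fixing subgroup of a
  finite subextension (the shape of the hypothesis of the Minkowski block).
* `frey_unip_away`: inertia at `q ≠ 2, p` acts trivially on the `p`-torsion of the Frey curve (S05).
* `uniform_of_one`, `uniform_of_forall`: a dichotomy (inertia trivial on `N` / on `V / N`) at one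
  valuation subring over `q`, or an `A`-dependent one, gives the uniform dichotomy (conjugacy of
  the valuation subrings over `q`).
* `frey_cofixed_of_inputs`, `frey_cofixed_of_inputs'`: S13 for the Frey curve from the remaining
  inputs ([M] nontriviality and cardinality, [G] Minkowski, [T] unipotence at `2` and no rational
  `p`-torsion, [P] dichotomy at `p`, uniform resp. per valuation subring).
-/
import Mathlib
import Fermat.Agent.S13.Abstract
import Fermat.Agent.S13.ValSub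
import Fermat.Agent.S13.InertiaLift
import Fermat.Agent.S05.Main

set_option autoImplicit false

namespace Fermat.Agent.S13.Wiring

open WeierstrassCurve WeierstrassCurve.Affine WeierstrassCurve.Affine.Point
open Fermat.Agent.S13.Abstract
open scoped Pointwise

local notation "Qbar" => AlgebraicClosure ℚ
local notation "GQ" => (AlgebraicClosure ℚ ≃ₐ[ℚ] AlgebraicClosure ℚ)

/-- A Krull-open subgroup contains the fixing subgroup of a finite subextension. -/
theorem exists_fixingSubgroup_le_of_isOpen (H : Subgroup GQ) (h : IsOpen (H : Set GQ)) :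
    ∃ E : IntermediateField ℚ Qbar, FiniteDimensional ℚ E ∧ E.fixingSubgroup ≤ H := by
  have h1 : (H : Set GQ) ∈ nhds (1 : GQ) := h.mem_nhds H.one_mem
  obtain ⟨E, hE, hsub⟩ := (krullTopology_mem_nhds_one_iff ℚ Qbar _).1 h1
  exact ⟨E, hE, hsub⟩

section Conj

variable {W : WeierstrassCurve ℚ} {p : ℕ}

/-- `Gal(ℚ̄/ℚ)` acts transitively on the valuation subrings over a prime `q`. -/
theorem exists_smul_eq (A A' : ValuationSubring Qbar) (q : ℕ) (hq : q.Prime)
    (hA : A.LiesOverPrime q) (hA' : A'.LiesOverPrime q) : ∃ g : GQ, g • A = A' := by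
  obtain ⟨g, hg⟩ := InertiaLift.exists_smul_integral_nonunits A A' q hq hA hA'
  exact ⟨g, ValSub.smul_eq_of_integral_nonunits A A' g hg⟩

/-- Elements of the inertia group of `g • A` are conjugates of elements of the inertia group
of `A`. -/
theorem exists_conj_of_mem_inertia_smul (A : ValuationSubring Qbar) (g τ : GQ)
    (hτ : τ ∈ (g • A).inertiaSubgroupIn ℚ) :
    ∃ σ ∈ A.inertiaSubgroupIn ℚ, τ = g * σ * g⁻¹ := by
  refine ⟨g⁻¹ * τ * g, ?_, by group⟩
  have h := ValSub.conj_mem_inertiaSubgroupIn (g • A) g⁻¹ τ hτ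
  rw [inv_smul_smul, inv_inv] at h
  exact h

/-- Triviality of inertia on a stable line is independent of the valuation subring over `q`. -/
theorem fix_transport {N : Submodule (ZMod p) (Tors W p)} (hN : IsGaloisStable ℚ N)
    (A : ValuationSubring Qbar) (g : GQ)
    (h1 : ∀ σ ∈ A.inertiaSubgroupIn ℚ, ∀ x ∈ N, σ • x = x) :
    ∀ τ ∈ (g • A).inertiaSubgroupIn ℚ, ∀ x ∈ N, τ • x = x := by
  intro τ hτ x hx
  obtain ⟨σ, hσ, rfl⟩ := exists_conj_of_mem_inertia_smul A g τ hτ
  rw [mul_smul, mul_smul, h1 σ hσ _ (hN g⁻¹ x hx), smul_inv_smul]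

/-- Triviality of inertia on `V / N` is independent of the valuation subring over `q`. -/
theorem cofix_transport {N : Submodule (ZMod p) (Tors W p)} (hN : IsGaloisStable ℚ N)
    (A : ValuationSubring Qbar) (g : GQ)
    (h2 : ∀ σ ∈ A.inertiaSubgroupIn ℚ, ∀ x : Tors W p, σ • x - x ∈ N) :
    ∀ τ ∈ (g • A).inertiaSubgroupIn ℚ, ∀ x : Tors W p, τ • x - x ∈ N := by
  intro τ hτ x
  obtain ⟨σ, hσ, rfl⟩ := exists_conj_of_mem_inertia_smul A g τ hτ
  have e : (g * σ * g⁻¹) • x - x = g • (σ • (g⁻¹ • x) - g⁻¹ • x) := by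
    rw [smul_sub, mul_smul, mul_smul, smul_inv_smul]
  rw [e]
  exact hN g _ (h2 σ hσ _)

/-- From a dichotomy at ONE valuation subring over `q` to the uniform dichotomy. -/
theorem uniform_of_one {N : Submodule (ZMod p) (Tors W p)} (hN : IsGaloisStable ℚ N)
    (q : ℕ) (hq : q.Prime) (A₀ : ValuationSubring Qbar) (hA₀ : A₀.LiesOverPrime q)
    (h : (∀ σ ∈ A₀.inertiaSubgroupIn ℚ, ∀ x ∈ N, σ • x = x) ∨
        (∀ σ ∈ A₀.inertiaSubgroupIn ℚ, ∀ x : Tors W p, σ • x - x ∈ N)) :
    (∀ A : ValuationSubring Qbar, A.LiesOverPrime q →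
        ∀ σ ∈ A.inertiaSubgroupIn ℚ, ∀ x ∈ N, σ • x = x) ∨
    (∀ A : ValuationSubring Qbar, A.LiesOverPrime q →
        ∀ σ ∈ A.inertiaSubgroupIn ℚ, ∀ x : Tors W p, σ • x - x ∈ N) := by
  rcases h with h1 | h2
  · left
    intro A hA
    obtain ⟨g, rfl⟩ := exists_smul_eq A₀ A q hq hA₀ hA
    exact fix_transport hN A₀ g h1
  · right
    intro A hA
    obtain ⟨g, rfl⟩ := exists_smul_eq A₀ A q hq hA₀ hA
    exact cofix_transport hN A₀ g h2

/-- From a per-`A` dichotomy to the uniform dichotomy. -/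
theorem uniform_of_forall {N : Submodule (ZMod p) (Tors W p)} (hN : IsGaloisStable ℚ N)
    (q : ℕ) (hq : q.Prime)
    (h : ∀ A : ValuationSubring Qbar, A.LiesOverPrime q →
        ((∀ σ ∈ A.inertiaSubgroupIn ℚ, ∀ x ∈ N, σ • x = x) ∨
         (∀ σ ∈ A.inertiaSubgroupIn ℚ, ∀ x : Tors W p, σ • x - x ∈ N))) :
    (∀ A : ValuationSubring Qbar, A.LiesOverPrime q →
        ∀ σ ∈ A.inertiaSubgroupIn ℚ, ∀ x ∈ N, σ • x = x) ∨
    (∀ A : ValuationSubring Qbar, A.LiesOverPrime q →
        ∀ σ ∈ A.inertiaSubgroupIn ℚ, ∀ x : Tors W p, σ • x - x ∈ N) := by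
  by_cases hex : ∃ A₀ : ValuationSubring Qbar, A₀.LiesOverPrime q
  · obtain ⟨A₀, hA₀⟩ := hex
    exact uniform_of_one hN q hq A₀ hA₀ (h A₀ hA₀)
  · left
    intro A hA
    exact absurd ⟨A, hA⟩ hex

end Conj


/-- S05: inertia at `q ≠ 2, p` acts trivially on `E[p]`, in particular unipotently. -/
theorem frey_unip_away (P : FreyPackage) {q : ℕ} (hq : q.Prime) (hq2 : q ≠ 2) (hqp : q ≠ P.p)
    (A : ValuationSubring Qbar) (hA : A.LiesOverPrime q) (σ : GQ)
    (hσ : σ ∈ A.inertiaSubgroupIn ℚ) (x : Tors P.freyCurve P.p) :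
    σ • (σ • x - x) = σ • x - x := by
  have h : σ • x = x := Fermat.Agent.S05.frey_unramified P hq hq2 hqp A hA σ hσ x
  rw [h, sub_self, smul_zero]

/-- **S13 for the Frey curve, from the remaining inputs.** -/
theorem frey_cofixed_of_inputs (P : FreyPackage)
    (hnt : Nontrivial (Tors P.freyCurve P.p)) (hfin : Finite (Tors P.freyCurve P.p))
    (hcard : Nat.card (Tors P.freyCurve P.p) ≤ P.p ^ 2)
    (hmink : ∀ (H : Subgroup GQ) [H.Normal],
      (∃ E : IntermediateField ℚ Qbar, FiniteDimensional ℚ E ∧ E.fixingSubgroup ≤ H) →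
      (∀ q : ℕ, q.Prime → ∀ A : ValuationSubring Qbar,
        A.LiesOverPrime q → A.inertiaSubgroupIn ℚ ≤ H) → H = ⊤)
    (h2 : ∀ A : ValuationSubring Qbar, A.LiesOverPrime 2 →
      ∀ σ ∈ A.inertiaSubgroupIn ℚ, ∀ x : Tors P.freyCurve P.p, σ • (σ • x - x) = σ • x - x)
    (hp : ∀ N : Submodule (ZMod P.p) (Tors P.freyCurve P.p), IsGaloisStable ℚ N → N ≠ ⊥ →
      N ≠ ⊤ →
        ((∀ A : ValuationSubring Qbar, A.LiesOverPrime P.p →
            ∀ σ ∈ A.inertiaSubgroupIn ℚ, ∀ x ∈ N, σ • x = x) ∨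
         (∀ A : ValuationSubring Qbar, A.LiesOverPrime P.p →
            ∀ σ ∈ A.inertiaSubgroupIn ℚ, ∀ x : Tors P.freyCurve P.p, σ • x - x ∈ N)))
    (hT : ∀ x : Tors P.freyCurve P.p, (∀ σ : GQ, σ • x = x) → x = 0)
    (hred : ¬ GaloisRepIsIrreducible (K := Qbar) ℚ P.freyCurve P.p) :
    HasGaloisStableCofixedLine (K := Qbar) ℚ P.freyCurve P.p := by
  have : Fact P.p.Prime := ⟨P.pp⟩
  refine cofixedLine_of_local_data_forall P.freyCurve P.p hnt hfin hcard hred ?_ ?_ hp hT
  · intro H hH hopen hI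
    exact @hmink H hH (exists_fixingSubgroup_le_of_isOpen H hopen) hI
  · intro q hq hqp A hA σ hσ x
    by_cases hq2 : q = 2
    · subst hq2
      exact h2 A hA σ hσ x
    · exact frey_unip_away P hq hq2 hqp A hA σ hσ x

/-- **S13 for the Frey curve, from the remaining inputs**, with the dichotomy at `p` given
separately for each valuation subring over `p`. -/
theorem frey_cofixed_of_inputs' (P : FreyPackage)
    (hnt : Nontrivial (Tors P.freyCurve P.p)) (hfin : Finite (Tors P.freyCurve P.p))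
    (hcard : Nat.card (Tors P.freyCurve P.p) ≤ P.p ^ 2)
    (hmink : ∀ (H : Subgroup GQ) [H.Normal],
      (∃ E : IntermediateField ℚ Qbar, FiniteDimensional ℚ E ∧ E.fixingSubgroup ≤ H) →
      (∀ q : ℕ, q.Prime → ∀ A : ValuationSubring Qbar,
        A.LiesOverPrime q → A.inertiaSubgroupIn ℚ ≤ H) → H = ⊤)
    (h2 : ∀ A : ValuationSubring Qbar, A.LiesOverPrime 2 →
      ∀ σ ∈ A.inertiaSubgroupIn ℚ, ∀ x : Tors P.freyCurve P.p, σ • (σ • x - x) = σ • x - x)
    (hp : ∀ N : Submodule (ZMod P.p) (Tors P.freyCurve P.p), IsGaloisStable ℚ N → N ≠ ⊥ →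
      N ≠ ⊤ → ∀ A : ValuationSubring Qbar, A.LiesOverPrime P.p →
        ((∀ σ ∈ A.inertiaSubgroupIn ℚ, ∀ x ∈ N, σ • x = x) ∨
         (∀ σ ∈ A.inertiaSubgroupIn ℚ, ∀ x : Tors P.freyCurve P.p, σ • x - x ∈ N)))
    (hT : ∀ x : Tors P.freyCurve P.p, (∀ σ : GQ, σ • x = x) → x = 0)
    (hred : ¬ GaloisRepIsIrreducible (K := Qbar) ℚ P.freyCurve P.p) :
    HasGaloisStableCofixedLine (K := Qbar) ℚ P.freyCurve P.p :=
  frey_cofixed_of_inputs P hnt hfin hcard hmink h2
    (fun N hN hbot htop => uniform_of_forall hN P.p P.pp (hp N hN hbot htop)) hT hred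

end Fermat.Agent.S13.Wiring
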