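/-
S13 team, final wiring (owner: helper36).

`frey_cofixed_of_open` is S13 for the Frey curve with the blocks that are complete on main
already plugged in ([G] Minkowski, [P] dichotomy at `p` modulo (M2), nontriviality of the torsion
modulo (M1), [T] both statements at `2`, the cardinality bound); the blocks that are still in progress appear as hypotheses in the exact shapes
announced by their owners.  As the blocks land the hypotheses are discharged one by one; the end
state is the hypothesis-free theorem `frey_cofixed`.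
-/
import Mathlib
import Fermat.Agent.S13.Wiring
import Fermat.Agent.S13.Minkowski
import Fermat.Agent.S13.Torsion
import Fermat.Agent.S13.AtP
import Fermat.Agent.S13.AtTwo
import Fermat.Agent.S13.AtTwoUnip
import Fermat.Agent.S13.CardBound
import Fermat.Agent.S13.MRatGen
import Fermat.Agent.S13.MTors
import Fermat.Agent.S13.MSpec
import Fermat.Agent.S13.MInf

set_option autoImplicit false

namespace Fermat.Agent.S13.Final

open WeierstrassCurve WeierstrassCurve.Affine WeierstrassCurve.Affine.Point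
open Fermat.Agent.S05
open Fermat.Agent.S13.Abstract Fermat.Agent.S13.Wiring
open scoped Pointwise

local notation "Qbar" => AlgebraicClosure ℚ
local notation "GQ" => (AlgebraicClosure ℚ ≃ₐ[ℚ] AlgebraicClosure ℚ)

/-- S13 for the Frey curve, with [G] plugged in; remaining inputs as hypotheses (the dichotomy at
`p` per valuation subring). -/
theorem frey_cofixed_of_open (P : FreyPackage)
    (hnt : Nontrivial (Tors P.freyCurve P.p)) (hfin : Finite (Tors P.freyCurve P.p))
    (hcard : Nat.card (Tors P.freyCurve P.p) ≤ P.p ^ 2)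
    (h2 : ∀ A : ValuationSubring Qbar, A.LiesOverPrime 2 →
      ∀ σ ∈ A.inertiaSubgroupIn ℚ, ∀ x : Tors P.freyCurve P.p, σ • (σ • x - x) = σ • x - x)
    (hp : ∀ N : Submodule (ZMod P.p) (Tors P.freyCurve P.p), IsGaloisStable ℚ N → N ≠ ⊥ →
      N ≠ ⊤ → ∀ A : ValuationSubring Qbar, A.LiesOverPrime P.p →
        ((∀ σ ∈ A.inertiaSubgroupIn ℚ, ∀ x ∈ N, σ • x = x) ∨
         (∀ σ ∈ A.inertiaSubgroupIn ℚ, ∀ x : Tors P.freyCurve P.p, σ • x - x ∈ N)))
    (hT : ∀ x : Tors P.freyCurve P.p, (∀ σ : GQ, σ • x = x) → x = 0)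
    (hred : ¬ GaloisRepIsIrreducible (K := Qbar) ℚ P.freyCurve P.p) :
    HasGaloisStableCofixedLine (K := Qbar) ℚ P.freyCurve P.p :=
  frey_cofixed_of_inputs' P hnt hfin hcard
    (fun H hN hopen hI => @eq_top_of_inertia_le H hN hopen hI) h2 hp hT hred

/-- S13 for the Frey curve, with [G], [P] and the transfer of (M1) plugged in.  Remaining inputs:
(M1) and (M2) on the short model over `Qbar` (block [M]), the cardinality bound (CardBound), and
the two statements at `2` (AtTwo). -/
theorem frey_cofixed_of_M (P : FreyPackage)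
    (hM1 : ∀ (α β : Qbar), β ≠ 0 → α ^ 2 - 4 * β ≠ 0 → ∀ p : ℕ, 2 ≤ p →
      ∃ T : (shortCurve α β).toAffine.Point, T ≠ 0 ∧ p • T = 0)
    (hM2 : ∀ (α β : Qbar), β ≠ 0 → α ^ 2 - 4 * β ≠ 0 → ∀ A : ValuationSubring Qbar,
      α ∈ A → β ∈ A → ∀ S : Finset (shortCurve α β).toAffine.Point,
        (∀ T ∈ S, T ≠ 0 ∧ P.p • T = 0 ∧ InE1 A T) →
          A.valuation (P.p : Qbar) ≤ ∏ T ∈ S, A.valuation (FormalGroup.zOf T))
    (hfin : Finite (Tors P.freyCurve P.p))
    (hcard : Nat.card (Tors P.freyCurve P.p) ≤ P.p ^ 2)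
    (h2 : ∀ A : ValuationSubring Qbar, A.LiesOverPrime 2 →
      ∀ σ ∈ A.inertiaSubgroupIn ℚ, ∀ x : Tors P.freyCurve P.p, σ • (σ • x - x) = σ • x - x)
    (hT : ∀ x : Tors P.freyCurve P.p, (∀ σ : GQ, σ • x = x) → x = 0)
    (hred : ¬ GaloisRepIsIrreducible (K := Qbar) ℚ P.freyCurve P.p) :
    HasGaloisStableCofixedLine (K := Qbar) ℚ P.freyCurve P.p :=
  frey_cofixed_of_open P (Torsion.frey_torsion_nontrivial_of_M1 hM1 P) hfin hcard h2
    (fun N hN hbot htop A hA =>
      (AtP.dichotomy_perA P hfin hcard hM2 N hN hbot htop A hA).imp And.right And.right)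
    hT hred

/-- S13 for the Frey curve, with [G], [P], [T] and the transfer of (M1) plugged in.  Remaining
inputs: (M1) and (M2) on the short model over `Qbar` (block [M]) and the cardinality bound
(CardBound). -/
theorem frey_cofixed_of_M_card (P : FreyPackage)
    (hM1 : ∀ (α β : Qbar), β ≠ 0 → α ^ 2 - 4 * β ≠ 0 → ∀ p : ℕ, 2 ≤ p →
      ∃ T : (shortCurve α β).toAffine.Point, T ≠ 0 ∧ p • T = 0)
    (hM2 : ∀ (α β : Qbar), β ≠ 0 → α ^ 2 - 4 * β ≠ 0 → ∀ A : ValuationSubring Qbar,
      α ∈ A → β ∈ A → ∀ S : Finset (shortCurve α β).toAffine.Point,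
        (∀ T ∈ S, T ≠ 0 ∧ P.p • T = 0 ∧ InE1 A T) →
          A.valuation (P.p : Qbar) ≤ ∏ T ∈ S, A.valuation (FormalGroup.zOf T))
    (hfin : Finite (Tors P.freyCurve P.p))
    (hcard : Nat.card (Tors P.freyCurve P.p) ≤ P.p ^ 2)
    (hred : ¬ GaloisRepIsIrreducible (K := Qbar) ℚ P.freyCurve P.p) :
    HasGaloisStableCofixedLine (K := Qbar) ℚ P.freyCurve P.p :=
  frey_cofixed_of_M P hM1 hM2 hfin hcard
    (fun A hA σ hσ x => AtTwoUnip.frey_inertia_two_unipotent P A hA σ hσ x)
    (fun x hx => frey_no_rational_order_p P x hx) hred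

/-- S13 for the Frey curve, with everything plugged in except block [M].  Remaining inputs: (M1)
(existence of a point of order `p` on a short curve over `Qbar`) and (M2) (the product of the
formal parameters of `p`-torsion points in the kernel of reduction is at least `|p|`). -/
theorem frey_cofixed_of_M1_M2 (P : FreyPackage)
    (hM1 : ∀ (α β : Qbar), β ≠ 0 → α ^ 2 - 4 * β ≠ 0 → ∀ p : ℕ, 2 ≤ p →
      ∃ T : (shortCurve α β).toAffine.Point, T ≠ 0 ∧ p • T = 0)
    (hM2 : ∀ (α β : Qbar), β ≠ 0 → α ^ 2 - 4 * β ≠ 0 → ∀ A : ValuationSubring Qbar,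
      α ∈ A → β ∈ A → ∀ S : Finset (shortCurve α β).toAffine.Point,
        (∀ T ∈ S, T ≠ 0 ∧ P.p • T = 0 ∧ InE1 A T) →
          A.valuation (P.p : Qbar) ≤ ∏ T ∈ S, A.valuation (FormalGroup.zOf T))
    (hred : ¬ GaloisRepIsIrreducible (K := Qbar) ℚ P.freyCurve P.p) :
    HasGaloisStableCofixedLine (K := Qbar) ℚ P.freyCurve P.p :=
  frey_cofixed_of_M_card P hM1 hM2 (CardBound.frey_tors_finite P) (CardBound.frey_tors_card_le P)
    hred

/-- (M1): a short curve `y² = x³ + αx² + βx` with `β ≠ 0`, `α² - 4β ≠ 0` over an algebraically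
closed field of characteristic zero has a nonzero point killed by `p`, for every `p ≥ 2`
(assembly of the generic-point blocks MRatGen, MSpec, MInf, MTors). -/
theorem exists_torsion_short {L : Type*} [Field L] [CharZero L] [IsAlgClosed L] [DecidableEq L]
    (α β : L) (hβ : β ≠ 0) (hd : α ^ 2 - 4 * β ≠ 0) (p : ℕ) (hp : 2 ≤ p) :
    ∃ T : (shortCurve α β).toAffine.Point, T ≠ 0 ∧ p • T = 0 := by
  classical
  obtain ⟨G, hX⟩ := MRatGen.exists_gen_xdata α β hβ
  obtain ⟨X⟩ := hX p
  exact MTors.torsion_of_xdata G hβ hd hp X (fun h => MSpec.spec G hβ (by omega) X h)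
    (MInf.deg_lead G hβ (by omega) X)

/-- S13 for the Frey curve, with everything plugged in except (M2) (the product of the formal
parameters of `p`-torsion points in the kernel of reduction is at least `|p|`). -/
theorem frey_cofixed_of_M2 (P : FreyPackage)
    (hM2 : ∀ (α β : Qbar), β ≠ 0 → α ^ 2 - 4 * β ≠ 0 → ∀ A : ValuationSubring Qbar,
      α ∈ A → β ∈ A → ∀ S : Finset (shortCurve α β).toAffine.Point,
        (∀ T ∈ S, T ≠ 0 ∧ P.p • T = 0 ∧ InE1 A T) →
          A.valuation (P.p : Qbar) ≤ ∏ T ∈ S, A.valuation (FormalGroup.zOf T))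
    (hred : ¬ GaloisRepIsIrreducible (K := Qbar) ℚ P.freyCurve P.p) :
    HasGaloisStableCofixedLine (K := Qbar) ℚ P.freyCurve P.p :=
  frey_cofixed_of_M1_M2 P (fun α β hβ hd p hp => exists_torsion_short α β hβ hd p hp) hM2 hred

end Fermat.Agent.S13.Final
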