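/-
S13 team, block [M] / MMult (owner: helper26): abstract core.

Valuation-theoretic core of the statement "the denominator `D_p` of the `x`-coordinate of
`p • Pgen` has a double root at the `x`-coordinate of every nonzero `p`-torsion point `T`":

* `MMultCore.val_xco_nsmul_eq`   : on the kernel of reduction, `v (x (n • R)) = v (x R)` when
                                    `n` is a unit;
* `MMultCore.val_xco_sub`        : `v (x (P - T)) = v (x_P - x_T)⁻²` for two integral points with
                                    `x_P ≡ x_T`, `x_P ≠ x_T`, `y_P + y_T` a unit;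
* `MMultCore.val_xco_nsmul_of_close` : hence `v (x (n • P)) = v (x_P - x_T)⁻²` if `n • T = 0`;
* `MMultCore.rootMultiplicity_eq_two_of_val` : the polynomial consequence.

Imports the (frozen) S05 library only.
-/
import Mathlib
import Fermat.Agent.S05.Defs
import Fermat.Agent.S05.FormalGroup
import Fermat.Agent.S05.PB_Formulas

set_option autoImplicit false

namespace Fermat.Agent.S13.MMultCore

open WeierstrassCurve Fermat.Agent.S05 Fermat.Agent.S05.FormalGroup

section val

variable {K : Type*} [Field K] {Γ₀ : Type*} [LinearOrderedCommGroupWithZero Γ₀]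
  (v : Valuation K Γ₀)

/-- On the short curve, a point with non-integral `x` has `v y ^ 2 = v x ^ 3`. -/
theorem val_y_sq {α β x y : K} (hα : v α ≤ 1) (hβ : v β ≤ 1)
    (heq : y ^ 2 = x ^ 3 + α * x ^ 2 + β * x) (hx : 1 < v x) : v y ^ 2 = v x ^ 3 := by
  have hx2 : v (α * x ^ 2 + β * x) ≤ v x ^ 2 := by
    refine v.map_add_le ?_ ?_
    · rw [map_mul, map_pow]
      exact mul_le_of_le_one_left' hα
    · rw [map_mul]
      calc v β * v x ≤ 1 * v x := mul_le_mul_left hβ _
        _ = v x := one_mul _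
        _ ≤ v x ^ 2 := le_self_pow₀ hx.le (by norm_num)
  have h1 : v (α * x ^ 2 + β * x) < v (x ^ 3) := by
    rw [map_pow]
    exact lt_of_le_of_lt hx2 (pow_lt_pow_right₀ hx (by norm_num))
  have h2 : v (y ^ 2) = v (x ^ 3) := by
    rw [heq, add_assoc, v.map_add_eq_of_lt_left h1]
  simpa [map_pow] using h2

/-- `v x = (v z)⁻²` for the chart coordinate `z = -x / y` of a point with non-integral `x`. -/
theorem val_x_eq_inv_sq {α β x y : K} (hα : v α ≤ 1) (hβ : v β ≤ 1)
    (heq : y ^ 2 = x ^ 3 + α * x ^ 2 + β * x) (hx : 1 < v x) :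
    v x = (v (-x / y))⁻¹ ^ 2 := by
  have hy2 := val_y_sq v hα hβ heq hx
  have hx0 : v x ≠ 0 := (zero_lt_one.trans hx).ne'
  have hy0 : v y ≠ 0 := by
    intro h0
    rw [h0] at hy2
    have : v x ^ 3 = 0 := by rw [← hy2]; simp
    exact hx0 (pow_eq_zero_iff (by norm_num) |>.mp this)
  rw [map_div₀, v.map_neg, inv_div, div_pow, hy2]
  field_simp

end val

section subring

variable {K : Type*} [Field K] [DecidableEq K]

/-- On the kernel of reduction of the short curve, multiplication by a unit integer preserves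
the valuation of the `x`-coordinate. -/
theorem val_xco_nsmul_eq (A : ValuationSubring K) (α β : K) (hα : α ∈ A) (hβ : β ∈ A)
    {R : (shortCurve α β).toAffine.Point} (hR : InE1 A R) (hR0 : R ≠ 0)
    (n : ℕ) (hn : A.valuation (n : K) = 1) :
    InE1 A (n • R) ∧ n • R ≠ 0 ∧ A.valuation (PB.xco (n • R)) = A.valuation (PB.xco R) := by
  have hW : IntCoeff A.valuation (shortCurve α β) :=
    intCoeff_of_mem A _ A.zero_mem hα A.zero_mem hβ A.zero_mem
  have hvα : A.valuation α ≤ 1 := (A.valuation_le_one_iff _).mpr hα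
  have hvβ : A.valuation β ≤ 1 := (A.valuation_le_one_iff _).mpr hβ
  rcases R with _ | ⟨x, y, h⟩
  · exact absurd rfl hR0
  have hx : 1 < A.valuation x := (inE1_iff A _).mp hR
  have hne : n • (Affine.Point.some x y h) ≠ 0 := F1_val hW hn h hx
  obtain ⟨hE1, hz⟩ := nsmul_pt hW (Affine.Point.some x y h) hx n
  obtain ⟨-, -, hz1, -, hz0⟩ := chart_of_point hW h.1 hx
  have heq := (PB.equation_iff α β x y).mp h.1
  have hxv := val_x_eq_inv_sq A.valuation hvα hvβ heq hx
  refine ⟨(inE1_iff A _).mpr hE1, hne, ?_⟩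
  -- the multiple is an affine point
  generalize hQ : n • (Affine.Point.some x y h) = Q at hne hE1 hz ⊢
  rcases Q with _ | ⟨x', y', h'⟩
  · exact absurd rfl hne
  have hx' : 1 < A.valuation x' := hE1
  have heq' := (PB.equation_iff α β x' y').mp h'.1
  have hxv' := val_x_eq_inv_sq A.valuation hvα hvβ heq' hx'
  rw [zOf_some, zOf_some] at hz
  rw [PB.xco_some, PB.xco_some, hxv, hxv']
  congr 2
  -- `v z' = v z`
  have hpos : 0 < A.valuation (-x / y) := zero_lt_iff.mpr hz0
  have hlt : A.valuation (-x / y) ^ 2 < A.valuation (-x / y) := by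
    have := mul_lt_mul_of_pos_right hz1 hpos
    rwa [one_mul, ← sq] at this
  have hnz : A.valuation ((n : K) * (-x / y)) = A.valuation (-x / y) := by
    rw [map_mul, hn, one_mul]
  have e : -x' / y' = (-x' / y' - (n : K) * (-x / y)) + (n : K) * (-x / y) := by ring
  rw [e, Valuation.map_add_eq_of_lt_right _ (by rw [hnz]; exact lt_of_le_of_lt hz hlt), hnz]

/-- The difference of two integral points of the short curve with congruent, distinct
`x`-coordinates and `y_P + y_T` a unit lies in the kernel of reduction, and its `x`-coordinate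
has valuation `v (x_P - x_T)⁻²`. -/
theorem val_xco_sub (A : ValuationSubring K) (α β : K) (hα : α ∈ A)
    {x y xT yT : K} (h : (shortCurve α β).toAffine.Nonsingular x y)
    (hT : (shortCurve α β).toAffine.Nonsingular xT yT)
    (hx : x ∈ A) (hxT : xT ∈ A) (hxx : x - xT ∈ A.nonunits) (hne : x ≠ xT)
    (hyy : A.valuation (y + yT) = 1) :
    InE1 A (Affine.Point.some x y h - Affine.Point.some xT yT hT) ∧
      Affine.Point.some x y h - Affine.Point.some xT yT hT ≠ 0 ∧
      A.valuation (PB.xco (Affine.Point.some x y h - Affine.Point.some xT yT hT))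
        = (A.valuation (x - xT))⁻¹ ^ 2 := by
  obtain ⟨x₃, y₃, h₃, e, hx₃⟩ := PB.sub_x α β h hT hne
  rw [e]
  have hd1 : A.valuation (x - xT) < 1 := (A.mem_nonunits_iff).mp hxx
  have hd0 : A.valuation (x - xT) ≠ 0 := by
    rw [Ne, map_eq_zero]
    exact sub_ne_zero.mpr hne
  have hs : A.valuation (α + x + xT) ≤ 1 :=
    (A.valuation_le_one_iff _).mpr (A.add_mem _ _ (A.add_mem _ _ hα hx) hxT)
  have h2 : A.valuation ((α + x + xT) * (x - xT) ^ 2) < A.valuation ((y + yT) ^ 2) := by
    rw [map_mul, map_pow, map_pow, hyy, one_pow]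
    calc A.valuation (α + x + xT) * A.valuation (x - xT) ^ 2
        ≤ 1 * A.valuation (x - xT) ^ 2 := mul_le_mul_left hs _
      _ = A.valuation (x - xT) ^ 2 := one_mul _
      _ < 1 := pow_lt_one₀ zero_le hd1 (by norm_num)
  have h3 : A.valuation (x₃ * (x - xT) ^ 2) = 1 := by
    rw [hx₃, Valuation.map_sub_eq_of_lt_left _ h2, map_pow, hyy, one_pow]
  have hx₃v : A.valuation x₃ = (A.valuation (x - xT))⁻¹ ^ 2 := by
    rw [map_mul, map_pow] at h3
    rw [inv_pow]
    exact eq_inv_of_mul_eq_one_left h3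
  have hgt : 1 < A.valuation x₃ := by
    rw [hx₃v, inv_pow]
    exact (one_lt_inv₀ (pow_pos (zero_lt_iff.mpr hd0) 2)).mpr
      (pow_lt_one₀ zero_le hd1 (by norm_num))
  refine ⟨?_, Affine.Point.some_ne_zero _, hx₃v⟩
  show x₃ ∉ A
  rwa [← A.valuation_le_one_iff, not_le]

/-- If `P` is congruent to a point `T` killed by the unit integer `n` (with `x_P ≠ x_T` and
`y_P + y_T` a unit), then `v (x (n • P)) = v (x_P - x_T)⁻²`. -/
theorem val_xco_nsmul_of_close (A : ValuationSubring K) (α β : K) (hα : α ∈ A) (hβ : β ∈ A)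
    {x y xT yT : K} (h : (shortCurve α β).toAffine.Nonsingular x y)
    (hT : (shortCurve α β).toAffine.Nonsingular xT yT)
    (hx : x ∈ A) (hxT : xT ∈ A) (hxx : x - xT ∈ A.nonunits) (hne : x ≠ xT)
    (hyy : A.valuation (y + yT) = 1)
    (n : ℕ) (hn : A.valuation (n : K) = 1) (hnT : n • Affine.Point.some xT yT hT = 0) :
    n • Affine.Point.some x y h ≠ 0 ∧
    A.valuation (PB.xco (n • Affine.Point.some x y h)) = (A.valuation (x - xT))⁻¹ ^ 2 := by
  obtain ⟨hE1, hR0, hv⟩ := val_xco_sub A α β hα h hT hx hxT hxx hne hyy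
  obtain ⟨-, hne', hv'⟩ := val_xco_nsmul_eq A α β hα hβ hE1 hR0 n hn
  have e : n • (Affine.Point.some x y h - Affine.Point.some xT yT hT)
      = n • Affine.Point.some x y h := by
    rw [smul_sub, hnT, sub_zero]
  rw [e] at hv' hne'
  exact ⟨hne', hv'.trans hv⟩

end subring

section poly

open Polynomial

variable {L F : Type*} [Field L] [Field F] [Algebra L F]

/-- Polynomials with constant coefficients take integral values at integral arguments. -/
theorem aeval_mem (B : ValuationSubring F) (hLB : ∀ a : L, algebraMap L F a ∈ B)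
    {x : F} (hx : x ∈ B) (Q : L[X]) : aeval x Q ∈ B := by
  let S : Subalgebra L F := { B.toSubring with algebraMap_mem' := hLB }
  have h1 : aeval x Q ∈ Algebra.adjoin L {x} := aeval_mem_adjoin_singleton L x
  have h2 : Algebra.adjoin L {x} ≤ S := Algebra.adjoin_le (by
    intro z hz
    rw [Set.mem_singleton_iff] at hz
    subst hz
    exact hx)
  exact h2 h1

/-- `Q(x) ≡ Q(x₀)` modulo the maximal ideal when `x ≡ x₀`. -/
theorem aeval_sub_mem_nonunits (B : ValuationSubring F) (hLB : ∀ a : L, algebraMap L F a ∈ B)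
    {x : F} {x₀ : L} (hxx : x - algebraMap L F x₀ ∈ B.nonunits) (Q : L[X]) :
    aeval x Q - algebraMap L F (Q.eval x₀) ∈ B.nonunits := by
  have hx : x ∈ B := by
    have : x = (x - algebraMap L F x₀) + algebraMap L F x₀ := by ring
    rw [this]
    exact B.add_mem _ _ (B.nonunits_le hxx) (hLB x₀)
  obtain ⟨Q', hQ'⟩ : (X - C x₀) ∣ Q - C (Q.eval x₀) := by
    rw [Polynomial.dvd_iff_isRoot]
    simp
  have e : aeval x Q - algebraMap L F (Q.eval x₀) = (x - algebraMap L F x₀) * aeval x Q' := by
    have := congrArg (aeval x) hQ'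
    simpa using this
  rw [e, B.mem_nonunits_iff, map_mul]
  have h1 : B.valuation (x - algebraMap L F x₀) < 1 := B.mem_nonunits_iff.mp hxx
  have h2 : B.valuation (aeval x Q') ≤ 1 :=
    (B.valuation_le_one_iff _).mpr (aeval_mem B hLB hx Q')
  calc B.valuation (x - algebraMap L F x₀) * B.valuation (aeval x Q')
      ≤ B.valuation (x - algebraMap L F x₀) * 1 := mul_le_mul_right h2 _
    _ = B.valuation (x - algebraMap L F x₀) := mul_one _
    _ < 1 := h1

/-- Nonzero constants are units of a valuation subring containing the constants. -/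
theorem val_algebraMap_eq_one (B : ValuationSubring F) (hLB : ∀ a : L, algebraMap L F a ∈ B)
    {c : L} (hc : c ≠ 0) : B.valuation (algebraMap L F c) = 1 := by
  have h1 : B.valuation (algebraMap L F c) ≤ 1 := (B.valuation_le_one_iff _).mpr (hLB c)
  have h2 : B.valuation (algebraMap L F c⁻¹) ≤ 1 := (B.valuation_le_one_iff _).mpr (hLB c⁻¹)
  have h3 : B.valuation (algebraMap L F c) * B.valuation (algebraMap L F c⁻¹) = 1 := by
    rw [← map_mul, ← map_mul, mul_inv_cancel₀ hc, map_one, map_one]
  refine le_antisymm h1 ?_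
  calc (1 : _) = B.valuation (algebraMap L F c) * B.valuation (algebraMap L F c⁻¹) := h3.symm
    _ ≤ B.valuation (algebraMap L F c) * 1 := mul_le_mul_right h2 _
    _ = B.valuation (algebraMap L F c) := mul_one _

/-- If `Q(x₀) ≠ 0` and `x ≡ x₀` then `Q(x)` is a unit. -/
theorem val_aeval_eq_one (B : ValuationSubring F) (hLB : ∀ a : L, algebraMap L F a ∈ B)
    {x : F} {x₀ : L} (hxx : x - algebraMap L F x₀ ∈ B.nonunits) (Q : L[X])
    (hQ : Q.eval x₀ ≠ 0) : B.valuation (aeval x Q) = 1 := by
  have h1 : B.valuation (aeval x Q - algebraMap L F (Q.eval x₀)) < 1 :=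
    B.mem_nonunits_iff.mp (aeval_sub_mem_nonunits B hLB hxx Q)
  have h2 := val_algebraMap_eq_one B hLB hQ
  have e : aeval x Q = (aeval x Q - algebraMap L F (Q.eval x₀)) + algebraMap L F (Q.eval x₀) := by
    ring
  rw [e, Valuation.map_add_eq_of_lt_right _ (by rw [h2]; exact h1), h2]

/-- **Polynomial core of MMult.**  Let `B ⊇ L` be a valuation subring of `F`, `x ∈ F` with
`x ≡ x_T` (`x_T ∈ L`, `x ≠ x_T`), and `X · D(x) = N(x)` with `N, D ∈ L[X]` coprime.  If
`v X = v (x - x_T)⁻²` then `x_T` is a root of `D` of multiplicity exactly `2`. -/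
theorem rootMultiplicity_eq_two_of_val (B : ValuationSubring F)
    (hLB : ∀ a : L, algebraMap L F a ∈ B) (N D : L[X]) (hcop : IsCoprime N D) (x X : F) (xT : L)
    (hrel : X * aeval x D = aeval x N)
    (hxx : x - algebraMap L F xT ∈ B.nonunits) (hne : x ≠ algebraMap L F xT)
    (hval : B.valuation X = (B.valuation (x - algebraMap L F xT))⁻¹ ^ 2) :
    D.rootMultiplicity xT = 2 := by
  have hx : x ∈ B := by
    have : x = (x - algebraMap L F xT) + algebraMap L F xT := by ring
    rw [this]
    exact B.add_mem _ _ (B.nonunits_le hxx) (hLB xT)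
  set γ := B.valuation (x - algebraMap L F xT) with hγ
  have hγ1 : γ < 1 := B.mem_nonunits_iff.mp hxx
  have hγ0 : γ ≠ 0 := by
    rw [hγ, Ne, map_eq_zero]
    exact sub_ne_zero.mpr hne
  have hγpos : 0 < γ := zero_lt_iff.mpr hγ0
  have hXgt : 1 < B.valuation X := by
    rw [hval, inv_pow]
    exact (one_lt_inv₀ (pow_pos hγpos 2)).mpr (pow_lt_one₀ zero_le hγ1 (by norm_num))
  have hNle : B.valuation (aeval x N) ≤ 1 := (B.valuation_le_one_iff _).mpr (aeval_mem B hLB hx N)
  -- `D ≠ 0`
  have hD0 : D ≠ 0 := by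
    rintro rfl
    have hN : IsUnit N := by
      obtain ⟨a, b, hab⟩ := hcop
      rw [mul_zero, add_zero] at hab
      exact IsUnit.of_mul_eq_one_right a hab
    obtain ⟨c, hc, rfl⟩ := Polynomial.isUnit_iff.mp hN
    rw [map_zero, mul_zero, aeval_C] at hrel
    exact (_root_.map_ne_zero _).mpr hc.ne_zero hrel.symm
  obtain ⟨D₁, hD₁, hnd⟩ := Polynomial.exists_eq_pow_rootMultiplicity_mul_and_not_dvd D hD0 xT
  set m := D.rootMultiplicity xT with hm
  have hD₁0 : D₁.eval xT ≠ 0 := fun h0 => hnd (Polynomial.dvd_iff_isRoot.mpr h0)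
  have hD₁v : B.valuation (aeval x D₁) = 1 := val_aeval_eq_one B hLB hxx D₁ hD₁0
  have hDv : B.valuation (aeval x D) = γ ^ m := by
    have := congrArg (fun Q => B.valuation (aeval x Q)) hD₁
    simp only [map_mul, map_pow, map_sub, aeval_X, aeval_C] at this
    rw [this, hD₁v, mul_one]
  have hmain : B.valuation X * γ ^ m = B.valuation (aeval x N) := by
    rw [← hDv, ← map_mul, hrel]
  rcases Nat.eq_zero_or_pos m with hm0 | hmpos
  · rw [hm0, pow_zero, mul_one] at hmain
    exact absurd (hmain ▸ hNle) (not_le.mpr hXgt)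
  · -- `N(x_T) ≠ 0` by coprimality
    have hDT : D.eval xT = 0 := by
      have := congrArg (Polynomial.eval xT) hD₁
      simp only [eval_mul, eval_pow, eval_sub, eval_X, eval_C, sub_self] at this
      rw [this, zero_pow hmpos.ne', zero_mul]
    have hNT : N.eval xT ≠ 0 := by
      intro h0
      obtain ⟨a, b, hab⟩ := hcop
      have := congrArg (Polynomial.eval xT) hab
      simp [h0, hDT] at this
    have hNv : B.valuation (aeval x N) = 1 := val_aeval_eq_one B hLB hxx N hNT
    rw [hNv, hval, inv_pow] at hmain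
    have h2 : γ ^ m = γ ^ 2 := by
      have h3 : (γ ^ 2)⁻¹ * γ ^ m * γ ^ 2 = 1 * γ ^ 2 := by rw [hmain]
      rw [one_mul, mul_comm, ← mul_assoc, mul_inv_cancel₀ (pow_ne_zero 2 hγ0), one_mul] at h3
      exact h3
    exact (pow_right_strictAnti₀ hγpos hγ1).injective h2

end poly

end Fermat.Agent.S13.MMultCore
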