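/-
S13 team, block [M] / MMult (A-owner: helper26).

`MMult.rootMult_eq_two`: for a nonzero `p`-torsion point `T = (x₀, y₀)` of the short curve with
`y₀ ≠ 0`, the denominator `D_p` of `x (p • Pgen)` has a root of multiplicity exactly `2` at `x₀`.

Proof: at a place `B` of `F` over `T` (or `-T`), `R := Pgen - T ∈ E1(B)` and
`v (x R) = v (x - x₀)⁻²` (`MMultCore.val_xco_sub`); `p • Pgen = p • R` and `p` is a unit, so
`v (x (p • Pgen)) = v (x - x₀)⁻²` (`MMultCore.val_xco_nsmul_of_close`); then compare with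
`x (p • Pgen) · D(x) = N(x)` (`MMultCore.rootMultiplicity_eq_two_of_val`).
-/
import Fermat.Agent.S13.MGen
import Fermat.Agent.S13.MMultCore

set_option autoImplicit false

namespace Fermat.Agent.S13.MMult

open WeierstrassCurve Polynomial Fermat.Agent.S05

variable {L : Type*} {F : Type*} [Field L] [Field F] [Algebra L F] [CharZero L]
  [DecidableEq L] [DecidableEq F] {α β : L}

/-- The valuation of `x (p • Pgen)` at a place over a `p`-torsion point `(x₀, y₀)`, `y₀ ≠ 0`
(the place being on the `+y₀` branch). -/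
theorem val_xco_nsmul_Pgen (G : GenData L F α β) (hβ : β ≠ 0) {p : ℕ} (hp : 1 ≤ p)
    {x₀ y₀ : L} (h : (shortCurve α β).toAffine.Nonsingular x₀ y₀) (hy : y₀ ≠ 0)
    (htor : p • (Affine.Point.some x₀ y₀ h) = 0)
    (B : ValuationSubring F) (hB : ∀ a : L, algebraMap L F a ∈ B)
    (hx : G.x - algebraMap L F x₀ ∈ B.nonunits) (hyB : G.y - algebraMap L F y₀ ∈ B.nonunits) :
    B.valuation (PB.xco (p • G.Pgen hβ)) = (B.valuation (G.x - algebraMap L F x₀))⁻¹ ^ 2 := by
  obtain ⟨h', hc⟩ := constHom_some F α β h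
  have hxB : G.x ∈ B := by
    have : G.x = (G.x - algebraMap L F x₀) + algebraMap L F x₀ := by ring
    rw [this]
    exact B.add_mem _ _ (B.nonunits_subset hx) (hB x₀)
  have h2y : B.valuation (algebraMap L F (2 * y₀)) = 1 :=
    val_const_eq_one B hB (mul_ne_zero two_ne_zero hy)
  have hyy : B.valuation (G.y + algebraMap L F y₀) = 1 := by
    have e : G.y + algebraMap L F y₀ = (G.y - algebraMap L F y₀) + algebraMap L F (2 * y₀) := by
      rw [map_mul, map_ofNat]; ring
    rw [e, Valuation.map_add_eq_of_lt_right _ (by rw [h2y]; exact B.mem_nonunits_iff.mp hyB), h2y]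
  have hnT : p • Affine.Point.some (algebraMap L F x₀) (algebraMap L F y₀) h' = 0 := by
    rw [← hc, ← map_nsmul, htor, map_zero]
  exact (MMultCore.val_xco_nsmul_of_close B _ _ (hB α) (hB β) (G.nonsingular hβ) h' hxB (hB x₀) hx
    (G.x_ne_const x₀) hyy p (val_natCast_eq_one B hB (by omega)) hnT).2

/-- **MMult.**  Nonzero `p`-torsion points with `y₀ ≠ 0` are double roots of the denominator of
`x (p • Pgen)`. -/
theorem rootMult_eq_two (G : GenData L F α β) (hβ : β ≠ 0) {p : ℕ} (hp : 1 ≤ p)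
    (X : XData G hβ p) {x₀ y₀ : L} (h : (shortCurve α β).toAffine.Nonsingular x₀ y₀) (hy : y₀ ≠ 0)
    (htor : p • (Affine.Point.some x₀ y₀ h) = 0) : X.D.rootMultiplicity x₀ = 2 := by
  have heq : y₀ ^ 2 = x₀ ^ 3 + α * x₀ ^ 2 + β * x₀ := (PB.equation_iff α β x₀ y₀).mp h.1
  obtain ⟨B, hB, hx, hyB | hyB⟩ := G.exists_valSub_at heq
  · exact MMultCore.rootMultiplicity_eq_two_of_val B hB X.N X.D X.coprime G.x _ x₀ X.rel hx
      (G.x_ne_const x₀) (val_xco_nsmul_Pgen G hβ hp h hy htor B hB hx hyB)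
  · -- the place is over `-T = (x₀, -y₀)`
    have hneg : (shortCurve α β).toAffine.Nonsingular x₀ (-y₀) := by
      have := (Affine.nonsingular_neg (W' := (shortCurve α β).toAffine) x₀ y₀).mpr h
      rwa [PB.negY_eq] at this
    have hnegP : Affine.Point.some x₀ (-y₀) hneg = -Affine.Point.some x₀ y₀ h := by
      rw [Affine.Point.neg_some]
      congr 1
      exact (PB.negY_eq α β x₀ y₀).symm
    have htor' : p • Affine.Point.some x₀ (-y₀) hneg = 0 := by
      rw [hnegP, smul_neg, htor, neg_zero]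
    have hyB' : G.y - algebraMap L F (-y₀) ∈ B.nonunits := by
      rwa [map_neg, sub_neg_eq_add]
    exact MMultCore.rootMultiplicity_eq_two_of_val B hB X.N X.D X.coprime G.x _ x₀ X.rel hx
      (G.x_ne_const x₀)
      (val_xco_nsmul_Pgen G hβ hp hneg (neg_ne_zero.mpr hy) htor' B hB hx hyB')

end Fermat.Agent.S13.MMult
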