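/-
S13 team, block [M], independent hedge "GP" (owner of this file: helper99).

Interface of the generic-point route for multiplication by `p` on the short curve
`y² = x³ + αx² + βx` over a field `L`: the `x`-coordinate of `p • P` is `N(x)/D(x)` for two
polynomials `N, D ∈ L[X]`.  `DivData α β p N D` packages exactly what the consumers
(`exists_torsion_short`, the product bound) need.
-/
import Fermat.Agent.S05.FormalGroup
import Fermat.Agent.S05.PB_Formulas

set_option autoImplicit false

namespace Fermat.Agent.S13.GP

open WeierstrassCurve Polynomial
open Fermat.Agent.S05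

variable {L : Type*} [Field L] [DecidableEq L]

/-- Division data for multiplication by `p` on `y² = x³ + αx² + βx`:
`x(p • P) = N(x(P)) / D(x(P))`, with `D` monic, `N, D` coprime, `deg N = deg D + 1`,
leading coefficient of `N` equal to `1/p²`, the zeros of `D` are exactly the `x`-coordinates
of the nonzero points killed by `p`, and they are (at least) double zeros when `y ≠ 0`. -/
structure DivData (α β : L) (p : ℕ) (N D : L[X]) : Prop where
  monic : D.Monic
  coprime : IsCoprime N D
  natDegree_eq : N.natDegree = D.natDegree + 1
  leadingCoeff_mul : N.leadingCoeff * (p : L) ^ 2 = 1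
  eval_eq_zero_iff : ∀ {x y : L} (h : (shortCurve α β).toAffine.Nonsingular x y),
    D.eval x = 0 ↔ p • Affine.Point.some x y h = 0
  xco_nsmul : ∀ {x y : L} (h : (shortCurve α β).toAffine.Nonsingular x y),
    D.eval x ≠ 0 → PB.xco (p • Affine.Point.some x y h) = N.eval x / D.eval x
  sq_dvd : ∀ {x y : L} (h : (shortCurve α β).toAffine.Nonsingular x y), y ≠ 0 →
    p • Affine.Point.some x y h = 0 → (X - C x) ^ 2 ∣ D

end Fermat.Agent.S13.GP
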