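/-
S13 team, block [M], polynomial/valuation core of the product bound (M2) (owner: helper73).
Mathlib only.

`prod_core`: let `N, D ∈ L[X]` be coprime, `D` monic, `deg N = deg D + 1`, `lc N · κ = 1`, over an
algebraically closed field `L` with a valuation subring `A`, such that every `ρ` with
`D(ρ) ≠ 0` and `N(ρ)/D(ρ) ∈ A` lies in `A`.  Then for every finite set `R` of non-integral roots
of `D` of multiplicity at least two, `|κ| · ∏_{r ∈ R} |r|² ≤ 1`.
-/
import Mathlib

set_option autoImplicit false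

namespace Fermat.Agent.S13.MProdCore

open Polynomial

variable {L : Type*} [Field L]

section Val

variable {Γ₀ : Type*} [LinearOrderedCommGroupWithZero Γ₀] (v : Valuation L Γ₀)

theorem val_multiset_prod_le_one (t : Multiset L) (h : ∀ a ∈ t, v a ≤ 1) : v t.prod ≤ 1 := by
  induction t using Multiset.induction_on with
  | empty => simp
  | cons a t ih =>
    rw [Multiset.prod_cons, map_mul]
    exact mul_le_one' (h a (Multiset.mem_cons_self a t))
      (ih fun b hb => h b (Multiset.mem_cons_of_mem hb))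

theorem one_le_val_multiset_prod (t : Multiset L) (h : ∀ a ∈ t, 1 ≤ v a) : 1 ≤ v t.prod := by
  induction t using Multiset.induction_on with
  | empty => simp
  | cons a t ih =>
    rw [Multiset.prod_cons, map_mul]
    exact one_le_mul (h a (Multiset.mem_cons_self a t))
      (ih fun b hb => h b (Multiset.mem_cons_of_mem hb))

theorem val_eq_one_of_prod (t : Multiset L) (h : ∀ a ∈ t, v a ≤ 1) (hp : v t.prod = 1) :
    ∀ a ∈ t, v a = 1 := by
  intro a ha
  obtain ⟨t', rfl⟩ := Multiset.exists_cons_of_mem ha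
  rw [Multiset.prod_cons, map_mul] at hp
  have h1 : v t'.prod ≤ 1 :=
    val_multiset_prod_le_one v t' (fun b hb => h b (Multiset.mem_cons_of_mem hb))
  have h2 := h a (Multiset.mem_cons_self a t')
  apply le_antisymm h2
  calc (1 : Γ₀) = v a * v t'.prod := hp.symm
    _ ≤ v a * 1 := mul_le_mul_right h1 _
    _ = v a := mul_one _

/-- A point at distance one from finitely many integral points. -/
theorem exists_base [IsAlgClosed L] (s : Multiset L) (hs : ∀ r ∈ s, v r ≤ 1) :
    ∃ x₀ : L, v x₀ = 1 ∧ ∀ r ∈ s, v (x₀ - r) = 1 := by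
  classical
  have hmonP : ((s.map (fun r => X - C r)).prod : L[X]).Monic :=
    monic_multiset_prod_of_monic _ _ (fun r _ => monic_X_sub_C r)
  set h : L[X] := X * (s.map (fun r => X - C r)).prod with hh
  have hmon : h.Monic := monic_X.mul hmonP
  have h1 : 0 < h.natDegree := by
    rw [hh, Monic.natDegree_mul monic_X hmonP, natDegree_X]
    omega
  have hdeg : (h + 1).degree ≠ 0 := by
    have h2 : (h + 1).natDegree = h.natDegree :=
      natDegree_add_eq_left_of_natDegree_lt (by simpa using h1)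
    intro h0
    have h3 := natDegree_eq_zero_iff_degree_le_zero.2 h0.le
    omega
  obtain ⟨x₀, hx₀⟩ := IsAlgClosed.exists_root (h + 1) hdeg
  have hev : x₀ * (s.map (fun r => x₀ - r)).prod = -1 := by
    have h4 : (h + 1).eval x₀ = 0 := hx₀
    rw [eval_add, eval_one, hh, eval_mul, eval_X, eval_multiset_prod, Multiset.map_map] at h4
    have e : (s.map ((fun p => eval x₀ p) ∘ fun r => X - C r)) = s.map (fun r => x₀ - r) := by
      apply Multiset.map_congr rfl
      intro r _
      simp
    rw [e] at h4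
    linear_combination h4
  set t : Multiset L := x₀ ::ₘ s.map (fun r => x₀ - r) with ht
  have htp : t.prod = -1 := by rw [ht, Multiset.prod_cons, hev]
  have hx₀le : v x₀ ≤ 1 := by
    by_contra hcon
    push Not at hcon
    have hall : ∀ a ∈ s.map (fun r => x₀ - r), 1 ≤ v a := by
      intro a ha
      obtain ⟨r, hr, rfl⟩ := Multiset.mem_map.1 ha
      rw [Valuation.map_sub_eq_of_lt_left _ (lt_of_le_of_lt (hs r hr) hcon)]
      exact hcon.le
    have h5 : 1 < v t.prod := by
      rw [ht, Multiset.prod_cons, map_mul]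
      exact lt_of_lt_of_le hcon (le_mul_of_one_le_right' (one_le_val_multiset_prod v _ hall))
    rw [htp] at h5
    simp at h5
  have hallle : ∀ a ∈ t, v a ≤ 1 := by
    intro a ha
    rw [ht, Multiset.mem_cons] at ha
    rcases ha with rfl | ha
    · exact hx₀le
    · obtain ⟨r, hr, rfl⟩ := Multiset.mem_map.1 ha
      exact v.map_sub_le hx₀le (hs r hr)
  have hone := val_eq_one_of_prod v t hallle (by rw [htp]; simp)
  refine ⟨x₀, hone x₀ (by simp [ht]), fun r hr => hone _ ?_⟩
  rw [ht]
  exact Multiset.mem_cons_of_mem (Multiset.mem_map_of_mem _ hr)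

/-- Fibrewise comparison: if `f` is at most two-to-one on `S` and `|f| ≥ 1` on `S`, then
`∏_{T ∈ S} |f T| ≤ ∏_{r ∈ f(S)} |r|²`. -/
theorem prod_le_prod_image_sq {ι : Type*} [DecidableEq L] (S : Finset ι) (f : ι → L)
    (hfib : ∀ T ∈ S, (S.filter fun T' => f T' = f T).card ≤ 2) (hge : ∀ T ∈ S, 1 ≤ v (f T)) :
    ∏ T ∈ S, v (f T) ≤ ∏ r ∈ S.image f, v r ^ 2 := by
  classical
  rw [← Finset.prod_fiberwise_of_maps_to (g := f) (t := S.image f)
    (fun T hT => Finset.mem_image_of_mem f hT) (fun T => v (f T))]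
  apply Finset.prod_le_prod'
  intro r hr
  obtain ⟨T₀, hT₀, rfl⟩ := Finset.mem_image.1 hr
  have h1 : ∏ T ∈ S.filter (fun T => f T = f T₀), v (f T)
      = v (f T₀) ^ (S.filter (fun T => f T = f T₀)).card := by
    rw [Finset.prod_eq_pow_card]
    intro T hT
    rw [(Finset.mem_filter.1 hT).2]
  rw [h1]
  exact pow_le_pow_right' (hge T₀ hT₀) (hfib T₀ hT₀)

end Val

/-- **Core of the product bound.** -/
theorem prod_core [IsAlgClosed L] (A : ValuationSubring L) (Np Dp : L[X]) (κ : L) (hκ : κ ≠ 0)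
    (hD : Dp.Monic) (hdeg : Np.natDegree = Dp.natDegree + 1) (hlc : Np.leadingCoeff * κ = 1)
    (hcop : IsCoprime Np Dp)
    (hint : ∀ ρ : L, Dp.eval ρ ≠ 0 → Np.eval ρ / Dp.eval ρ ∈ A → ρ ∈ A)
    (R : Finset L) (hR : ∀ r ∈ R, r ∉ A ∧ 2 ≤ Dp.rootMultiplicity r) :
    A.valuation κ * ∏ r ∈ R, A.valuation r ^ 2 ≤ 1 := by
  classical
  have hD0 : Dp ≠ 0 := hD.ne_zero
  -- the base point
  obtain ⟨x₀, hx₀1, hx₀r⟩ := exists_base A.valuation (Dp.roots.filter fun r => A.valuation r ≤ 1)
    (fun r hr => (Multiset.mem_filter.1 hr).2)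
  have hx₀A : x₀ ∈ A := (A.valuation_le_one_iff x₀).1 hx₀1.le
  -- every root of `Dp` is at distance at least one from `x₀`
  have hroot : ∀ r ∈ Dp.roots, 1 ≤ A.valuation (x₀ - r) := by
    intro r hr
    by_cases hrA : A.valuation r ≤ 1
    · exact (hx₀r r (Multiset.mem_filter.2 ⟨hr, hrA⟩)).ge
    · push Not at hrA
      rw [Valuation.map_sub_eq_of_lt_right _ (by rw [hx₀1]; exact hrA)]
      exact hrA.le
  -- factor out the roots in `R`
  have hdvd : (∏ r ∈ R, (X - C r) ^ 2) ∣ Dp := by
    apply Finset.prod_dvd_of_coprime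
    · intro r _ r' _ hne
      exact ((pairwise_coprime_X_sub_C (s := fun r : L => r) Function.injective_id) hne).pow
    · intro r hr
      exact (le_rootMultiplicity_iff hD0).1 (hR r hr).2
  obtain ⟨G, hG⟩ := hdvd
  have hPmon : (∏ r ∈ R, (X - C r) ^ 2 : L[X]).Monic :=
    monic_prod_of_monic _ _ (fun r _ => (monic_X_sub_C r).pow 2)
  have hGmon : G.Monic := by
    have := hD
    rw [hG] at this
    exact hPmon.of_mul_monic_left this
  have hGroots : ∀ r ∈ G.roots, r ∈ Dp.roots := by
    intro r hr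
    rw [mem_roots hGmon.ne_zero] at hr
    rw [mem_roots hD0, hG]
    exact root_mul_left_of_isRoot _ hr
  have hGval : 1 ≤ A.valuation (G.eval x₀) := by
    rw [(IsAlgClosed.splits G).eval_eq_prod_roots_of_monic hGmon x₀]
    apply one_le_val_multiset_prod
    intro a ha
    obtain ⟨r, hr, rfl⟩ := Multiset.mem_map.1 ha
    exact hroot r (hGroots r hr)
  have hDval : ∏ r ∈ R, A.valuation r ^ 2 ≤ A.valuation (Dp.eval x₀) := by
    rw [hG, eval_mul, map_mul, eval_prod, map_prod]
    have h1 : ∏ r ∈ R, A.valuation (eval x₀ ((X - C r) ^ 2)) = ∏ r ∈ R, A.valuation r ^ 2 := by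
      apply Finset.prod_congr rfl
      intro r hr
      have hrA : 1 < A.valuation r := by
        have := (hR r hr).1
        rw [← A.valuation_le_one_iff] at this
        exact not_le.1 this
      rw [eval_pow, eval_sub, eval_X, eval_C, map_pow,
        Valuation.map_sub_eq_of_lt_right _ (by rw [hx₀1]; exact hrA)]
    rw [h1]
    exact le_mul_of_one_le_right' hGval
  have hDx₀ : Dp.eval x₀ ≠ 0 := by
    intro h0
    have : x₀ ∈ Dp.roots := (mem_roots hD0).2 h0
    have h2 := hroot x₀ this
    rw [sub_self, map_zero] at h2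
    exact not_le.2 zero_lt_one h2
  -- the constant `c`
  set q : L := Np.eval x₀ / Dp.eval x₀ with hq
  obtain ⟨c, hcA, hc⟩ : ∃ c : L, c ∈ A ∧ 1 ≤ A.valuation (q - c) := by
    by_cases h1 : 1 ≤ A.valuation q
    · exact ⟨0, A.zero_mem, by rwa [sub_zero]⟩
    · push Not at h1
      refine ⟨1, A.one_mem, ?_⟩
      rw [Valuation.map_sub_swap, Valuation.map_one_sub_of_lt _ h1]
  -- the monic polynomial `κ (N - c D)`
  set Nc : L[X] := C κ * (Np - C c * Dp) with hNc
  have hdegcD : (C c * Dp).degree < Np.degree := by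
    apply degree_lt_degree
    have := natDegree_C_mul_le c Dp
    omega
  have hNcmon : Nc.Monic := by
    rw [Monic, hNc, leadingCoeff_mul, leadingCoeff_C, leadingCoeff_sub_of_degree_lt hdegcD,
      mul_comm, hlc]
  have hNcroots : ∀ ρ ∈ Nc.roots, ρ ∈ A := by
    intro ρ hρ
    rw [mem_roots hNcmon.ne_zero, IsRoot.def, hNc, eval_mul, eval_C, eval_sub, eval_mul,
      eval_C] at hρ
    have h1 : Np.eval ρ = c * Dp.eval ρ := by
      rcases mul_eq_zero.1 hρ with h | h
      · exact absurd h hκ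
      · exact sub_eq_zero.1 h
    have hDρ : Dp.eval ρ ≠ 0 := by
      intro h0
      obtain ⟨a, b, hab⟩ := hcop
      have := congrArg (eval ρ) hab
      rw [eval_add, eval_mul, eval_mul, h1, h0, eval_one] at this
      simp at this
    apply hint ρ hDρ
    rw [h1, mul_div_cancel_right₀ _ hDρ]
    exact hcA
  have hNcval : A.valuation (Nc.eval x₀) ≤ 1 := by
    rw [(IsAlgClosed.splits Nc).eval_eq_prod_roots_of_monic hNcmon x₀]
    apply val_multiset_prod_le_one
    intro a ha
    obtain ⟨ρ, hρ, rfl⟩ := Multiset.mem_map.1 ha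
    exact (A.valuation_le_one_iff _).2 (A.sub_mem hx₀A (hNcroots ρ hρ))
  have hNceval : Nc.eval x₀ = κ * Dp.eval x₀ * (q - c) := by
    rw [hNc, eval_mul, eval_C, eval_sub, eval_mul, eval_C, hq]
    field_simp
  rw [hNceval, map_mul, map_mul] at hNcval
  calc A.valuation κ * ∏ r ∈ R, A.valuation r ^ 2
      ≤ A.valuation κ * A.valuation (Dp.eval x₀) := mul_le_mul_right hDval _
    _ ≤ A.valuation κ * A.valuation (Dp.eval x₀) * A.valuation (q - c) :=
        le_mul_of_one_le_right' hc
    _ ≤ 1 := hNcval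

end Fermat.Agent.S13.MProdCore
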