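/-
S13 team, block [M] (M2) (owner of this file: helper18).

`MProd.prod_val_zOf_le_of_divData`: the product bound `v(p) ≤ ∏_{T ∈ S} v(z_T)` for a finite set
`S` of nonzero `p`-torsion points of the kernel of reduction, from division data `DivData`
(`x(p • P) = N(x)/D(x)`) and the polynomial core `MProdCore.prod_core`.
-/
import Fermat.Agent.S13.GPDefs
import Fermat.Agent.S13.MProdCore
import Fermat.Agent.S13.MTorsCore
import Fermat.Agent.S13.MMultCore

set_option autoImplicit false

namespace Fermat.Agent.S13.MProd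

open WeierstrassCurve Polynomial Fermat.Agent.S05

variable {L : Type*} [Field L] [DecidableEq L]

/-- The kernel of reduction is stable under multiplication by integers. -/
theorem inE1_nsmul (A : ValuationSubring L) (α β : L) (hα : α ∈ A) (hβ : β ∈ A)
    {T : (shortCurve α β).toAffine.Point} (hT : InE1 A T) (k : ℕ) : InE1 A (k • T) := by
  have hW := FormalGroup.intCoeff_of_mem A (shortCurve α β) A.zero_mem hα A.zero_mem hβ A.zero_mem
  rw [FormalGroup.inE1_iff] at hT ⊢
  exact (FormalGroup.nsmul_pt hW T hT k).1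

/-- A nonzero point killed by an odd integer has `y ≠ 0`. -/
theorem y_ne_zero_of_odd_torsion (α β : L) {p : ℕ} (hp : Odd p) {x y : L}
    (h : (shortCurve α β).toAffine.Nonsingular x y)
    (htor : p • Affine.Point.some x y h = 0) : y ≠ 0 := by
  rintro rfl
  rw [MTors.odd_nsmul_of_y_zero α β h hp] at htor
  exact Affine.Point.some_ne_zero _ htor

/-- The fibres of `xco` on a set of nonzero points have at most two elements. -/
theorem card_fiber_xco_le_two {W : WeierstrassCurve L} (S : Finset W.toAffine.Point)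
    (hS : ∀ T ∈ S, T ≠ 0) (T : W.toAffine.Point) (hT : T ∈ S) :
    (S.filter fun T' => PB.xco T' = PB.xco T).card ≤ 2 := by
  have hsub : (S.filter fun T' => PB.xco T' = PB.xco T) ⊆ {T, -T} := by
    intro T' hT'
    rw [Finset.mem_filter] at hT'
    rcases PB.eq_or_eq_neg_of_xco_eq (hS T' hT'.1) (hS T hT) hT'.2 with h | h
    · rw [h]; exact Finset.mem_insert_self _ _
    · rw [h]; exact Finset.mem_insert_of_mem (Finset.mem_singleton_self _)
  exact (Finset.card_le_card hsub).trans Finset.card_le_two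

/-- **(M2) from division data**: `v(p) ≤ ∏_{T ∈ S} v(z_T)`. -/
theorem prod_val_zOf_le_of_divData [IsAlgClosed L] [CharZero L] (α β : L) (hβ : β ≠ 0)
    (hd : α ^ 2 - 4 * β ≠ 0) (A : ValuationSubring L) (hα : α ∈ A) (hβA : β ∈ A) (p : ℕ)
    (hp : Odd p) (N D : L[X]) (H : GP.DivData α β p N D)
    (S : Finset (shortCurve α β).toAffine.Point)
    (hS : ∀ T ∈ S, T ≠ 0 ∧ p • T = 0 ∧ InE1 A T) :
    A.valuation (p : L) ≤ ∏ T ∈ S, A.valuation (FormalGroup.zOf T) := by
  have hp0 : p ≠ 0 := hp.pos.ne'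
  have hvα : A.valuation α ≤ 1 := (A.valuation_le_one_iff _).mpr hα
  have hvβ : A.valuation β ≤ 1 := (A.valuation_le_one_iff _).mpr hβA
  -- integrality of the points with integral image
  have hint : ∀ ρ : L, D.eval ρ ≠ 0 → N.eval ρ / D.eval ρ ∈ A → ρ ∈ A := by
    intro ρ hD hmem
    by_contra hρ
    obtain ⟨y, hy⟩ := IsAlgClosed.exists_pow_nat_eq (ρ ^ 3 + α * ρ ^ 2 + β * ρ) (n := 2)
      (by norm_num)
    have hns := MTors.nonsingular_of_eq α β two_ne_zero hβ hd hy
    have hE : InE1 A (Affine.Point.some ρ y hns) := hρ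
    have hpE := inE1_nsmul A α β hα hβA hE p
    have hne : p • Affine.Point.some ρ y hns ≠ 0 := fun h0 => hD ((H.eval_eq_zero_iff hns).mpr h0)
    have hx := H.xco_nsmul hns hD
    rcases hq : p • Affine.Point.some ρ y hns with _ | ⟨x', y', h'⟩
    · exact hne hq
    · rw [hq] at hpE hx
      exact hpE (by rw [show x' = N.eval ρ / D.eval ρ from hx]; exact hmem)
  -- the set of `x`-coordinates
  have hS0 : ∀ T ∈ S, T ≠ 0 := fun T hT => (hS T hT).1
  have hxA : ∀ T ∈ S, PB.xco T ∉ A := by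
    intro T hT
    obtain ⟨h0, -, hE⟩ := hS T hT
    rcases T with _ | ⟨x, y, h⟩
    · exact absurd rfl h0
    · exact hE
  have hR : ∀ r ∈ S.image PB.xco, r ∉ A ∧ 2 ≤ D.rootMultiplicity r := by
    intro r hr
    obtain ⟨T, hT, rfl⟩ := Finset.mem_image.mp hr
    refine ⟨hxA T hT, ?_⟩
    obtain ⟨h0, htor, -⟩ := hS T hT
    rcases T with _ | ⟨x, y, h⟩
    · exact absurd rfl h0
    · exact (le_rootMultiplicity_iff H.monic.ne_zero).mpr
        (H.sq_dvd h (y_ne_zero_of_odd_torsion α β hp h htor) htor)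
  have hκ : ((p : L) ^ 2) ≠ 0 := pow_ne_zero 2 (Nat.cast_ne_zero.mpr hp0)
  have hcore := MProdCore.prod_core A N D ((p : L) ^ 2) hκ H.monic H.natDegree_eq
    H.leadingCoeff_mul H.coprime hint (S.image PB.xco) hR
  have hfib := MProdCore.prod_le_prod_image_sq A.valuation S PB.xco
    (card_fiber_xco_le_two S hS0)
    (fun T hT => le_of_lt (by rw [← not_le, A.valuation_le_one_iff]; exact hxA T hT))
  -- `v(p)² · ∏ v(x_T) ≤ 1`
  have hx : A.valuation (p : L) ^ 2 * ∏ T ∈ S, A.valuation (PB.xco T) ≤ 1 := by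
    rw [← map_pow]
    exact (mul_le_mul' le_rfl hfib).trans hcore
  -- conversion to `z`
  have hz : ∀ T ∈ S, A.valuation (PB.xco T) * A.valuation (FormalGroup.zOf T) ^ 2 = 1 := by
    intro T hT
    obtain ⟨h0, -, hE⟩ := hS T hT
    rcases T with _ | ⟨x, y, h⟩
    · exact absurd rfl h0
    · have hx1 : 1 < A.valuation x := by rw [← not_le, A.valuation_le_one_iff]; exact hE
      have heq : y ^ 2 = x ^ 3 + α * x ^ 2 + β * x := (PB.equation_iff α β x y).mp h.1
      have h1 := MMultCore.val_x_eq_inv_sq A.valuation hvα hvβ heq hx1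
      have hz0 : A.valuation (-x / y) ≠ 0 := by
        intro h0'
        rw [h0', inv_zero, zero_pow two_ne_zero] at h1
        rw [h1] at hx1
        exact absurd hx1 (not_lt.mpr zero_le)
      change A.valuation x * A.valuation (-x / y) ^ 2 = 1
      rw [h1, inv_pow, inv_mul_cancel₀ (pow_ne_zero 2 hz0)]
  have hprod : (∏ T ∈ S, A.valuation (PB.xco T)) * (∏ T ∈ S, A.valuation (FormalGroup.zOf T)) ^ 2
      = 1 := by
    rw [← Finset.prod_pow, ← Finset.prod_mul_distrib]
    exact Finset.prod_eq_one hz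
  have hfin : A.valuation (p : L) ^ 2 ≤ (∏ T ∈ S, A.valuation (FormalGroup.zOf T)) ^ 2 := by
    calc A.valuation (p : L) ^ 2
        = A.valuation (p : L) ^ 2 * ((∏ T ∈ S, A.valuation (PB.xco T))
            * (∏ T ∈ S, A.valuation (FormalGroup.zOf T)) ^ 2) := by rw [hprod, mul_one]
      _ = (A.valuation (p : L) ^ 2 * ∏ T ∈ S, A.valuation (PB.xco T))
            * (∏ T ∈ S, A.valuation (FormalGroup.zOf T)) ^ 2 := by rw [mul_assoc]
      _ ≤ 1 * (∏ T ∈ S, A.valuation (FormalGroup.zOf T)) ^ 2 := mul_le_mul' hx le_rfl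
      _ = _ := one_mul _
  exact (pow_le_pow_iff_left₀ zero_le zero_le two_ne_zero).mp hfin

end Fermat.Agent.S13.MProd
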