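/-
S13 team, block [M], MSpec — B-owner file (helper12; independent duplicate of `MSpec.lean`).

Specialisation of the generic point.  Setting of `MGen`: `G : GenData L F α β` (generic point
`Pgen = (x, y)` of `y² = x³ + αx² + βx` over `F ⊇ L`), `X : XData G hβ k`
(`x(k • Pgen) · D(x) = N(x)`, `N`, `D` coprime).  For every constant point `P₀ = (x₀, y₀)`:
`k • P₀ = 0 ↔ D(x₀) = 0`, and `x(k • P₀) · D(x₀) = N(x₀)` when `k • P₀ ≠ 0`.

* `add_close`  : `Q` affine with integral `x`, `R` in the kernel of reduction `E1(B)` ⇒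
                 `Q + R` is affine and `x(Q + R) ≡ x(Q)` modulo the maximal ideal.
* `spec_at`    : the specialisation statement at a valuation subring `B ⊇ L` with
                 `Pgen - const P₀ ∈ E1(B)`.
* `spec`       : the export (exact shape of board post 467).
-/
import Fermat.Agent.S13.MGen

set_option autoImplicit false

namespace Fermat.Agent.S13.MSpecB

open WeierstrassCurve Fermat.Agent.S05 Fermat.Agent.S05.PB

section Basic

variable {F : Type*} [Field F]

/-- `z² ∈ 𝔪 → z ∈ 𝔪`. -/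
theorem mem_nonunits_of_sq (B : ValuationSubring F) {z : F} (hz : z ^ 2 ∈ B.nonunits) :
    z ∈ B.nonunits := by
  rw [ValuationSubring.mem_nonunits_iff] at hz ⊢
  rw [map_pow] at hz
  by_contra h
  rw [not_lt] at h
  exact absurd hz (not_lt.mpr (one_le_pow₀ h))

/-- `z² ∈ B → z ∈ B`. -/
theorem mem_of_sq (B : ValuationSubring F) {z : F} (hz : z ^ 2 ∈ B) : z ∈ B := by
  rw [← B.valuation_le_one_iff] at hz ⊢
  rw [map_pow] at hz
  exact (pow_le_one_iff_of_nonneg zero_le (by norm_num)).mp hz

/-- `x ∉ B → x⁻¹ ∈ 𝔪`. -/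
theorem inv_mem_nonunits (B : ValuationSubring F) {x : F} (hx : x ∉ B) : x⁻¹ ∈ B.nonunits := by
  rw [ValuationSubring.mem_nonunits_iff, map_inv₀]
  have h1 : 1 < B.valuation x := by rwa [← not_le, B.valuation_le_one_iff]
  exact inv_lt_one_of_one_lt₀ h1

/-- `u ∈ 𝔪 → 1 + u` has valuation one. -/
theorem val_one_add (B : ValuationSubring F) {u : F} (hu : u ∈ B.nonunits) :
    B.valuation (1 + u) = 1 := by
  rw [ValuationSubring.mem_nonunits_iff] at hu
  have := Valuation.map_add_eq_of_lt_left B.valuation (x := 1) (y := u) (by rwa [map_one])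
  rw [this, map_one]

/-- An affine point with integral `x` on a short curve with integral coefficients has
integral `y`. -/
theorem y_mem (B : ValuationSubring F) {a b : F} (ha : a ∈ B) (hb : b ∈ B) {x y : F}
    (h : (shortCurve a b).toAffine.Equation x y) (hx : x ∈ B) : y ∈ B := by
  apply mem_of_sq
  rw [(equation_iff a b x y).mp h]
  exact add_mem (add_mem (pow_mem hx 3) (mul_mem ha (pow_mem hx 2))) (mul_mem hb hx)

section DecEq

variable [DecidableEq F]

/-- **AddE1Close.** If `Q` is an affine point with integral `x`-coordinate and `R` lies in the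
kernel of reduction, then `Q + R` is affine and `x(Q + R) ≡ x(Q)` modulo the maximal ideal. -/
theorem add_close (B : ValuationSubring F) {a b : F} (ha : a ∈ B) (hb : b ∈ B)
    {Q R : (shortCurve a b).toAffine.Point} (hQ : Q ≠ 0) (hQx : xco Q ∈ B) (hR : InE1 B R) :
    Q + R ≠ 0 ∧ xco (Q + R) - xco Q ∈ B.nonunits := by
  rcases Q with _ | ⟨x₁, y₁, h₁⟩
  · exact absurd rfl hQ
  rcases R with _ | ⟨x₂, y₂, h₂⟩
  · change Affine.Point.some x₁ y₁ h₁ + 0 ≠ 0 ∧
      xco (Affine.Point.some x₁ y₁ h₁ + 0) - xco (Affine.Point.some x₁ y₁ h₁) ∈ B.nonunits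
    rw [add_zero, sub_self]
    refine ⟨hQ, ?_⟩
    rw [ValuationSubring.mem_nonunits_iff, map_zero]
    exact zero_lt_one
  · have hx₁ : x₁ ∈ B := hQx
    have hx₂ : x₂ ∉ B := hR
    have hne : x₁ ≠ x₂ := fun h => hx₂ (h ▸ hx₁)
    obtain ⟨x₃, y₃, h₃, e₃, hx₃⟩ := add_x a b h₁ h₂ hne
    rw [e₃]
    refine ⟨Affine.Point.some_ne_zero _, ?_⟩
    simp only [xco_some]
    have hy₁ : y₁ ∈ B := y_mem B ha hb h₁.1 hx₁
    have E₂ := (equation_iff a b x₂ y₂).mp h₂.1
    have hx₂0 : x₂ ≠ 0 := fun h => hx₂ (h ▸ B.zero_mem)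
    obtain ⟨s, hs⟩ : ∃ s : F, s = x₂⁻¹ := ⟨_, rfl⟩
    have hsm : s ∈ B.nonunits := hs ▸ inv_mem_nonunits B hx₂
    have hsB : s ∈ B := B.nonunits_subset hsm
    obtain ⟨w, hw⟩ : ∃ w : F, w = y₂ * s ^ 2 := ⟨_, rfl⟩
    have hw2 : w ^ 2 = s + a * s ^ 2 + b * s ^ 3 := by
      rw [hw, mul_pow, E₂, hs]
      field_simp
    have hwm : w ∈ B.nonunits := by
      apply mem_nonunits_of_sq
      rw [hw2]
      have e : s + a * s ^ 2 + b * s ^ 3 = (1 + a * s + b * s ^ 2) * s := by ring
      rw [e]
      exact Reduction.mul_mem_nonunits B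
        (add_mem (add_mem B.one_mem (mul_mem ha hsB)) (mul_mem hb (pow_mem hsB 2))) hsm
    -- the key identity, scaled by `s ^ 2`
    have key : (x₃ - x₁) * (1 + -(x₁ * s)) ^ 2 =
        (y₁ ^ 2 * s - a * x₁ ^ 2 * s + 2 * a * x₁ - 2 * x₁ ^ 3 * s + 3 * x₁ ^ 2 + b) * s
          + (-2 * y₁) * w := by
      have hx₂s : x₂ * s = 1 := by rw [hs]; exact mul_inv_cancel₀ hx₂0
      have e1 : (x₃ - x₁) * (1 + -(x₁ * s)) ^ 2 = (x₃ - x₁) * (x₁ - x₂) ^ 2 * s ^ 2 := by
        have : (1 + -(x₁ * s)) = -((x₁ - x₂) * s) := by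
          linear_combination (-1 : F) * hx₂s
        rw [this]; ring
      rw [e1]
      have e2 : (x₃ - x₁) * (x₁ - x₂) ^ 2 =
          y₁ ^ 2 - 2 * y₁ * y₂ + b * x₂ - a * x₁ ^ 2 + 2 * a * x₁ * x₂ - 2 * x₁ ^ 3
            + 3 * x₁ ^ 2 * x₂ := by
        linear_combination hx₃ + E₂
      rw [e2, hw]
      linear_combination
        (b * s + 2 * a * x₁ * s + 3 * x₁ ^ 2 * s) * hx₂s
    have hnum : (x₃ - x₁) * (1 + -(x₁ * s)) ^ 2 ∈ B.nonunits := by
      rw [key]
      have h2 : (2 : F) ∈ B := by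
        have : (2 : F) = 1 + 1 := by norm_num
        rw [this]; exact add_mem B.one_mem B.one_mem
      have h3 : (3 : F) ∈ B := by
        have : (3 : F) = 1 + 1 + 1 := by norm_num
        rw [this]; exact add_mem (add_mem B.one_mem B.one_mem) B.one_mem
      refine add_mem (Reduction.mul_mem_nonunits B ?_ hsm) (Reduction.mul_mem_nonunits B ?_ hwm)
      · refine add_mem (add_mem (sub_mem (add_mem (sub_mem ?_ ?_) ?_) ?_) ?_) hb
        · exact mul_mem (pow_mem hy₁ 2) hsB
        · exact mul_mem (mul_mem ha (pow_mem hx₁ 2)) hsB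
        · exact mul_mem (mul_mem h2 ha) hx₁
        · exact mul_mem (mul_mem h2 (pow_mem hx₁ 3)) hsB
        · exact mul_mem h3 (pow_mem hx₁ 2)
      · exact mul_mem (neg_mem h2) hy₁
    have hunit : B.valuation ((1 + -(x₁ * s)) ^ 2) = 1 := by
      rw [map_pow, val_one_add B (neg_mem (Reduction.mul_mem_nonunits B hx₁ hsm)), one_pow]
    rw [ValuationSubring.mem_nonunits_iff] at hnum ⊢
    rwa [map_mul, hunit, mul_one] at hnum

end DecEq

/-- Multiples stay in the kernel of reduction. -/
theorem inE1_nsmul [DecidableEq F] (B : ValuationSubring F) {a b : F} (ha : a ∈ B) (hb : b ∈ B)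
    {R : (shortCurve a b).toAffine.Point} (hR : InE1 B R) (k : ℕ) : InE1 B (k • R) := by
  have hW := FormalGroup.intCoeff_of_mem B (shortCurve a b) B.zero_mem ha B.zero_mem hb B.zero_mem
  rw [FormalGroup.inE1_iff] at hR ⊢
  exact (FormalGroup.nsmul_pt hW R hR k).1

/-- A nonzero point of the kernel of reduction has non-integral `x`. -/
theorem xco_not_mem (B : ValuationSubring F) {W : WeierstrassCurve F} {P : W.toAffine.Point}
    (hP : InE1 B P) (h0 : P ≠ 0) : xco P ∉ B := by
  rcases P with _ | ⟨x, y, h⟩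
  · exact absurd rfl h0
  · exact hP

end Basic

section Spec

open Polynomial

variable {L : Type*} {F : Type*} [Field L] [Field F] [Algebra L F]

/-- An element congruent to a nonzero constant is not in the maximal ideal. -/
theorem not_mem_nonunits_of_close (B : ValuationSubring F) (hB : ∀ a : L, algebraMap L F a ∈ B)
    {u : F} {c : L} (hc : c ≠ 0) (hu : u - algebraMap L F c ∈ B.nonunits) : u ∉ B.nonunits := by
  intro h
  have h1 : algebraMap L F c ∈ B.nonunits := by
    have e : algebraMap L F c = u - (u - algebraMap L F c) := by ring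
    rw [e, ValuationSubring.mem_nonunits_iff]
    exact lt_of_le_of_lt (Valuation.map_sub _ _ _)
      (max_lt ((B.mem_nonunits_iff).mp h) ((B.mem_nonunits_iff).mp hu))
  exact hc (const_eq_zero_of_val_lt_one B hB ((B.mem_nonunits_iff).mp h1))

/-- An element congruent to a nonzero constant has valuation one. -/
theorem val_eq_one_of_close (B : ValuationSubring F) (hB : ∀ a : L, algebraMap L F a ∈ B)
    {u : F} {c : L} (hc : c ≠ 0) (hu : u - algebraMap L F c ∈ B.nonunits) :
    B.valuation u = 1 := by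
  have h1 : B.valuation (algebraMap L F c) = 1 := val_const_eq_one B hB hc
  have e : u = algebraMap L F c + (u - algebraMap L F c) := by ring
  rw [e, Valuation.map_add_eq_of_lt_left B.valuation
    (by rw [h1]; exact (B.mem_nonunits_iff).mp hu), h1]

variable [CharZero L] [DecidableEq L] [DecidableEq F] {α β : L}

omit [CharZero L] in
theorem xco_constHom (Q : (shortCurve α β).toAffine.Point) :
    xco (constHom F α β Q) = algebraMap L F (xco Q) := by
  rcases Q with _ | ⟨x, y, h⟩
  · change xco (constHom F α β 0) = algebraMap L F 0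
    rw [constHom_zero, xco_zero, map_zero]
  · obtain ⟨h', e⟩ := constHom_some F α β h
    rw [e]
    rfl

/-- The generic point minus a constant point to which it reduces lies in the kernel of
reduction. -/
theorem inE1_sub_const (G : GenData L F α β) (hβ : β ≠ 0) (B : ValuationSubring F)
    (hB : ∀ a : L, algebraMap L F a ∈ B) {x₀ y₁ : L}
    (h₁ : (shortCurve α β).toAffine.Nonsingular x₀ y₁)
    (hx : G.x - algebraMap L F x₀ ∈ B.nonunits) (hy : G.y - algebraMap L F y₁ ∈ B.nonunits) :
    InE1 B (G.Pgen hβ - constHom F α β (Affine.Point.some x₀ y₁ h₁)) := by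
  obtain ⟨h', e⟩ := constHom_some F α β h₁
  rw [e]
  have hxB : G.x ∈ B := by
    have : G.x = (G.x - algebraMap L F x₀) + algebraMap L F x₀ := by ring
    rw [this]
    exact B.add_mem _ _ (B.nonunits_subset hx) (hB x₀)
  have h2 : (2 : F) ∈ B := by
    have : (2 : F) = 1 + 1 := by norm_num
    rw [this]; exact add_mem B.one_mem B.one_mem
  have h3 : (3 : F) ∈ B := by
    have : (3 : F) = 1 + 1 + 1 := by norm_num
    rw [this]; exact add_mem (add_mem B.one_mem B.one_mem) B.one_mem
  refine F2_inE1 B _ (by simp [B.zero_mem]) (by simpa using hB α) (G.nonsingular hβ) h' hxB hx hy ?_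
  simp only [shortCurve_a₁, shortCurve_a₂, shortCurve_a₃, shortCurve_a₄, zero_mul, add_zero,
    sub_zero]
  have hns := ((Affine.nonsingular_iff' _ _).mp h₁).2
  simp only [shortCurve_a₁, shortCurve_a₂, shortCurve_a₃, shortCurve_a₄, zero_mul, add_zero,
    zero_sub, neg_ne_zero] at hns
  rcases hns with hns | hns
  · right
    refine not_mem_nonunits_of_close B hB hns ?_
    have e1 : 3 * G.x ^ 2 + 2 * algebraMap L F α * G.x + algebraMap L F β
        - algebraMap L F (3 * x₀ ^ 2 + 2 * α * x₀ + β)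
        = (3 * (G.x + algebraMap L F x₀) + 2 * algebraMap L F α)
          * (G.x - algebraMap L F x₀) := by
      simp only [map_add, map_mul, map_pow, map_ofNat]
      ring
    rw [e1]
    exact Reduction.mul_mem_nonunits B
      (add_mem (mul_mem h3 (add_mem hxB (hB x₀))) (mul_mem h2 (hB α))) hx
  · left
    refine not_mem_nonunits_of_close B hB hns ?_
    have e1 : 2 * G.y - algebraMap L F (2 * y₁) = 2 * (G.y - algebraMap L F y₁) := by
      simp only [map_mul, map_ofNat]
      ring
    rw [e1]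
    exact Reduction.mul_mem_nonunits B h2 hy

/-- Specialisation at a valuation subring `B ⊇ L` centred at `x₀`, for a constant point `P₀`
with `Pgen - const P₀` in the kernel of reduction. -/
theorem spec_at (G : GenData L F α β) (hβ : β ≠ 0) {k : ℕ} (hk : 1 ≤ k) (X : XData G hβ k)
    (B : ValuationSubring F) (hB : ∀ a : L, algebraMap L F a ∈ B) {x₀ : L}
    (hx : G.x - algebraMap L F x₀ ∈ B.nonunits) (P₀ : (shortCurve α β).toAffine.Point)
    (hE : InE1 B (G.Pgen hβ - constHom F α β P₀)) :
    (k • P₀ = 0 ↔ X.D.eval x₀ = 0) ∧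
    (k • P₀ ≠ 0 → xco (k • P₀) * X.D.eval x₀ = X.N.eval x₀) := by
  have hα := hB α
  have hβB := hB β
  have hkR : InE1 B (k • (G.Pgen hβ - constHom F α β P₀)) := inE1_nsmul B hα hβB hE k
  have hsum : k • G.Pgen hβ = constHom F α β (k • P₀) + k • (G.Pgen hβ - constHom F α β P₀) := by
    rw [smul_sub, map_nsmul]; abel
  have hne : k • G.Pgen hβ ≠ 0 := G.nsmul_Pgen_ne_zero hβ (by omega)
  have hD := aeval_sub_eval_mem_nonunits B hB hx X.D
  have hN := aeval_sub_eval_mem_nonunits B hB hx X.N
  have hxB : G.x ∈ B := by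
    have : G.x = (G.x - algebraMap L F x₀) + algebraMap L F x₀ := by ring
    rw [this]
    exact B.add_mem _ _ (B.nonunits_subset hx) (hB x₀)
  have hDB : aeval G.x X.D ∈ B := aeval_mem B hB hxB X.D
  have hNB : aeval G.x X.N ∈ B := aeval_mem B hB hxB X.N
  have hrel := X.rel
  -- the case `k • P₀ = 0`
  have caseA : k • P₀ = 0 → X.D.eval x₀ = 0 := by
    intro h0
    rw [h0, map_zero, zero_add] at hsum
    rw [← hsum] at hkR
    by_contra hD0
    have hu : B.valuation (aeval G.x X.D) = 1 := val_eq_one_of_close B hB hD0 hD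
    have hxco : xco (k • G.Pgen hβ) ∈ B := by
      rw [← B.valuation_le_one_iff]
      have e : B.valuation (xco (k • G.Pgen hβ)) = B.valuation (aeval G.x X.N) := by
        rw [← hrel, map_mul, hu, mul_one]
      rw [e]
      exact (B.valuation_le_one_iff _).mpr hNB
    exact xco_not_mem B hkR hne hxco
  -- the case `k • P₀ ≠ 0`
  have caseB : k • P₀ ≠ 0 → xco (k • P₀) * X.D.eval x₀ = X.N.eval x₀ := by
    intro hne0
    have hQ : constHom F α β (k • P₀) ≠ 0 := fun h => hne0 ((constHom_eq_zero_iff F α β _).mp h)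
    have hQx : xco (constHom F α β (k • P₀)) = algebraMap L F (xco (k • P₀)) := xco_constHom _
    obtain ⟨-, hclose⟩ := add_close B hα hβB hQ (by rw [hQx]; exact hB _) hkR
    rw [← hsum, hQx] at hclose
    have hmem : algebraMap L F (xco (k • P₀) * X.D.eval x₀ - X.N.eval x₀) ∈ B.nonunits := by
      have e : algebraMap L F (xco (k • P₀) * X.D.eval x₀ - X.N.eval x₀)
          = (aeval G.x X.N - algebraMap L F (X.N.eval x₀))
            + (-(aeval G.x X.D)) * (xco (k • G.Pgen hβ) - algebraMap L F (xco (k • P₀)))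
            + (-(algebraMap L F (xco (k • P₀))))
              * (aeval G.x X.D - algebraMap L F (X.D.eval x₀)) := by
        rw [map_sub, map_mul]
        linear_combination hrel
      rw [e]
      exact add_mem (add_mem hN (Reduction.mul_mem_nonunits B (neg_mem hDB) hclose))
        (Reduction.mul_mem_nonunits B (neg_mem (hB _)) hD)
    exact sub_eq_zero.mp (const_eq_zero_of_val_lt_one B hB ((B.mem_nonunits_iff).mp hmem))
  refine ⟨⟨caseA, fun hD0 => ?_⟩, caseB⟩
  by_contra hne0
  have h1 := caseB hne0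
  rw [hD0, mul_zero] at h1
  obtain ⟨u, v, huv⟩ := X.coprime
  have h2 := congrArg (eval x₀) huv
  rw [eval_add, eval_mul, eval_mul, ← h1, hD0, mul_zero, mul_zero, add_zero, eval_one] at h2
  exact zero_ne_one h2

/-- **MSpec** (B-owner version; exact shape of board post 467). -/
theorem spec (G : GenData L F α β) (hβ : β ≠ 0) {k : ℕ} (hk : 1 ≤ k) (X : XData G hβ k)
    {x₀ y₀ : L} (h : (shortCurve α β).toAffine.Nonsingular x₀ y₀) :
    (k • (Affine.Point.some x₀ y₀ h) = 0 ↔ X.D.eval x₀ = 0) ∧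
    (k • (Affine.Point.some x₀ y₀ h) ≠ 0 →
      PB.xco (k • (Affine.Point.some x₀ y₀ h)) * X.D.eval x₀ = X.N.eval x₀) := by
  have E := (PB.equation_iff α β x₀ y₀).mp h.1
  obtain ⟨B, hB, hx, hy⟩ := G.exists_valSub_at E
  rcases hy with hy | hy
  · exact spec_at G hβ hk X B hB hx _ (inE1_sub_const G hβ B hB h hx hy)
  · have hneg : -(Affine.Point.some x₀ y₀ h) = Affine.Point.some x₀
        ((shortCurve α β).toAffine.negY x₀ y₀) ((Affine.nonsingular_neg ..).mpr h) :=
      Affine.Point.neg_some h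
    have hy' : G.y - algebraMap L F ((shortCurve α β).toAffine.negY x₀ y₀) ∈ B.nonunits := by
      rw [PB.negY_eq, map_neg, sub_neg_eq_add]
      exact hy
    have key := spec_at G hβ hk X B hB hx _
      (inE1_sub_const G hβ B hB ((Affine.nonsingular_neg ..).mpr h) hx hy')
    rw [← hneg, smul_neg, neg_eq_zero, PB.xco_neg] at key
    rw [ne_eq, neg_eq_zero] at key
    exact key

end Spec

end Fermat.Agent.S13.MSpecB
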