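/-
S13 team, block [M], final exports (owner of this file: helper18).

* `MMain.exists_divData` : division data for multiplication by `p` on `y² = x³ + αx² + βx`
  (generic-point route: `MRatGen` + `MSpecB` + `MInf` + `MMult`).
* `MMain.exists_torsion_short` : **(M1)** a nonzero `p`-torsion point exists (`L` alg. closed).
* `MMain.prod_val_zOf_le` : **(M2)** `v(p) ≤ ∏_{T ∈ S} v(z_T)` for `S` a finite set of nonzero
  `p`-torsion points in the kernel of reduction (`p` odd).
-/
import Fermat.Agent.S13.MRatGen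
import Fermat.Agent.S13.MSpecB
import Fermat.Agent.S13.MInf
import Fermat.Agent.S13.MMult
import Fermat.Agent.S13.MTors
import Fermat.Agent.S13.MProd

set_option autoImplicit false

namespace Fermat.Agent.S13.MMain

open WeierstrassCurve Polynomial Fermat.Agent.S05

variable {L : Type*} [Field L] [CharZero L] [DecidableEq L]

section Gen

variable {F : Type*} [Field F] [Algebra L F] [DecidableEq F] {α β : L}

/-- Division data from a generic point. -/
theorem divData_of_xdata (G : GenData L F α β) (hβ : β ≠ 0) {p : ℕ} (hp : 1 ≤ p)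
    (X : XData G hβ p) : GP.DivData α β p X.N X.D where
  monic := X.monic
  coprime := X.coprime
  natDegree_eq := (MInf.deg_lead G hβ hp X).1
  leadingCoeff_mul := by rw [mul_comm]; exact (MInf.deg_lead G hβ hp X).2
  eval_eq_zero_iff := fun h => (MSpecB.spec G hβ hp X h).1.symm
  xco_nsmul := fun h hD => by
    have h1 := (MSpecB.spec G hβ hp X h).2 (fun h0 => hD ((MSpecB.spec G hβ hp X h).1.mp h0))
    rw [eq_div_iff hD]
    exact h1
  sq_dvd := fun {x₀ y₀} h hy htor => by
    have h1 := MMult.rootMult_eq_two G hβ hp X h hy htor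
    have h2 := pow_rootMultiplicity_dvd X.D x₀
    rwa [h1] at h2

end Gen

/-- Division data for multiplication by `p` exist. -/
theorem exists_divData (α β : L) (hβ : β ≠ 0) (p : ℕ) (hp : 1 ≤ p) :
    ∃ N D : L[X], GP.DivData α β p N D := by
  classical
  obtain ⟨G, hG⟩ := MRatGen.exists_gen_xdata α β hβ
  obtain ⟨X⟩ := hG p
  exact ⟨X.N, X.D, divData_of_xdata G hβ hp X⟩

/-- **(M1)**: over an algebraically closed field of characteristic zero, the short curve
`y² = x³ + αx² + βx` (`β ≠ 0`, `α² - 4β ≠ 0`) has a nonzero point killed by `p`, for `p ≥ 2`. -/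
theorem exists_torsion_short [IsAlgClosed L] (α β : L) (hβ : β ≠ 0) (hd : α ^ 2 - 4 * β ≠ 0)
    (p : ℕ) (hp : 2 ≤ p) : ∃ T : (shortCurve α β).toAffine.Point, T ≠ 0 ∧ p • T = 0 := by
  classical
  obtain ⟨G, hG⟩ := MRatGen.exists_gen_xdata α β hβ
  obtain ⟨X⟩ := hG p
  have hp1 : 1 ≤ p := le_trans (by norm_num) hp
  exact MTors.torsion_of_xdata G hβ hd hp X (fun h => MSpecB.spec G hβ hp1 X h)
    (MInf.deg_lead G hβ hp1 X)

/-- **(M2)**, `z`-version: for `p` odd and `S` a finite set of nonzero `p`-torsion points in the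
kernel of reduction of a valuation subring `A ∋ α, β`: `v(p) ≤ ∏_{T ∈ S} v(z_T)`. -/
theorem prod_val_zOf_le [IsAlgClosed L] (α β : L) (hβ : β ≠ 0) (hd : α ^ 2 - 4 * β ≠ 0)
    (A : ValuationSubring L) (hα : α ∈ A) (hβA : β ∈ A) (p : ℕ) (hp : Odd p)
    (S : Finset (shortCurve α β).toAffine.Point)
    (hS : ∀ T ∈ S, T ≠ 0 ∧ p • T = 0 ∧ InE1 A T) :
    A.valuation (p : L) ≤ ∏ T ∈ S, A.valuation (FormalGroup.zOf T) := by
  obtain ⟨N, D, H⟩ := exists_divData α β hβ p hp.pos
  exact MProd.prod_val_zOf_le_of_divData α β hβ hd A hα hβA p hp N D H S hS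

end Fermat.Agent.S13.MMain
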