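/-
S13 team, block [M] leaf `AddE1Close` (owner: helper14).

Adding a point of the kernel of reduction to an integral affine point does not change the
coordinates modulo the maximal ideal.  General Weierstrass curve with integral coefficients, no
hypothesis on the reduction (it may be singular), any valuation / valuation subring.

* `add_coord_close` (valuation version): for `(x₁, y₁)` with `v x₁ ≤ 1` and `(x₂, y₂)` with
  `1 < v x₂`, the sum is an affine point `(x₃, y₃)` with `v (x₃ - x₁) < 1`, `v (y₃ - y₁) < 1`.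
* `xco_add_sub_mem`, `xco_add_sub_mem'`, `xco_sub_sub_mem` : `InE1`/`xco` versions for a valuation
  subring `A`.
* `xco_sub_mem_of_sub_inE1` : if `P - Q ∈ E1` and `Q` is an integral affine point then so is `P`
  and `x(P) - x(Q) ∈ 𝔪`.
-/
import Fermat.Agent.S05.FormalGroup
import Fermat.Agent.S05.PB_Formulas

set_option autoImplicit false

namespace Fermat.Agent.S13.AddE1Close

open WeierstrassCurve Fermat.Agent.S05 Fermat.Agent.S05.FormalGroup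

section Val

variable {K : Type*} [Field K] {Γ₀ : Type*} [LinearOrderedCommGroupWithZero Γ₀]
  {v : Valuation K Γ₀}

/-- The `y`-coordinate of a point with integral `x` is integral. -/
lemma val_y_le_one {W : WeierstrassCurve K} (hW : IntCoeff v W) {x y : K}
    (h : W.toAffine.Equation x y) (hx : v x ≤ 1) : v y ≤ 1 := by
  by_contra hy
  exact absurd (val_x_of_val_y hW h (not_le.mp hy)) (not_lt.mpr hx)

/-- For a point with non-integral `x`: `v y ^ 2 = v x ^ 3`. -/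
lemma val_y_sq {W : WeierstrassCurve K} (hW : IntCoeff v W) {x y : K}
    (h : W.toAffine.Equation x y) (hx : 1 < v x) : v y ^ 2 = v x ^ 3 := by
  have hxy := val_x_lt_val_y hW h hx
  rw [Affine.equation_iff] at h
  have hx1 : (1 : Γ₀) ≤ v x := hx.le
  have h23 : v x ^ 2 < v x ^ 3 := pow_lt_pow_right₀ hx (by norm_num)
  have hR : v (x ^ 3 + W.a₂ * x ^ 2 + W.a₄ * x + W.a₆) = v x ^ 3 := by
    have h1 : v (W.a₂ * x ^ 2 + W.a₄ * x + W.a₆) ≤ v x ^ 2 := by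
      refine v.map_add_le (v.map_add_le ?_ ?_) ?_
      · exact mulR hW.a₂ (by rw [map_pow])
      · exact mulR hW.a₄ (le_self_pow₀ hx1 (by norm_num))
      · exact hW.a₆.trans (one_le_pow₀ hx1)
    have e : x ^ 3 + W.a₂ * x ^ 2 + W.a₄ * x + W.a₆
        = x ^ 3 + (W.a₂ * x ^ 2 + W.a₄ * x + W.a₆) := by ring
    rw [e, v.map_add_eq_of_lt_left (by rw [map_pow]; exact lt_of_le_of_lt h1 h23), map_pow]
  have hL : v (y ^ 2 + W.a₁ * x * y + W.a₃ * y) = v y ^ 2 := by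
    have e : y ^ 2 + W.a₁ * x * y + W.a₃ * y = y ^ 2 + (W.a₁ * x + W.a₃) * y := by ring
    rw [e, v.map_add_eq_of_lt_left, map_pow]
    rw [map_mul, map_pow, sq]
    exact mul_lt_mul_of_pos_right
      (lt_of_le_of_lt (v.map_add_le (mulR hW.a₁ le_rfl) (hW.a₃.trans hx1)) hxy)
      (zero_lt_one.trans (hx.trans hxy))
  rw [← hL, h, hR]

/-- For a point with non-integral `x`: `v y < v x ^ 2`. -/
lemma val_y_lt_sq {W : WeierstrassCurve K} (hW : IntCoeff v W) {x y : K}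
    (h : W.toAffine.Equation x y) (hx : 1 < v x) : v y < v x ^ 2 := by
  by_contra hcon
  push Not at hcon
  have h1 : (v x ^ 2) ^ 2 ≤ v y ^ 2 := pow_le_pow_left' hcon 2
  rw [val_y_sq hW h hx, ← pow_mul] at h1
  exact absurd h1 (not_le.mpr (pow_lt_pow_right₀ hx (by norm_num)))

/-- The exact formula behind `add_coord_close` (x-coordinate). -/
lemma addX_sub_mul {W : WeierstrassCurve K} {x₁ y₁ x₂ y₂ : K}
    (h₂ : W.toAffine.Equation x₂ y₂) (hne : x₁ ≠ x₂) :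
    (W.toAffine.addX x₁ x₂ ((y₁ - y₂) / (x₁ - x₂)) - x₁) * (x₁ - x₂) ^ 2
      = (3 * x₁ ^ 2 + 2 * W.a₂ * x₁ + W.a₄ - W.a₁ * y₁) * x₂
        - (2 * y₁ + W.a₁ * x₁ + W.a₃) * y₂
        + (W.a₆ + y₁ ^ 2 + W.a₁ * x₁ * y₁ - W.a₂ * x₁ ^ 2 - 2 * x₁ ^ 3) := by
  have hd : x₁ - x₂ ≠ 0 := sub_ne_zero.mpr hne
  rw [Affine.equation_iff] at h₂
  simp only [Affine.addX]
  field_simp
  linear_combination h₂

/-- The exact formula behind `add_coord_close` (y-coordinate). -/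
lemma addY_sub_mul {W : WeierstrassCurve K} {x₁ y₁ x₂ y₂ : K}
    (h₂ : W.toAffine.Equation x₂ y₂) (hne : x₁ ≠ x₂) :
    (W.toAffine.addY x₁ x₂ y₁ ((y₁ - y₂) / (x₁ - x₂)) - y₁
        + W.a₁ * (W.toAffine.addX x₁ x₂ ((y₁ - y₂) / (x₁ - x₂)) - x₁)) * (x₁ - x₂) ^ 3
      = ((2 * y₁ + W.a₁ * x₁ + W.a₃) * W.a₁
            + (3 * x₁ ^ 2 + 2 * W.a₂ * x₁ + W.a₄ - W.a₁ * y₁)) * (x₂ * y₂)
        - (2 * y₁ + W.a₁ * x₁ + W.a₃) * (W.a₂ + 3 * x₁) * x₂ ^ 2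
        + ((2 * y₁ + W.a₁ * x₁ + W.a₃) * (W.a₃ + y₁)
            + (W.a₆ + y₁ ^ 2 + W.a₁ * x₁ * y₁ - W.a₂ * x₁ ^ 2 - 2 * x₁ ^ 3)) * y₂
        + ((2 * y₁ + W.a₁ * x₁ + W.a₃) * (3 * x₁ ^ 2 - W.a₄)
            - y₁ * (3 * x₁ ^ 2 + 2 * W.a₂ * x₁ + W.a₄ - W.a₁ * y₁)) * x₂
        - ((2 * y₁ + W.a₁ * x₁ + W.a₃) * (W.a₆ + x₁ ^ 3)
            + y₁ * (W.a₆ + y₁ ^ 2 + W.a₁ * x₁ * y₁ - W.a₂ * x₁ ^ 2 - 2 * x₁ ^ 3)) := by
  have hd : x₁ - x₂ ≠ 0 := sub_ne_zero.mpr hne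
  have hX := addX_sub_mul (y₁ := y₁) h₂ hne
  rw [Affine.equation_iff] at h₂
  simp only [Affine.addY, Affine.negAddY, Affine.negY]
  have hℓ : (y₁ - y₂) / (x₁ - x₂) * (x₁ - x₂) = y₁ - y₂ := div_mul_cancel₀ _ hd
  generalize (y₁ - y₂) / (x₁ - x₂) = ℓ at *
  generalize W.toAffine.addX x₁ x₂ ℓ = X at *
  linear_combination (-(x₁ - x₂)^2 * (X - x₁)) * hℓ + (y₂ - y₁) * hX
    - (2 * y₁ + W.a₁ * x₁ + W.a₃) * h₂

/-- Adding a point of the kernel of reduction to an integral affine point does not change the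
coordinates modulo the maximal ideal (valuation version). -/
theorem add_coord_close [DecidableEq K] {W : WeierstrassCurve K} (hW : IntCoeff v W)
    {x₁ y₁ x₂ y₂ : K}
    (h₁ : W.toAffine.Nonsingular x₁ y₁) (h₂ : W.toAffine.Nonsingular x₂ y₂)
    (hx₁ : v x₁ ≤ 1) (hx₂ : 1 < v x₂) :
    ∃ x₃ y₃, ∃ h₃ : W.toAffine.Nonsingular x₃ y₃,
      Affine.Point.some x₁ y₁ h₁ + Affine.Point.some x₂ y₂ h₂ = Affine.Point.some x₃ y₃ h₃ ∧
      v (x₃ - x₁) < 1 ∧ v (y₃ - y₁) < 1 := by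
  have hy₁ : v y₁ ≤ 1 := val_y_le_one hW h₁.1 hx₁
  have hxy₂ : v x₂ < v y₂ := val_x_lt_val_y hW h₂.1 hx₂
  have hy₂ : v y₂ < v x₂ ^ 2 := val_y_lt_sq hW h₂.1 hx₂
  have hne : x₁ ≠ x₂ := by rintro rfl; exact absurd hx₂ (not_lt.mpr hx₁)
  have hd0 : x₁ - x₂ ≠ 0 := sub_ne_zero.mpr hne
  have hd : v (x₁ - x₂) = v x₂ := by
    rw [Valuation.map_sub_swap]; exact v.map_sub_eq_of_lt_left (lt_of_le_of_lt hx₁ hx₂)
  have hpos : 0 < v x₂ := zero_lt_one.trans hx₂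
  have hx₂1 : (1 : Γ₀) ≤ v x₂ := hx₂.le
  have hy₂1 : (1 : Γ₀) ≤ v y₂ := (hx₂.trans hxy₂).le
  -- integrality of the auxiliary coefficients
  let X₁ : v.integer := ⟨x₁, hx₁⟩
  let Y₁ : v.integer := ⟨y₁, hy₁⟩
  let A₁ : v.integer := ⟨W.a₁, hW.a₁⟩
  let A₂ : v.integer := ⟨W.a₂, hW.a₂⟩
  let A₃ : v.integer := ⟨W.a₃, hW.a₃⟩
  let A₄ : v.integer := ⟨W.a₄, hW.a₄⟩
  let A₆ : v.integer := ⟨W.a₆, hW.a₆⟩
  have hg : v (3 * x₁ ^ 2 + 2 * W.a₂ * x₁ + W.a₄ - W.a₁ * y₁) ≤ 1 := by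
    have := (3 * X₁ ^ 2 + 2 * A₂ * X₁ + A₄ - A₁ * Y₁ : v.integer).2
    rw [Valuation.mem_integer_iff] at this
    push_cast at this
    exact this
  have hη : v (2 * y₁ + W.a₁ * x₁ + W.a₃) ≤ 1 := by
    have := (2 * Y₁ + A₁ * X₁ + A₃ : v.integer).2
    rw [Valuation.mem_integer_iff] at this
    push_cast at this
    exact this
  have hc : v (W.a₆ + y₁ ^ 2 + W.a₁ * x₁ * y₁ - W.a₂ * x₁ ^ 2 - 2 * x₁ ^ 3) ≤ 1 := by
    have := (A₆ + Y₁ ^ 2 + A₁ * X₁ * Y₁ - A₂ * X₁ ^ 2 - 2 * X₁ ^ 3 : v.integer).2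
    rw [Valuation.mem_integer_iff] at this
    push_cast at this
    exact this
  have hX := addX_sub_mul (y₁ := y₁) h₂.1 hne
  have hY := addY_sub_mul (y₁ := y₁) h₂.1 hne
  have hXv : v (W.toAffine.addX x₁ x₂ ((y₁ - y₂) / (x₁ - x₂)) - x₁) < 1 := by
    have h1 : v ((3 * x₁ ^ 2 + 2 * W.a₂ * x₁ + W.a₄ - W.a₁ * y₁) * x₂
        - (2 * y₁ + W.a₁ * x₁ + W.a₃) * y₂
        + (W.a₆ + y₁ ^ 2 + W.a₁ * x₁ * y₁ - W.a₂ * x₁ ^ 2 - 2 * x₁ ^ 3)) ≤ v y₂ := by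
      refine v.map_add_le (v.map_sub_le ?_ ?_) (hc.trans hy₂1)
      · exact mulR hg hxy₂.le
      · exact mulR hη le_rfl
    rw [← hX, map_mul, map_pow, hd] at h1
    by_contra hcon
    push Not at hcon
    have h2 : v x₂ ^ 2 ≤ v (W.toAffine.addX x₁ x₂ ((y₁ - y₂) / (x₁ - x₂)) - x₁) * v x₂ ^ 2 :=
      le_mul_of_one_le_left' hcon
    exact absurd (h2.trans h1) (not_le.mpr hy₂)
  refine ⟨_, _, _, Affine.Point.add_of_X_ne hne, ?_, ?_⟩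
  · rw [Affine.slope_of_X_ne hne]
    exact hXv
  · rw [Affine.slope_of_X_ne hne]
    have hC₁ : v ((2 * y₁ + W.a₁ * x₁ + W.a₃) * W.a₁
            + (3 * x₁ ^ 2 + 2 * W.a₂ * x₁ + W.a₄ - W.a₁ * y₁)) ≤ 1 := by
      have := ((2 * Y₁ + A₁ * X₁ + A₃) * A₁ + (3 * X₁ ^ 2 + 2 * A₂ * X₁ + A₄ - A₁ * Y₁) :
        v.integer).2
      rw [Valuation.mem_integer_iff] at this
      push_cast at this
      exact this
    have hC₂ : v ((2 * y₁ + W.a₁ * x₁ + W.a₃) * (W.a₂ + 3 * x₁)) ≤ 1 := by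
      have := ((2 * Y₁ + A₁ * X₁ + A₃) * (A₂ + 3 * X₁) : v.integer).2
      rw [Valuation.mem_integer_iff] at this
      push_cast at this
      exact this
    have hC₃ : v ((2 * y₁ + W.a₁ * x₁ + W.a₃) * (W.a₃ + y₁)
            + (W.a₆ + y₁ ^ 2 + W.a₁ * x₁ * y₁ - W.a₂ * x₁ ^ 2 - 2 * x₁ ^ 3)) ≤ 1 := by
      have := ((2 * Y₁ + A₁ * X₁ + A₃) * (A₃ + Y₁)
            + (A₆ + Y₁ ^ 2 + A₁ * X₁ * Y₁ - A₂ * X₁ ^ 2 - 2 * X₁ ^ 3) : v.integer).2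
      rw [Valuation.mem_integer_iff] at this
      push_cast at this
      exact this
    have hC₄ : v ((2 * y₁ + W.a₁ * x₁ + W.a₃) * (3 * x₁ ^ 2 - W.a₄)
            - y₁ * (3 * x₁ ^ 2 + 2 * W.a₂ * x₁ + W.a₄ - W.a₁ * y₁)) ≤ 1 := by
      have := ((2 * Y₁ + A₁ * X₁ + A₃) * (3 * X₁ ^ 2 - A₄)
            - Y₁ * (3 * X₁ ^ 2 + 2 * A₂ * X₁ + A₄ - A₁ * Y₁) : v.integer).2
      rw [Valuation.mem_integer_iff] at this
      push_cast at this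
      exact this
    have hC₅ : v ((2 * y₁ + W.a₁ * x₁ + W.a₃) * (W.a₆ + x₁ ^ 3)
            + y₁ * (W.a₆ + y₁ ^ 2 + W.a₁ * x₁ * y₁ - W.a₂ * x₁ ^ 2 - 2 * x₁ ^ 3)) ≤ 1 := by
      have := ((2 * Y₁ + A₁ * X₁ + A₃) * (A₆ + X₁ ^ 3)
            + Y₁ * (A₆ + Y₁ ^ 2 + A₁ * X₁ * Y₁ - A₂ * X₁ ^ 2 - 2 * X₁ ^ 3) : v.integer).2
      rw [Valuation.mem_integer_iff] at this
      push_cast at this
      exact this
    have hxy : (1 : Γ₀) ≤ v x₂ * v y₂ := one_le_mul_of_one_le_of_one_le hx₂1 hy₂1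
    have h1 : v (((2 * y₁ + W.a₁ * x₁ + W.a₃) * W.a₁
            + (3 * x₁ ^ 2 + 2 * W.a₂ * x₁ + W.a₄ - W.a₁ * y₁)) * (x₂ * y₂)
        - (2 * y₁ + W.a₁ * x₁ + W.a₃) * (W.a₂ + 3 * x₁) * x₂ ^ 2
        + ((2 * y₁ + W.a₁ * x₁ + W.a₃) * (W.a₃ + y₁)
            + (W.a₆ + y₁ ^ 2 + W.a₁ * x₁ * y₁ - W.a₂ * x₁ ^ 2 - 2 * x₁ ^ 3)) * y₂
        + ((2 * y₁ + W.a₁ * x₁ + W.a₃) * (3 * x₁ ^ 2 - W.a₄)
            - y₁ * (3 * x₁ ^ 2 + 2 * W.a₂ * x₁ + W.a₄ - W.a₁ * y₁)) * x₂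
        - ((2 * y₁ + W.a₁ * x₁ + W.a₃) * (W.a₆ + x₁ ^ 3)
            + y₁ * (W.a₆ + y₁ ^ 2 + W.a₁ * x₁ * y₁ - W.a₂ * x₁ ^ 2 - 2 * x₁ ^ 3)))
        ≤ v x₂ * v y₂ := by
      refine v.map_sub_le (v.map_add_le (v.map_add_le (v.map_sub_le ?_ ?_) ?_) ?_)
        (hC₅.trans hxy)
      · exact mulR hC₁ (by rw [map_mul])
      · refine mulR hC₂ ?_
        rw [map_pow, sq]
        exact mul_le_mul' le_rfl hxy₂.le
      · exact mulR hC₃ (le_mul_of_one_le_left' hx₂1)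
      · exact mulR hC₄ (le_mul_of_one_le_right' hy₂1)
    rw [← hY, map_mul, map_pow, hd] at h1
    have hlt : v (W.toAffine.addY x₁ x₂ y₁ ((y₁ - y₂) / (x₁ - x₂)) - y₁
        + W.a₁ * (W.toAffine.addX x₁ x₂ ((y₁ - y₂) / (x₁ - x₂)) - x₁)) < 1 := by
      by_contra hcon
      push Not at hcon
      have h2 : v x₂ ^ 3 ≤ v (W.toAffine.addY x₁ x₂ y₁ ((y₁ - y₂) / (x₁ - x₂)) - y₁
          + W.a₁ * (W.toAffine.addX x₁ x₂ ((y₁ - y₂) / (x₁ - x₂)) - x₁)) * v x₂ ^ 3 :=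
        le_mul_of_one_le_left' hcon
      have h3 : v x₂ * v y₂ < v x₂ ^ 3 := by
        have : v x₂ ^ 3 = v x₂ * v x₂ ^ 2 := pow_succ' _ 2
        rw [this]
        exact mul_lt_mul_of_pos_left hy₂ hpos
      exact absurd (h2.trans h1) (not_le.mpr h3)
    have e : W.toAffine.addY x₁ x₂ y₁ ((y₁ - y₂) / (x₁ - x₂)) - y₁
        = (W.toAffine.addY x₁ x₂ y₁ ((y₁ - y₂) / (x₁ - x₂)) - y₁
          + W.a₁ * (W.toAffine.addX x₁ x₂ ((y₁ - y₂) / (x₁ - x₂)) - x₁))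
          - W.a₁ * (W.toAffine.addX x₁ x₂ ((y₁ - y₂) / (x₁ - x₂)) - x₁) := by ring
    rw [e]
    exact v.map_sub_lt hlt (lt_of_le_of_lt (mulR hW.a₁ le_rfl) hXv)

end Val

section Subring

variable {K : Type*} [Field K]

/-- The `y`-coordinate of a point (`0` at infinity). -/
def yco {W : WeierstrassCurve K} : W.toAffine.Point → K
  | .zero => 0
  | .some _ y _ => y

@[simp] theorem yco_zero {W : WeierstrassCurve K} : yco (0 : W.toAffine.Point) = 0 := rfl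

@[simp] theorem yco_some {W : WeierstrassCurve K} {x y : K} (h : W.toAffine.Nonsingular x y) :
    yco (Affine.Point.some x y h) = y := rfl

/-- A point is outside the kernel of reduction iff it is affine with integral `x`. -/
theorem not_inE1_iff (A : ValuationSubring K) {W : WeierstrassCurve K} (P : W.toAffine.Point) :
    ¬ InE1 A P ↔ P ≠ 0 ∧ PB.xco P ∈ A := by
  rcases P with _ | ⟨x, y, h⟩
  · constructor
    · intro h; exact absurd trivial h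
    · rintro ⟨h, -⟩; exact absurd rfl h
  · constructor
    · intro hx
      exact ⟨Affine.Point.some_ne_zero h, not_not.mp hx⟩
    · rintro ⟨-, hx⟩
      exact not_not.mpr hx

/-- An integral affine point has integral `y`-coordinate. -/
theorem yco_mem_of_not_inE1 (A : ValuationSubring K) (W : WeierstrassCurve K)
    (h₁ : W.a₁ ∈ A) (h₂ : W.a₂ ∈ A) (h₃ : W.a₃ ∈ A) (h₄ : W.a₄ ∈ A) (h₆ : W.a₆ ∈ A)
    {P : W.toAffine.Point} (hP : ¬ InE1 A P) : yco P ∈ A := by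
  have hW := intCoeff_of_mem A W h₁ h₂ h₃ h₄ h₆
  rcases P with _ | ⟨x, y, h⟩
  · exact A.zero_mem
  · have hx : x ∈ A := not_not.mp hP
    exact (A.valuation_le_one_iff _).mp
      (val_y_le_one hW h.1 ((A.valuation_le_one_iff _).mpr hx))

variable [DecidableEq K]

/-- **AddE1Close**: adding a point `R` of the kernel of reduction to an integral affine point `Q`
gives an integral affine point with the same coordinates modulo the maximal ideal. -/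
theorem add_inE1_close (A : ValuationSubring K) (W : WeierstrassCurve K)
    (h₁ : W.a₁ ∈ A) (h₂ : W.a₂ ∈ A) (h₃ : W.a₃ ∈ A) (h₄ : W.a₄ ∈ A) (h₆ : W.a₆ ∈ A)
    {Q R : W.toAffine.Point} (hQ : ¬ InE1 A Q) (hR : InE1 A R) :
    ¬ InE1 A (Q + R) ∧ PB.xco (Q + R) - PB.xco Q ∈ A.nonunits ∧
      yco (Q + R) - yco Q ∈ A.nonunits := by
  have hW := intCoeff_of_mem A W h₁ h₂ h₃ h₄ h₆
  rcases R with _ | ⟨x₂, y₂, hR₂⟩
  · change ¬ InE1 A (Q + 0) ∧ PB.xco (Q + 0) - PB.xco Q ∈ A.nonunits ∧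
      yco (Q + 0) - yco Q ∈ A.nonunits
    rw [add_zero, sub_self, sub_self]
    exact ⟨hQ, A.nonunits.zero_mem, A.nonunits.zero_mem⟩
  rcases Q with _ | ⟨x₁, y₁, hQ₁⟩
  · exact absurd trivial hQ
  have hx₁ : x₁ ∈ A := not_not.mp hQ
  have hx₂ : x₂ ∉ A := hR
  obtain ⟨x₃, y₃, h₃', e, hx, hy⟩ := add_coord_close hW hQ₁ hR₂
    ((A.valuation_le_one_iff _).mpr hx₁) (by rwa [← not_le, A.valuation_le_one_iff])
  rw [e]
  have hx' : x₃ - x₁ ∈ A.nonunits := (ValuationSubring.mem_nonunits_iff A).mpr hx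
  have hy' : y₃ - y₁ ∈ A.nonunits := (ValuationSubring.mem_nonunits_iff A).mpr hy
  refine ⟨?_, hx', hy'⟩
  change ¬ (x₃ ∉ A)
  rw [not_not]
  have : x₃ = (x₃ - x₁) + x₁ := by ring
  rw [this]
  exact add_mem (A.nonunits_subset hx') hx₁

/-- `add_inE1_close` with the summands swapped. -/
theorem inE1_add_close (A : ValuationSubring K) (W : WeierstrassCurve K)
    (h₁ : W.a₁ ∈ A) (h₂ : W.a₂ ∈ A) (h₃ : W.a₃ ∈ A) (h₄ : W.a₄ ∈ A) (h₆ : W.a₆ ∈ A)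
    {Q R : W.toAffine.Point} (hQ : ¬ InE1 A Q) (hR : InE1 A R) :
    ¬ InE1 A (R + Q) ∧ PB.xco (R + Q) - PB.xco Q ∈ A.nonunits ∧
      yco (R + Q) - yco Q ∈ A.nonunits := by
  rw [add_comm]
  exact add_inE1_close A W h₁ h₂ h₃ h₄ h₆ hQ hR

/-- `add_inE1_close` for a difference. -/
theorem sub_inE1_close (A : ValuationSubring K) (W : WeierstrassCurve K)
    (h₁ : W.a₁ ∈ A) (h₂ : W.a₂ ∈ A) (h₃ : W.a₃ ∈ A) (h₄ : W.a₄ ∈ A) (h₆ : W.a₆ ∈ A)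
    {Q R : W.toAffine.Point} (hQ : ¬ InE1 A Q) (hR : InE1 A R) :
    ¬ InE1 A (Q - R) ∧ PB.xco (Q - R) - PB.xco Q ∈ A.nonunits ∧
      yco (Q - R) - yco Q ∈ A.nonunits := by
  rw [sub_eq_add_neg]
  exact add_inE1_close A W h₁ h₂ h₃ h₄ h₆ hQ (inE1_neg A hR)

/-- Two points which differ by an element of the kernel of reduction are simultaneously in the
kernel of reduction. -/
theorem inE1_iff_of_sub_inE1 (A : ValuationSubring K) (W : WeierstrassCurve K)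
    (h₁ : W.a₁ ∈ A) (h₂ : W.a₂ ∈ A) (h₃ : W.a₃ ∈ A) (h₄ : W.a₄ ∈ A) (h₆ : W.a₆ ∈ A)
    {P Q : W.toAffine.Point} (hPQ : InE1 A (P - Q)) : InE1 A P ↔ InE1 A Q := by
  constructor
  · intro hP
    have : Q = P - (P - Q) := by abel
    rw [this]
    exact inE1_sub A W h₁ h₂ h₃ h₄ h₆ hP hPQ
  · intro hQ
    have : P = (P - Q) + Q := by abel
    rw [this]
    exact inE1_add A W h₁ h₂ h₃ h₄ h₆ hPQ hQ

/-- If `P - Q` lies in the kernel of reduction and `Q` is an integral affine point, then `P` is an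
integral affine point with the same coordinates as `Q` modulo the maximal ideal. -/
theorem close_of_sub_inE1 (A : ValuationSubring K) (W : WeierstrassCurve K)
    (h₁ : W.a₁ ∈ A) (h₂ : W.a₂ ∈ A) (h₃ : W.a₃ ∈ A) (h₄ : W.a₄ ∈ A) (h₆ : W.a₆ ∈ A)
    {P Q : W.toAffine.Point} (hQ : ¬ InE1 A Q) (hPQ : InE1 A (P - Q)) :
    ¬ InE1 A P ∧ PB.xco P - PB.xco Q ∈ A.nonunits ∧ yco P - yco Q ∈ A.nonunits := by
  have := add_inE1_close A W h₁ h₂ h₃ h₄ h₆ hQ hPQ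
  have e : Q + (P - Q) = P := by abel
  rwa [e] at this

/-- Short-curve version of `close_of_sub_inE1` (`x`-coordinate only). -/
theorem xco_sub_mem_short (A : ValuationSubring K) (α β : K) (hα : α ∈ A) (hβ : β ∈ A)
    {P Q : (shortCurve α β).toAffine.Point} (hQ0 : Q ≠ 0) (hQ : PB.xco Q ∈ A)
    (hPQ : InE1 A (P - Q)) :
    P ≠ 0 ∧ PB.xco P ∈ A ∧ PB.xco P - PB.xco Q ∈ A.nonunits := by
  have hQ' : ¬ InE1 A Q := (not_inE1_iff A Q).mpr ⟨hQ0, hQ⟩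
  obtain ⟨hP, hx, -⟩ := close_of_sub_inE1 A (shortCurve α β) A.zero_mem hα A.zero_mem hβ
    A.zero_mem hQ' hPQ
  obtain ⟨hP0, hPx⟩ := (not_inE1_iff A P).mp hP
  exact ⟨hP0, hPx, hx⟩

end Subring

end Fermat.Agent.S13.AddE1Close
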