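/-
S13 team, block [M], leaf lemma (owner: helper78).

`DiffNode.val_xco_sub`: on the short curve `y² = x³ + a x² + b x` with integral coefficients, if
two affine points `P = (x, y)`, `T = (x_T, y_T)` have `x ≡ x_T` modulo the maximal ideal, `x ≠ x_T`
and `y + y_T` is a unit, then `|x(P - T)| · |x - x_T|² = 1`.
(With `E1Val.val_xco_nsmul`: `|x(k • (P - T))| = |x - x_T|⁻²` for every unit integer `k`.)
-/
import Fermat.Agent.S05.FormalGroup
import Fermat.Agent.S05.PB_Formulas
import Fermat.Agent.S13.E1Val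

set_option autoImplicit false

namespace Fermat.Agent.S13.DiffNode

open WeierstrassCurve Fermat.Agent.S05

variable {K : Type*} [Field K] [DecidableEq K]

/-- Explicit form: the difference is an affine point whose `x`-coordinate `x₃` satisfies
`|x₃| · |x - x_T|² = 1`; in particular `x₃ ∉ B`. -/
theorem sub_eq_some (B : ValuationSubring K) {a b : K} (ha : a ∈ B)
    {x y xT yT : K} (h : (shortCurve a b).toAffine.Nonsingular x y)
    (hT : (shortCurve a b).toAffine.Nonsingular xT yT) (hxT : xT ∈ B)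
    (hx : x - xT ∈ B.nonunits) (hne : x ≠ xT) (hy : B.valuation (y + yT) = 1) :
    ∃ x₃ y₃, ∃ h₃ : (shortCurve a b).toAffine.Nonsingular x₃ y₃,
      Affine.Point.some x y h - Affine.Point.some xT yT hT = Affine.Point.some x₃ y₃ h₃ ∧
      B.valuation x₃ * B.valuation (x - xT) ^ 2 = 1 ∧ x₃ ∉ B := by
  obtain ⟨x₃, y₃, h₃, e, hx₃⟩ := PB.sub_x a b h hT hne
  refine ⟨x₃, y₃, h₃, e, ?_⟩
  have hx' : B.valuation (x - xT) < 1 := B.mem_nonunits_iff.mp hx
  have hxB : x ∈ B := by
    have : x = (x - xT) + xT := by ring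
    rw [this]
    exact B.add_mem _ _ (B.nonunits_le hx) hxT
  have hs : B.valuation (a + x + xT) ≤ 1 :=
    (B.valuation_le_one_iff _).mpr (B.add_mem _ _ (B.add_mem _ _ ha hxB) hxT)
  have hsq : B.valuation (x - xT) ^ 2 < 1 := by
    rw [sq]
    calc B.valuation (x - xT) * B.valuation (x - xT) ≤ 1 * B.valuation (x - xT) :=
          mul_le_mul' hx'.le le_rfl
      _ = B.valuation (x - xT) := one_mul _
      _ < 1 := hx'
  have h2 : B.valuation ((a + x + xT) * (x - xT) ^ 2) < 1 := by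
    rw [map_mul, map_pow]
    calc B.valuation (a + x + xT) * B.valuation (x - xT) ^ 2
        ≤ 1 * B.valuation (x - xT) ^ 2 := mul_le_mul' hs le_rfl
      _ = B.valuation (x - xT) ^ 2 := one_mul _
      _ < 1 := hsq
  have h1 : B.valuation ((y + yT) ^ 2) = 1 := by rw [map_pow, hy, one_pow]
  have h3 : B.valuation ((y + yT) ^ 2 - (a + x + xT) * (x - xT) ^ 2) = 1 := by
    rw [Valuation.map_sub_eq_of_lt_left _ (by rw [h1]; exact h2), h1]
  have hmain : B.valuation x₃ * B.valuation (x - xT) ^ 2 = 1 := by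
    rw [← map_pow, ← map_mul, hx₃, h3]
  refine ⟨hmain, ?_⟩
  intro hx₃B
  have hle : B.valuation x₃ ≤ 1 := (B.valuation_le_one_iff _).mpr hx₃B
  have : B.valuation x₃ * B.valuation (x - xT) ^ 2 < 1 :=
    calc B.valuation x₃ * B.valuation (x - xT) ^ 2
        ≤ 1 * B.valuation (x - xT) ^ 2 := mul_le_mul' hle le_rfl
      _ = B.valuation (x - xT) ^ 2 := one_mul _
      _ < 1 := hsq
  rw [hmain] at this
  exact lt_irrefl _ this

set_option linter.unusedVariables false in
/-- **DiffNode**: `|x(P - T)| = |x_P - x_T|⁻²` when `x_P ≡ x_T`, `x_P ≠ x_T`, `y_P + y_T` a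
unit. -/
theorem val_xco_sub (B : ValuationSubring K) {a b : K} (ha : a ∈ B) (hb : b ∈ B)
    {x y xT yT : K} (h : (shortCurve a b).toAffine.Nonsingular x y)
    (hT : (shortCurve a b).toAffine.Nonsingular xT yT) (hxT : xT ∈ B) (hyT : yT ∈ B)
    (hx : x - xT ∈ B.nonunits) (hne : x ≠ xT) (hy : B.valuation (y + yT) = 1) :
    B.valuation (PB.xco (Affine.Point.some x y h - Affine.Point.some xT yT hT))
      * B.valuation (x - xT) ^ 2 = 1 := by
  obtain ⟨x₃, y₃, h₃, e, hv, -⟩ := sub_eq_some B ha h hT hxT hx hne hy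
  rw [e, PB.xco_some]
  exact hv

set_option linter.unusedVariables false in
/-- Companion: under the hypotheses of `val_xco_sub`, `P - T` is a nonzero point of `E1(B)`. -/
theorem sub_inE1 (B : ValuationSubring K) {a b : K} (ha : a ∈ B) (hb : b ∈ B)
    {x y xT yT : K} (h : (shortCurve a b).toAffine.Nonsingular x y)
    (hT : (shortCurve a b).toAffine.Nonsingular xT yT) (hxT : xT ∈ B) (hyT : yT ∈ B)
    (hx : x - xT ∈ B.nonunits) (hne : x ≠ xT) (hy : B.valuation (y + yT) = 1) :
    Affine.Point.some x y h - Affine.Point.some xT yT hT ≠ 0 ∧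
      InE1 B (Affine.Point.some x y h - Affine.Point.some xT yT hT) := by
  obtain ⟨x₃, y₃, h₃, e, -, hx₃⟩ := sub_eq_some B ha h hT hxT hx hne hy
  rw [e]
  exact ⟨Affine.Point.some_ne_zero _, hx₃⟩

/-- Combination with `E1Val`: for a unit integer `k`, `|x(k • (P - T))| · |x_P - x_T|² = 1`
(and `k • (P - T)` is a nonzero point of `E1(B)`). -/
theorem val_xco_nsmul_sub (B : ValuationSubring K) {a b : K} (ha : a ∈ B) (hb : b ∈ B) {k : ℕ}
    (hk : B.valuation (k : K) = 1)
    {x y xT yT : K} (h : (shortCurve a b).toAffine.Nonsingular x y)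
    (hT : (shortCurve a b).toAffine.Nonsingular xT yT) (hxT : xT ∈ B) (hyT : yT ∈ B)
    (hx : x - xT ∈ B.nonunits) (hne : x ≠ xT) (hy : B.valuation (y + yT) = 1) :
    k • (Affine.Point.some x y h - Affine.Point.some xT yT hT) ≠ 0 ∧
      InE1 B (k • (Affine.Point.some x y h - Affine.Point.some xT yT hT)) ∧
      B.valuation (PB.xco (k • (Affine.Point.some x y h - Affine.Point.some xT yT hT)))
        * B.valuation (x - xT) ^ 2 = 1 := by
  obtain ⟨h0, hE⟩ := sub_inE1 B ha hb h hT hxT hyT hx hne hy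
  obtain ⟨c1, c2, c3⟩ := E1Val.val_xco_nsmul B ha hb hk h0 hE
  refine ⟨c2, c1, ?_⟩
  rw [c3]
  exact val_xco_sub B ha hb h hT hxT hyT hx hne hy

end Fermat.Agent.S13.DiffNode
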