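/-
S13 team, block [M], leaf lemma (hedge; owner of this file: helper65).
`DiffNodeB.val_xco_sub`: on the short curve `y² = x³ + a x² + b x` with `a, b ∈ B`, if
`x ≡ x_T` modulo the maximal ideal of `B`, `x ≠ x_T` and `y + y_T` is a unit, then
`|x(P - T)| · |x - x_T|² = 1`.
-/
import Fermat.Agent.S05.PB_Formulas

set_option autoImplicit false

namespace Fermat.Agent.S13.DiffNodeB

open WeierstrassCurve Fermat.Agent.S05

variable {K : Type*} [Field K] [DecidableEq K]

/-- DiffNode: `|x(P - T)| = |x_P - x_T|⁻²` when `x_P ≡ x_T`, `x_P ≠ x_T`, `y_P + y_T` a unit. -/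
theorem val_xco_sub (B : ValuationSubring K) {a b : K} (ha : a ∈ B) (_hb : b ∈ B)
    {x y xT yT : K} (h : (shortCurve a b).toAffine.Nonsingular x y)
    (hT : (shortCurve a b).toAffine.Nonsingular xT yT) (hxT : xT ∈ B) (_hyT : yT ∈ B)
    (hx : x - xT ∈ B.nonunits) (hne : x ≠ xT) (hy : B.valuation (y + yT) = 1) :
    B.valuation (PB.xco (Affine.Point.some x y h - Affine.Point.some xT yT hT))
      * B.valuation (x - xT) ^ 2 = 1 := by
  obtain ⟨x₃, y₃, h₃, e, hx₃⟩ := PB.sub_x a b h hT hne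
  rw [e, PB.xco_some, ← map_pow, ← map_mul, hx₃]
  have hd : B.valuation (x - xT) < 1 := B.mem_nonunits_iff.mp hx
  have hxB : x ∈ B := by
    have e' : x = (x - xT) + xT := by ring
    rw [e']
    exact B.add_mem _ _ (B.nonunits_subset hx) hxT
  have hs : B.valuation (a + x + xT) ≤ 1 :=
    (B.valuation_le_one_iff _).mpr (B.add_mem _ _ (B.add_mem _ _ ha hxB) hxT)
  have hd2 : B.valuation (x - xT) ^ 2 < 1 := pow_lt_one₀ zero_le hd (by norm_num)
  have h1 : B.valuation ((a + x + xT) * (x - xT) ^ 2) < B.valuation ((y + yT) ^ 2) := by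
    rw [map_pow, hy, one_pow, map_mul, map_pow]
    exact lt_of_le_of_lt (mul_le_of_le_one_left' hs) hd2
  rw [Valuation.map_sub_eq_of_lt_left _ h1, map_pow, hy, one_pow]

end Fermat.Agent.S13.DiffNodeB
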