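/-
S13 team, block [M], leaf lemmas on the kernel of reduction (owner: helper78).

Setting of `S05/FormalGroup`: a field `K` with a valuation `v`, a Weierstrass curve `W` with
`v`-integral coefficients, `z = -x/y` the local parameter at infinity (`zOf`), `xco` the
`x`-coordinate.  For a nonzero point `P` of the kernel of reduction (`1 < v x`):

* `E1Val.val_xco_mul_sq_sub_one` : `v (x z² - 1) ≤ v z`      (so `x = z⁻² (1 + O(z))`);
* `E1Val.val_xco_mul_sq`         : `v x * (v z)² = 1`;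
* for `k` a `v`-unit integer (`E1Val.nsmul_facts`):
  `k • P` is again a nonzero point of the kernel of reduction, `v (z (k • P)) = v (z P)`,
  `v (x (k • P)) = v (x P)`, and
  `v (k² x(k • P) - x(P)) ≤ v (x P) * v (z P) < v (x P)`   (i.e. `k² x(kP)/x(P) ∈ 1 + 𝔪`).
-/
import Fermat.Agent.S05.FormalGroup
import Fermat.Agent.S05.PB_Formulas

set_option autoImplicit false

namespace Fermat.Agent.S13.E1Val

open WeierstrassCurve Fermat.Agent.S05 Fermat.Agent.S05.FormalGroup Fermat.Agent.S05.PB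

variable {K : Type*} [Field K] {Γ₀ : Type*} [LinearOrderedCommGroupWithZero Γ₀]
  {v : Valuation K Γ₀}

/-- Coordinates: `x z² = 1 + O(z)` for an affine point with `1 < v x`, where `z = -x/y`. -/
theorem val_x_mul_sq_sub_one {W : WeierstrassCurve K} (hW : IntCoeff v W) {x y : K}
    (h : W.toAffine.Equation x y) (hx : 1 < v x) :
    v (x * (-x / y) ^ 2 - 1) ≤ v (-x / y) := by
  obtain ⟨hx0, hy0, hz1, hw1, hz0⟩ := chart_of_point hW h hx
  have hwz : v (-1 / y) ≤ v (-x / y) := by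
    have e : -x / y = x * (-1 / y) := by ring
    rw [e, map_mul]
    calc v (-1 / y) = 1 * v (-1 / y) := (one_mul _).symm
      _ ≤ v x * v (-1 / y) := mul_le_mul' hx.le le_rfl
  have e : x * (-x / y) ^ 2 - 1 = -(W.a₁ * (-x / y) + W.a₂ * (-x / y) ^ 2 + W.a₃ * (-1 / y)
      + W.a₄ * (-x / y) * (-1 / y) + W.a₆ * (-1 / y) ^ 2) := by
    rw [Affine.equation_iff] at h
    field_simp
    linear_combination -h
  rw [e, v.map_neg]
  have hz1' : v (-x / y) ≤ 1 := hz1.le
  have hw1' : v (-1 / y) ≤ 1 := hw1.le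
  refine v.map_add_le (v.map_add_le (v.map_add_le (v.map_add_le ?_ ?_) ?_) ?_) ?_
  · exact mulR hW.a₁ le_rfl
  · refine mulR hW.a₂ ?_
    rw [map_pow, sq]
    calc v (-x / y) * v (-x / y) ≤ 1 * v (-x / y) := mul_le_mul' hz1' le_rfl
      _ = v (-x / y) := one_mul _
  · exact mulR hW.a₃ hwz
  · rw [mul_assoc]
    refine mulR hW.a₄ ?_
    rw [map_mul]
    calc v (-x / y) * v (-1 / y) ≤ v (-x / y) * 1 := mul_le_mul' le_rfl hw1'
      _ = v (-x / y) := mul_one _
  · refine mulR hW.a₆ ?_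
    rw [map_pow, sq]
    calc v (-1 / y) * v (-1 / y) ≤ 1 * v (-x / y) := mul_le_mul' hw1' hwz
      _ = v (-x / y) := one_mul _

/-- Coordinates: `v x * (v z)² = 1` for an affine point with `1 < v x`, where `z = -x/y`. -/
theorem val_x_mul_sq {W : WeierstrassCurve K} (hW : IntCoeff v W) {x y : K}
    (h : W.toAffine.Equation x y) (hx : 1 < v x) : v x * v (-x / y) ^ 2 = 1 := by
  obtain ⟨-, -, hz1, -, -⟩ := chart_of_point hW h hx
  have h1 := lt_of_le_of_lt (val_x_mul_sq_sub_one hW h hx) hz1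
  have e : x * (-x / y) ^ 2 = 1 + (x * (-x / y) ^ 2 - 1) := by ring
  have h2 := v.map_one_add_of_lt h1
  rw [← e, map_mul, map_pow] at h2
  exact h2

/-- `x z² = 1 + O(z)` for a nonzero point of the kernel of reduction. -/
theorem val_xco_mul_sq_sub_one {W : WeierstrassCurve K} (hW : IntCoeff v W)
    (P : W.toAffine.Point) (hP : InE1v v P) (hP0 : P ≠ 0) :
    v (xco P * zOf P ^ 2 - 1) ≤ v (zOf P) := by
  rcases P with _ | ⟨x, y, h⟩
  · exact absurd rfl hP0
  · exact val_x_mul_sq_sub_one hW h.1 hP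

/-- `v x * (v z)² = 1` for a nonzero point of the kernel of reduction. -/
theorem val_xco_mul_sq {W : WeierstrassCurve K} (hW : IntCoeff v W)
    (P : W.toAffine.Point) (hP : InE1v v P) (hP0 : P ≠ 0) :
    v (xco P) * v (zOf P) ^ 2 = 1 := by
  rcases P with _ | ⟨x, y, h⟩
  · exact absurd rfl hP0
  · exact val_x_mul_sq hW h.1 hP

/-- The local parameter of a nonzero point of the kernel of reduction is nonzero and small. -/
theorem val_zOf_pos {W : WeierstrassCurve K} (hW : IntCoeff v W)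
    (P : W.toAffine.Point) (hP : InE1v v P) (hP0 : P ≠ 0) :
    0 < v (zOf P) ∧ v (zOf P) < 1 := by
  rcases P with _ | ⟨x, y, h⟩
  · exact absurd rfl hP0
  · obtain ⟨-, -, hz1, -, hz0⟩ := chart_of_point hW h.1 hP
    exact ⟨zero_lt_iff.mpr hz0, hz1⟩

variable [DecidableEq K]

/-- Multiples by a unit integer of a nonzero point of the kernel of reduction. -/
theorem nsmul_facts {W : WeierstrassCurve K} (hW : IntCoeff v W)
    (P : W.toAffine.Point) (hP : InE1v v P) (hP0 : P ≠ 0) {k : ℕ} (hk : v (k : K) = 1) :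
    InE1v v (k • P) ∧ k • P ≠ 0 ∧ v (zOf (k • P)) = v (zOf P) ∧
      v (xco (k • P)) = v (xco P) ∧
      v ((k : K) ^ 2 * xco (k • P) - xco P) ≤ v (xco P) * v (zOf P) ∧
      v ((k : K) ^ 2 * xco (k • P) - xco P) < v (xco P) := by
  obtain ⟨hz0, hz1⟩ := val_zOf_pos hW P hP hP0
  obtain ⟨hkP, hzk⟩ := nsmul_pt hW P hP k
  have hkP0 : k • P ≠ 0 := by
    rcases P with _ | ⟨x, y, h⟩
    · exact absurd rfl hP0
    · exact F1_val hW hk h hP
  -- `v (z (k • P)) = v (z P)`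
  have hsq : v (zOf P) ^ 2 < v (zOf P) := by
    rw [sq]
    calc v (zOf P) * v (zOf P) < 1 * v (zOf P) := mul_lt_mul_of_pos_right hz1 hz0
      _ = v (zOf P) := one_mul _
  have hkz : v ((k : K) * zOf P) = v (zOf P) := by rw [map_mul, hk, one_mul]
  have hzeq : v (zOf (k • P)) = v (zOf P) := by
    rw [← hkz]
    apply Valuation.map_eq_of_sub_lt
    rw [hkz]
    exact lt_of_le_of_lt hzk hsq
  -- `v (x (k • P)) = v (x P)`
  have hX := val_xco_mul_sq hW P hP hP0
  have hX' := val_xco_mul_sq hW (k • P) hkP hkP0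
  rw [hzeq] at hX'
  have hz2 : v (zOf P) ^ 2 ≠ 0 := pow_ne_zero 2 (ne_of_gt hz0)
  have hxeq : v (xco (k • P)) = v (xco P) := mul_right_cancel₀ hz2 (hX'.trans hX.symm)
  -- the refined estimate
  have he := val_xco_mul_sq_sub_one hW P hP hP0
  have he' := val_xco_mul_sq_sub_one hW (k • P) hkP hkP0
  rw [hzeq] at he'
  have hmain : v ((k : K) ^ 2 * xco (k • P) - xco P) ≤ v (xco P) * v (zOf P) := by
    -- multiply by `z'² z²`
    have key : ((k : K) ^ 2 * xco (k • P) - xco P) * (zOf (k • P) ^ 2 * zOf P ^ 2)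
        = (k * zOf P - zOf (k • P)) * (k * zOf P + zOf (k • P))
          + (k : K) ^ 2 * zOf P ^ 2 * (xco (k • P) * zOf (k • P) ^ 2 - 1)
          - zOf (k • P) ^ 2 * (xco P * zOf P ^ 2 - 1) := by ring
    have hkv : v ((k : K)) ≤ 1 := hk.le
    have b1 : v ((k * zOf P - zOf (k • P)) * (k * zOf P + zOf (k • P))) ≤ v (zOf P) ^ 3 := by
      rw [map_mul, pow_succ]
      refine mul_le_mul' ?_ ?_
      · rw [Valuation.map_sub_swap]
        exact hzk
      · exact v.map_add_le hkz.le hzeq.le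
    have b2 : v ((k : K) ^ 2 * zOf P ^ 2 * (xco (k • P) * zOf (k • P) ^ 2 - 1))
        ≤ v (zOf P) ^ 3 := by
      rw [map_mul, map_mul, map_pow, map_pow, hk, one_pow, one_mul]
      calc v (zOf P) ^ 2 * v (xco (k • P) * zOf (k • P) ^ 2 - 1)
          ≤ v (zOf P) ^ 2 * v (zOf P) := mul_le_mul' le_rfl he'
        _ = v (zOf P) ^ 3 := (pow_succ _ 2).symm
    have b3 : v (zOf (k • P) ^ 2 * (xco P * zOf P ^ 2 - 1)) ≤ v (zOf P) ^ 3 := by
      rw [map_mul, map_pow, hzeq]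
      calc v (zOf P) ^ 2 * v (xco P * zOf P ^ 2 - 1)
          ≤ v (zOf P) ^ 2 * v (zOf P) := mul_le_mul' le_rfl he
        _ = v (zOf P) ^ 3 := (pow_succ _ 2).symm
    have hle : v (((k : K) ^ 2 * xco (k • P) - xco P) * (zOf (k • P) ^ 2 * zOf P ^ 2))
        ≤ v (zOf P) ^ 3 := by
      rw [key]
      exact v.map_sub_le (v.map_add_le b1 b2) b3
    rw [map_mul, map_mul, map_pow, map_pow, hzeq] at hle
    have h4 : v (zOf P) ^ 2 * v (zOf P) ^ 2 ≠ 0 := mul_ne_zero hz2 hz2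
    have h4' : 0 < v (zOf P) ^ 2 * v (zOf P) ^ 2 := zero_lt_iff.mpr h4
    have e3 : v (zOf P) ^ 3 = v (xco P) * v (zOf P) * (v (zOf P) ^ 2 * v (zOf P) ^ 2) := by
      calc v (zOf P) ^ 3 = 1 * v (zOf P) ^ 3 := (one_mul _).symm
        _ = v (xco P) * v (zOf P) ^ 2 * v (zOf P) ^ 3 := by rw [hX]
        _ = v (xco P) * v (zOf P) * (v (zOf P) ^ 2 * v (zOf P) ^ 2) := by
          rw [mul_assoc, mul_assoc, ← pow_add, ← pow_add, ← pow_succ']
    rw [e3] at hle
    exact le_of_mul_le_mul_right hle h4'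
  refine ⟨hkP, hkP0, hzeq, hxeq, hmain, lt_of_le_of_lt hmain ?_⟩
  have hxpos : 0 < v (xco P) := by
    rw [zero_lt_iff]
    intro h0
    rw [h0, zero_mul] at hX
    exact zero_ne_one hX
  calc v (xco P) * v (zOf P) < v (xco P) * 1 := mul_lt_mul_of_pos_left hz1 hxpos
    _ = v (xco P) := mul_one _

/-! ### Valuation-subring versions -/

section Subring

variable {K : Type*} [Field K]

/-- `|x| · |z|² = 1` on `E1(B)`, general Weierstrass curve with integral coefficients. -/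
theorem val_xco_mul_val_zOf_sq_gen (B : ValuationSubring K) (W : WeierstrassCurve K)
    (h₁ : W.a₁ ∈ B) (h₂ : W.a₂ ∈ B) (h₃ : W.a₃ ∈ B) (h₄ : W.a₄ ∈ B) (h₆ : W.a₆ ∈ B)
    {T : W.toAffine.Point} (hT : T ≠ 0) (hE : InE1 B T) :
    B.valuation (xco T) * B.valuation (zOf T) ^ 2 = 1 :=
  val_xco_mul_sq (intCoeff_of_mem B W h₁ h₂ h₃ h₄ h₆) T ((inE1_iff B T).mp hE) hT

/-- **E1Val (2)**: `|x| · |z|² = 1` on `E1(B)`. -/
theorem val_xco_mul_val_zOf_sq (B : ValuationSubring K) {a b : K} (ha : a ∈ B) (hb : b ∈ B)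
    {T : (shortCurve a b).toAffine.Point} (hT : T ≠ 0) (hE : InE1 B T) :
    B.valuation (PB.xco T) * B.valuation (FormalGroup.zOf T) ^ 2 = 1 :=
  val_xco_mul_val_zOf_sq_gen B (shortCurve a b) B.zero_mem ha B.zero_mem hb B.zero_mem hT hE

variable [DecidableEq K]

/-- All facts on unit multiples of a nonzero point of `E1(B)`, general Weierstrass curve with
integral coefficients. -/
theorem nsmul_facts_gen (B : ValuationSubring K) (W : WeierstrassCurve K)
    (h₁ : W.a₁ ∈ B) (h₂ : W.a₂ ∈ B) (h₃ : W.a₃ ∈ B) (h₄ : W.a₄ ∈ B) (h₆ : W.a₆ ∈ B) {k : ℕ}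
    (hk : B.valuation (k : K) = 1) {T : W.toAffine.Point} (hT : T ≠ 0) (hE : InE1 B T) :
    InE1 B (k • T) ∧ k • T ≠ 0 ∧ B.valuation (zOf (k • T)) = B.valuation (zOf T) ∧
      B.valuation (xco (k • T)) = B.valuation (xco T) ∧
      B.valuation ((k : K) ^ 2 * xco (k • T) - xco T) ≤ B.valuation (xco T) * B.valuation (zOf T) ∧
      B.valuation ((k : K) ^ 2 * xco (k • T) - xco T) < B.valuation (xco T) := by
  obtain ⟨c1, c2, c3, c4, c5, c6⟩ :=
    nsmul_facts (intCoeff_of_mem B W h₁ h₂ h₃ h₄ h₆) T ((inE1_iff B T).mp hE) hT hk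
  exact ⟨(inE1_iff B _).mpr c1, c2, c3, c4, c5, c6⟩

/-- **E1Val (1)**: `k² x(kT) ≡ x(T)` to first order, for `T ∈ E1(B)`, `k` a unit. -/
theorem val_nsmul_xco (B : ValuationSubring K) {a b : K} (ha : a ∈ B) (hb : b ∈ B) {k : ℕ}
    (hk : B.valuation (k : K) = 1) {T : (shortCurve a b).toAffine.Point} (hT : T ≠ 0)
    (hE : InE1 B T) :
    B.valuation ((k : K) ^ 2 * PB.xco (k • T) - PB.xco T) < B.valuation (PB.xco T) :=
  (nsmul_facts_gen B (shortCurve a b) B.zero_mem ha B.zero_mem hb B.zero_mem hk hT hE).2.2.2.2.2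

/-- Unit multiples preserve `|x|` on `E1(B)`; the multiple is again a nonzero point of `E1(B)`. -/
theorem val_xco_nsmul (B : ValuationSubring K) {a b : K} (ha : a ∈ B) (hb : b ∈ B) {k : ℕ}
    (hk : B.valuation (k : K) = 1) {T : (shortCurve a b).toAffine.Point} (hT : T ≠ 0)
    (hE : InE1 B T) :
    InE1 B (k • T) ∧ k • T ≠ 0 ∧ B.valuation (PB.xco (k • T)) = B.valuation (PB.xco T) := by
  obtain ⟨c1, c2, -, c4, -, -⟩ :=
    nsmul_facts_gen B (shortCurve a b) B.zero_mem ha B.zero_mem hb B.zero_mem hk hT hE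
  exact ⟨c1, c2, c4⟩

end Subring

end Fermat.Agent.S13.E1Val
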