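/-
S13 team, block [M], leaf lemmas (hedge; owner of this file: helper65).
On the short curve `y² = x³ + a x² + b x` with `a, b ∈ B`, for a point `T ≠ 0` of the kernel of
reduction `E1(B)`:
* `E1ValB.val_xco_mul_val_zOf_sq` : `|x(T)| · |z(T)|² = 1`;
* `E1ValB.val_nsmul_xco` : `|k² x(kT) - x(T)| < |x(T)|` for `k` a unit of `B`.
-/
import Fermat.Agent.S05.FormalGroup
import Fermat.Agent.S05.PB_Formulas

set_option autoImplicit false

namespace Fermat.Agent.S13.E1ValB

open WeierstrassCurve Fermat.Agent.S05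

variable {K : Type*} [Field K]

/-- A point of the short curve with non-integral `x`: `|y|² = |x|³` and `x z² ≡ 1`. -/
theorem aux_chart (B : ValuationSubring K) {a b : K} (ha : a ∈ B) (hb : b ∈ B) {x y : K}
    (h : (shortCurve a b).toAffine.Equation x y) (hx : 1 < B.valuation x) :
    x ≠ 0 ∧ y ≠ 0 ∧ B.valuation y ^ 2 = B.valuation x ^ 3 ∧
      B.valuation (x * (-x / y) ^ 2 - 1) < 1 := by
  have E := (PB.equation_iff a b x y).mp h
  have hx0 : x ≠ 0 := by
    rintro rfl
    rw [map_zero] at hx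
    exact absurd hx (not_lt.mpr zero_le_one)
  have hvx : 0 < B.valuation x := zero_lt_one.trans hx
  have hva : B.valuation a ≤ 1 := (B.valuation_le_one_iff _).mpr ha
  have hvb : B.valuation b ≤ 1 := (B.valuation_le_one_iff _).mpr hb
  have h1 : B.valuation (a * x ^ 2 + b * x) ≤ B.valuation x ^ 2 := by
    refine Valuation.map_add_le _ ?_ ?_
    · rw [map_mul, map_pow]
      exact mul_le_of_le_one_left' hva
    · rw [map_mul]
      exact (mul_le_of_le_one_left' hvb).trans (le_self_pow₀ hx.le (by norm_num))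
  have h2 : B.valuation x ^ 2 < B.valuation x ^ 3 := pow_lt_pow_right₀ hx (by norm_num)
  have hy2 : B.valuation y ^ 2 = B.valuation x ^ 3 := by
    have e : x ^ 3 + a * x ^ 2 + b * x = x ^ 3 + (a * x ^ 2 + b * x) := by ring
    rw [← map_pow, E, e,
      Valuation.map_add_eq_of_lt_left _ (by rw [map_pow]; exact lt_of_le_of_lt h1 h2), map_pow]
  have hy0 : y ≠ 0 := by
    rintro rfl
    rw [map_zero, zero_pow (by norm_num)] at hy2
    exact absurd hy2.symm (pow_ne_zero 3 hvx.ne')
  refine ⟨hx0, hy0, hy2, ?_⟩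
  have e : x * (-x / y) ^ 2 - 1 = -(a * x ^ 2 + b * x) / y ^ 2 := by
    field_simp
    linear_combination (-1 : K) * E
  rw [e, map_div₀, Valuation.map_neg, map_pow, hy2, div_lt_one₀ (pow_pos hvx 3)]
  exact lt_of_le_of_lt h1 h2

variable [DecidableEq K]

/-- E1Val (2): `|x| · |z|² = 1` on `E1(B)`. -/
theorem val_xco_mul_val_zOf_sq (B : ValuationSubring K) {a b : K} (ha : a ∈ B) (hb : b ∈ B)
    {T : (shortCurve a b).toAffine.Point} (hT : T ≠ 0) (hE : InE1 B T) :
    B.valuation (PB.xco T) * B.valuation (FormalGroup.zOf T) ^ 2 = 1 := by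
  rcases T with _ | ⟨x, y, h⟩
  · exact absurd rfl hT
  · have hx : 1 < B.valuation x := by
      rw [← not_le, B.valuation_le_one_iff]; exact hE
    obtain ⟨hx0, hy0, hy2, -⟩ := aux_chart B ha hb h.1 hx
    have hvx : 0 < B.valuation x := zero_lt_one.trans hx
    rw [PB.xco_some, FormalGroup.zOf_some, map_div₀, Valuation.map_neg, div_pow, hy2]
    field_simp

/-- E1Val (1): `k² x(kT) ≡ x(T)` to first order, for `T ∈ E1(B)`, `k` a unit. -/
theorem val_nsmul_xco (B : ValuationSubring K) {a b : K} (ha : a ∈ B) (hb : b ∈ B) {k : ℕ}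
    (hk : B.valuation (k : K) = 1) {T : (shortCurve a b).toAffine.Point} (hT : T ≠ 0)
    (hE : InE1 B T) :
    B.valuation ((k : K) ^ 2 * PB.xco (k • T) - PB.xco T) < B.valuation (PB.xco T) := by
  have hW : FormalGroup.IntCoeff B.valuation (shortCurve a b) :=
    FormalGroup.intCoeff_of_mem B _ B.zero_mem ha B.zero_mem hb B.zero_mem
  have hEv : FormalGroup.InE1v B.valuation T := (FormalGroup.inE1_iff B T).mp hE
  obtain ⟨hkE, hkz⟩ := FormalGroup.nsmul_pt hW T hEv k
  have hkT : k • T ≠ 0 := fun h0 =>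
    hT (F1_inE1 B _ B.zero_mem ha B.zero_mem hb B.zero_mem hk hE h0)
  have hxz := val_xco_mul_val_zOf_sq B ha hb hT hE
  rcases T with _ | ⟨x, y, h⟩
  · exact absurd rfl hT
  generalize hQ : k • Affine.Point.some x y h = Q at hkE hkz hkT
  rcases Q with _ | ⟨x', y', h'⟩
  · exact absurd rfl hkT
  have hx : 1 < B.valuation x := hEv
  have hx' : 1 < B.valuation x' := hkE
  obtain ⟨hx0, hy0, hy2, hδ⟩ := aux_chart B ha hb h.1 hx
  obtain ⟨hx0', hy0', hy2', hδ'⟩ := aux_chart B ha hb h'.1 hx'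
  simp only [PB.xco_some, FormalGroup.zOf_some] at hkz hxz ⊢
  set z := -x / y with hz
  set z' := -x' / y' with hz'
  have hz0 : z ≠ 0 := div_ne_zero (neg_ne_zero.mpr hx0) hy0
  have hvz : 0 < B.valuation z := zero_lt_iff.mpr ((Valuation.ne_zero_iff _).mpr hz0)
  have hvz1 : B.valuation z < 1 := by
    by_contra hcon
    rw [not_lt] at hcon
    have : 1 < B.valuation x * B.valuation z ^ 2 :=
      lt_of_lt_of_le hx (le_mul_of_one_le_right' (one_le_pow₀ hcon))
    rw [hxz] at this
    exact lt_irrefl _ this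
  have hz2lt : B.valuation z ^ 2 < B.valuation z := by
    have := mul_lt_mul_of_pos_right hvz1 hvz
    rwa [one_mul, ← sq] at this
  have hkzv : B.valuation ((k : K) * z) = B.valuation z := by rw [map_mul, hk, one_mul]
  -- `|z'| = |z|`
  have hvz' : B.valuation z' = B.valuation z := by
    have e : z' = (z' - (k : K) * z) + (k : K) * z := by ring
    rw [e, Valuation.map_add_eq_of_lt_right _ (by rw [hkzv]; exact lt_of_le_of_lt hkz hz2lt), hkzv]
  have hsum : B.valuation ((k : K) * z + z') ≤ B.valuation z :=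
    Valuation.map_add_le _ hkzv.le hvz'.le
  have hdiff : B.valuation ((k : K) * z - z') ≤ B.valuation z ^ 2 := by
    rw [Valuation.map_sub_swap]; exact hkz
  -- the key identity
  have key : ((k : K) ^ 2 * x' - x) * (z ^ 2 * z' ^ 2)
      = ((k : K) * z - z') * ((k : K) * z + z') + (k : K) ^ 2 * z ^ 2 * (x' * z' ^ 2 - 1)
        - z' ^ 2 * (x * z ^ 2 - 1) := by ring
  have t1 : B.valuation (((k : K) * z - z') * ((k : K) * z + z')) < B.valuation z ^ 2 := by
    rw [map_mul]
    calc B.valuation ((k : K) * z - z') * B.valuation ((k : K) * z + z')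
        ≤ B.valuation z ^ 2 * B.valuation z := mul_le_mul' hdiff hsum
      _ < B.valuation z ^ 2 * 1 := mul_lt_mul_of_pos_left hvz1 (pow_pos hvz 2)
      _ = B.valuation z ^ 2 := mul_one _
  have t2 : B.valuation ((k : K) ^ 2 * z ^ 2 * (x' * z' ^ 2 - 1)) < B.valuation z ^ 2 := by
    rw [map_mul, map_mul, map_pow, map_pow, hk, one_pow, one_mul]
    calc B.valuation z ^ 2 * B.valuation (x' * z' ^ 2 - 1)
        < B.valuation z ^ 2 * 1 := mul_lt_mul_of_pos_left hδ' (pow_pos hvz 2)
      _ = B.valuation z ^ 2 := mul_one _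
  have t3 : B.valuation (z' ^ 2 * (x * z ^ 2 - 1)) < B.valuation z ^ 2 := by
    rw [map_mul, map_pow, hvz']
    calc B.valuation z ^ 2 * B.valuation (x * z ^ 2 - 1)
        < B.valuation z ^ 2 * 1 := mul_lt_mul_of_pos_left hδ (pow_pos hvz 2)
      _ = B.valuation z ^ 2 := mul_one _
  have hnum : B.valuation (((k : K) ^ 2 * x' - x) * (z ^ 2 * z' ^ 2)) < B.valuation z ^ 2 := by
    rw [key]
    exact lt_of_le_of_lt (Valuation.map_sub _ _ _)
      (max_lt (lt_of_le_of_lt (Valuation.map_add _ _ _) (max_lt t1 t2)) t3)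
  rw [map_mul, map_mul, map_pow, map_pow, hvz'] at hnum
  -- cancel `|z|⁴`, using `|x| |z|² = 1`
  have hz2pos : 0 < B.valuation z ^ 2 := pow_pos hvz 2
  have h4 : B.valuation ((k : K) ^ 2 * x' - x) * B.valuation z ^ 2 < 1 := by
    have : B.valuation ((k : K) ^ 2 * x' - x) * B.valuation z ^ 2 * B.valuation z ^ 2
        < 1 * B.valuation z ^ 2 := by
      rw [one_mul, mul_assoc]; exact hnum
    exact lt_of_mul_lt_mul_right' this
  rw [← hxz] at h4
  exact lt_of_mul_lt_mul_right' h4

end Fermat.Agent.S13.E1ValB
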