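/-
S13 team, block [M] leaf (owner: helper5): the easy half of the specialisation statement.

If `k • P₀ = 0` for a constant point `P₀ = (x₀, y₀)` of `y² = x³ + αx² + βx` over `L`, then the
denominator `D` of `x(k • Pgen) = N(x)/D(x)` vanishes at `x₀`
(`MDegC.eval_D_eq_zero_of_nsmul_eq_zero`).

Proof: at a place `B` of `F` over `±P₀`, the generic point is congruent to the constant point
`±P₀`, so their difference lies in the kernel of reduction `E1(B)` (`F2_inE1`); hence
`k • Pgen ∈ E1(B)`, i.e. `x(k • Pgen) ∉ B`; but if `D(x₀) ≠ 0` then `D(x)` is a unit of `B` and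
`x(k • Pgen) = N(x)/D(x) ∈ B`.
-/
import Fermat.Agent.S13.MGen

set_option autoImplicit false

namespace Fermat.Agent.S13.MDegC

open WeierstrassCurve Polynomial Fermat.Agent.S05 Fermat.Agent.S13

section Leaf

variable {K : Type*} [Field K] [DecidableEq K]

/-- The kernel of reduction of a short curve with integral coefficients is closed under
multiplication by natural numbers. -/
theorem inE1_nsmul (B : ValuationSubring K) {a b : K} (ha : a ∈ B) (hb : b ∈ B)
    {T : (shortCurve a b).toAffine.Point} (hT : InE1 B T) (k : ℕ) : InE1 B (k • T) := by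
  induction k with
  | zero => rw [zero_nsmul]; trivial
  | succ k ih =>
    rw [succ_nsmul]
    exact inE1_add B (shortCurve a b) (by simp [B.zero_mem]) (by simpa using ha)
      (by simp [B.zero_mem]) (by simpa using hb) (by simp [B.zero_mem]) ih hT

/-- If a point `R = (X₁, Y₁)` with integral coordinates and nonsingular reduction is killed by
`k`, and `Q` is a point congruent to `R`, then `k • Q` lies in the kernel of reduction. -/
theorem inE1_nsmul_of_congr (B : ValuationSubring K) {a b : K} (ha : a ∈ B) (hb : b ∈ B)
    {X₁ Y₁ x y : K} (h₁ : (shortCurve a b).toAffine.Nonsingular X₁ Y₁)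
    (h : (shortCurve a b).toAffine.Nonsingular x y)
    (hX₁ : X₁ ∈ B) (hx : X₁ - x ∈ B.nonunits) (hy : Y₁ - y ∈ B.nonunits)
    (hns : 2 * Y₁ ∉ B.nonunits ∨ 3 * X₁ ^ 2 + 2 * a * X₁ + b ∉ B.nonunits)
    {k : ℕ} (hk : k • Affine.Point.some X₁ Y₁ h₁ = 0) :
    InE1 B (k • Affine.Point.some x y h) := by
  have hns' : 2 * Y₁ + (shortCurve a b).a₁ * X₁ + (shortCurve a b).a₃ ∉ B.nonunits ∨
      3 * X₁ ^ 2 + 2 * (shortCurve a b).a₂ * X₁ + (shortCurve a b).a₄
        - (shortCurve a b).a₁ * Y₁ ∉ B.nonunits := by
    simpa using hns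
  have h1 : InE1 B (Affine.Point.some X₁ Y₁ h₁ - Affine.Point.some x y h) :=
    F2_inE1 B (shortCurve a b) (by simp [B.zero_mem]) (by simpa using ha) h₁ h hX₁ hx hy hns'
  have h2 := inE1_nsmul B ha hb h1 k
  rw [smul_sub, hk, zero_sub] at h2
  have h3 := inE1_neg B h2
  rwa [neg_neg] at h3

end Leaf

variable {L : Type*} {F : Type*} [Field L] [Field F] [Algebra L F] [CharZero L]
  [DecidableEq L] [DecidableEq F] {α β : L}

/-- **Easy half of MSpec**: if `k • P₀ = 0` then the denominator of `x(k • Pgen)` vanishes at
`x₀`. -/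
theorem eval_D_eq_zero_of_nsmul_eq_zero (G : GenData L F α β) (hβ : β ≠ 0) {k : ℕ} (hk : 1 ≤ k)
    (X : XData G hβ k) {x₀ y₀ : L} (h : (shortCurve α β).toAffine.Nonsingular x₀ y₀)
    (htor : k • (Affine.Point.some x₀ y₀ h) = 0) : X.D.eval x₀ = 0 := by
  by_contra hD
  have heq : y₀ ^ 2 = x₀ ^ 3 + α * x₀ ^ 2 + β * x₀ := (PB.equation_iff α β x₀ y₀).mp h.1
  obtain ⟨B, hB, hx, hy⟩ := G.exists_valSub_at heq
  have hxB : G.x ∈ B := by
    have : G.x = (G.x - algebraMap L F x₀) + algebraMap L F x₀ := by ring
    rw [this]
    exact B.add_mem _ _ (B.nonunits_subset hx) (hB x₀)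
  -- nonsingularity of the constant point, in `L`
  have hns₀ : (2 : L) * y₀ ≠ 0 ∨ 3 * x₀ ^ 2 + 2 * α * x₀ + β ≠ 0 := by
    have hn := (Affine.nonsingular_iff _ _).mp h
    rcases hn.2 with h1 | h1
    · right
      intro h0
      apply h1
      simp only [shortCurve_a₁, shortCurve_a₂, shortCurve_a₄, zero_mul]
      exact h0.symm
    · left
      intro h0
      apply h1
      simp only [shortCurve_a₁, shortCurve_a₃, zero_mul, sub_zero]
      linear_combination h0
  obtain ⟨h', hc⟩ := constHom_some F α β h
  have hx' : algebraMap L F x₀ - G.x ∈ B.nonunits := by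
    have : algebraMap L F x₀ - G.x = -(G.x - algebraMap L F x₀) := by ring
    rw [this]
    exact neg_mem hx
  have hunit : ∀ {c : L}, c ≠ 0 → algebraMap L F c ∉ B.nonunits := by
    intro c hc0 hmem
    have := val_const_eq_one B hB hc0
    rw [B.mem_nonunits_iff, this] at hmem
    exact lt_irrefl _ hmem
  -- `k • Pgen` lies in the kernel of reduction
  have hE1 : InE1 B (k • G.Pgen hβ) := by
    rcases hy with hy | hy
    · -- the place lies over `P₀`
      have hy' : algebraMap L F y₀ - G.y ∈ B.nonunits := by
        have : algebraMap L F y₀ - G.y = -(G.y - algebraMap L F y₀) := by ring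
        rw [this]
        exact neg_mem hy
      have hkc : k • Affine.Point.some (algebraMap L F x₀) (algebraMap L F y₀) h' = 0 := by
        rw [← hc, ← map_nsmul, htor, map_zero]
      refine inE1_nsmul_of_congr B (hB α) (hB β) h' (G.nonsingular hβ) (hB x₀) hx' hy' ?_ hkc
      rcases hns₀ with h0 | h0
      · left
        have := hunit h0
        simpa only [map_mul, map_ofNat] using this
      · right
        have := hunit h0
        simpa only [map_add, map_mul, map_pow, map_ofNat] using this
    · -- the place lies over `-P₀`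
      have hneg : -Affine.Point.some (algebraMap L F x₀) (algebraMap L F y₀) h' =
          Affine.Point.some (algebraMap L F x₀)
            ((shortCurve (algebraMap L F α) (algebraMap L F β)).toAffine.negY
              (algebraMap L F x₀) (algebraMap L F y₀))
            ((Affine.nonsingular_neg _ _).mpr h') := Affine.Point.neg_some h'
      have hnegY : (shortCurve (algebraMap L F α) (algebraMap L F β)).toAffine.negY
          (algebraMap L F x₀) (algebraMap L F y₀) = -algebraMap L F y₀ := PB.negY_eq _ _ _ _
      have hy' : (shortCurve (algebraMap L F α) (algebraMap L F β)).toAffine.negY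
          (algebraMap L F x₀) (algebraMap L F y₀) - G.y ∈ B.nonunits := by
        rw [hnegY]
        have : -algebraMap L F y₀ - G.y = -(G.y + algebraMap L F y₀) := by ring
        rw [this]
        exact neg_mem hy
      have hkc : k • Affine.Point.some (algebraMap L F x₀)
          ((shortCurve (algebraMap L F α) (algebraMap L F β)).toAffine.negY
            (algebraMap L F x₀) (algebraMap L F y₀))
          ((Affine.nonsingular_neg _ _).mpr h') = 0 := by
        rw [← hneg, ← hc, smul_neg, ← map_nsmul, htor, map_zero, neg_zero]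
      refine inE1_nsmul_of_congr B (hB α) (hB β) _ (G.nonsingular hβ) (hB x₀) hx' hy' ?_ hkc
      rw [hnegY]
      rcases hns₀ with h0 | h0
      · left
        have := hunit h0
        intro hmem
        apply this
        have e : algebraMap L F (2 * y₀) = -(2 * -algebraMap L F y₀) := by
          rw [map_mul, map_ofNat]; ring
        rw [e]
        exact neg_mem hmem
      · right
        have := hunit h0
        simpa only [map_add, map_mul, map_pow, map_ofNat] using this
  -- hence its `x`-coordinate is not integral
  have hk0 : k ≠ 0 := by omega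
  have hne := G.nsmul_Pgen_ne_zero hβ hk0
  have hxco : PB.xco (k • G.Pgen hβ) ∉ B := by
    generalize k • G.Pgen hβ = Q at hE1 hne
    cases Q with
    | zero => exact absurd rfl hne
    | some xk yk hkk => exact hE1
  -- but `D(x)` is a unit of `B` and `N(x) ∈ B`
  apply hxco
  have hDx : B.valuation (aeval G.x X.D) = 1 := by
    have h1 := aeval_sub_eval_mem_nonunits B hB hx X.D
    have h2 : B.valuation (algebraMap L F (X.D.eval x₀)) = 1 := val_const_eq_one B hB hD
    have h3 : B.valuation (aeval G.x X.D - algebraMap L F (X.D.eval x₀)) <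
        B.valuation (algebraMap L F (X.D.eval x₀)) := by
      rw [h2]; exact (B.mem_nonunits_iff).mp h1
    rw [Valuation.map_eq_of_sub_lt _ h3, h2]
  have hNx : B.valuation (aeval G.x X.N) ≤ 1 :=
    (B.valuation_le_one_iff _).mpr (aeval_mem B hB hxB X.N)
  rw [← B.valuation_le_one_iff]
  have hrel := congrArg B.valuation X.rel
  rw [map_mul, hDx, mul_one] at hrel
  rw [hrel]
  exact hNx

end Fermat.Agent.S13.MDegC
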