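import Fermat.Agent.S13.MDeg
import Fermat.Agent.S13.MDegC

/-!
# S13 team library, block [M] (MCard): fewer than `p³` points of `p`-torsion

OWNER: helper33 (only the owner edits this file).

On the short curve `y² = x³ + αx² + βx` over a field `L` of characteristic zero (`β ≠ 0`), every
finite set of points killed by `p ≥ 5` has fewer than `p³` elements (`MCard.card_torsion_lt`):
a nonzero `p`-torsion point has its `x`-coordinate among the roots of the denominator `D_p` of
`x(p • Pgen)` (`MDegC`, helper5), `deg D_p ≤ 2p² - 1` (`MDeg`), and at most two points share an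
`x`-coordinate.  Consequently, for `p` prime, the `p`-torsion is finite of order at most `p²`
(`MCard.torsion_finite_ncard_le`), the order being a power of `p`.
-/

set_option autoImplicit false

namespace Fermat.Agent.S13.MCard

open WeierstrassCurve Polynomial Fermat.Agent.S05 Fermat.Agent.S13

variable {L : Type*} [Field L] [CharZero L] [DecidableEq L]

/-- **MCard**: a finite set of `p`-torsion points (`p ≥ 5`) has fewer than `p³` elements.
(The hypothesis `hd` is not needed; it is kept for the agreed interface.) -/
theorem card_torsion_lt (α β : L) (hβ : β ≠ 0) (_hd : α ^ 2 - 4 * β ≠ 0) (p : ℕ) (hp : 5 ≤ p)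
    (S : Finset (shortCurve α β).toAffine.Point) (hS : ∀ T ∈ S, p • T = 0) : S.card < p ^ 3 := by
  classical
  obtain ⟨G⟩ := exists_genData L α β
  obtain ⟨X, hXD, -⟩ := MDeg.exists_xdata_deg' G hβ (k := p) (by omega)
  refine MDeg.card_lt_cube (shortCurve α β) p hp X.D X.monic.ne_zero hXD S ?_
  intro T hT hT0
  cases T with
  | zero => exact absurd rfl hT0
  | some x y h =>
    exact MDegC.eval_D_eq_zero_of_nsmul_eq_zero G hβ (by omega) X h (hS _ hT)

/-- For a prime `p ≥ 5` the `p`-torsion of the short curve is finite of order at most `p²`. -/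
theorem torsion_finite_ncard_le (α β : L) (hβ : β ≠ 0) (hd : α ^ 2 - 4 * β ≠ 0) (p : ℕ)
    (hp : p.Prime) (hp5 : 5 ≤ p) :
    {T : (shortCurve α β).toAffine.Point | p • T = 0}.Finite ∧
      {T : (shortCurve α β).toAffine.Point | p • T = 0}.ncard ≤ p ^ 2 :=
  MDeg.finite_ncard_le_sq p hp (fun S hS => card_torsion_lt α β hβ hd p hp5 S hS)

end Fermat.Agent.S13.MCard
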