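import Mathlib

/-!
# S13 team library, block [M] (MDeg core): degree bound for the multiplication-by-`k` map

OWNER: helper33 (only the owner edits this file).  Mathlib only.

Abstract statement: a sequence `X k` of rational functions with `X 1 = x` which satisfies the
duplication relation and the add-sub relation of the `x`-coordinate on the curve
`y² = x³ + αx² + βx` has height (max of the degrees of numerator and denominator) at most
`2k² - 1`.  No exact degree is needed for the consumers (`card E[p] < p³`).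
-/

set_option autoImplicit false

namespace Fermat.Agent.S13.MDegCore

open Polynomial

variable {K : Type*} [Field K]

/-- The height of a rational function: the larger of the degrees of its reduced numerator and
denominator. -/
noncomputable def ht (r : RatFunc K) : ℕ := max r.num.natDegree r.denom.natDegree

theorem num_natDegree_le_ht (r : RatFunc K) : r.num.natDegree ≤ ht r := le_max_left _ _

theorem denom_natDegree_le_ht (r : RatFunc K) : r.denom.natDegree ≤ ht r := le_max_right _ _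

/-- If `r * B = A` with `B ≠ 0` then the height of `r` is at most `max (deg A) (deg B)`. -/
theorem ht_le_of_mul_eq (r : RatFunc K) (A B : K[X]) (hB : B ≠ 0)
    (h : r * algebraMap K[X] (RatFunc K) B = algebraMap K[X] (RatFunc K) A) :
    ht r ≤ max A.natDegree B.natDegree := by
  have hB' : algebraMap K[X] (RatFunc K) B ≠ 0 := by
    intro h0
    exact hB ((RatFunc.algebraMap_injective K) (by rw [h0, map_zero]))
  have hr : r = algebraMap K[X] (RatFunc K) A / algebraMap K[X] (RatFunc K) B := by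
    rw [eq_div_iff hB', h]
  by_cases hA : A = 0
  · have hr0 : r = 0 := by rw [hr, hA, map_zero, zero_div]
    rw [hr0, ht, RatFunc.num_zero, RatFunc.denom_zero]
    simp
  · have h1 : r.num ∣ A := by rw [hr]; exact RatFunc.num_div_dvd A hB
    have h2 : r.denom ∣ B := by rw [hr]; exact RatFunc.denom_div_dvd A B
    exact max_le_max (natDegree_le_of_dvd h1 hA) (natDegree_le_of_dvd h2 hB)

/-- A coprime representation `r * D = N` has `deg D ≤ deg (denom r)` and `deg N ≤ deg (num r)`. -/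
theorem natDegree_le_of_coprime_mul_eq (r : RatFunc K) (N D : K[X]) (hcop : IsCoprime N D)
    (h : r * algebraMap K[X] (RatFunc K) D = algebraMap K[X] (RatFunc K) N) :
    D.natDegree ≤ r.denom.natDegree ∧ N.natDegree ≤ r.num.natDegree := by
  have hden : r.denom ≠ 0 := RatFunc.denom_ne_zero r
  have hden' : algebraMap K[X] (RatFunc K) r.denom ≠ 0 := by
    intro h0
    exact hden ((RatFunc.algebraMap_injective K) (by rw [h0, map_zero]))
  have hpoly : r.num * D = N * r.denom := by
    apply RatFunc.algebraMap_injective K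
    rw [map_mul, map_mul, ← h]
    have hr := RatFunc.num_div_denom r
    rw [div_eq_iff hden'] at hr
    rw [hr]
    ring
  have hD : D ∣ r.denom := by
    have : D ∣ N * r.denom := ⟨r.num, by rw [← hpoly]; ring⟩
    exact hcop.symm.dvd_of_dvd_mul_left this
  refine ⟨natDegree_le_of_dvd hD hden, ?_⟩
  by_cases hnum : r.num = 0
  · have hN : N = 0 := by
      have : N * r.denom = 0 := by rw [← hpoly, hnum, zero_mul]
      rcases mul_eq_zero.mp this with h0 | h0
      · exact h0
      · exact absurd h0 hden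
    rw [hN]; simp
  · have hNd : N ∣ r.num := by
      have : N ∣ r.num * D := ⟨r.denom, hpoly⟩
      exact hcop.dvd_of_dvd_mul_right this
    exact natDegree_le_of_dvd hNd hnum

private theorem alg_ne_zero {p : K[X]} (hp : p ≠ 0) : algebraMap K[X] (RatFunc K) p ≠ 0 := by
  intro h0
  exact hp ((RatFunc.algebraMap_injective K) (by rw [h0, map_zero]))

/-- Height bound for the duplication step. -/
theorem ht_dbl (α β : K) (Y x : RatFunc K)
    (hne : 4 * (x * (x ^ 2 + RatFunc.C α * x + RatFunc.C β)) ≠ 0)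
    (h : Y * (4 * (x * (x ^ 2 + RatFunc.C α * x + RatFunc.C β))) = (x ^ 2 - RatFunc.C β) ^ 2) :
    ht Y ≤ 4 * ht x := by
  obtain ⟨n, hn⟩ : ∃ n, n = x.num := ⟨_, rfl⟩
  obtain ⟨d, hdd⟩ : ∃ d, d = x.denom := ⟨_, rfl⟩
  have hd0 : d ≠ 0 := by rw [hdd]; exact RatFunc.denom_ne_zero x
  have hd0' := alg_ne_zero hd0
  have hx : x = algebraMap K[X] (RatFunc K) n / algebraMap K[X] (RatFunc K) d := by
    rw [hn, hdd, RatFunc.num_div_denom]
  obtain ⟨A, hA⟩ : ∃ A : K[X], A = (n ^ 2 - C β * d ^ 2) ^ 2 := ⟨_, rfl⟩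
  obtain ⟨B, hB⟩ : ∃ B : K[X], B = C 4 * (n * d * (n ^ 2 + C α * (n * d) + C β * d ^ 2)) :=
    ⟨_, rfl⟩
  have hBmap : algebraMap K[X] (RatFunc K) B =
      algebraMap K[X] (RatFunc K) d ^ 4 * (4 * (x * (x ^ 2 + RatFunc.C α * x + RatFunc.C β))) := by
    rw [hB, hx]
    simp only [map_mul, map_add, map_pow, RatFunc.algebraMap_C]
    have h4 : (RatFunc.C (4 : K) : RatFunc K) = 4 := map_ofNat (RatFunc.C : K →+* RatFunc K) 4
    rw [h4]
    field_simp
  have hAmap : algebraMap K[X] (RatFunc K) A =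
      algebraMap K[X] (RatFunc K) d ^ 4 * (x ^ 2 - RatFunc.C β) ^ 2 := by
    rw [hA, hx]
    simp only [map_mul, map_sub, map_pow, RatFunc.algebraMap_C]
    field_simp
  have hB0 : B ≠ 0 := by
    intro h0
    have : algebraMap K[X] (RatFunc K) B = 0 := by rw [h0, map_zero]
    rw [hBmap] at this
    rcases mul_eq_zero.mp this with h | h
    · exact hd0' (pow_eq_zero_iff (by norm_num) |>.mp h)
    · exact hne h
  have hYB : Y * algebraMap K[X] (RatFunc K) B = algebraMap K[X] (RatFunc K) A := by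
    rw [hBmap, hAmap, ← h]; ring
  have hle := ht_le_of_mul_eq Y A B hB0 hYB
  have hnle : n.natDegree ≤ ht x := by rw [hn]; exact num_natDegree_le_ht x
  have hdle : d.natDegree ≤ ht x := by rw [hdd]; exact denom_natDegree_le_ht x
  have hn2 : (n ^ 2).natDegree ≤ 2 * ht x := natDegree_pow_le_of_le 2 hnle
  have hd2 : (C β * d ^ 2).natDegree ≤ 2 * ht x :=
    (natDegree_C_mul_le _ _).trans (natDegree_pow_le_of_le 2 hdle)
  have hnd : (n * d).natDegree ≤ 2 * ht x := by
    have := natDegree_mul_le_of_le hnle hdle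
    omega
  have hAle : A.natDegree ≤ 4 * ht x := by
    rw [hA]
    have h1 : (n ^ 2 - C β * d ^ 2).natDegree ≤ 2 * ht x := by
      have := natDegree_sub_le_of_le hn2 hd2
      simpa using this
    have := natDegree_pow_le_of_le 2 h1
    omega
  have hBle : B.natDegree ≤ 4 * ht x := by
    rw [hB]
    refine (natDegree_C_mul_le _ _).trans ?_
    have h1 : (n ^ 2 + C α * (n * d) + C β * d ^ 2).natDegree ≤ 2 * ht x := by
      refine natDegree_add_le_of_degree_le (natDegree_add_le_of_degree_le hn2 ?_) hd2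
      exact (natDegree_C_mul_le _ _).trans hnd
    have := natDegree_mul_le_of_le hnd h1
    omega
  exact hle.trans (max_le hAle hBle)

/-- Height bound for the add-sub step. -/
theorem ht_add (β : K) (Y x₁ x₂ : RatFunc K) (hne : x₁ ≠ x₂)
    (h : Y * RatFunc.X * (x₁ - x₂) ^ 2 = (x₁ * x₂ - RatFunc.C β) ^ 2) :
    ht Y ≤ 2 * (ht x₁ + ht x₂) + 1 := by
  obtain ⟨n₁, hn₁⟩ : ∃ n, n = x₁.num := ⟨_, rfl⟩
  obtain ⟨d₁, hd₁⟩ : ∃ d, d = x₁.denom := ⟨_, rfl⟩
  obtain ⟨n₂, hn₂⟩ : ∃ n, n = x₂.num := ⟨_, rfl⟩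
  obtain ⟨d₂, hd₂⟩ : ∃ d, d = x₂.denom := ⟨_, rfl⟩
  have hd₁0 : d₁ ≠ 0 := by rw [hd₁]; exact RatFunc.denom_ne_zero _
  have hd₂0 : d₂ ≠ 0 := by rw [hd₂]; exact RatFunc.denom_ne_zero _
  have hd₁0' := alg_ne_zero hd₁0
  have hd₂0' := alg_ne_zero hd₂0
  have hx₁ : x₁ = algebraMap K[X] (RatFunc K) n₁ / algebraMap K[X] (RatFunc K) d₁ := by
    rw [hn₁, hd₁, RatFunc.num_div_denom]
  have hx₂ : x₂ = algebraMap K[X] (RatFunc K) n₂ / algebraMap K[X] (RatFunc K) d₂ := by
    rw [hn₂, hd₂, RatFunc.num_div_denom]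
  obtain ⟨A, hA⟩ : ∃ A : K[X], A = (n₁ * n₂ - C β * (d₁ * d₂)) ^ 2 := ⟨_, rfl⟩
  obtain ⟨B, hB⟩ : ∃ B : K[X], B = X * (n₁ * d₂ - n₂ * d₁) ^ 2 := ⟨_, rfl⟩
  have hBmap : algebraMap K[X] (RatFunc K) B =
      (algebraMap K[X] (RatFunc K) d₁ * algebraMap K[X] (RatFunc K) d₂) ^ 2 *
        (RatFunc.X * (x₁ - x₂) ^ 2) := by
    rw [hB, hx₁, hx₂]
    simp only [map_mul, map_sub, map_pow, RatFunc.algebraMap_X]
    field_simp
  have hAmap : algebraMap K[X] (RatFunc K) A =
      (algebraMap K[X] (RatFunc K) d₁ * algebraMap K[X] (RatFunc K) d₂) ^ 2 *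
        (x₁ * x₂ - RatFunc.C β) ^ 2 := by
    rw [hA, hx₁, hx₂]
    simp only [map_mul, map_sub, map_pow, RatFunc.algebraMap_C]
    field_simp
  have hX0 : (RatFunc.X : RatFunc K) ≠ 0 := RatFunc.X_ne_zero
  have hB0 : B ≠ 0 := by
    intro h0
    have : algebraMap K[X] (RatFunc K) B = 0 := by rw [h0, map_zero]
    rw [hBmap] at this
    rcases mul_eq_zero.mp this with h | h
    · exact (mul_ne_zero hd₁0' hd₂0') (pow_eq_zero_iff (by norm_num) |>.mp h)
    · rcases mul_eq_zero.mp h with h | h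
      · exact hX0 h
      · exact (sub_ne_zero.mpr hne) (pow_eq_zero_iff (by norm_num) |>.mp h)
  have hYB : Y * algebraMap K[X] (RatFunc K) B = algebraMap K[X] (RatFunc K) A := by
    rw [hBmap, hAmap, ← h]; ring
  have hle := ht_le_of_mul_eq Y A B hB0 hYB
  have hn₁le : n₁.natDegree ≤ ht x₁ := by rw [hn₁]; exact num_natDegree_le_ht _
  have hd₁le : d₁.natDegree ≤ ht x₁ := by rw [hd₁]; exact denom_natDegree_le_ht _
  have hn₂le : n₂.natDegree ≤ ht x₂ := by rw [hn₂]; exact num_natDegree_le_ht _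
  have hd₂le : d₂.natDegree ≤ ht x₂ := by rw [hd₂]; exact denom_natDegree_le_ht _
  have hAle : A.natDegree ≤ 2 * (ht x₁ + ht x₂) + 1 := by
    rw [hA]
    have h1 : (n₁ * n₂ - C β * (d₁ * d₂)).natDegree ≤ ht x₁ + ht x₂ := by
      have ha := natDegree_mul_le_of_le hn₁le hn₂le
      have hb : (C β * (d₁ * d₂)).natDegree ≤ ht x₁ + ht x₂ :=
        (natDegree_C_mul_le _ _).trans (natDegree_mul_le_of_le hd₁le hd₂le)
      have := natDegree_sub_le_of_le ha hb
      simpa using this
    have := natDegree_pow_le_of_le 2 h1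
    omega
  have hBle : B.natDegree ≤ 2 * (ht x₁ + ht x₂) + 1 := by
    rw [hB]
    have h1 : (n₁ * d₂ - n₂ * d₁).natDegree ≤ ht x₁ + ht x₂ := by
      have ha := natDegree_mul_le_of_le hn₁le hd₂le
      have hb : (n₂ * d₁).natDegree ≤ ht x₁ + ht x₂ := by
        have := natDegree_mul_le_of_le hn₂le hd₁le
        omega
      have := natDegree_sub_le_of_le ha hb
      simpa using this
    have h3 := natDegree_pow_le_of_le 2 h1
    have h4 : (X * (n₁ * d₂ - n₂ * d₁) ^ 2 : K[X]).natDegree ≤ 1 + 2 * (ht x₁ + ht x₂) :=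
      natDegree_mul_le_of_le (natDegree_X_le) h3
    omega
  exact hle.trans (max_le hAle hBle)

theorem ht_X : ht (RatFunc.X : RatFunc K) = 1 := by
  rw [ht, RatFunc.num_X, RatFunc.denom_X]
  simp

/-- **Rationality and height bound.**  Let `ψ : K(x) → F` be a field embedding and `x k ∈ F` a
sequence with `x 1 = ψ x` satisfying the duplication and add-sub relations of the `x`-coordinate
on `y² = x³ + αx² + βx`.  Then every `x k` (`k ≥ 1`) is the image of a rational function of
height at most `2k² - 1`. -/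
theorem exists_rep_seq {F : Type*} [Field F] (ψ : RatFunc K →+* F) (α β : K) (x : ℕ → F)
    (h1 : x 1 = ψ RatFunc.X)
    (hdbl : ∀ k, 1 ≤ k →
      x (2 * k) * (4 * (x k * (x k ^ 2 + ψ (RatFunc.C α) * x k + ψ (RatFunc.C β))))
        = (x k ^ 2 - ψ (RatFunc.C β)) ^ 2)
    (hdne : ∀ k, 1 ≤ k → 4 * (x k * (x k ^ 2 + ψ (RatFunc.C α) * x k + ψ (RatFunc.C β))) ≠ 0)
    (hne : ∀ k, 1 ≤ k → x (k + 1) ≠ x k)
    (hadd : ∀ k, 1 ≤ k → x (2 * k + 1) * x 1 * (x (k + 1) - x k) ^ 2
      = (x (k + 1) * x k - ψ (RatFunc.C β)) ^ 2) :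
    ∀ k, 1 ≤ k → ∃ r : RatFunc K, ψ r = x k ∧ ht r + 1 ≤ 2 * k ^ 2 := by
  have inj : Function.Injective ψ := ψ.injective
  intro k
  induction k using Nat.strong_induction_on with
  | _ k ih =>
    intro hk
    rcases Nat.even_or_odd' k with ⟨j, hj | hj⟩
    · -- k = 2 j
      have hj1 : 1 ≤ j := by omega
      have hlt : j < k := by omega
      obtain ⟨rj, hrj, hhtj⟩ := ih j hlt hj1
      obtain ⟨den, hden⟩ : ∃ den : RatFunc K,
          den = 4 * (rj * (rj ^ 2 + RatFunc.C α * rj + RatFunc.C β)) := ⟨_, rfl⟩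
      have hψden : ψ den = 4 * (x j * (x j ^ 2 + ψ (RatFunc.C α) * x j + ψ (RatFunc.C β))) := by
        rw [hden]
        simp only [map_mul, map_add, map_pow, map_ofNat, hrj]
      have hden0 : den ≠ 0 := by
        intro h0
        apply hdne j hj1
        rw [← hψden, h0, map_zero]
      obtain ⟨r, hr⟩ : ∃ r : RatFunc K, r = (rj ^ 2 - RatFunc.C β) ^ 2 / den := ⟨_, rfl⟩
      have hrel : r * (4 * (rj * (rj ^ 2 + RatFunc.C α * rj + RatFunc.C β)))
          = (rj ^ 2 - RatFunc.C β) ^ 2 := by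
        rw [← hden, hr, div_mul_cancel₀ _ hden0]
      refine ⟨r, ?_, ?_⟩
      · have e1 : r * den = (rj ^ 2 - RatFunc.C β) ^ 2 := by
          rw [hr, div_mul_cancel₀ _ hden0]
        have hψ : ψ r * ψ den = x (2 * j) * ψ den := by
          rw [← map_mul, e1, hψden, hdbl j hj1]
          simp only [map_sub, map_pow, hrj]
        rw [hj]
        exact mul_right_cancel₀ (by rw [hψden]; exact hdne j hj1) hψ
      · have h := ht_dbl α β r rj (by rw [← hden]; exact hden0) hrel
        rw [hj]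
        nlinarith [hhtj, h]
    · -- k = 2 j + 1
      rcases Nat.eq_zero_or_pos j with hj0 | hjpos
      · subst hj0
        refine ⟨RatFunc.X, ?_, ?_⟩
        · rw [hj, show 2 * 0 + 1 = 1 from rfl, h1]
        · rw [hj, ht_X]
          norm_num
      · have hj1 : 1 ≤ j := hjpos
        have hlt : j < k := by omega
        have hlt' : j + 1 < k := by omega
        obtain ⟨r₂, hr₂, hht₂⟩ := ih j hlt hj1
        obtain ⟨r₁, hr₁, hht₁⟩ := ih (j + 1) hlt' (by omega)
        have hr12 : r₁ ≠ r₂ := by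
          intro h
          apply hne j hj1
          rw [← hr₁, ← hr₂, h]
        have hX0 : (RatFunc.X : RatFunc K) ≠ 0 := RatFunc.X_ne_zero
        obtain ⟨den, hden⟩ : ∃ den : RatFunc K, den = RatFunc.X * (r₁ - r₂) ^ 2 := ⟨_, rfl⟩
        have hden0 : den ≠ 0 := by
          rw [hden]
          exact mul_ne_zero hX0 (pow_ne_zero 2 (sub_ne_zero.mpr hr12))
        obtain ⟨r, hr⟩ : ∃ r : RatFunc K, r = (r₁ * r₂ - RatFunc.C β) ^ 2 / den := ⟨_, rfl⟩
        have hrel : r * RatFunc.X * (r₁ - r₂) ^ 2 = (r₁ * r₂ - RatFunc.C β) ^ 2 := by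
          rw [mul_assoc, ← hden, hr, div_mul_cancel₀ _ hden0]
        refine ⟨r, ?_, ?_⟩
        · have hψden : ψ den = x 1 * (x (j + 1) - x j) ^ 2 := by
            rw [hden, h1]
            simp only [map_mul, map_sub, map_pow, hr₁, hr₂]
          have hψden0 : ψ den ≠ 0 := by
            intro h0
            exact hden0 (inj (by rw [h0, map_zero]))
          have e1 : r * den = (r₁ * r₂ - RatFunc.C β) ^ 2 := by
            rw [hr, div_mul_cancel₀ _ hden0]
          have hψ : ψ r * ψ den = x (2 * j + 1) * ψ den := by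
            rw [← map_mul, e1, hψden, ← mul_assoc, hadd j hj1]
            simp only [map_sub, map_mul, map_pow, hr₁, hr₂]
          rw [hj]
          exact mul_right_cancel₀ hψden0 hψ
        · have h := ht_add β r r₁ r₂ hr12 hrel
          rw [hj]
          nlinarith [hht₁, hht₂, h]

end Fermat.Agent.S13.MDegCore
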