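import Fermat.Agent.S13.MGen
import Fermat.Agent.S13.MDegCore

/-!
# S13 team library, block [M] (MDeg): rationality and degree bound for `x(k • Pgen)`

OWNER: helper33 (only the owner edits this file).

* `MDeg.exists_rep_nsmul` : on the short curve `y² = x³ + a x² + b x` over a field `F` with an
  embedding `ψ : L(x) → F`, if a point `P` has `x`-coordinate `ψ x` and no multiple `k • P`
  (`k ≥ 1`) vanishes, then `x(k • P) = ψ r` for a rational function `r` of height `≤ 2k² - 1`
  (binary recursion with `PB.xco_dbl` and `PB.xco_add_sub`; no Galois theory).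
* `MDeg.exists_xdata_deg` : for every `GenData` (any `F`) an `XData` at `k` with
  `deg D ≤ 2k² - 1`  (so in particular `MDeg.exists_xdata : Nonempty (XData G hβ k)`).
* `MDeg.natDegree_le` : the bound for an arbitrary `XData`.
* `MDeg.card_le_of_roots`, `MDeg.card_lt_cube`, `MDeg.finite_ncard_le_sq` : counting lemmas for
  `MCard`.
-/

set_option autoImplicit false

namespace Fermat.Agent.S13.MDeg

open WeierstrassCurve Polynomial
open Fermat.Agent.S05
open Fermat.Agent.S13.MDegCore

section Height

variable {L F : Type*} [Field L] [Field F] [DecidableEq F]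

/-- The denominator of the duplication formula does not vanish at a point `Q` with `2Q ≠ 0`. -/
theorem dbl_den_ne_zero (a b : F) (h2 : (2 : F) ≠ 0) {Q : (shortCurve a b).toAffine.Point}
    (hQ : Q ≠ 0) (hQQ : Q + Q ≠ 0) :
    4 * (PB.xco Q * (PB.xco Q ^ 2 + a * PB.xco Q + b)) ≠ 0 := by
  cases Q with
  | zero => exact absurd rfl hQ
  | some x y h =>
    have hy : y ≠ 0 := by
      intro hy
      apply hQQ
      apply Affine.Point.add_self_of_Y_eq
      rw [PB.negY_eq, hy, neg_zero]
    have E := (PB.equation_iff a b x y).mp h.1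
    simp only [PB.xco_some]
    have h4 : (4 : F) ≠ 0 := by
      have : (4 : F) = 2 * 2 := by norm_num
      rw [this]; exact mul_ne_zero h2 h2
    have e : x * (x ^ 2 + a * x + b) = y ^ 2 := by linear_combination -E
    rw [e]
    exact mul_ne_zero h4 (pow_ne_zero 2 hy)

/-- **Rationality and height bound for the multiples of a generic point.** -/
theorem exists_rep_nsmul (ψ : RatFunc L →+* F) (α β : L) (h2 : (2 : F) ≠ 0) (a b : F)
    (ha : a = ψ (RatFunc.C α)) (hb : b = ψ (RatFunc.C β))
    (P : (shortCurve a b).toAffine.Point) (hP : PB.xco P = ψ RatFunc.X)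
    (hne : ∀ k : ℕ, 1 ≤ k → k • P ≠ 0) :
    ∀ k : ℕ, 1 ≤ k → ∃ r : RatFunc L, ψ r = PB.xco (k • P) ∧ ht r + 1 ≤ 2 * k ^ 2 := by
  have hP0 : P ≠ 0 := by
    have := hne 1 le_rfl
    rwa [one_smul] at this
  have h2k : ∀ k : ℕ, k • P + k • P = (2 * k) • P := by
    intro k; rw [two_mul, add_smul]
  have hxne : ∀ k : ℕ, 1 ≤ k → PB.xco ((k + 1) • P) ≠ PB.xco (k • P) := by
    intro k hk hx
    rcases PB.eq_or_eq_neg_of_xco_eq (hne (k + 1) (by omega)) (hne k hk) hx with h | h
    · apply hP0
      have : (k + 1) • P = k • P + P := by rw [add_smul, one_smul]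
      rw [this] at h
      simpa using h
    · apply hne (2 * k + 1) (by omega)
      have : (2 * k + 1) • P = (k + 1) • P + k • P := by
        rw [← add_smul]; congr 1; ring
      rw [this, h]
      simp
  refine exists_rep_seq ψ α β (fun k => PB.xco (k • P)) ?_ ?_ ?_ ?_ ?_
  · -- k = 1
    show PB.xco (1 • P) = ψ RatFunc.X
    rw [one_smul, hP]
  · -- duplication
    intro k hk
    show PB.xco ((2 * k) • P) * (4 * (PB.xco (k • P) * (PB.xco (k • P) ^ 2
      + ψ (RatFunc.C α) * PB.xco (k • P) + ψ (RatFunc.C β)))) =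
        (PB.xco (k • P) ^ 2 - ψ (RatFunc.C β)) ^ 2
    rw [← ha, ← hb]
    have := PB.xco_dbl a b h2 (hne k hk) (by rw [h2k]; exact hne (2 * k) (by omega))
    rw [h2k] at this
    exact this
  · -- nonvanishing of the duplication denominator
    intro k hk
    show 4 * (PB.xco (k • P) * (PB.xco (k • P) ^ 2
      + ψ (RatFunc.C α) * PB.xco (k • P) + ψ (RatFunc.C β))) ≠ 0
    rw [← ha, ← hb]
    exact dbl_den_ne_zero a b h2 (hne k hk) (by rw [h2k]; exact hne (2 * k) (by omega))
  · -- nondegeneracy
    intro k hk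
    exact hxne k hk
  · -- add-sub
    intro k hk
    show PB.xco ((2 * k + 1) • P) * PB.xco (1 • P) * (PB.xco ((k + 1) • P) - PB.xco (k • P)) ^ 2
      = (PB.xco ((k + 1) • P) * PB.xco (k • P) - ψ (RatFunc.C β)) ^ 2
    rw [← hb, one_smul]
    have hadd : (k + 1) • P + k • P = (2 * k + 1) • P := by
      rw [← add_smul]; congr 1; ring
    have hsub : (k + 1) • P - k • P = P := by
      rw [add_smul, one_smul]; abel
    have := PB.xco_add_sub a b (hne (k + 1) (by omega)) (hne k hk) (hxne k hk)
    rw [hadd, hsub] at this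
    exact this

end Height

section Gen

variable {L F : Type*} [Field L] [Field F] [Algebra L F] {α β : L}

/-- The embedding `L(x) → F` determined by a generic point. -/
noncomputable def psi (G : GenData L F α β) : RatFunc L →+* F :=
  IsFractionRing.lift (A := L[X]) (K := RatFunc L) (g := ((aeval G.x : L[X] →ₐ[L] F) : L[X] →+* F))
    (transcendental_iff_injective.mp G.trans)

theorem psi_algebraMap (G : GenData L F α β) (P : L[X]) :
    psi G (algebraMap L[X] (RatFunc L) P) = aeval G.x P :=
  IsFractionRing.lift_algebraMap _ P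

theorem psi_X (G : GenData L F α β) : psi G RatFunc.X = G.x := by
  rw [← RatFunc.algebraMap_X, psi_algebraMap, aeval_X]

theorem psi_C (G : GenData L F α β) (c : L) : psi G (RatFunc.C c) = algebraMap L F c := by
  rw [← RatFunc.algebraMap_C, psi_algebraMap, aeval_C]

theorem psi_injective (G : GenData L F α β) : Function.Injective (psi G) := (psi G).injective

variable [CharZero L] [DecidableEq F]

/-- `x(k • Pgen)` is a rational function of `x` of height at most `2k² - 1`. -/
theorem exists_rep (G : GenData L F α β) (hβ : β ≠ 0) {k : ℕ} (hk : 1 ≤ k) :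
    ∃ r : RatFunc L, psi G r = PB.xco (k • G.Pgen hβ) ∧ ht r + 1 ≤ 2 * k ^ 2 := by
  have := G.charZero
  exact exists_rep_nsmul (psi G) α β two_ne_zero (algebraMap L F α) (algebraMap L F β)
    (psi_C G α).symm (psi_C G β).symm (G.Pgen hβ) (by rw [G.xco_Pgen, psi_X])
    (fun k hk => G.nsmul_Pgen_ne_zero hβ (by omega)) k hk

/-- The `XData` given by the reduced numerator and denominator of a rational function. -/
noncomputable def xdataOfRep (G : GenData L F α β) (hβ : β ≠ 0) (k : ℕ) (r : RatFunc L)
    (hr : psi G r = PB.xco (k • G.Pgen hβ)) : XData G hβ k where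
  N := r.num
  D := r.denom
  monic := RatFunc.monic_denom r
  coprime := RatFunc.isCoprime_num_denom r
  rel := by
    have hden : algebraMap L[X] (RatFunc L) r.denom ≠ 0 := by
      intro h0
      exact RatFunc.denom_ne_zero r ((RatFunc.algebraMap_injective L) (by rw [h0, map_zero]))
    have h1 : r * algebraMap L[X] (RatFunc L) r.denom = algebraMap L[X] (RatFunc L) r.num := by
      have := RatFunc.num_div_denom r
      rw [div_eq_iff hden] at this
      exact this.symm
    have h2 := congrArg (psi G) h1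
    rw [map_mul, psi_algebraMap, psi_algebraMap, hr] at h2
    exact h2

/-- **MDeg** (recursion with degree bound): an `XData` at `k` with `deg D ≤ 2k² - 1`. -/
theorem exists_xdata_deg (G : GenData L F α β) (hβ : β ≠ 0) {k : ℕ} (hk : 1 ≤ k) :
    ∃ X : XData G hβ k, X.D.natDegree ≤ 2 * k ^ 2 - 1 := by
  obtain ⟨r, hr, hht⟩ := exists_rep G hβ hk
  refine ⟨xdataOfRep G hβ k r hr, ?_⟩
  have h1 : (xdataOfRep G hβ k r hr).D.natDegree ≤ ht r := denom_natDegree_le_ht r
  omega

/-- Both degrees are bounded for the `XData` produced by the recursion. -/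
theorem exists_xdata_deg' (G : GenData L F α β) (hβ : β ≠ 0) {k : ℕ} (hk : 1 ≤ k) :
    ∃ X : XData G hβ k, X.D.natDegree + 1 ≤ 2 * k ^ 2 ∧ X.N.natDegree + 1 ≤ 2 * k ^ 2 := by
  obtain ⟨r, hr, hht⟩ := exists_rep G hβ hk
  refine ⟨xdataOfRep G hβ k r hr, ?_, ?_⟩
  · have h1 : (xdataOfRep G hβ k r hr).D.natDegree ≤ ht r := denom_natDegree_le_ht r
    omega
  · have h1 : (xdataOfRep G hβ k r hr).N.natDegree ≤ ht r := num_natDegree_le_ht r
    omega

/-- **MRat** in the general shape: an `XData` exists for every generic point and every `k ≥ 1`. -/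
theorem exists_xdata (G : GenData L F α β) (hβ : β ≠ 0) {k : ℕ} (hk : 1 ≤ k) :
    Nonempty (XData G hβ k) := by
  obtain ⟨X, _⟩ := exists_xdata_deg G hβ hk
  exact ⟨X⟩

/-- The degree bound holds for an arbitrary `XData`. -/
theorem natDegree_le (G : GenData L F α β) (hβ : β ≠ 0) {k : ℕ} (hk : 1 ≤ k) (X : XData G hβ k) :
    X.D.natDegree + 1 ≤ 2 * k ^ 2 ∧ X.N.natDegree + 1 ≤ 2 * k ^ 2 := by
  obtain ⟨r, hr, hht⟩ := exists_rep G hβ hk
  have hrel : r * algebraMap L[X] (RatFunc L) X.D = algebraMap L[X] (RatFunc L) X.N := by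
    apply psi_injective G
    rw [map_mul, psi_algebraMap, psi_algebraMap, hr]
    exact X.rel
  obtain ⟨h1, h2⟩ := natDegree_le_of_coprime_mul_eq r X.N X.D X.coprime hrel
  have h3 := denom_natDegree_le_ht r
  have h4 := num_natDegree_le_ht r
  constructor <;> omega

/-- The denominator of an `XData` is nonzero. -/
theorem D_ne_zero (G : GenData L F α β) (hβ : β ≠ 0) {k : ℕ} (X : XData G hβ k) : X.D ≠ 0 :=
  X.monic.ne_zero

end Gen

section Card

variable {L : Type*} [Field L] [DecidableEq L]

/-- A finite set of points whose nonzero members have their `x`-coordinate among the roots of a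
nonzero polynomial `D` has at most `2 deg D + 1` elements. -/
theorem card_le_of_roots (W : WeierstrassCurve L) (D : L[X]) (hD0 : D ≠ 0)
    (S : Finset W.toAffine.Point) (hS : ∀ T ∈ S, T ≠ 0 → D.IsRoot (PB.xco T)) :
    S.card ≤ 2 * D.natDegree + 1 := by
  classical
  obtain ⟨S', hS'⟩ : ∃ S' : Finset W.toAffine.Point, S' = S.filter (fun T => T ≠ 0) := ⟨_, rfl⟩
  have hsub : S ⊆ insert 0 S' := by
    intro T hT
    by_cases h0 : T = 0
    · rw [h0]; exact Finset.mem_insert_self _ _
    · apply Finset.mem_insert_of_mem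
      rw [hS']; exact Finset.mem_filter.mpr ⟨hT, h0⟩
  have h1 : S.card ≤ S'.card + 1 :=
    (Finset.card_le_card hsub).trans (Finset.card_insert_le _ _)
  have hmaps : ∀ T ∈ S', PB.xco T ∈ D.roots.toFinset := by
    intro T hT
    rw [hS'] at hT
    obtain ⟨hTS, hT0⟩ := Finset.mem_filter.mp hT
    rw [Multiset.mem_toFinset, mem_roots hD0]
    exact hS T hTS hT0
  have hfib : ∀ x ∈ D.roots.toFinset, (S'.filter (fun T => PB.xco T = x)).card ≤ 2 := by
    intro x _
    rcases (S'.filter (fun T => PB.xco T = x)).eq_empty_or_nonempty with he | ⟨T₁, hT₁⟩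
    · rw [he]; simp
    · obtain ⟨hT₁S, hT₁x⟩ := Finset.mem_filter.mp hT₁
      have hT₁0 : T₁ ≠ 0 := by
        rw [hS'] at hT₁S
        exact (Finset.mem_filter.mp hT₁S).2
      have hsub2 : S'.filter (fun T => PB.xco T = x) ⊆ {T₁, -T₁} := by
        intro T hT
        obtain ⟨hTS, hTx⟩ := Finset.mem_filter.mp hT
        have hT0 : T ≠ 0 := by
          rw [hS'] at hTS
          exact (Finset.mem_filter.mp hTS).2
        rcases PB.eq_or_eq_neg_of_xco_eq hT0 hT₁0 (hTx.trans hT₁x.symm) with h | h
        · rw [h]; exact Finset.mem_insert_self _ _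
        · rw [h]; exact Finset.mem_insert_of_mem (Finset.mem_singleton_self _)
      exact (Finset.card_le_card hsub2).trans Finset.card_le_two
  have h2 := Finset.card_le_mul_card_image_of_maps_to hmaps 2 hfib
  have h3 : D.roots.toFinset.card ≤ D.natDegree :=
    (Multiset.toFinset_card_le _).trans (card_roots' D)
  have h4 : 2 * D.roots.toFinset.card ≤ 2 * D.natDegree := Nat.mul_le_mul_left 2 h3
  omega

/-- With `deg D ≤ 2p² - 1` and `p ≥ 5` this gives fewer than `p³` points. -/
theorem card_lt_cube (W : WeierstrassCurve L) (p : ℕ) (hp : 5 ≤ p) (D : L[X]) (hD0 : D ≠ 0)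
    (hdeg : D.natDegree + 1 ≤ 2 * p ^ 2)
    (S : Finset W.toAffine.Point) (hS : ∀ T ∈ S, T ≠ 0 → D.IsRoot (PB.xco T)) :
    S.card < p ^ 3 := by
  have h1 := card_le_of_roots W D hD0 S hS
  have h2 : 5 * p ^ 2 ≤ p ^ 3 := by
    have : p ^ 3 = p * p ^ 2 := by ring
    rw [this]
    exact Nat.mul_le_mul_right _ hp
  have h3 : 1 ≤ p ^ 2 := Nat.one_le_pow _ _ (by omega)
  omega

end Card

section Group

/-- A finite additive commutative group killed by a prime `p` has order a power of `p`. -/
theorem card_eq_pow_of_kill {H : Type*} [AddCommGroup H] [Finite H] (p : ℕ) [Fact p.Prime]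
    (hkill : ∀ x : H, p • x = 0) : ∃ d : ℕ, Nat.card H = p ^ d := by
  let inst : Module (ZMod p) H := AddCommGroup.zmodModule hkill
  have hfin : @Module.Finite (ZMod p) H _ _ inst := Module.Finite.of_finite
  have e := @Module.natCard_eq_pow_finrank (ZMod p) H _ _ inst hfin
  rw [Nat.card_zmod] at e
  exact ⟨_, e⟩

/-- In an additive commutative group in which every finite set of `p`-torsion elements has fewer
than `p³` elements (`p` prime), the `p`-torsion is finite with at most `p²` elements. -/
theorem finite_ncard_le_sq {G : Type*} [AddCommGroup G] (p : ℕ) (hp : p.Prime)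
    (h : ∀ S : Finset G, (∀ T ∈ S, p • T = 0) → S.card < p ^ 3) :
    {T : G | p • T = 0}.Finite ∧ {T : G | p • T = 0}.ncard ≤ p ^ 2 := by
  classical
  have hfin : {T : G | p • T = 0}.Finite := by
    by_contra hinf
    obtain ⟨t, ht, htc⟩ := Set.Infinite.exists_subset_card_eq hinf (p ^ 3)
    have := h t (fun T hT => ht hT)
    omega
  refine ⟨hfin, ?_⟩
  -- the `p`-torsion subgroup
  obtain ⟨H, hH⟩ : ∃ H : AddSubgroup G, (H : Set G) = {T : G | p • T = 0} :=
    ⟨{ carrier := {T : G | p • T = 0}
       zero_mem' := by simp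
       add_mem' := by
        intro a b ha hb
        simp only [Set.mem_ofPred_eq] at ha hb ⊢
        rw [smul_add, ha, hb, add_zero]
       neg_mem' := by
        intro a ha
        simp only [Set.mem_ofPred_eq] at ha ⊢
        rw [smul_neg, ha, neg_zero] }, rfl⟩
  have hHfin : Finite H := by
    have : Finite (H : Set G) := by rw [hH]; exact hfin.to_subtype
    exact this
  have hkill : ∀ x : H, p • x = 0 := by
    intro x
    have hx : (x : G) ∈ (H : Set G) := x.2
    rw [hH] at hx
    exact Subtype.ext (by simpa using hx)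
  have : Fact p.Prime := ⟨hp⟩
  obtain ⟨d, hcard⟩ : ∃ d : ℕ, Nat.card H = p ^ d := card_eq_pow_of_kill p hkill
  have hncard : {T : G | p • T = 0}.ncard = Nat.card H := by
    rw [← hH]
    rfl
  rw [hncard]
  -- `Nat.card H < p ^ 3`
  have hlt : Nat.card H < p ^ 3 := by
    have hfinS : (H : Set G).Finite := by rw [hH]; exact hfin
    have := h hfinS.toFinset (by
      intro T hT
      have hT' : T ∈ (H : Set G) := hfinS.mem_toFinset.mp hT
      rw [hH] at hT'
      exact hT')
    have hc : hfinS.toFinset.card = Nat.card H := by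
      rw [← Set.ncard_eq_toFinset_card _ hfinS]
      rfl
    omega
  rw [hcard] at hlt ⊢
  have hd : d < 3 := (Nat.pow_lt_pow_iff_right hp.one_lt).mp hlt
  exact Nat.pow_le_pow_right hp.pos (by omega)

end Group

end Fermat.Agent.S13.MDeg
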