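/-
S13 team, block [M], sub-block MMult, independent duplicate B (owner: helper32).

`rootMult_eq_two`: for an `XData` at `p` (a representation `x(p • Pgen) = N(x)/D(x)` with `N`, `D`
coprime) and a constant point `T = (x₀, y₀)` with `y₀ ≠ 0` and `p • T = 0`, the denominator `D`
has a root of multiplicity exactly `2` at `x₀`.

Proof: at a place `B` over `±T`, the point `Q = Pgen ∓ T` has `|x(Q)| = |x - x₀|⁻²`; it lies in
the kernel of reduction, `p • Q = p • Pgen`, and multiplication by a unit `p` preserves `|x|` on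
the kernel of reduction.  Hence `|N(x)/D(x)| = |x - x₀|⁻²`, and coprimality gives the claim.
Self-contained: uses only `S13.MGen` (and the S05 formal-group file through it).
-/
import Fermat.Agent.S13.MGen

set_option autoImplicit false

namespace Fermat.Agent.S13.MMultB

open WeierstrassCurve Polynomial Fermat.Agent.S05 Fermat.Agent.S13

/-! ### Leaf lemmas on a valued field -/

section Leaf

variable {K : Type*} [Field K]

/-- On `y² = x³ + a x² + b x` with integral `a`, `b`: `|y|² = |x|³` when `|x| > 1`. -/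
theorem val_y_sq (B : ValuationSubring K) {a b : K} (ha : a ∈ B) (hb : b ∈ B) {x y : K}
    (h : y ^ 2 = x ^ 3 + a * x ^ 2 + b * x) (hx : 1 < B.valuation x) :
    B.valuation y ^ 2 = B.valuation x ^ 3 := by
  have hva : B.valuation a ≤ 1 := (B.valuation_le_one_iff _).mpr ha
  have hvb : B.valuation b ≤ 1 := (B.valuation_le_one_iff _).mpr hb
  have h1 : B.valuation (a * x ^ 2 + b * x) < B.valuation (x ^ 3) := by
    have h2 : B.valuation (a * x ^ 2) ≤ B.valuation x ^ 2 := by
      rw [map_mul, map_pow]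
      exact mul_le_of_le_one_left' hva
    have h3 : B.valuation (b * x) ≤ B.valuation x ^ 2 := by
      rw [map_mul]
      calc B.valuation b * B.valuation x ≤ B.valuation x := mul_le_of_le_one_left' hvb
        _ ≤ B.valuation x ^ 2 := le_self_pow₀ hx.le (by norm_num)
    calc B.valuation (a * x ^ 2 + b * x) ≤ B.valuation x ^ 2 :=
          (B.valuation).map_add_le h2 h3
      _ < B.valuation (x ^ 3) := by
          rw [map_pow]
          exact pow_lt_pow_right₀ hx (by norm_num)
  rw [← map_pow, h, add_assoc, (B.valuation).map_add_eq_of_lt_left h1, map_pow]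

/-- `|x| · |z|² = 1` for an affine point of the kernel of reduction (`z = -x/y`). -/
theorem val_x_mul_val_z_sq (B : ValuationSubring K) {a b : K} (ha : a ∈ B) (hb : b ∈ B) {x y : K}
    (h : y ^ 2 = x ^ 3 + a * x ^ 2 + b * x) (hx : 1 < B.valuation x) :
    B.valuation x * B.valuation (-x / y) ^ 2 = 1 := by
  have h1 := val_y_sq B ha hb h hx
  have hx0 : B.valuation x ≠ 0 := (zero_lt_one.trans hx).ne'
  have hy0 : B.valuation y ^ 2 ≠ 0 := by
    rw [h1]
    exact pow_ne_zero 3 hx0
  rw [map_div₀, (B.valuation).map_neg, div_pow, h1]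
  field_simp

variable [DecidableEq K]

/-- Multiplication by a unit `k` preserves `|x|` on the kernel of reduction. -/
theorem val_xco_nsmul (B : ValuationSubring K) {a b : K} (ha : a ∈ B) (hb : b ∈ B) {k : ℕ}
    (hk : B.valuation (k : K) = 1) {x y : K} (h : (shortCurve a b).toAffine.Nonsingular x y)
    (hx : 1 < B.valuation x) :
    B.valuation (PB.xco (k • Affine.Point.some x y h)) = B.valuation x := by
  have hW : FormalGroup.IntCoeff B.valuation (shortCurve a b) :=
    FormalGroup.intCoeff_of_mem B (shortCurve a b) B.zero_mem ha B.zero_mem hb B.zero_mem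
  have hP : FormalGroup.InE1v B.valuation (Affine.Point.some x y h) := hx
  obtain ⟨h1, h2⟩ := FormalGroup.nsmul_pt hW _ hP k
  obtain ⟨-, -, hz1, -, hz0⟩ := FormalGroup.chart_of_point hW h.1 hx
  rw [FormalGroup.zOf_some] at h2
  have hpos : 0 < B.valuation (-x / y) := zero_lt_iff.mpr hz0
  have h3 : B.valuation (-x / y) ^ 2 < B.valuation (-x / y) := by
    have := mul_lt_mul_of_pos_right hz1 hpos
    rwa [one_mul, ← sq] at this
  have h4 : B.valuation ((k : K) * (-x / y)) = B.valuation (-x / y) := by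
    rw [map_mul, hk, one_mul]
  have h5 : B.valuation (FormalGroup.zOf (k • Affine.Point.some x y h)) = B.valuation (-x / y) := by
    have e : FormalGroup.zOf (k • Affine.Point.some x y h)
        = (FormalGroup.zOf (k • Affine.Point.some x y h) - (k : K) * (-x / y))
          + (k : K) * (-x / y) := by ring
    rw [e, (B.valuation).map_add_eq_of_lt_right (by rw [h4]; exact lt_of_le_of_lt h2 h3), h4]
  have E := (PB.equation_iff a b x y).mp h.1
  have hxz := val_x_mul_val_z_sq B ha hb E hx
  rcases hQ : k • Affine.Point.some x y h with _ | ⟨x', y', h'⟩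
  · exfalso
    rw [hQ] at h5
    change B.valuation (FormalGroup.zOf (0 : (shortCurve a b).toAffine.Point)) = _ at h5
    rw [FormalGroup.zOf_zero, map_zero] at h5
    exact hz0 h5.symm
  · rw [hQ] at h1 h5
    have hx' : 1 < B.valuation x' := h1
    rw [FormalGroup.zOf_some] at h5
    have E' := (PB.equation_iff a b x' y').mp h'.1
    have hxz' := val_x_mul_val_z_sq B ha hb E' hx'
    rw [h5] at hxz'
    have hz2 : B.valuation (-x / y) ^ 2 ≠ 0 := pow_ne_zero 2 hz0
    change B.valuation x' = B.valuation x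
    exact mul_right_cancel₀ hz2 (hxz'.trans hxz.symm)

/-- `|x(P - T)| · |x_P - x_T|² = 1` when `x_P ≡ x_T`, `x_P ≠ x_T` and `y_P + y_T` is a unit;
moreover `P - T` is an affine point with non-integral `x`. -/
theorem exists_sub_some (B : ValuationSubring K) {a b : K} (ha : a ∈ B)
    {x y xT yT : K} (h : (shortCurve a b).toAffine.Nonsingular x y)
    (hT : (shortCurve a b).toAffine.Nonsingular xT yT) (hxT : xT ∈ B)
    (hx : x - xT ∈ B.nonunits) (hne : x ≠ xT) (hy : B.valuation (y + yT) = 1) :
    ∃ x₃ y₃, ∃ h₃ : (shortCurve a b).toAffine.Nonsingular x₃ y₃,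
      Affine.Point.some x y h - Affine.Point.some xT yT hT = Affine.Point.some x₃ y₃ h₃ ∧
      B.valuation x₃ * B.valuation (x - xT) ^ 2 = 1 ∧ 1 < B.valuation x₃ := by
  obtain ⟨x₃, y₃, h₃, e, hx₃⟩ := PB.sub_x a b h hT hne
  refine ⟨x₃, y₃, h₃, e, ?_⟩
  have ht1 : B.valuation (x - xT) < 1 := (B.mem_nonunits_iff).mp hx
  have ht0 : B.valuation (x - xT) ≠ 0 := (_root_.map_ne_zero _).mpr (sub_ne_zero.mpr hne)
  have hxB : x ∈ B := by
    have : x = (x - xT) + xT := by ring
    rw [this]
    exact B.add_mem _ _ (B.nonunits_subset hx) hxT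
  have hc : B.valuation (a + x + xT) ≤ 1 :=
    (B.valuation_le_one_iff _).mpr (B.add_mem _ _ (B.add_mem _ _ ha hxB) hxT)
  have h1 : B.valuation ((a + x + xT) * (x - xT) ^ 2) < 1 := by
    rw [map_mul, map_pow]
    calc B.valuation (a + x + xT) * B.valuation (x - xT) ^ 2
        ≤ B.valuation (x - xT) ^ 2 := mul_le_of_le_one_left' hc
      _ < 1 := pow_lt_one₀ zero_le ht1 (by norm_num)
  have h2 : B.valuation ((y + yT) ^ 2) = 1 := by rw [map_pow, hy, one_pow]
  have h3 : B.valuation (x₃ * (x - xT) ^ 2) = 1 := by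
    rw [hx₃, sub_eq_add_neg, (B.valuation).map_add_eq_of_lt_left, h2]
    rw [(B.valuation).map_neg, h2]
    exact h1
  rw [map_mul, map_pow] at h3
  refine ⟨h3, ?_⟩
  by_contra hcon
  rw [not_lt] at hcon
  have : B.valuation x₃ * B.valuation (x - xT) ^ 2 < 1 := by
    calc B.valuation x₃ * B.valuation (x - xT) ^ 2 ≤ B.valuation (x - xT) ^ 2 :=
          mul_le_of_le_one_left' hcon
      _ < 1 := pow_lt_one₀ zero_le ht1 (by norm_num)
  exact absurd h3 this.ne

end Leaf

/-! ### The multiplicity statement -/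

variable {L : Type*} {F : Type*} [Field L] [Field F] [Algebra L F] [CharZero L]
  [DecidableEq L] [DecidableEq F] {α β : L}

omit [CharZero L] [DecidableEq L] [DecidableEq F] in
/-- A polynomial which does not vanish at the centre takes a unit value at `t`. -/
theorem val_aeval_eq_one (B : ValuationSubring F) (hB : ∀ a : L, algebraMap L F a ∈ B) {t : F}
    {c : L} (ht : t - algebraMap L F c ∈ B.nonunits) (P : L[X]) (hP : P.eval c ≠ 0) :
    B.valuation (aeval t P) = 1 := by
  have h1 := (B.mem_nonunits_iff).mp (aeval_sub_eval_mem_nonunits B hB ht P)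
  have h2 := val_const_eq_one B hB hP
  have e : aeval t P = (aeval t P - algebraMap L F (P.eval c)) + algebraMap L F (P.eval c) := by
    ring
  rw [e, (B.valuation).map_add_eq_of_lt_right (by rw [h2]; exact h1), h2]

/-- At a place over `T = (x₀, y₀)` (with the sign `y ≡ y₀`): `|x(p • Pgen)| · |x - x₀|² = 1`. -/
theorem val_xco_nsmul_Pgen (G : GenData L F α β) (hβ : β ≠ 0) {p : ℕ} (hp : 1 ≤ p)
    {x₀ y₀ : L} (h : (shortCurve α β).toAffine.Nonsingular x₀ y₀) (hy : y₀ ≠ 0)
    (htor : p • (Affine.Point.some x₀ y₀ h) = 0)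
    (B : ValuationSubring F) (hB : ∀ a : L, algebraMap L F a ∈ B)
    (hxB : G.x - algebraMap L F x₀ ∈ B.nonunits) (hyB : G.y - algebraMap L F y₀ ∈ B.nonunits) :
    B.valuation (PB.xco (p • G.Pgen hβ)) * B.valuation (G.x - algebraMap L F x₀) ^ 2 = 1 := by
  obtain ⟨h', hΨ⟩ := constHom_some F α β h
  have h2y : B.valuation (algebraMap L F (2 * y₀)) = 1 :=
    val_const_eq_one B hB (mul_ne_zero two_ne_zero hy)
  have hyT : B.valuation (G.y + algebraMap L F y₀) = 1 := by
    have e : G.y + algebraMap L F y₀ = (G.y - algebraMap L F y₀) + algebraMap L F (2 * y₀) := by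
      rw [map_mul, map_ofNat]; ring
    rw [e, (B.valuation).map_add_eq_of_lt_right (by rw [h2y]; exact (B.mem_nonunits_iff).mp hyB),
      h2y]
  obtain ⟨x₃, y₃, h₃, e, hx₃, hx₃'⟩ := exists_sub_some B (hB α) (G.nonsingular hβ) h' (hB x₀) hxB
    (G.x_ne_const x₀) hyT
  have hpk : B.valuation (p : F) = 1 := val_natCast_eq_one B hB (by omega)
  have hval := val_xco_nsmul B (hB α) (hB β) hpk h₃ hx₃'
  have hsm : p • Affine.Point.some x₃ y₃ h₃ = p • G.Pgen hβ := by
    rw [← e]
    have e2 : Affine.Point.some G.x G.y (G.nonsingular hβ) = G.Pgen hβ := rfl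
    rw [e2, ← hΨ, smul_sub, ← map_nsmul, htor, map_zero, sub_zero]
  rw [hsm] at hval
  rw [hval]
  exact hx₃

/-- `rootMult_eq_two` at a place with the sign `y ≡ y₀`. -/
theorem rootMult_eq_two_aux (G : GenData L F α β) (hβ : β ≠ 0) {p : ℕ} (hp : 1 ≤ p)
    (X : XData G hβ p) {x₀ y₀ : L} (h : (shortCurve α β).toAffine.Nonsingular x₀ y₀) (hy : y₀ ≠ 0)
    (htor : p • (Affine.Point.some x₀ y₀ h) = 0)
    (B : ValuationSubring F) (hB : ∀ a : L, algebraMap L F a ∈ B)
    (hxB : G.x - algebraMap L F x₀ ∈ B.nonunits) (hyB : G.y - algebraMap L F y₀ ∈ B.nonunits) :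
    X.D.rootMultiplicity x₀ = 2 := by
  have key := val_xco_nsmul_Pgen G hβ hp h hy htor B hB hxB hyB
  have ht1 : B.valuation (G.x - algebraMap L F x₀) < 1 := (B.mem_nonunits_iff).mp hxB
  have ht0 : B.valuation (G.x - algebraMap L F x₀) ≠ 0 :=
    (_root_.map_ne_zero _).mpr (G.x_sub_ne_zero x₀)
  have hxmem : G.x ∈ B := by
    have : G.x = (G.x - algebraMap L F x₀) + algebraMap L F x₀ := by ring
    rw [this]
    exact B.add_mem _ _ (B.nonunits_subset hxB) (hB x₀)
  have hD0 : X.D ≠ 0 := X.monic.ne_zero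
  obtain ⟨D₁, hD, hD₁⟩ := exists_eq_pow_rootMultiplicity_mul_and_not_dvd X.D hD0 x₀
  have hD₁' : D₁.eval x₀ ≠ 0 := fun h0 => hD₁ (dvd_iff_isRoot.mpr h0)
  have hvD₁ : B.valuation (aeval G.x D₁) = 1 := val_aeval_eq_one B hB hxB D₁ hD₁'
  have hvD : B.valuation (aeval G.x X.D)
      = B.valuation (G.x - algebraMap L F x₀) ^ X.D.rootMultiplicity x₀ := by
    conv_lhs => rw [hD]
    rw [map_mul, map_pow, map_sub, aeval_X, aeval_C, map_mul, map_pow, hvD₁, mul_one]
  have hrel := congrArg B.valuation X.rel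
  rw [map_mul, hvD] at hrel
  have hv0 : B.valuation (PB.xco (p • G.Pgen hβ)) ≠ 0 := by
    intro h0
    rw [h0, zero_mul] at key
    exact zero_ne_one key
  by_cases hm : X.D.rootMultiplicity x₀ = 0
  · exfalso
    rw [hm, pow_zero, mul_one] at hrel
    have hN1 : B.valuation (aeval G.x X.N) ≤ 1 :=
      (B.valuation_le_one_iff _).mpr (aeval_mem B hB hxmem X.N)
    rw [← hrel] at hN1
    have : B.valuation (PB.xco (p • G.Pgen hβ)) * B.valuation (G.x - algebraMap L F x₀) ^ 2 < 1 := by
      calc _ ≤ B.valuation (G.x - algebraMap L F x₀) ^ 2 := mul_le_of_le_one_left' hN1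
        _ < 1 := pow_lt_one₀ zero_le ht1 (by norm_num)
    exact absurd key this.ne
  · have hroot : X.D.eval x₀ = 0 := by
      conv_lhs => rw [hD]
      rw [eval_mul, eval_pow, eval_sub, eval_X, eval_C, sub_self, zero_pow hm, zero_mul]
    have hN : X.N.eval x₀ ≠ 0 := by
      obtain ⟨u, w, huw⟩ := X.coprime
      intro h0
      have h1 := congrArg (eval x₀) huw
      rw [eval_add, eval_mul, eval_mul, h0, hroot, mul_zero, mul_zero, add_zero, eval_one] at h1
      exact zero_ne_one h1
    have hvN : B.valuation (aeval G.x X.N) = 1 := val_aeval_eq_one B hB hxB X.N hN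
    rw [hvN] at hrel
    have hpow : B.valuation (G.x - algebraMap L F x₀) ^ X.D.rootMultiplicity x₀
        = B.valuation (G.x - algebraMap L F x₀) ^ 2 :=
      mul_left_cancel₀ hv0 (hrel.trans key.symm)
    have hanti : StrictAnti fun n : ℕ => B.valuation (G.x - algebraMap L F x₀) ^ n :=
      pow_right_strictAnti₀ (zero_lt_iff.mpr ht0) ht1
    exact hanti.injective hpow

/-- **MMult** (duplicate B): the denominator of `x(p • Pgen)` has a root of multiplicity exactly
`2` at the `x`-coordinate of every `p`-torsion point which is not `2`-torsion. -/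
theorem rootMult_eq_two (G : GenData L F α β) (hβ : β ≠ 0) {p : ℕ} (hp : 1 ≤ p)
    (X : XData G hβ p) {x₀ y₀ : L} (h : (shortCurve α β).toAffine.Nonsingular x₀ y₀) (hy : y₀ ≠ 0)
    (htor : p • (Affine.Point.some x₀ y₀ h) = 0) : X.D.rootMultiplicity x₀ = 2 := by
  obtain ⟨B, hB, hxB, hyB | hyB⟩ := G.exists_valSub_at ((PB.equation_iff α β x₀ y₀).mp h.1)
  · exact rootMult_eq_two_aux G hβ hp X h hy htor B hB hxB hyB
  · have h' : (shortCurve α β).toAffine.Nonsingular x₀ (-y₀) := by
      have := (Affine.nonsingular_neg (W' := (shortCurve α β).toAffine) x₀ y₀).mpr h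
      rwa [PB.negY_eq] at this
    have e : Affine.Point.some x₀ (-y₀) h' = -Affine.Point.some x₀ y₀ h := by
      rw [Affine.Point.neg_some]
      simp only [PB.negY_eq]
    have htor' : p • (Affine.Point.some x₀ (-y₀) h') = 0 := by
      rw [e, smul_neg, htor, neg_zero]
    refine rootMult_eq_two_aux G hβ hp X h' (neg_ne_zero.mpr hy) htor' B hB hxB ?_
    rwa [map_neg, sub_neg_eq_add]

end Fermat.Agent.S13.MMultB
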