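/-
S13 team, block [M], function-field-free route (owner: helper97).

Multiplication by `k` on `x`-coordinates of the short curve `y² = x³ + αx² + βx`, as an explicit
pair of polynomials `(num k, den k)` in `L[X]`, built by the recursion

  `num (k+1) · num (k-1) = (X · num k − β · den k)²`,
  `den (k+1) · den (k-1) = (num k − X · den k)²`,
  `den (k-1) · num (k+1) + num (k-1) · den (k+1)
      = 2 ((num k + X · den k)(X · num k + β · den k) + 2 α X · num k · den k)`,

starting from `(1, 0)`, `(X, 1)`, `((X² − β)², 4 (X³ + αX² + βX))`.  The divisions are exact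
because consecutive pairs satisfy the symmetric biquadratic "addition relation" `Adj` and each
pair is coprime.  This file: definitions, the three relations, coprimality, degrees and leading
coefficients (`num k` monic of degree `k²`, `den k` of degree `k² − 1` and leading coefficient
`k²`).  No elliptic curve appears here (Mathlib only).
-/
import Mathlib

set_option autoImplicit false

namespace Fermat.Agent.S13.MPoly

open Polynomial

variable {L : Type*} [Field L]

/-- `(X·F − β·G)²`: the numerator of `x(P+T)·x(P−T)` when `x(P) = F/G`, `x(T) = X`. -/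
noncomputable def sS (β : L) (F G : L[X]) : L[X] := (X * F - C β * G) ^ 2

/-- `(F − X·G)²`: the common denominator of `x(P+T)`, `x(P−T)`. -/
noncomputable def sU (F G : L[X]) : L[X] := (F - X * G) ^ 2

/-- The numerator of `x(P+T) + x(P−T)`. -/
noncomputable def sM (α β : L) (F G : L[X]) : L[X] :=
  2 * ((F + X * G) * (X * F + C β * G) + 2 * C α * X * F * G)

/-- The (symmetric) addition relation between two consecutive pairs. -/
def Adj (α β : L) (F' G' F G : L[X]) : Prop :=
  sU F G * F' ^ 2 - sM α β F G * (F' * G') + sS β F G * G' ^ 2 = 0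

theorem adj_symm {α β : L} {F' G' F G : L[X]} (h : Adj α β F' G' F G) : Adj α β F G F' G' := by
  unfold Adj sU sM sS at *
  linear_combination h

@[simp] theorem eval_sS (β ξ : L) (F G : L[X]) :
    (sS β F G).eval ξ = (ξ * F.eval ξ - β * G.eval ξ) ^ 2 := by
  simp [sS]

@[simp] theorem eval_sU (ξ : L) (F G : L[X]) :
    (sU F G).eval ξ = (F.eval ξ - ξ * G.eval ξ) ^ 2 := by
  simp [sU]

@[simp] theorem eval_sM (α β ξ : L) (F G : L[X]) :
    (sM α β F G).eval ξ = 2 * ((F.eval ξ + ξ * G.eval ξ) * (ξ * F.eval ξ + β * G.eval ξ)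
      + 2 * α * ξ * F.eval ξ * G.eval ξ) := by
  simp [sM]

/-- The scalar computation behind coprimality of the next pair. -/
theorem no_common_zero {α β : L} (hβ : β ≠ 0) (hd : α ^ 2 - 4 * β ≠ 0) (h2 : (2 : L) ≠ 0)
    {ξ a b : L} (hab : a ≠ 0 ∨ b ≠ 0)
    (hS : (ξ * a - β * b) ^ 2 = 0) (hU : (a - ξ * b) ^ 2 = 0)
    (hM : 2 * ((a + ξ * b) * (ξ * a + β * b) + 2 * α * ξ * a * b) = 0) : False := by
  have h1 : ξ * a - β * b = 0 := pow_eq_zero_iff (two_ne_zero) |>.mp hS
  have h2' : a - ξ * b = 0 := pow_eq_zero_iff (two_ne_zero) |>.mp hU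
  have ha : a = ξ * b := by linear_combination h2'
  have hb : b ≠ 0 := by
    rintro rfl
    rcases hab with h | h
    · exact h (by rw [ha]; ring)
    · exact h rfl
  have hξ : ξ ^ 2 = β := by
    have : b * (ξ ^ 2 - β) = 0 := by rw [ha] at h1; linear_combination h1
    rcases mul_eq_zero.mp this with h | h
    · exact absurd h hb
    · linear_combination h
  have h3 : 4 * β * b ^ 2 * (2 * ξ + α) = 0 := by
    rw [ha] at hM
    linear_combination hM - (4 * ξ * b ^ 2 + 4 * α * b ^ 2) * hξ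
  have h4 : (4 : L) ≠ 0 := by
    have : (4 : L) = 2 * 2 := by norm_num
    rw [this]; exact mul_ne_zero h2 h2
  have h5 : 2 * ξ + α = 0 := by
    rcases mul_eq_zero.mp h3 with h | h
    · exact absurd h (mul_ne_zero (mul_ne_zero h4 hβ) (pow_ne_zero 2 hb))
    · exact h
  apply hd
  linear_combination (α - 2 * ξ) * h5 + 4 * hξ

/-- One step of the recursion: exact division, the three relations, coprimality and the new
addition relation. -/
theorem step_spec [IsAlgClosed L] {α β : L} (hβ : β ≠ 0) (hd : α ^ 2 - 4 * β ≠ 0)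
    (h2 : (2 : L) ≠ 0) {F' G' F G : L[X]} (hF' : F' ≠ 0) (hG' : G' ≠ 0)
    (hcop' : IsCoprime F' G') (hcop : IsCoprime F G) (hadj : Adj α β F' G' F G) :
    F' * (sS β F G / F') = sS β F G ∧ G' * (sU F G / G') = sU F G ∧
    G' * (sS β F G / F') + F' * (sU F G / G') = sM α β F G ∧
    IsCoprime (sS β F G / F') (sU F G / G') ∧
    Adj α β F G (sS β F G / F') (sU F G / G') := by
  have hdS : F' ∣ sS β F G := by
    apply (hcop'.pow_right (n := 2)).dvd_of_dvd_mul_right
    refine ⟨-(sU F G * F') + sM α β F G * G', ?_⟩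
    unfold Adj at hadj
    linear_combination hadj
  have hdU : G' ∣ sU F G := by
    apply (hcop'.symm.pow_right (n := 2)).dvd_of_dvd_mul_right
    refine ⟨sM α β F G * F' - sS β F G * G', ?_⟩
    unfold Adj at hadj
    linear_combination hadj
  have e1 := EuclideanDomain.mul_div_cancel' hF' hdS
  have e2 := EuclideanDomain.mul_div_cancel' hG' hdU
  generalize sS β F G / F' = F'' at e1 ⊢
  generalize sU F G / G' = G'' at e2 ⊢
  have e3 : G' * F'' + F' * G'' = sM α β F G := by
    have h : F' * G' * (G' * F'' + F' * G'' - sM α β F G) = 0 := by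
      unfold Adj at hadj
      linear_combination hadj + G' ^ 2 * e1 + F' ^ 2 * e2
    rcases mul_eq_zero.mp h with h | h
    · exact absurd h (mul_ne_zero hF' hG')
    · linear_combination h
  refine ⟨e1, e2, e3, ?_, ?_⟩
  · rw [Polynomial.isCoprime_iff_aeval_ne_zero_of_isAlgClosed L L F'' G'']
    intro ξ
    by_contra hcon
    push Not at hcon
    obtain ⟨hF0, hG0⟩ := hcon
    simp only [coe_aeval_eq_eval] at hF0 hG0
    have hab := (Polynomial.isCoprime_iff_aeval_ne_zero_of_isAlgClosed L L F G).mp hcop ξ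
    simp only [coe_aeval_eq_eval] at hab
    have E1 := congrArg (eval ξ) e1
    have E2 := congrArg (eval ξ) e2
    have E3 := congrArg (eval ξ) e3
    simp only [eval_mul, eval_add, hF0, hG0, mul_zero, add_zero, eval_sS, eval_sU, eval_sM]
      at E1 E2 E3
    exact no_common_zero hβ hd h2 hab E1.symm E2.symm E3.symm
  · apply adj_symm
    unfold Adj
    rw [← e1, ← e2, ← e3]
    ring

/-- Degrees and leading coefficients through one step. -/
theorem step_deg [CharZero L] {β : L} {F' G' F G F'' G'' : L[X]} (n : ℕ)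
    (hF' : F'.Monic) (hF'd : F'.natDegree = (n + 1) ^ 2)
    (hG'd : G'.natDegree + 1 = (n + 1) ^ 2) (hG'l : G'.leadingCoeff = ((n + 1 : ℕ) : L) ^ 2)
    (hF : F.Monic) (hFd : F.natDegree = (n + 2) ^ 2)
    (hGd : G.natDegree + 1 = (n + 2) ^ 2) (hGl : G.leadingCoeff = ((n + 2 : ℕ) : L) ^ 2)
    (e1 : F' * F'' = sS β F G) (e2 : G' * G'' = sU F G) :
    F''.Monic ∧ F''.natDegree = (n + 3) ^ 2 ∧ G''.natDegree + 1 = (n + 3) ^ 2 ∧
      G''.leadingCoeff = ((n + 3 : ℕ) : L) ^ 2 := by
  have hF0 : F ≠ 0 := hF.ne_zero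
  -- the numerator side
  have hXF : (X * F).Monic := monic_X.mul hF
  have hXFd : (X * F).natDegree = (n + 2) ^ 2 + 1 := by rw [natDegree_X_mul hF0, hFd]
  have hCG : (C β * G).natDegree < (X * F).natDegree := by
    have := natDegree_C_mul_le β G
    rw [hXFd]; omega
  have hA : (X * F - C β * G).Monic := hXF.sub_of_left (degree_lt_degree hCG)
  have hAd : (X * F - C β * G).natDegree = (n + 2) ^ 2 + 1 := by
    rw [natDegree_sub_eq_left_of_natDegree_lt hCG, hXFd]
  have hS : (sS β F G).Monic := hA.pow 2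
  have hSd : (sS β F G).natDegree = 2 * ((n + 2) ^ 2 + 1) := by
    unfold sS; rw [hA.natDegree_pow, hAd]
  have hF''m : F''.Monic := by
    rw [← e1] at hS
    exact hF'.of_mul_monic_left hS
  have hF''d : F''.natDegree = (n + 3) ^ 2 := by
    have := hF'.natDegree_mul hF''m
    rw [e1, hSd, hF'd] at this
    have e : 2 * ((n + 2) ^ 2 + 1) = (n + 1) ^ 2 + (n + 3) ^ 2 := by ring
    omega
  -- the denominator side
  have hE_le : (F - X * G).natDegree ≤ (n + 2) ^ 2 := by
    refine (natDegree_sub_le _ _).trans (max_le hFd.le ?_)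
    refine natDegree_mul_le.trans ?_
    rw [natDegree_X]; omega
  have hE_coeff : (F - X * G).coeff ((n + 2) ^ 2) = 1 - ((n + 2 : ℕ) : L) ^ 2 := by
    rw [coeff_sub]
    have h1 : F.coeff ((n + 2) ^ 2) = 1 := by rw [← hFd]; exact hF.coeff_natDegree
    have h2 : (X * G).coeff ((n + 2) ^ 2) = ((n + 2 : ℕ) : L) ^ 2 := by
      rw [← hGd, coeff_X_mul, coeff_natDegree, hGl]
    rw [h1, h2]
  have hne : (1 : L) - ((n + 2 : ℕ) : L) ^ 2 ≠ 0 := by
    intro h
    have h' : (((n + 2) ^ 2 : ℕ) : L) = ((1 : ℕ) : L) := by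
      push_cast at h ⊢; linear_combination -h
    have h1 := Nat.cast_injective h'
    have h4 : 2 ≤ n + 2 := by omega
    have h5 := Nat.pow_le_pow_left h4 2
    norm_num at h5
    omega
  have hEd : (F - X * G).natDegree = (n + 2) ^ 2 :=
    natDegree_eq_of_le_of_coeff_ne_zero hE_le (by rw [hE_coeff]; exact hne)
  have hEl : (F - X * G).leadingCoeff = 1 - ((n + 2 : ℕ) : L) ^ 2 := by
    rw [leadingCoeff, hEd, hE_coeff]
  have hUd : (sU F G).natDegree = 2 * (n + 2) ^ 2 := by unfold sU; rw [natDegree_pow, hEd]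
  have hUl : (sU F G).leadingCoeff = (1 - ((n + 2 : ℕ) : L) ^ 2) ^ 2 := by
    unfold sU; rw [leadingCoeff_pow, hEl]
  have hU0 : sU F G ≠ 0 := by
    intro h; rw [h, leadingCoeff_zero] at hUl; exact pow_ne_zero 2 hne hUl.symm
  have hG'0 : G' ≠ 0 := by rintro rfl; rw [zero_mul] at e2; exact hU0 e2.symm
  have hG''0 : G'' ≠ 0 := by rintro rfl; rw [mul_zero] at e2; exact hU0 e2.symm
  have hdeg := natDegree_mul hG'0 hG''0
  rw [e2, hUd] at hdeg
  have hlc := leadingCoeff_mul G' G''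
  rw [e2, hUl, hG'l] at hlc
  refine ⟨hF''m, hF''d, ?_, ?_⟩
  · have e : 2 * (n + 2) ^ 2 + 2 = (n + 1) ^ 2 + (n + 3) ^ 2 := by ring
    omega
  · have hn1 : ((n + 1 : ℕ) : L) ^ 2 ≠ 0 :=
      pow_ne_zero 2 (Nat.cast_ne_zero.mpr (Nat.succ_ne_zero n))
    apply mul_left_cancel₀ hn1
    rw [← hlc]
    push_cast
    ring

/-! ### The sequences -/

/-- One step on states `((F_{k-1}, G_{k-1}), (F_k, G_k))`. -/
noncomputable def step (β : L) (s : (L[X] × L[X]) × (L[X] × L[X])) :
    (L[X] × L[X]) × (L[X] × L[X]) :=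
  (s.2, (sS β s.2.1 s.2.2 / s.1.1, sU s.2.1 s.2.2 / s.1.2))

/-- The state `((F_{n+1}, G_{n+1}), (F_{n+2}, G_{n+2}))`. -/
noncomputable def st (α β : L) : ℕ → (L[X] × L[X]) × (L[X] × L[X])
  | 0 => ((X, 1), ((X ^ 2 - C β) ^ 2, 4 * (X ^ 3 + C α * X ^ 2 + C β * X)))
  | n + 1 => step β (st α β n)

/-- Numerator of `x(k • T)` as a polynomial in `x(T)`. -/
noncomputable def num (α β : L) : ℕ → L[X]
  | 0 => 1
  | n + 1 => (st α β n).1.1

/-- Denominator of `x(k • T)` as a polynomial in `x(T)`. -/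
noncomputable def den (α β : L) : ℕ → L[X]
  | 0 => 0
  | n + 1 => (st α β n).1.2

@[simp] theorem num_zero (α β : L) : num α β 0 = 1 := rfl
@[simp] theorem den_zero (α β : L) : den α β 0 = 0 := rfl
@[simp] theorem num_one (α β : L) : num α β 1 = X := rfl
@[simp] theorem den_one (α β : L) : den α β 1 = 1 := rfl
theorem num_two (α β : L) : num α β 2 = (X ^ 2 - C β) ^ 2 := rfl
theorem den_two (α β : L) : den α β 2 = 4 * (X ^ 3 + C α * X ^ 2 + C β * X) := rfl

theorem num_add_three (α β : L) (n : ℕ) :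
    num α β (n + 3) = sS β (num α β (n + 2)) (den α β (n + 2)) / num α β (n + 1) := rfl

theorem den_add_three (α β : L) (n : ℕ) :
    den α β (n + 3) = sU (num α β (n + 2)) (den α β (n + 2)) / den α β (n + 1) := rfl

/-- The invariants of the state of index `n`. -/
structure Inv (α β : L) (n : ℕ) : Prop where
  cop₁ : IsCoprime (num α β (n + 1)) (den α β (n + 1))
  cop₂ : IsCoprime (num α β (n + 2)) (den α β (n + 2))
  adj : Adj α β (num α β (n + 1)) (den α β (n + 1)) (num α β (n + 2)) (den α β (n + 2))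
  mon₁ : (num α β (n + 1)).Monic
  deg₁ : (num α β (n + 1)).natDegree = (n + 1) ^ 2
  dG₁ : (den α β (n + 1)).natDegree + 1 = (n + 1) ^ 2
  lG₁ : (den α β (n + 1)).leadingCoeff = ((n + 1 : ℕ) : L) ^ 2
  mon₂ : (num α β (n + 2)).Monic
  deg₂ : (num α β (n + 2)).natDegree = (n + 2) ^ 2
  dG₂ : (den α β (n + 2)).natDegree + 1 = (n + 2) ^ 2
  lG₂ : (den α β (n + 2)).leadingCoeff = ((n + 2 : ℕ) : L) ^ 2

theorem den_ne_zero_of_lc [CharZero L] {α β : L} {k : ℕ} (hk : k ≠ 0)
    (h : (den α β k).leadingCoeff = ((k : ℕ) : L) ^ 2) : den α β k ≠ 0 := by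
  intro h0
  rw [h0, leadingCoeff_zero] at h
  exact pow_ne_zero 2 (Nat.cast_ne_zero.mpr hk) h.symm

theorem inv_zero [IsAlgClosed L] [CharZero L] {α β : L} (hβ : β ≠ 0) (hd : α ^ 2 - 4 * β ≠ 0) :
    Inv α β 0 := by
  have h4 : (4 : L) ≠ 0 := by norm_num
  have hcub : (X ^ 3 + C α * X ^ 2 + C β * X : L[X]).Monic := by
    have : (X ^ 3 + C α * X ^ 2 + C β * X : L[X]) = X ^ 3 + (C α * X ^ 2 + C β * X) := by ring
    rw [this]
    apply monic_X_pow_add
    compute_degree!
  have hcubd : (X ^ 3 + C α * X ^ 2 + C β * X : L[X]).natDegree = 3 := by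
    compute_degree!
  have h4C : (4 : L[X]) = C (4 : L) := (map_ofNat C 4).symm
  refine ⟨isCoprime_one_right, ?_, ?_, monic_X, by simp, by simp, by simp, ?_, ?_, ?_, ?_⟩
  · rw [num_two, den_two, Polynomial.isCoprime_iff_aeval_ne_zero_of_isAlgClosed L L]
    intro ξ
    by_contra hcon
    push Not at hcon
    obtain ⟨h1, h2⟩ := hcon
    simp only [coe_aeval_eq_eval, eval_pow, eval_sub, eval_X, eval_C, eval_mul, eval_add,
      eval_ofNat] at h1 h2
    have h1' : ξ ^ 2 - β = 0 := pow_eq_zero_iff (two_ne_zero) |>.mp h1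
    have h2' : ξ * (ξ ^ 2 + α * ξ + β) = 0 := by
      have : (4 : L) * (ξ * (ξ ^ 2 + α * ξ + β)) = 0 := by linear_combination h2
      exact (mul_eq_zero.mp this).resolve_left h4
    rcases mul_eq_zero.mp h2' with h | hq
    · apply hβ
      rw [h] at h1'
      linear_combination -h1'
    · have : β * (α ^ 2 - 4 * β) = 0 := by
        linear_combination (-α ^ 2) * h1' + (α * ξ - 2 * β) * hq - (α * ξ - 2 * β) * h1'
      rcases mul_eq_zero.mp this with h | h
      · exact hβ h
      · exact hd h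
  · rw [num_two, den_two, num_one, den_one]
    unfold Adj sU sM sS
    ring
  · rw [num_two]
    exact (monic_X_pow_sub_C β (by norm_num)).pow 2
  · rw [num_two, (monic_X_pow_sub_C β (by norm_num : (2 : ℕ) ≠ 0)).natDegree_pow,
      natDegree_X_pow_sub_C]
    norm_num
  · rw [den_two, h4C, natDegree_C_mul h4, hcubd]
    norm_num
  · rw [den_two, leadingCoeff_mul, hcub.leadingCoeff, h4C, leadingCoeff_C]
    norm_num

theorem inv_succ [IsAlgClosed L] [CharZero L] {α β : L} (hβ : β ≠ 0) (hd : α ^ 2 - 4 * β ≠ 0)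
    {n : ℕ} (h : Inv α β n) : Inv α β (n + 1) := by
  have h2 : (2 : L) ≠ 0 := two_ne_zero
  have hG' : den α β (n + 1) ≠ 0 := den_ne_zero_of_lc (Nat.succ_ne_zero n) h.lG₁
  obtain ⟨e1, e2, -, hcop, hadj⟩ := step_spec hβ hd h2 h.mon₁.ne_zero hG' h.cop₁ h.cop₂ h.adj
  obtain ⟨m, d, dG, lG⟩ := step_deg (β := β) n h.mon₁ h.deg₁ h.dG₁ h.lG₁ h.mon₂ h.deg₂ h.dG₂ h.lG₂
    e1 e2
  exact ⟨h.cop₂, hcop, hadj, h.mon₂, h.deg₂, h.dG₂, h.lG₂, m, d, dG, lG⟩

theorem inv_all [IsAlgClosed L] [CharZero L] {α β : L} (hβ : β ≠ 0) (hd : α ^ 2 - 4 * β ≠ 0)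
    (n : ℕ) : Inv α β n := by
  induction n with
  | zero => exact inv_zero hβ hd
  | succ n ih => exact inv_succ hβ hd ih

/-! ### Consequences: properties of `num k`, `den k` for all `k` -/

section Facts

variable [IsAlgClosed L] [CharZero L] {α β : L}

theorem num_monic (hβ : β ≠ 0) (hd : α ^ 2 - 4 * β ≠ 0) (k : ℕ) : (num α β k).Monic := by
  rcases k with _ | n
  · exact monic_one
  · exact (inv_all hβ hd n).mon₁

theorem natDegree_num (hβ : β ≠ 0) (hd : α ^ 2 - 4 * β ≠ 0) (k : ℕ) :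
    (num α β k).natDegree = k ^ 2 := by
  rcases k with _ | n
  · simp
  · exact (inv_all hβ hd n).deg₁

theorem natDegree_den (hβ : β ≠ 0) (hd : α ^ 2 - 4 * β ≠ 0) {k : ℕ} (hk : k ≠ 0) :
    (den α β k).natDegree + 1 = k ^ 2 := by
  rcases k with _ | n
  · exact absurd rfl hk
  · exact (inv_all hβ hd n).dG₁

theorem leadingCoeff_den (hβ : β ≠ 0) (hd : α ^ 2 - 4 * β ≠ 0) (k : ℕ) :
    (den α β k).leadingCoeff = (k : L) ^ 2 := by
  rcases k with _ | n
  · simp
  · exact (inv_all hβ hd n).lG₁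

theorem den_ne_zero (hβ : β ≠ 0) (hd : α ^ 2 - 4 * β ≠ 0) {k : ℕ} (hk : k ≠ 0) :
    den α β k ≠ 0 :=
  den_ne_zero_of_lc hk (leadingCoeff_den hβ hd k)

theorem isCoprime_num_den (hβ : β ≠ 0) (hd : α ^ 2 - 4 * β ≠ 0) (k : ℕ) :
    IsCoprime (num α β k) (den α β k) := by
  rcases k with _ | n
  · exact isCoprime_one_left
  · exact (inv_all hβ hd n).cop₁

/-- `num k` and `den k` have no common root. -/
theorem eval_ne_zero_or (hβ : β ≠ 0) (hd : α ^ 2 - 4 * β ≠ 0) (k : ℕ) (ξ : L) :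
    (num α β k).eval ξ ≠ 0 ∨ (den α β k).eval ξ ≠ 0 := by
  have h := (Polynomial.isCoprime_iff_aeval_ne_zero_of_isAlgClosed L L _ _).mp
    (isCoprime_num_den hβ hd k) ξ
  simpa only [coe_aeval_eq_eval] using h

theorem rel_S (hβ : β ≠ 0) (hd : α ^ 2 - 4 * β ≠ 0) (n : ℕ) :
    num α β (n + 2) * num α β n = sS β (num α β (n + 1)) (den α β (n + 1)) := by
  rcases n with _ | m
  · rw [num_two, num_zero, num_one, den_one]
    unfold sS
    ring
  · have h := inv_all hβ hd m
    have hG' : den α β (m + 1) ≠ 0 := den_ne_zero hβ hd (Nat.succ_ne_zero m)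
    obtain ⟨e1, -, -, -, -⟩ :=
      step_spec hβ hd two_ne_zero h.mon₁.ne_zero hG' h.cop₁ h.cop₂ h.adj
    rw [num_add_three, mul_comm]
    exact e1

theorem rel_U (hβ : β ≠ 0) (hd : α ^ 2 - 4 * β ≠ 0) (n : ℕ) :
    den α β (n + 2) * den α β n = sU (num α β (n + 1)) (den α β (n + 1)) := by
  rcases n with _ | m
  · rw [den_zero, num_one, den_one]
    unfold sU
    ring
  · have h := inv_all hβ hd m
    have hG' : den α β (m + 1) ≠ 0 := den_ne_zero hβ hd (Nat.succ_ne_zero m)
    obtain ⟨-, e2, -, -, -⟩ :=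
      step_spec hβ hd two_ne_zero h.mon₁.ne_zero hG' h.cop₁ h.cop₂ h.adj
    rw [den_add_three, mul_comm]
    exact e2

theorem rel_M (hβ : β ≠ 0) (hd : α ^ 2 - 4 * β ≠ 0) (n : ℕ) :
    den α β n * num α β (n + 2) + num α β n * den α β (n + 2)
      = sM α β (num α β (n + 1)) (den α β (n + 1)) := by
  rcases n with _ | m
  · rw [den_zero, num_zero, den_two, num_one, den_one]
    unfold sM
    ring
  · have h := inv_all hβ hd m
    have hG' : den α β (m + 1) ≠ 0 := den_ne_zero hβ hd (Nat.succ_ne_zero m)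
    obtain ⟨-, -, e3, -, -⟩ :=
      step_spec hβ hd two_ne_zero h.mon₁.ne_zero hG' h.cop₁ h.cop₂ h.adj
    rw [num_add_three, den_add_three]
    exact e3

end Facts

end Fermat.Agent.S13.MPoly
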