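/-
S13 team, block [M], function-field-free route (owner: helper97).

Specialisation of the polynomials `num k`, `den k` of `MPolyDef.lean` to points of the short curve
`y² = x³ + αx² + βx` over an algebraically closed field of characteristic zero:

  `spec` : for every affine point `T` and every `k`,
     `(k • T = 0 ↔ (den k)(x_T) = 0) ∧ (k • T ≠ 0 → x(k • T) · (den k)(x_T) = (num k)(x_T))`.

Consequences: (M1) `exists_torsion_short` (a nonzero point killed by `p`, for every `p ≥ 2`).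
-/
import Fermat.Agent.S13.MPolyDef
import Fermat.Agent.S05.PB_Formulas

set_option autoImplicit false

namespace Fermat.Agent.S13.MPoly

open Polynomial WeierstrassCurve
open Fermat.Agent.S05

variable {L : Type*} [Field L]

/-- Every solution of the short equation is a nonsingular point (the curve is smooth). -/
theorem nonsingular_of_eq {α β : L} (hβ : β ≠ 0) (hd : α ^ 2 - 4 * β ≠ 0) (h2 : (2 : L) ≠ 0)
    {ξ η : L} (h : η ^ 2 = ξ ^ 3 + α * ξ ^ 2 + β * ξ) :
    (shortCurve α β).toAffine.Nonsingular ξ η := by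
  rw [Affine.nonsingular_iff']
  refine ⟨(PB.equation_iff α β ξ η).mpr h, ?_⟩
  simp only [shortCurve_a₁, shortCurve_a₂, shortCurve_a₃, shortCurve_a₄]
  by_cases hη : η = 0
  · left
    subst hη
    intro h3
    have h0 : ξ * (ξ ^ 2 + α * ξ + β) = 0 := by linear_combination -h
    have h3' : 3 * ξ ^ 2 + 2 * α * ξ + β = 0 := by linear_combination -h3
    rcases mul_eq_zero.mp h0 with hξ | hq
    · apply hβ
      rw [hξ] at h3'
      linear_combination h3'
    · have h5 : ξ * (2 * ξ + α) = 0 := by linear_combination h3' - hq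
      rcases mul_eq_zero.mp h5 with hξ | h6
      · apply hβ
        rw [hξ] at h3'
        linear_combination h3'
      · apply hd
        linear_combination (2 * ξ + α) * h6 - 4 * hq
  · right
    intro h3
    apply hη
    have : 2 * η = 0 := by linear_combination h3
    exact (mul_eq_zero.mp this).resolve_left h2

/-- Over an algebraically closed field every `ξ` is the `x`-coordinate of an affine point. -/
theorem exists_point [IsAlgClosed L] {α β : L} (hβ : β ≠ 0) (hd : α ^ 2 - 4 * β ≠ 0)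
    (h2 : (2 : L) ≠ 0) (ξ : L) :
    ∃ T : (shortCurve α β).toAffine.Point, T ≠ 0 ∧ PB.xco T = ξ := by
  obtain ⟨η, hη⟩ := IsAlgClosed.exists_pow_nat_eq (ξ ^ 3 + α * ξ ^ 2 + β * ξ) (n := 2) (by norm_num)
  exact ⟨.some ξ η (nonsingular_of_eq hβ hd h2 hη), Affine.Point.some_ne_zero _, rfl⟩

variable [DecidableEq L]

/-- `(x(P+Q) + x(P−Q)) (x_P − x_Q)² = 2 ((x_P + x_Q)(x_P x_Q + b) + 2 a x_P x_Q)`. -/
theorem xco_add_add_sub (a b : L) {P Q : (shortCurve a b).toAffine.Point} (hP : P ≠ 0)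
    (hQ : Q ≠ 0) (hx : PB.xco P ≠ PB.xco Q) :
    (PB.xco (P + Q) + PB.xco (P - Q)) * (PB.xco P - PB.xco Q) ^ 2
      = 2 * ((PB.xco P + PB.xco Q) * (PB.xco P * PB.xco Q + b)
          + 2 * a * PB.xco P * PB.xco Q) := by
  cases P with
  | zero => exact absurd rfl hP
  | some x₁ y₁ h₁ =>
    cases Q with
    | zero => exact absurd rfl hQ
    | some x₂ y₂ h₂ =>
      obtain ⟨x₃, y₃, h₃, e₃, hx₃⟩ := PB.add_x a b h₁ h₂ hx
      obtain ⟨x₄, y₄, h₄, e₄, hx₄⟩ := PB.sub_x a b h₁ h₂ hx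
      have E₁ := (PB.equation_iff a b x₁ y₁).mp h₁.1
      have E₂ := (PB.equation_iff a b x₂ y₂).mp h₂.1
      rw [e₃, e₄]
      simp only [PB.xco_some]
      linear_combination hx₃ + hx₄ + 2 * E₁ + 2 * E₂

/-- The inductive step of the specialisation, in terms of scalars. -/
theorem spec_step {α β : L} (h2 : (2 : L) ≠ 0) (T P : (shortCurve α β).toAffine.Point)
    (hT : T ≠ 0) {a₀ b₀ a₁ b₁ a₂ b₂ : L}
    (R1 : a₂ * a₀ = (PB.xco T * a₁ - β * b₁) ^ 2)
    (R2 : b₂ * b₀ = (a₁ - PB.xco T * b₁) ^ 2)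
    (R3 : b₀ * a₂ + a₀ * b₂
      = 2 * ((a₁ + PB.xco T * b₁) * (PB.xco T * a₁ + β * b₁) + 2 * α * PB.xco T * a₁ * b₁))
    (N0 : a₀ ≠ 0 ∨ b₀ ≠ 0) (N1 : a₁ ≠ 0 ∨ b₁ ≠ 0)
    (H0 : (P - T = 0 ↔ b₀ = 0) ∧ (P - T ≠ 0 → PB.xco (P - T) * b₀ = a₀))
    (H1 : (P = 0 ↔ b₁ = 0) ∧ (P ≠ 0 → PB.xco P * b₁ = a₁)) :
    (P + T = 0 ↔ b₂ = 0) ∧ (P + T ≠ 0 → PB.xco (P + T) * b₂ = a₂) := by
  have h4 : (4 : L) ≠ 0 := by
    have : (4 : L) = 2 * 2 := by norm_num
    rw [this]; exact mul_ne_zero h2 h2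
  by_cases hP : P = 0
  · -- `P = 0`: `P + T = T`, `P - T = -T`
    subst hP
    have hb₁ : b₁ = 0 := H1.1.mp rfl
    have ha₁ : a₁ ≠ 0 := N1.resolve_right (not_not.mpr hb₁)
    have hnT : (0 : (shortCurve α β).toAffine.Point) - T ≠ 0 := by
      rw [zero_sub]; exact neg_ne_zero.mpr hT
    have hb₀ : b₀ ≠ 0 := fun h => hnT (H0.1.mpr h)
    have ha₀ := H0.2 hnT
    rw [zero_sub, PB.xco_neg] at ha₀
    subst hb₁
    have hR2 : b₂ * b₀ = a₁ ^ 2 := by rw [R2]; ring
    have hb₂ : b₂ ≠ 0 := by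
      intro h
      rw [h, zero_mul] at hR2
      exact pow_ne_zero 2 ha₁ hR2.symm
    rw [zero_add]
    refine ⟨⟨fun h => absurd h hT, fun h => absurd h hb₂⟩, fun _ => ?_⟩
    apply mul_left_cancel₀ hb₀
    linear_combination (-1 : L) * R3 - b₂ * ha₀ + 2 * PB.xco T * R2
  by_cases hPT : P - T = 0
  · -- `P = T`: doubling
    obtain rfl : P = T := sub_eq_zero.mp hPT
    have hb₀ : b₀ = 0 := H0.1.mp hPT
    have ha₀ : a₀ ≠ 0 := N0.resolve_right (not_not.mpr hb₀)
    have hb₁ : b₁ ≠ 0 := fun h => hP (H1.1.mpr h)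
    have ha₁ := H1.2 hP
    subst hb₀
    cases P with
    | zero => exact absurd rfl hT
    | some ξ η h =>
      simp only [PB.xco_some] at R1 R2 R3 ha₁
      have E := (PB.equation_iff α β ξ η).mp h.1
      have hR3 : a₀ * b₂ = 4 * b₁ ^ 2 * η ^ 2 := by
        rw [← ha₁] at R3
        linear_combination R3 - 4 * b₁ ^ 2 * E
      have hR1 : a₂ * a₀ = b₁ ^ 2 * (ξ ^ 2 - β) ^ 2 := by
        rw [← ha₁] at R1
        linear_combination R1
      by_cases hη : η = 0
      · have hTT : Affine.Point.some ξ η h + Affine.Point.some ξ η h = 0 := by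
          apply Affine.Point.add_self_of_Y_eq
          rw [PB.negY_eq, hη, neg_zero]
        have hb₂ : b₂ = 0 := by
          rw [hη] at hR3
          have : a₀ * b₂ = 0 := by rw [hR3]; ring
          exact (mul_eq_zero.mp this).resolve_left ha₀
        exact ⟨⟨fun _ => hb₂, fun _ => hTT⟩, fun hne => absurd hTT hne⟩
      · obtain ⟨x₃, y₃, h₃, e₃, hh⟩ := PB.dbl α β h2 h hη
        have hb₂ : b₂ ≠ 0 := by
          intro h0
          rw [h0, mul_zero] at hR3
          exact mul_ne_zero (mul_ne_zero h4 (pow_ne_zero 2 hb₁)) (pow_ne_zero 2 hη) hR3.symm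
        rw [e₃]
        refine ⟨⟨fun h => absurd h (Affine.Point.some_ne_zero _), fun h => absurd h hb₂⟩,
          fun _ => ?_⟩
        simp only [PB.xco_some]
        apply mul_left_cancel₀ ha₀
        linear_combination x₃ * hR3 - hR1 + b₁ ^ 2 * hh
  · have hb₀ : b₀ ≠ 0 := fun h => hPT (H0.1.mpr h)
    have ha₀ := H0.2 hPT
    have hb₁ : b₁ ≠ 0 := fun h => hP (H1.1.mpr h)
    have ha₁ := H1.2 hP
    by_cases hPT' : P + T = 0
    · -- `P = -T`
      have hx : PB.xco P = PB.xco T := by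
        have : P = -T := eq_neg_of_add_eq_zero_left hPT'
        rw [this, PB.xco_neg]
      have hb₂ : b₂ = 0 := by
        have : b₂ * b₀ = 0 := by rw [R2, ← ha₁, hx]; ring
        exact (mul_eq_zero.mp this).resolve_right hb₀
      exact ⟨⟨fun _ => hb₂, fun _ => hPT'⟩, fun hne => absurd hPT' hne⟩
    · -- the generic case
      have hx : PB.xco P ≠ PB.xco T := by
        intro hx
        rcases PB.eq_or_eq_neg_of_xco_eq hP hT hx with h | h
        · exact hPT (by rw [h, sub_self])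
        · exact hPT' (by rw [h, neg_add_cancel])
      have hsum := xco_add_add_sub α β hP hT hx
      have hd2 : (PB.xco P - PB.xco T) ^ 2 ≠ 0 := pow_ne_zero 2 (sub_ne_zero.mpr hx)
      have hR2 : b₂ * b₀ = b₁ ^ 2 * (PB.xco P - PB.xco T) ^ 2 := by rw [R2, ← ha₁]; ring
      have hb₂ : b₂ ≠ 0 := by
        intro h0
        rw [h0, zero_mul] at hR2
        exact mul_ne_zero (pow_ne_zero 2 hb₁) hd2 hR2.symm
      refine ⟨⟨fun h => absurd h hPT', fun h => absurd h hb₂⟩, fun _ => ?_⟩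
      apply mul_left_cancel₀ hb₀
      rw [← ha₁] at R3
      linear_combination (-1 : L) * R3 - b₂ * ha₀
        + (PB.xco (P + T) + PB.xco (P - T)) * hR2 + b₁ ^ 2 * hsum

/-- **Specialisation.**  For an affine point `T` of the short curve and every `k`:
`k • T = 0` iff `den k` vanishes at `x_T`, and otherwise `x(k • T) = (num k)(x_T) / (den k)(x_T)`. -/
theorem spec [IsAlgClosed L] [CharZero L] {α β : L} (hβ : β ≠ 0) (hd : α ^ 2 - 4 * β ≠ 0)
    (T : (shortCurve α β).toAffine.Point) (hT : T ≠ 0) (k : ℕ) :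
    (k • T = 0 ↔ (den α β k).eval (PB.xco T) = 0) ∧
    (k • T ≠ 0 →
      PB.xco (k • T) * (den α β k).eval (PB.xco T) = (num α β k).eval (PB.xco T)) := by
  suffices h : ∀ n : ℕ,
      ((n • T = 0 ↔ (den α β n).eval (PB.xco T) = 0) ∧
        (n • T ≠ 0 →
          PB.xco (n • T) * (den α β n).eval (PB.xco T) = (num α β n).eval (PB.xco T))) ∧
      (((n + 1) • T = 0 ↔ (den α β (n + 1)).eval (PB.xco T) = 0) ∧
        ((n + 1) • T ≠ 0 →
          PB.xco ((n + 1) • T) * (den α β (n + 1)).eval (PB.xco T)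
            = (num α β (n + 1)).eval (PB.xco T))) from (h k).1
  intro n
  induction n with
  | zero =>
    refine ⟨⟨by simp, fun h => absurd (zero_nsmul T) h⟩, ?_⟩
    rw [zero_add, one_nsmul]
    simp [hT]
  | succ n ih =>
    refine ⟨ih.2, ?_⟩
    have R1 := congrArg (eval (PB.xco T)) (rel_S hβ hd n)
    have R2 := congrArg (eval (PB.xco T)) (rel_U hβ hd n)
    have R3 := congrArg (eval (PB.xco T)) (rel_M hβ hd n)
    simp only [eval_mul, eval_add, eval_sS, eval_sU, eval_sM] at R1 R2 R3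
    have hsub : (n + 1) • T - T = n • T := by rw [succ_nsmul, add_sub_cancel_right]
    have hadd : (n + 1 + 1) • T = (n + 1) • T + T := succ_nsmul T (n + 1)
    rw [hadd]
    refine spec_step two_ne_zero T ((n + 1) • T) hT R1 R2 R3 (eval_ne_zero_or hβ hd n _)
      (eval_ne_zero_or hβ hd (n + 1) _) ?_ ih.2
    rw [hsub]
    exact ih.1

/-- **(M1)**: the short curve has a nonzero point killed by `p`, for every `p ≥ 2`. -/
theorem exists_torsion_short [IsAlgClosed L] [CharZero L] (α β : L) (hβ : β ≠ 0)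
    (hd : α ^ 2 - 4 * β ≠ 0) (p : ℕ) (hp : 2 ≤ p) :
    ∃ T : (shortCurve α β).toAffine.Point, T ≠ 0 ∧ p • T = 0 := by
  have hdeg : (den α β p).natDegree + 1 = p ^ 2 := natDegree_den hβ hd (by omega)
  have hne : (den α β p).degree ≠ 0 := by
    intro h0
    have h1 : (den α β p).natDegree = 0 := natDegree_eq_zero_iff_degree_le_zero.mpr h0.le
    have h2 : 2 ^ 2 ≤ p ^ 2 := Nat.pow_le_pow_left hp 2
    omega
  obtain ⟨ξ, hξ⟩ := IsAlgClosed.exists_root (den α β p) hne
  obtain ⟨T, hT, hx⟩ := exists_point hβ hd two_ne_zero ξ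
  exact ⟨T, hT, (spec hβ hd T hT p).1.mpr (by rw [hx]; exact hξ)⟩

/-- **Card bound**: a finite set of points killed by `p` has fewer than `p³` elements
(indeed at most `2 (p² − 1) + 1`: the `x`-coordinates are roots of `den p`). -/
theorem card_torsion_lt [IsAlgClosed L] [CharZero L] (α β : L) (hβ : β ≠ 0)
    (hd : α ^ 2 - 4 * β ≠ 0) (p : ℕ) (hp : 2 ≤ p)
    (S : Finset (shortCurve α β).toAffine.Point) (hS : ∀ T ∈ S, p • T = 0) :
    S.card < p ^ 3 := by
  classical
  have hden0 : den α β p ≠ 0 := den_ne_zero hβ hd (by omega)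
  have hdeg : (den α β p).natDegree + 1 = p ^ 2 := natDegree_den hβ hd (by omega)
  have himg : (S.erase 0).image PB.xco ⊆ (den α β p).roots.toFinset := by
    intro r hr
    obtain ⟨T, hT, rfl⟩ := Finset.mem_image.mp hr
    have hT0 : T ≠ 0 := (Finset.mem_erase.mp hT).1
    have hTS : T ∈ S := (Finset.mem_erase.mp hT).2
    rw [Multiset.mem_toFinset, mem_roots hden0]
    exact (spec hβ hd T hT0 p).1.mp (hS T hTS)
  have hcard_img : ((S.erase 0).image PB.xco).card ≤ p ^ 2 - 1 := by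
    calc ((S.erase 0).image PB.xco).card ≤ (den α β p).roots.toFinset.card :=
          Finset.card_le_card himg
      _ ≤ Multiset.card (den α β p).roots := Multiset.toFinset_card_le _
      _ ≤ (den α β p).natDegree := card_roots' _
      _ = p ^ 2 - 1 := by omega
  have hfib : ∀ r ∈ (S.erase 0).image PB.xco,
      ((S.erase 0).filter fun T => PB.xco T = r).card ≤ 2 := by
    intro r hr
    obtain ⟨T₀, hT₀, rfl⟩ := Finset.mem_image.mp hr
    have hT₀0 : T₀ ≠ 0 := (Finset.mem_erase.mp hT₀).1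
    have hsub : ((S.erase 0).filter fun T => PB.xco T = PB.xco T₀) ⊆ {T₀, -T₀} := by
      intro T hT
      rw [Finset.mem_filter] at hT
      have hT0 : T ≠ 0 := (Finset.mem_erase.mp hT.1).1
      rcases PB.eq_or_eq_neg_of_xco_eq hT0 hT₀0 hT.2 with h | h
      · rw [h]; exact Finset.mem_insert_self _ _
      · rw [h]; exact Finset.mem_insert_of_mem (Finset.mem_singleton_self _)
    exact (Finset.card_le_card hsub).trans Finset.card_le_two
  have h1 : (S.erase 0).card ≤ 2 * ((S.erase 0).image PB.xco).card :=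
    Finset.card_le_mul_card_image (S.erase 0) 2 hfib
  have h2 : S.card - 1 ≤ (S.erase 0).card := Finset.pred_card_le_card_erase
  have h3 : 2 * p ^ 2 ≤ p ^ 3 := by
    have : p ^ 3 = p * p ^ 2 := by ring
    rw [this]; exact Nat.mul_le_mul_right _ hp
  have h4 : 1 ≤ p ^ 2 := Nat.one_le_pow _ _ (by omega)
  omega

end Fermat.Agent.S13.MPoly
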