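/-
S13 block [M], sub-block MRat (duplicate B, owner helper4).

Abstract core: on the short model `y² = x³ + a x² + b x` over a field `F` with `2 ≠ 0`, if a
point `P` has no nonzero multiple equal to `0` and its `x`-coordinate lies in a subfield `K`
containing `a`, `b`, then the `x`-coordinate of every multiple of `P` lies in `K`.
-/
import Fermat.Agent.S05.PB_Formulas

set_option autoImplicit false

namespace Fermat.Agent.S13.MRatB

open WeierstrassCurve Fermat.Agent.S05 Fermat.Agent.S05.PB

variable {F : Type*} [Field F] [DecidableEq F]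

/-- A point of the short model with vanishing `x`-coordinate is killed by `2`. -/
theorem two_nsmul_eq_zero_of_xco_eq_zero (a b : F) {P : (shortCurve a b).toAffine.Point}
    (hx : xco P = 0) : 2 • P = 0 := by
  cases P with
  | zero => exact nsmul_zero 2
  | some x y h =>
    simp only [xco_some] at hx
    subst hx
    have E := (equation_iff a b 0 y).mp h.1
    have hy : y = 0 := by
      have : y ^ 2 = 0 := by rw [E]; ring
      exact pow_eq_zero_iff (two_ne_zero) |>.mp this
    rw [two_nsmul]
    apply Affine.Point.add_self_of_Y_eq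
    rw [negY_eq, hy, neg_zero]

/-- Doubling step: `x(2Q)` is a rational expression in `x(Q)`. -/
theorem xco_dbl_mem (K : Subfield F) (a b : F) (ha : a ∈ K) (hb : b ∈ K) (h2 : (2 : F) ≠ 0)
    {Q : (shortCurve a b).toAffine.Point} (hQ : Q ≠ 0) (hQQ : Q + Q ≠ 0) (hx : xco Q ∈ K) :
    xco (Q + Q) ∈ K := by
  have key := xco_dbl a b h2 hQ hQQ
  have hden : (4 * (xco Q * (xco Q ^ 2 + a * xco Q + b))) ≠ 0 := by
    cases Q with
    | zero => exact absurd rfl hQ
    | some x y h =>
      simp only [xco_some]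
      have E := (equation_iff a b x y).mp h.1
      have hy : y ≠ 0 := by
        intro hy
        apply hQQ
        apply Affine.Point.add_self_of_Y_eq
        rw [negY_eq, hy, neg_zero]
      have e : 4 * (x * (x ^ 2 + a * x + b)) = (2 * y) ^ 2 := by linear_combination (-4 : F) * E
      rw [e]
      exact pow_ne_zero 2 (mul_ne_zero h2 hy)
  have e : xco (Q + Q) = (xco Q ^ 2 - b) ^ 2 / (4 * (xco Q * (xco Q ^ 2 + a * xco Q + b))) := by
    rw [eq_div_iff hden]; exact key
  rw [e]
  have h4 : (4 : F) ∈ K := by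
    have : (4 : F) = ((4 : ℕ) : F) := by norm_num
    rw [this]; exact natCast_mem K 4
  exact K.div_mem (K.pow_mem (K.sub_mem (K.pow_mem hx 2) hb) 2)
    (K.mul_mem h4 (K.mul_mem hx (K.add_mem (K.add_mem (K.pow_mem hx 2) (K.mul_mem ha hx)) hb)))

/-- Sum step: `x(Q + R)` is a rational expression in `x(Q)`, `x(R)`, `x(Q - R)`. -/
theorem xco_add_mem (K : Subfield F) (a b : F) (hb : b ∈ K)
    {Q R : (shortCurve a b).toAffine.Point} (hQ : Q ≠ 0) (hR : R ≠ 0)
    (hne : xco Q ≠ xco R) (hsub : xco (Q - R) ≠ 0)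
    (hxQ : xco Q ∈ K) (hxR : xco R ∈ K) (hxS : xco (Q - R) ∈ K) :
    xco (Q + R) ∈ K := by
  have key := xco_add_sub a b hQ hR hne
  have hd : (xco Q - xco R) ^ 2 ≠ 0 := pow_ne_zero 2 (sub_ne_zero.mpr hne)
  have e : xco (Q + R) = (xco Q * xco R - b) ^ 2 / (xco (Q - R) * (xco Q - xco R) ^ 2) := by
    rw [eq_div_iff (mul_ne_zero hsub hd)]
    linear_combination key
  rw [e]
  exact K.div_mem (K.pow_mem (K.sub_mem (K.mul_mem hxQ hxR) hb) 2)
    (K.mul_mem hxS (K.pow_mem (K.sub_mem hxQ hxR) 2))

/-- **MRat, abstract form.** If no nonzero multiple of `P` vanishes and `x(P) ∈ K`, then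
`x(k • P) ∈ K` for all `k`. -/
theorem xco_nsmul_mem (K : Subfield F) (a b : F) (ha : a ∈ K) (hb : b ∈ K) (h2 : (2 : F) ≠ 0)
    (P : (shortCurve a b).toAffine.Point) (hx : xco P ∈ K)
    (hP : ∀ k : ℕ, 0 < k → k • P ≠ 0) : ∀ k : ℕ, xco (k • P) ∈ K := by
  have hP1 : P ≠ 0 := by simpa using hP 1 one_pos
  have hx0 : xco P ≠ 0 := fun h =>
    hP 2 two_pos (two_nsmul_eq_zero_of_xco_eq_zero a b h)
  intro k
  induction k using Nat.strong_induction_on with
  | _ k ih =>
    rcases Nat.eq_zero_or_pos k with rfl | hk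
    · simp [K.zero_mem]
    rcases Nat.even_or_odd' k with ⟨m, rfl | rfl⟩
    · -- even case
      have hm : 0 < m := by omega
      have e : (2 * m) • P = m • P + m • P := by rw [two_mul, add_nsmul]
      rw [e]
      exact xco_dbl_mem K a b ha hb h2 (hP m hm) (by rw [← e]; exact hP _ hk)
        (ih m (by omega))
    · -- odd case
      rcases Nat.eq_zero_or_pos m with rfl | hm
      · simpa using hx
      have e : (2 * m + 1) • P = (m + 1) • P + m • P := by
        rw [← add_nsmul]; congr 1; ring
      have e' : (m + 1) • P - m • P = P := by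
        rw [add_nsmul, one_nsmul]; abel
      rw [e]
      refine xco_add_mem K a b hb (hP _ (Nat.succ_pos m)) (hP m hm) ?_ ?_
        (ih (m + 1) (by omega)) (ih m (by omega)) ?_
      · intro hxx
        rcases eq_or_eq_neg_of_xco_eq (hP _ (Nat.succ_pos m)) (hP m hm) hxx with h | h
        · apply hP1
          rw [← e', h, sub_self]
        · apply hP (2 * m + 1) (by omega)
          rw [e, h, neg_add_cancel]
      · rw [e']; exact hx0
      · rw [e']; exact hx

end Fermat.Agent.S13.MRatB
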