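/-
S13 team, block [M] (M1), final (owner of this file: helper68).

`MTors.exists_torsion_short`: on the short curve `y² = x³ + α x² + β x` over an algebraically
closed field of characteristic zero (`β ≠ 0`, `α² - 4β ≠ 0`) there is a nonzero `p`-torsion point
for every `p ≥ 2`.  Assembly of MRat (helper86), MSpecB (helper12), MInf (helper43) and MTors.
-/
import Fermat.Agent.S13.MTors
import Fermat.Agent.S13.MRat
import Fermat.Agent.S13.MSpecB
import Fermat.Agent.S13.MInf

set_option autoImplicit false

namespace Fermat.Agent.S13.MTors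

open WeierstrassCurve Polynomial Fermat.Agent.S05

section Adapter

variable {F : Type*} [Field F] [DecidableEq F]

/-- Transport of `xco (k • P)` along equalities of the curve coefficients and coordinates. -/
theorem xco_nsmul_congr {a a' b b' x x' y : F} (ha : a = a') (hb : b = b') (hx : x = x')
    (h : (shortCurve a b).toAffine.Nonsingular x y)
    (h' : (shortCurve a' b').toAffine.Nonsingular x' y) (k : ℕ) :
    PB.xco (k • Affine.Point.some x y h) = PB.xco (k • Affine.Point.some x' y h') := by
  subst ha hb hx
  rfl

variable {L : Type*} [Field L] [CharZero L] [Algebra L F] [Algebra (RatFunc L) F]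
  [IsScalarTower L (RatFunc L) F] [IsGalois (RatFunc L) F] {α β : L}

/-- MRat adapter: an `XData` for a generic point whose `x`-coordinate is the image of
`RatFunc.X`, over a Galois extension of `RatFunc L`. -/
theorem exists_xdata_of_isGalois (G : GenData L F α β) (hβ : β ≠ 0)
    (hGx : G.x = algebraMap (RatFunc L) F RatFunc.X) (k : ℕ) : Nonempty (XData G hβ k) := by
  have ha : algebraMap L F α = algebraMap (RatFunc L) F (algebraMap L (RatFunc L) α) :=
    IsScalarTower.algebraMap_apply L (RatFunc L) F α
  have hb : algebraMap L F β = algebraMap (RatFunc L) F (algebraMap L (RatFunc L) β) :=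
    IsScalarTower.algebraMap_apply L (RatFunc L) F β
  have h' : (shortCurve (algebraMap (RatFunc L) F (algebraMap L (RatFunc L) α))
      (algebraMap (RatFunc L) F (algebraMap L (RatFunc L) β))).toAffine.Nonsingular
      (algebraMap (RatFunc L) F RatFunc.X) G.y := by
    rw [← ha, ← hb, ← hGx]
    exact G.nonsingular hβ
  obtain ⟨N, D, hD, hcop, hrel⟩ := MRat.exists_num_denom (algebraMap L (RatFunc L) α)
    (algebraMap L (RatFunc L) β) RatFunc.X h' k
  have hae : ∀ P : L[X], aeval G.x P
      = algebraMap (RatFunc L) F (algebraMap L[X] (RatFunc L) P) := by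
    intro P
    rw [hGx, aeval_algebraMap_apply, RatFunc.aeval_X_left_eq_algebraMap]
  refine ⟨⟨N, D, hD, hcop, ?_⟩⟩
  rw [hae, hae, ← hrel]
  congr 1
  exact xco_nsmul_congr ha hb hGx (G.nonsingular hβ) h' k

end Adapter

variable {L : Type*} [Field L] [CharZero L] [DecidableEq L]

/-- **(M1)**: nontrivial `p`-torsion on the short curve over an algebraically closed field of
characteristic zero. -/
theorem exists_torsion_short [IsAlgClosed L] (α β : L) (hβ : β ≠ 0) (hd : α ^ 2 - 4 * β ≠ 0)
    (p : ℕ) (hp : 2 ≤ p) : ∃ T : (shortCurve α β).toAffine.Point, T ≠ 0 ∧ p • T = 0 := by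
  classical
  have hx : Transcendental L
      (algebraMap (RatFunc L) (AlgebraicClosure (RatFunc L)) RatFunc.X) :=
    (transcendental_algebraMap_iff
      (algebraMap (RatFunc L) (AlgebraicClosure (RatFunc L))).injective).mpr
      RatFunc.transcendental_X
  obtain ⟨y, hy⟩ := IsAlgClosed.exists_pow_nat_eq
    ((algebraMap (RatFunc L) (AlgebraicClosure (RatFunc L)) RatFunc.X) ^ 3
      + algebraMap L (AlgebraicClosure (RatFunc L)) α
        * (algebraMap (RatFunc L) (AlgebraicClosure (RatFunc L)) RatFunc.X) ^ 2
      + algebraMap L (AlgebraicClosure (RatFunc L)) β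
        * (algebraMap (RatFunc L) (AlgebraicClosure (RatFunc L)) RatFunc.X))
    (n := 2) (by norm_num)
  let G : GenData L (AlgebraicClosure (RatFunc L)) α β := ⟨_, y, hx, hy⟩
  obtain ⟨X⟩ := exists_xdata_of_isGalois G hβ rfl p
  exact torsion_of_xdata G hβ hd hp X (fun h => MSpecB.spec G hβ (by omega) X h)
    (MInf.deg_lead G hβ (by omega) X)

end Fermat.Agent.S13.MTors
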