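import Mathlib
import Fermat.Prelude.Def_FLTPrelim_Ramification

/-!
# Minkowski: a finite Galois extension `F ≠ ℚ` inside `ℚ̄` has nontrivial inertia somewhere

Block [G](1) of S13 (owner helper88).  Route: `NumberField.exists_not_isUnramifiedAt_int`
(Minkowski's bound + different ideal), `Ideal.card_inertia_eq_ramificationIdxIn`, and
`Ideal.image_subset_nonunits_valuationSubring` (Chevalley extension).
-/

set_option autoImplicit false

namespace Fermat.Agent.S13.MinkUnram

open NumberField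

/-- A finite Galois extension `F ≠ ℚ` inside `ℚ̄` has a nontrivial inertia element at some
valuation subring of `ℚ̄` lying over a rational prime. -/
theorem exists_valuationSubring_ramified (F : IntermediateField ℚ (AlgebraicClosure ℚ))
    [FiniteDimensional ℚ F] [IsGalois ℚ F] (hF : F ≠ ⊥) :
    ∃ (q : ℕ) (A : ValuationSubring (AlgebraicClosure ℚ)) (τ : F ≃ₐ[ℚ] F),
      q.Prime ∧ A.LiesOverPrime q ∧ τ ≠ 1 ∧
      ∀ x : F, IsIntegral ℤ (x : AlgebraicClosure ℚ) →
        ((τ x : F) : AlgebraicClosure ℚ) - (x : AlgebraicClosure ℚ) ∈ A.nonunits := by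
  classical
  have : NumberField F := { to_charZero := inferInstance, to_finiteDimensional := inferInstance }
  have hdeg : Module.finrank ℚ F ≠ 1 := fun h => hF (IntermediateField.finrank_eq_one_iff.mp h)
  obtain ⟨P, hPmax, hPram⟩ := NumberField.exists_not_isUnramifiedAt_int (K := F) (𝒪 := 𝓞 F) hdeg
  have := hPmax.isPrime
  -- the rational prime below `P`
  obtain ⟨q, hq, hqP⟩ : ∃ q : ℕ, q.Prime ∧ (q : 𝓞 F) ∈ P := by
    obtain ⟨p, hp : _ = Ideal.span _⟩ := IsPrincipalIdealRing.principal (P.under ℤ)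
    have hp0 : p ≠ 0 := fun hp0 ↦ Ideal.IsMaximal.ne_bot_of_isIntegral_int _
      (Ideal.eq_bot_of_comap_eq_bot (hp.trans (by aesop)))
    have hpp : Prime p := by rw [← Ideal.span_singleton_prime hp0, ← hp]; infer_instance
    refine ⟨p.natAbs, Int.prime_iff_natAbs_prime.mp hpp, ?_⟩
    have h1 : ((p.natAbs : ℕ) : ℤ) ∈ P.under ℤ := by
      rw [hp, Ideal.mem_span_singleton, Int.dvd_natAbs]
    have h2 : algebraMap ℤ (𝓞 F) ((p.natAbs : ℕ) : ℤ) ∈ P := h1
    simpa using h2
  -- a nontrivial inertia element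
  have hcard : Nat.card (P.inertia (F ≃ₐ[ℚ] F)) = P.ramificationIdx ℤ := by
    rw [Ideal.card_inertia_eq_ramificationIdxIn (P.under ℤ) P,
      Ideal.ramificationIdxIn_eq_ramificationIdx (P.under ℤ) P (F ≃ₐ[ℚ] F)]
  have hne1 : P.ramificationIdx ℤ ≠ 1 := fun h => hPram (Ideal.ramificationIdx_eq_one_iff.mp h)
  obtain ⟨τ, hτ, hτ1⟩ : ∃ τ ∈ P.inertia (F ≃ₐ[ℚ] F), τ ≠ 1 := by
    by_contra hcon
    push Not at hcon
    have hbot : P.inertia (F ≃ₐ[ℚ] F) = ⊥ := (Subgroup.eq_bot_iff_forall _).mpr hcon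
    rw [hbot, Subgroup.card_bot] at hcard
    exact hne1 hcard.symm
  -- a valuation subring of `ℚ̄` whose maximal ideal contains the image of `P`
  let φ : 𝓞 F →+* AlgebraicClosure ℚ := (algebraMap F (AlgebraicClosure ℚ)).comp (algebraMap (𝓞 F) F)
  have hφinj : Function.Injective φ :=
    (algebraMap F (AlgebraicClosure ℚ)).injective.comp (RingOfIntegers.coe_injective)
  have hI : P.map φ.rangeRestrict ≠ ⊤ := by
    intro htop
    have hbij : Function.Bijective φ.rangeRestrict :=
      ⟨fun a b hab =>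
        hφinj (congrArg (fun z : φ.range => (z : AlgebraicClosure ℚ)) hab),
        φ.rangeRestrict_surjective⟩
    have h1 := Ideal.comap_map_of_bijective φ.rangeRestrict hbij (I := P)
    rw [htop, Ideal.comap_top] at h1
    exact (inferInstance : P.IsPrime).ne_top h1.symm
  obtain ⟨A, -, hIA⟩ := Ideal.image_subset_nonunits_valuationSubring (P.map φ.rangeRestrict) hI
  have key : ∀ y : 𝓞 F, y ∈ P → φ y ∈ A.nonunits := fun y hy =>
    hIA ⟨φ.rangeRestrict y, Ideal.mem_map_of_mem _ hy, rfl⟩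
  refine ⟨q, A, τ, hq, ?_, hτ1, ?_⟩
  · have h := key (q : 𝓞 F) hqP
    have h2 : φ (q : 𝓞 F) = (q : AlgebraicClosure ℚ) := map_natCast φ q
    rw [h2] at h
    exact h
  · intro x hx
    have hx' : IsIntegral ℤ x :=
      (isIntegral_algebraMap_iff (algebraMap F (AlgebraicClosure ℚ)).injective).mp hx
    let y : 𝓞 F := ⟨x, hx'⟩
    have h := key (τ • y - y) (hτ y)
    rw [map_sub] at h
    exact h

end Fermat.Agent.S13.MinkUnram
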