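import Mathlib
import Fermat.Prelude.Def_FLTPrelim_Ramification
import Fermat.Agent.S13.MinkUnram

/-!
# Open normal subgroups of `Gal(ℚ̄/ℚ)` are the fixing subgroups of finite Galois extensions

Block [G](c) of S13 (owner helper88; consumer: `Minkowski.lean`).
-/

set_option autoImplicit false

namespace Fermat.Agent.S13.MinkGlue

theorem isAlgClosure_rat : IsAlgClosure ℚ (AlgebraicClosure ℚ) := by
  have h : (DivisionRing.toRatAlgebra : Algebra ℚ (AlgebraicClosure ℚ))
      = AlgebraicClosure.instAlgebra ℚ := Subsingleton.elim _ _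
  rw [h]
  infer_instance

theorem isGalois_rat : IsGalois ℚ (AlgebraicClosure ℚ) := by
  have := isAlgClosure_rat
  infer_instance

/-- An open normal subgroup `H` of `Gal(ℚ̄/ℚ)` is the fixing subgroup of a finite Galois
extension of `ℚ` inside `ℚ̄`. -/
theorem exists_finite_galois_of_open_normal
    (H : Subgroup (AlgebraicClosure ℚ ≃ₐ[ℚ] AlgebraicClosure ℚ)) [H.Normal]
    (hopen : ∃ E : IntermediateField ℚ (AlgebraicClosure ℚ),
      FiniteDimensional ℚ E ∧ E.fixingSubgroup ≤ H) :
    ∃ F : IntermediateField ℚ (AlgebraicClosure ℚ),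
      FiniteDimensional ℚ F ∧ IsGalois ℚ F ∧ F.fixingSubgroup = H := by
  have hgal : IsGalois ℚ (AlgebraicClosure ℚ) := isGalois_rat
  obtain ⟨E, hE, hEH⟩ := hopen
  have hHopen : IsOpen (H : Set (AlgebraicClosure ℚ ≃ₐ[ℚ] AlgebraicClosure ℚ)) :=
    Subgroup.isOpen_mono hEH E.fixingSubgroup_isOpen
  have hHclosed : IsClosed (H : Set (AlgebraicClosure ℚ ≃ₐ[ℚ] AlgebraicClosure ℚ)) :=
    H.isClosed_of_isOpen hHopen
  have hfix : (IntermediateField.fixedField H).fixingSubgroup = H :=
    InfiniteGalois.fixingSubgroup_fixedField ⟨H, hHclosed⟩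
  refine ⟨IntermediateField.fixedField H, ?_, ?_, hfix⟩
  · rw [← InfiniteGalois.isOpen_iff_finite, hfix]
    exact hHopen
  · have h1 := (InfiniteGalois.normal_iff_isGalois (IntermediateField.fixedField H)).mp
      (by rw [hfix]; infer_instance)
    have h2 : (IntermediateField.algebra' (IntermediateField.fixedField H) :
        Algebra ℚ ↥(IntermediateField.fixedField H)) = DivisionRing.toRatAlgebra :=
      Subsingleton.elim _ _
    rw [h2] at h1
    exact h1

/-- Convenience combination with `MinkUnram.exists_valuationSubring_ramified`: a proper open normal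
subgroup `H` of `Gal(ℚ̄/ℚ)` is the fixing subgroup of a finite Galois `F ≠ ℚ`, which carries a
nontrivial inertia element at some valuation subring over a rational prime. -/
theorem exists_ramified_of_open_normal_ne_top
    (H : Subgroup (AlgebraicClosure ℚ ≃ₐ[ℚ] AlgebraicClosure ℚ)) [H.Normal]
    (hopen : ∃ E : IntermediateField ℚ (AlgebraicClosure ℚ),
      FiniteDimensional ℚ E ∧ E.fixingSubgroup ≤ H) (hH : H ≠ ⊤) :
    ∃ (F : IntermediateField ℚ (AlgebraicClosure ℚ)) (_ : FiniteDimensional ℚ F)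
      (_ : IsGalois ℚ F), F.fixingSubgroup = H ∧
      ∃ (q : ℕ) (A : ValuationSubring (AlgebraicClosure ℚ)) (τ : F ≃ₐ[ℚ] F),
        q.Prime ∧ A.LiesOverPrime q ∧ τ ≠ 1 ∧
        ∀ x : F, IsIntegral ℤ (x : AlgebraicClosure ℚ) →
          ((τ x : F) : AlgebraicClosure ℚ) - (x : AlgebraicClosure ℚ) ∈ A.nonunits := by
  obtain ⟨F, hFfin, hFgal, hFH⟩ := exists_finite_galois_of_open_normal H hopen
  have hFbot : F ≠ ⊥ := by
    rintro rfl
    apply hH
    rw [← hFH]
    ext σ
    simp only [Subgroup.mem_top, iff_true]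
    intro x
    obtain ⟨r, hr⟩ := IntermediateField.mem_bot.mp x.2
    rw [← hr]
    exact σ.commutes r
  exact ⟨F, hFfin, hFgal, hFH, MinkUnram.exists_valuationSubring_ramified F hFbot⟩

end Fermat.Agent.S13.MinkGlue
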