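/-
S13 team, block [P] uniformisation (owner: helper47).

For a Galois-stable subspace `N` of `V = E[p](Qbar)` (finite), the element
`ξ = ∏_{x ∈ N ∖ 0} x(x)` of `Qbar` is fixed by the Galois group, hence rational.  Whether
`p` divides the denominator of `ξ` does not depend on the valuation subring `A` over `p`:
* if it does, then for every `A` over `p` some nonzero point of `N` has non-integral
  `x`-coordinate, i.e. lies in the kernel of reduction `E₁(A)`;
* if it does not, then for every `A` over `p` either `N = 0` or some nonzero point of `N` has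
  integral `x`-coordinate, i.e. does not lie in `E₁(A)`.
-/
import Fermat.Agent.S13.Abstract
import Fermat.Agent.S05.Inertia

set_option autoImplicit false

namespace Fermat.Agent.S13.PUnif

open WeierstrassCurve WeierstrassCurve.Affine WeierstrassCurve.Affine.Point Fermat.Agent.S05

local notation "Qbar" => AlgebraicClosure ℚ
local notation "GQ" => (AlgebraicClosure ℚ ≃ₐ[ℚ] AlgebraicClosure ℚ)

section

variable {W : WeierstrassCurve ℚ}

/-- The `x`-coordinate of a point (with value `1` at the point at infinity). -/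
noncomputable def xc : (W⁄Qbar).Point → Qbar
  | .zero => 1
  | .some x _ _ => x

theorem xc_smul (σ : GQ) (Q : (W⁄Qbar).Point) : xc (σ • Q) = σ (xc Q) := by
  rcases Q with _ | ⟨a, b, h⟩
  · exact (map_one σ).symm
  · rfl

/-- A point whose `x`-coordinate is not in `A` lies in the kernel of reduction. -/
theorem inE1_of_xc_not_mem (A : ValuationSubring Qbar) (Q : (W⁄Qbar).Point)
    (h : xc Q ∉ A) : InE1 A Q := by
  rcases Q with _ | ⟨a, b, hab⟩
  · trivial
  · exact h

/-- A nonzero point in the kernel of reduction has `x`-coordinate of valuation `> 1`. -/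
theorem one_lt_val_xc_of_inE1 (A : ValuationSubring Qbar) (Q : (W⁄Qbar).Point) (hQ : Q ≠ 0)
    (h : InE1 A Q) : 1 < A.valuation (xc Q) := by
  rcases Q with _ | ⟨a, b, hab⟩
  · exact absurd rfl hQ
  · have h' : a ∉ A := h
    rw [← not_le, A.valuation_le_one_iff]
    exact h'

end

/-- A product of elements of valuation `> 1` over a nonempty finite set has valuation `> 1`. -/
theorem one_lt_val_prod {ι : Type*} (A : ValuationSubring Qbar) (f : ι → Qbar) (S : Finset ι)
    (h : ∀ i ∈ S, 1 < A.valuation (f i)) :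
    S = ∅ ∨ 1 < A.valuation (∏ i ∈ S, f i) := by
  classical
  induction S using Finset.induction_on with
  | empty => exact Or.inl rfl
  | insert a s ha ih =>
    right
    rw [Finset.prod_insert ha, map_mul]
    have h1 : 1 < A.valuation (f a) := h a (Finset.mem_insert_self a s)
    rcases ih (fun i hi => h i (Finset.mem_insert_of_mem hi)) with h2 | h2
    · rw [h2, Finset.prod_empty, map_one, mul_one]
      exact h1
    · exact one_lt_mul_of_lt_of_le' h1 h2.le

/-- The valuation of a rational number whose denominator is divisible by `p`. -/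
theorem one_lt_val_of_dvd_den (A : ValuationSubring Qbar) {p : ℕ} (hp : p.Prime)
    (hA : A.LiesOverPrime p) (r : ℚ) (hd : p ∣ r.den) : 1 < A.valuation (r : Qbar) := by
  have hnum : ¬ (p : ℤ) ∣ r.num := by
    intro hdvd
    have h1 : p ∣ r.num.natAbs := Int.natCast_dvd.mp hdvd
    have h2 : p ∣ Nat.gcd r.num.natAbs r.den := Nat.dvd_gcd h1 hd
    rw [r.reduced] at h2
    exact hp.one_lt.ne' (Nat.dvd_one.mp h2)
  have h1 : A.valuation ((r.num : ℤ) : Qbar) = 1 :=
    Inertia.valuation_intCast_eq_one_of_not_dvd hA hp hnum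
  have h2 : A.valuation ((r.den : ℕ) : Qbar) < 1 :=
    A.mem_nonunits_iff.mp (Inertia.natCast_mem_nonunits_of_dvd hA hd)
  have h3 : A.valuation ((r.den : ℕ) : Qbar) ≠ 0 := by
    rw [Valuation.ne_zero_iff]
    exact_mod_cast r.den_ne_zero
  rw [Rat.cast_def, map_div₀, h1]
  rw [one_lt_div₀ (zero_lt_iff.mpr h3)]
  exact h2

/-- The valuation of a rational number whose denominator is prime to `p`. -/
theorem val_le_one_of_not_dvd_den (A : ValuationSubring Qbar) {p : ℕ} (hp : p.Prime)
    (hA : A.LiesOverPrime p) (r : ℚ) (hd : ¬ p ∣ r.den) : A.valuation (r : Qbar) ≤ 1 := by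
  have h1 : A.valuation ((r.num : ℤ) : Qbar) ≤ 1 := Inertia.valuation_intCast_le_one A r.num
  have h2 : A.valuation ((r.den : ℕ) : Qbar) = 1 :=
    Inertia.valuation_natCast_eq_one_of_not_dvd hA hp hd
  rw [Rat.cast_def, map_div₀, h2, div_one]
  exact h1

/-- **Uniformity in `A`**, general Weierstrass curve over `ℚ`. -/
theorem exists_uniform_gen (W : WeierstrassCurve ℚ) {p : ℕ} (hp : p.Prime)
    (hfin : Finite (Abstract.Tors W p))
    (N : Submodule (ZMod p) (Abstract.Tors W p)) (hN : IsGaloisStable ℚ N) :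
    (∀ A : ValuationSubring Qbar, A.LiesOverPrime p → ∃ x ∈ N, x ≠ 0 ∧ InE1 A x.1) ∨
    (∀ A : ValuationSubring Qbar, A.LiesOverPrime p →
      N = ⊥ ∨ ∃ x ∈ N, x ≠ 0 ∧ ¬ InE1 A x.1) := by
  classical
  have hfinS : Set.Finite {x : Abstract.Tors W p | x ∈ N ∧ x ≠ 0} := Set.toFinite _
  set S : Finset (Abstract.Tors W p) := hfinS.toFinset with hS
  have hmem : ∀ x : Abstract.Tors W p, x ∈ S ↔ x ∈ N ∧ x ≠ 0 := fun x => by
    rw [hS, Set.Finite.mem_toFinset]
    rfl
  set ξ : Qbar := ∏ x ∈ S, xc x.1 with hξ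
  -- `ξ` is fixed by the Galois group
  have hfix : ∀ σ : GQ, σ ξ = ξ := by
    intro σ
    rw [hξ, map_prod]
    have h1 : ∀ x : Abstract.Tors W p, σ (xc x.1) = xc ((σ • x : Abstract.Tors W p)).1 :=
      fun x => (xc_smul σ x.1).symm
    simp only [h1]
    refine Finset.prod_equiv (MulAction.toPerm σ) ?_ ?_
    · intro x
      rw [hmem, hmem]
      show x ∈ N ∧ x ≠ 0 ↔ σ • x ∈ N ∧ σ • x ≠ 0
      constructor
      · rintro ⟨hx, hx0⟩
        exact ⟨hN σ x hx, fun h => hx0 ((smul_eq_zero_iff_eq σ).mp h)⟩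
      · rintro ⟨hx, hx0⟩
        refine ⟨?_, fun h => hx0 (by rw [h, smul_zero])⟩
        have := hN σ⁻¹ _ hx
        rwa [inv_smul_smul] at this
    · intro x _
      rfl
  obtain ⟨r, hr⟩ := Fermat.Agent.S51.rat_of_fixed ξ hfix
  have hr' : ξ = (r : Qbar) := by rw [← hr, eq_ratCast]
  by_cases hd : p ∣ r.den
  · left
    intro A hA
    have h1 : 1 < A.valuation ξ := by
      rw [hr']
      exact one_lt_val_of_dvd_den A hp hA r hd
    have h2 : ∃ x ∈ S, xc x.1 ∉ A := by
      by_contra hcon
      have h3 : ∀ x ∈ S, xc x.1 ∈ A := fun x hx => by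
        by_contra h4
        exact hcon ⟨x, hx, h4⟩
      have h4 : ξ ∈ A := by
        rw [hξ]
        exact prod_mem h3
      rw [← A.valuation_le_one_iff] at h4
      exact absurd h1 (not_lt.mpr h4)
    obtain ⟨x, hxS, hx⟩ := h2
    exact ⟨x, ((hmem x).mp hxS).1, ((hmem x).mp hxS).2, inE1_of_xc_not_mem A x.1 hx⟩
  · right
    intro A hA
    have h1 : A.valuation ξ ≤ 1 := by
      rw [hr']
      exact val_le_one_of_not_dvd_den A hp hA r hd
    by_contra hcon
    rw [not_or] at hcon
    obtain ⟨hbot, hex⟩ := hcon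
    have h2 : ∀ x ∈ S, 1 < A.valuation (xc x.1) := by
      intro x hxS
      have hxN := ((hmem x).mp hxS).1
      have hx0 := ((hmem x).mp hxS).2
      have hx1 : InE1 A x.1 := by
        by_contra h3
        exact hex ⟨x, hxN, hx0, h3⟩
      refine one_lt_val_xc_of_inE1 A x.1 (fun h => hx0 (Subtype.ext h)) hx1
    rcases one_lt_val_prod A (fun x : Abstract.Tors W p => xc x.1) S h2 with h3 | h3
    · apply hbot
      rw [eq_bot_iff]
      intro x hx
      rw [Submodule.mem_bot]
      by_contra hx0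
      have : x ∈ S := (hmem x).mpr ⟨hx, hx0⟩
      rw [h3] at this
      exact absurd this (Finset.notMem_empty x)
    · exact absurd h1 (not_le.mpr h3)

/-- **Uniformity in `A`** for the Frey curve, in the shape required by
`AtP.frey_dichotomy_at_p_of_unif`. -/
theorem exists_uniform (P : FreyPackage) (hfin : Finite (Abstract.Tors P.freyCurve P.p))
    (N : Submodule (ZMod P.p) (Abstract.Tors P.freyCurve P.p)) (hN : IsGaloisStable ℚ N) :
    (∀ A : ValuationSubring Qbar, A.LiesOverPrime P.p → ∃ x ∈ N, x ≠ 0 ∧ InE1 A x.1) ∨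
    (∀ A : ValuationSubring Qbar, A.LiesOverPrime P.p →
      N = ⊥ ∨ ∃ x ∈ N, x ≠ 0 ∧ ¬ InE1 A x.1) :=
  exists_uniform_gen P.freyCurve P.pp hfin N hN

end Fermat.Agent.S13.PUnif
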