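/-
S13 team, block [P], uniformisation step (B duplicate; owner: helper7).

For a Galois-stable submodule `N` of the `p`-torsion of the Frey curve, the alternative
"`N` meets the kernel of reduction at `A` nontrivially" / "`N` has a nonzero point outside the
kernel of reduction at `A`" does not depend on the valuation subring `A` over `p`: it is read off
from the rational number `ξ = ∏_{x ∈ N ∖ 0} x(x)`.
-/
import Fermat.Agent.S13.Abstract
import Fermat.Agent.S05.Main

set_option autoImplicit false

namespace Fermat.Agent.S13.PUnifB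

open WeierstrassCurve WeierstrassCurve.Affine WeierstrassCurve.Affine.Point
open Fermat.Agent.S05 Fermat.Agent.S13.Abstract

local notation "Qbar" => AlgebraicClosure ℚ
local notation "GQ" => (AlgebraicClosure ℚ ≃ₐ[ℚ] AlgebraicClosure ℚ)

/-- The `x`-coordinate of a point (`0` at infinity). -/
noncomputable def xc {W : WeierstrassCurve Qbar} : W.toAffine.Point → Qbar
  | .zero => 0
  | .some x _ _ => x

/-- Galois equivariance of the `x`-coordinate. -/
theorem xc_smul (W : WeierstrassCurve ℚ) (σ : GQ) (T : (W⁄Qbar).Point) :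
    xc (σ • T) = σ (xc T) := by
  rcases T with _ | ⟨x, y, h⟩
  · exact (map_zero σ).symm
  · rfl

/-- A product of a Galois-equivariant function over a Galois-stable finite set of torsion points
is a rational number. -/
theorem prod_rat {W : WeierstrassCurve ℚ} {p : ℕ} (s : Finset (Tors W p))
    (hs : ∀ (σ : GQ) (x : Tors W p), x ∈ s → σ • x ∈ s)
    (f : Tors W p → Qbar) (hf : ∀ (σ : GQ) (x : Tors W p), f (σ • x) = σ (f x)) :
    ∃ r : ℚ, algebraMap ℚ Qbar r = ∏ x ∈ s, f x := by
  apply Fermat.Agent.S51.rat_of_fixed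
  intro σ
  rw [map_prod]
  have h1 : ∏ x ∈ s, σ (f x) = ∏ x ∈ s, f (σ • x) :=
    Finset.prod_congr rfl (fun x _ => (hf σ x).symm)
  rw [h1]
  refine Finset.prod_equiv (MulAction.toPerm σ) (fun x => ⟨fun hx => hs σ x hx, fun hx => ?_⟩)
    (fun x _ => rfl)
  have := hs σ⁻¹ _ hx
  simpa using this

/-- A product of elements `> 1` over a nonempty finite set is `> 1`. -/
theorem one_lt_prod {ι : Type*} {Γ : Type*} [LinearOrderedCommGroupWithZero Γ]
    (s : Finset ι) (g : ι → Γ) (h : ∀ i ∈ s, 1 < g i) (hne : s.Nonempty) :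
    1 < ∏ i ∈ s, g i := by
  classical
  induction hne using Finset.Nonempty.cons_induction with
  | singleton a => simpa using h
  | cons a s ha hs ih =>
    rw [Finset.prod_cons]
    have h1 : 1 < g a := h a (Finset.mem_cons_self a s)
    have h2 : 1 < ∏ i ∈ s, g i := ih (fun i hi => h i (Finset.mem_cons_of_mem hi))
    exact one_lt_mul_of_lt_of_le' h1 h2.le

/-- A rational number lies in a valuation subring over `p` iff `p` does not divide its
denominator. -/
theorem rat_mem_iff (A : ValuationSubring Qbar) {p : ℕ} (hp : p.Prime) (hA : A.LiesOverPrime p)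
    (r : ℚ) : algebraMap ℚ Qbar r ∈ A ↔ ¬ p ∣ r.den := by
  have hr : algebraMap ℚ Qbar r = (r.num : Qbar) / (r.den : Qbar) := by
    conv_lhs => rw [← Rat.num_div_den r]
    simp
  constructor
  · intro hmem hdvd
    have hden : A.valuation (r.den : Qbar) < 1 :=
      A.mem_nonunits_iff.mp (Inertia.natCast_mem_nonunits_of_dvd hA hdvd)
    have hnum : A.valuation (r.num : Qbar) = 1 := by
      apply Inertia.valuation_intCast_eq_one_of_not_dvd hA hp
      intro h
      have h1 : p ∣ r.num.natAbs := Int.natCast_dvd.mp h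
      have h2 : p ∣ Nat.gcd r.num.natAbs r.den := Nat.dvd_gcd h1 hdvd
      rw [r.reduced] at h2
      exact hp.one_lt.ne' (Nat.dvd_one.mp h2)
    have hden0 : A.valuation (r.den : Qbar) ≠ 0 := by
      rw [Valuation.ne_zero_iff]
      exact_mod_cast r.den_ne_zero
    rw [← A.valuation_le_one_iff, hr, map_div₀, hnum, div_le_iff₀ (zero_lt_iff.mpr hden0),
      one_mul] at hmem
    exact absurd hden (not_lt.mpr hmem)
  · intro hnd
    have hden : A.valuation (r.den : Qbar) = 1 :=
      Inertia.valuation_natCast_eq_one_of_not_dvd hA hp hnd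
    rw [← A.valuation_le_one_iff, hr, map_div₀, hden, div_one]
    exact Inertia.valuation_intCast_le_one A _

/-- **Uniformisation.** For a Galois-stable submodule `N` of the `p`-torsion of the Frey curve:
either for every `A` over `p` some nonzero point of `N` lies in the kernel of reduction at `A`, or
for every `A` over `p` (`N = ⊥` or) some nonzero point of `N` lies outside it. -/
theorem exists_uniform (P : FreyPackage) (hfin : Finite (Tors P.freyCurve P.p))
    (N : Submodule (ZMod P.p) (Tors P.freyCurve P.p)) (hN : IsGaloisStable ℚ N) :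
    (∀ A : ValuationSubring Qbar, A.LiesOverPrime P.p → ∃ x ∈ N, x ≠ 0 ∧ InE1 A x.1) ∨
    (∀ A : ValuationSubring Qbar, A.LiesOverPrime P.p →
      N = ⊥ ∨ ∃ x ∈ N, x ≠ 0 ∧ ¬ InE1 A x.1) := by
  classical
  have : Fintype (Tors P.freyCurve P.p) := Fintype.ofFinite _
  set s : Finset (Tors P.freyCurve P.p) := Finset.univ.filter (fun x => x ∈ N ∧ x ≠ 0) with hs
  have hmem : ∀ x, x ∈ s ↔ x ∈ N ∧ x ≠ 0 := fun x => by simp [hs]
  have hstab : ∀ (σ : GQ) (x : Tors P.freyCurve P.p), x ∈ s → σ • x ∈ s := by
    intro σ x hx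
    rw [hmem] at hx ⊢
    refine ⟨hN σ x hx.1, fun h0 => hx.2 ?_⟩
    have h1 : σ⁻¹ • (σ • x) = σ⁻¹ • (0 : Tors P.freyCurve P.p) := by rw [h0]
    rwa [inv_smul_smul, smul_zero] at h1
  obtain ⟨r, hr⟩ := prod_rat s hstab (fun x => xc (x.1 : (P.freyCurve⁄Qbar).Point))
    (fun σ x => xc_smul P.freyCurve σ x.1)
  -- coordinates of a nonzero torsion point
  have hin : ∀ (A : ValuationSubring Qbar) (x : Tors P.freyCurve P.p), x ≠ 0 →
      (InE1 A x.1 ↔ xc (x.1 : (P.freyCurve⁄Qbar).Point) ∉ A) := by
    intro A x hx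
    obtain ⟨T, hT⟩ := x
    rcases T with _ | ⟨a, b, h⟩
    · exact absurd (Subtype.ext rfl) hx
    · exact Iff.rfl
  by_cases hdvd : P.p ∣ r.den
  · left
    intro A hA
    by_contra hcon
    push Not at hcon
    have h1 : ∏ x ∈ s, xc (x.1 : (P.freyCurve⁄Qbar).Point) ∈ A := by
      refine prod_mem (fun x hx => ?_)
      rw [hmem] at hx
      have h2 := hcon x hx.1 hx.2
      rw [hin A x hx.2, not_not] at h2
      exact h2
    rw [← hr] at h1
    exact (rat_mem_iff A P.pp hA r).mp h1 hdvd
  · right
    intro A hA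
    by_cases hbot : N = ⊥
    · exact Or.inl hbot
    refine Or.inr ?_
    by_contra hcon
    push Not at hcon
    have hne : s.Nonempty := by
      obtain ⟨x, hx, hx0⟩ := (Submodule.ne_bot_iff N).mp hbot
      exact ⟨x, (hmem x).mpr ⟨hx, hx0⟩⟩
    have h1 : 1 < A.valuation (∏ x ∈ s, xc (x.1 : (P.freyCurve⁄Qbar).Point)) := by
      rw [map_prod]
      refine one_lt_prod s _ (fun x hx => ?_) hne
      rw [hmem] at hx
      have h2 := hcon x hx.1 hx.2
      rw [hin A x hx.2, ← A.valuation_le_one_iff, not_le] at h2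
      exact h2
    rw [← hr] at h1
    have h3 := (rat_mem_iff A P.pp hA r).mpr hdvd
    rw [← A.valuation_le_one_iff] at h3
    exact absurd h1 (not_lt.mpr h3)

end Fermat.Agent.S13.PUnifB
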