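/-
S13 team, leaf file (owner: helper5): valuations of rational numbers at a valuation subring lying
over a prime `q`, and rationality of Galois-invariant finite products.

For `A : ValuationSubring L`, `hq : q.Prime`, `hA : A.LiesOverPrime q`:
* `RatVal.val_natCast`, `val_intCast`, `val_ratCast`: `|u| = |q|^m` for nonzero rational `u`;
* `RatVal.ratCast_nonunit_le`: a rational number in the maximal ideal has `|u| ≤ |q|`;
* `RatVal.ratCast_mem_iff`, `ratCast_mem_nonunits_iff`: integrality of a rational number only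
  depends on `q` (not on `A`);
* `RatVal.isRat_prod_of_equivariant`: a finite product of values of a Galois-equivariant function
  over a Galois-stable finite set is rational (`IsRat` from `FreyAt2.lean`).
-/
import Fermat.Agent.S13.FreyAt2

set_option autoImplicit false

namespace Fermat.Agent.S13

open Fermat.Agent.S05

namespace RatVal

section General

variable {L : Type*} [Field L] (A : ValuationSubring L) {q : ℕ}

theorem val_prime_lt_one (hA : A.LiesOverPrime q) : A.valuation (q : L) < 1 :=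
  A.mem_nonunits_iff.mp hA

theorem val_prime_pos [CharZero L] (hq : q.Prime) : 0 < A.valuation (q : L) :=
  zero_lt_iff.mpr ((Valuation.ne_zero_iff _).mpr (Nat.cast_ne_zero.mpr hq.ne_zero))

/-- `|n| = |q|^i` for a nonzero natural number `n`. -/
theorem val_natCast (hq : q.Prime) (hA : A.LiesOverPrime q) {n : ℕ} (hn : n ≠ 0) :
    ∃ i : ℕ, A.valuation (n : L) = A.valuation (q : L) ^ i := by
  obtain ⟨e, n', hn', rfl⟩ := Nat.exists_eq_pow_mul_and_not_dvd hn q hq.ne_one
  refine ⟨e, ?_⟩
  have h1 : A.valuation (n' : L) = 1 :=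
    Inertia.valuation_natCast_eq_one_of_not_dvd hA hq hn'
  push_cast
  rw [map_mul, map_pow, h1, mul_one]

/-- `|z| = |q|^i` for a nonzero integer `z`. -/
theorem val_intCast (hq : q.Prime) (hA : A.LiesOverPrime q) {z : ℤ} (hz : z ≠ 0) :
    ∃ i : ℕ, A.valuation (z : L) = A.valuation (q : L) ^ i := by
  obtain ⟨i, hi⟩ := val_natCast A hq hA (Int.natAbs_ne_zero.mpr hz)
  refine ⟨i, ?_⟩
  rw [← hi]
  rcases Int.natAbs_eq z with h | h
  · conv_lhs => rw [h]
    simp
  · conv_lhs => rw [h]
    simp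

/-- `|u| = |q|^m` for a nonzero rational number `u`. -/
theorem val_ratCast [CharZero L] (hq : q.Prime) (hA : A.LiesOverPrime q) {u : ℚ} (hu : u ≠ 0) :
    ∃ m : ℤ, A.valuation (u : L) = A.valuation (q : L) ^ m := by
  obtain ⟨i, hi⟩ := val_intCast A hq hA (Rat.num_ne_zero.mpr hu)
  obtain ⟨j, hj⟩ := val_natCast A hq hA u.den_ne_zero
  refine ⟨(i : ℤ) - j, ?_⟩
  have h0 : A.valuation (q : L) ≠ 0 := (val_prime_pos A hq).ne'
  rw [Rat.cast_def, map_div₀, hi, hj, zpow_sub₀ h0, zpow_natCast, zpow_natCast]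

/-- A rational number lying in the maximal ideal has `|u| ≤ |q|`. -/
theorem ratCast_nonunit_le [CharZero L] (hq : q.Prime) (hA : A.LiesOverPrime q) {u : ℚ}
    (hu : (u : L) ∈ A.nonunits) : A.valuation (u : L) ≤ A.valuation (q : L) := by
  by_cases h0 : u = 0
  · subst h0
    simp
  obtain ⟨m, hm⟩ := val_ratCast A hq hA h0
  have hlt : A.valuation (u : L) < 1 := A.mem_nonunits_iff.mp hu
  have hq1 : A.valuation (q : L) < 1 := val_prime_lt_one A hA
  have hq0 : 0 < A.valuation (q : L) := val_prime_pos A hq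
  rw [hm] at hlt ⊢
  have hm1 : 1 ≤ m := by
    by_contra hcon
    have hm0 : m ≤ 0 := by omega
    have : (1 : A.ValueGroup) ≤ A.valuation (q : L) ^ m := by
      have h1 := zpow_le_zpow_right_of_le_one₀ hq0 hq1.le hm0
      simpa using h1
    exact absurd hlt (not_lt.mpr this)
  have := zpow_le_zpow_right_of_le_one₀ hq0 hq1.le hm1
  simpa using this

/-- Integrality of a rational number at `A` depends only on `q`. -/
theorem ratCast_mem_iff [CharZero L] (hq : q.Prime) (hA : A.LiesOverPrime q) (u : ℚ) :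
    (u : L) ∈ A ↔ ¬ q ∣ u.den := by
  have hden0 : (u.den : L) ≠ 0 := Nat.cast_ne_zero.mpr u.den_ne_zero
  have hdv0 : A.valuation (u.den : L) ≠ 0 := (Valuation.ne_zero_iff _).mpr hden0
  constructor
  · intro hu hd
    have h1 : A.valuation (u.den : L) < 1 :=
      (Inertia.valuation_natCast_lt_one_iff hA hq _).mpr hd
    have hnum : ¬ (q : ℤ) ∣ u.num := by
      intro h2
      have h3 : q ∣ u.num.natAbs := Int.natCast_dvd.mp h2
      have hcop := u.reduced
      have : q ∣ Nat.gcd u.num.natAbs u.den := Nat.dvd_gcd h3 hd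
      rw [Nat.Coprime] at hcop
      rw [hcop] at this
      exact hq.one_lt.ne' (Nat.dvd_one.mp this)
    have h2 : A.valuation (u.num : L) = 1 :=
      Inertia.valuation_intCast_eq_one_of_not_dvd hA hq hnum
    have h3 : A.valuation (u : L) ≤ 1 := (A.valuation_le_one_iff _).mpr hu
    rw [Rat.cast_def, map_div₀, h2, div_le_iff₀ (zero_lt_iff.mpr hdv0), one_mul] at h3
    exact absurd h1 (not_lt.mpr h3)
  · intro hd
    have h1 : A.valuation (u.den : L) = 1 :=
      Inertia.valuation_natCast_eq_one_of_not_dvd hA hq hd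
    rw [← A.valuation_le_one_iff, Rat.cast_def, map_div₀, h1, div_one]
    exact Inertia.valuation_intCast_le_one A _

/-- Membership of a rational number in the maximal ideal of `A` depends only on `q`. -/
theorem ratCast_mem_nonunits_iff [CharZero L] (hq : q.Prime) (hA : A.LiesOverPrime q) (u : ℚ) :
    (u : L) ∈ A.nonunits ↔ (q : ℤ) ∣ u.num := by
  have hden0 : (u.den : L) ≠ 0 := Nat.cast_ne_zero.mpr u.den_ne_zero
  have hdv0 : A.valuation (u.den : L) ≠ 0 := (Valuation.ne_zero_iff _).mpr hden0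
  have hcop : ∀ {a : Prop}, (q : ℤ) ∣ u.num → q ∣ u.den → a := by
    intro a h2 hd
    have h3 : q ∣ u.num.natAbs := Int.natCast_dvd.mp h2
    have hcop := u.reduced
    have : q ∣ Nat.gcd u.num.natAbs u.den := Nat.dvd_gcd h3 hd
    rw [Nat.Coprime] at hcop
    rw [hcop] at this
    exact absurd (Nat.dvd_one.mp this) hq.one_lt.ne'
  rw [A.mem_nonunits_iff, Rat.cast_def, map_div₀]
  constructor
  · intro h
    by_contra hnum
    have h2 : A.valuation (u.num : L) = 1 :=
      Inertia.valuation_intCast_eq_one_of_not_dvd hA hq hnum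
    rw [h2, div_lt_iff₀ (zero_lt_iff.mpr hdv0), one_mul] at h
    exact absurd (Inertia.valuation_natCast_le_one A u.den) (not_le.mpr h)
  · intro hnum
    have hd : ¬ q ∣ u.den := fun hd => hcop hnum hd
    have h1 : A.valuation (u.den : L) = 1 :=
      Inertia.valuation_natCast_eq_one_of_not_dvd hA hq hd
    rw [h1, div_one]
    exact (Inertia.valuation_intCast_lt_one_iff hA hq _).mpr hnum

end General

/-! ### Rational elements of `AlgebraicClosure ℚ` -/

local notation "Qbar" => AlgebraicClosure ℚ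
local notation "GQ" => (AlgebraicClosure ℚ ≃ₐ[ℚ] AlgebraicClosure ℚ)

theorem isRat_ratCast (r : ℚ) : IsRat (r : Qbar) := ⟨r, eq_ratCast _ r⟩

theorem isRat_iff {u : Qbar} : IsRat u ↔ ∃ r : ℚ, (r : Qbar) = u := by
  constructor
  · rintro ⟨r, hr⟩
    exact ⟨r, by rw [← hr, eq_ratCast]⟩
  · rintro ⟨r, hr⟩
    exact ⟨r, by rw [← hr, eq_ratCast]⟩

theorem isRat_iff_fixed {u : Qbar} : IsRat u ↔ ∀ σ : GQ, σ u = u := by
  constructor
  · rintro ⟨r, rfl⟩ σ
    exact σ.commutes r
  · exact isRat_of_fixed u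

theorem IsRat.mul {u v : Qbar} (hu : IsRat u) (hv : IsRat v) : IsRat (u * v) := by
  rw [isRat_iff_fixed] at *
  intro σ
  rw [map_mul, hu σ, hv σ]

/-- A finite product of values of a Galois-equivariant function over a Galois-stable finite set is
rational. -/
theorem isRat_prod_of_equivariant {X : Type*} [MulAction GQ X] (f : X → Qbar)
    (hf : ∀ (σ : GQ) (x : X), f (σ • x) = σ (f x)) (S : Finset X)
    (hS : ∀ (σ : GQ), ∀ x ∈ S, σ • x ∈ S) : IsRat (∏ x ∈ S, f x) := by
  rw [isRat_iff_fixed]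
  intro σ
  rw [map_prod]
  simp only [← hf]
  refine Finset.prod_nbij' (fun x => σ • x) (fun x => σ⁻¹ • x) (fun x hx => hS σ x hx)
    (fun x hx => hS σ⁻¹ x hx) (fun x _ => ?_) (fun x _ => ?_) (fun x _ => rfl)
  · exact inv_smul_smul σ x
  · exact smul_inv_smul σ x

/-- A finite sum of values of a Galois-equivariant function over a Galois-stable finite set is
rational. -/
theorem isRat_sum_of_equivariant {X : Type*} [MulAction GQ X] (f : X → Qbar)
    (hf : ∀ (σ : GQ) (x : X), f (σ • x) = σ (f x)) (S : Finset X)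
    (hS : ∀ (σ : GQ), ∀ x ∈ S, σ • x ∈ S) : IsRat (∑ x ∈ S, f x) := by
  rw [isRat_iff_fixed]
  intro σ
  rw [map_sum]
  simp only [← hf]
  refine Finset.sum_nbij' (fun x => σ • x) (fun x => σ⁻¹ • x) (fun x hx => hS σ x hx)
    (fun x hx => hS σ⁻¹ x hx) (fun x _ => ?_) (fun x _ => ?_) (fun x _ => rfl)
  · exact inv_smul_smul σ x
  · exact smul_inv_smul σ x

/-- Valuation of a rational element lying in the maximal ideal: `|u| ≤ |q|`. -/
theorem isRat_nonunit_le (A : ValuationSubring Qbar) {q : ℕ} (hq : q.Prime)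
    (hA : A.LiesOverPrime q) {u : Qbar} (hu : IsRat u) (hm : u ∈ A.nonunits) :
    A.valuation u ≤ A.valuation (q : Qbar) := by
  obtain ⟨r, rfl⟩ := isRat_iff.mp hu
  exact ratCast_nonunit_le A hq hA hm

/-- Integrality of a rational element does not depend on the valuation subring over `q`. -/
theorem isRat_mem_iff (A A' : ValuationSubring Qbar) {q : ℕ} (hq : q.Prime)
    (hA : A.LiesOverPrime q) (hA' : A'.LiesOverPrime q) {u : Qbar} (hu : IsRat u) :
    u ∈ A ↔ u ∈ A' := by
  obtain ⟨r, rfl⟩ := isRat_iff.mp hu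
  rw [ratCast_mem_iff A hq hA, ratCast_mem_iff A' hq hA']

theorem isRat_mem_nonunits_iff (A A' : ValuationSubring Qbar) {q : ℕ} (hq : q.Prime)
    (hA : A.LiesOverPrime q) (hA' : A'.LiesOverPrime q) {u : Qbar} (hu : IsRat u) :
    u ∈ A.nonunits ↔ u ∈ A'.nonunits := by
  obtain ⟨r, rfl⟩ := isRat_iff.mp hu
  rw [ratCast_mem_nonunits_iff A hq hA, ratCast_mem_nonunits_iff A' hq hA']

end RatVal

end Fermat.Agent.S13
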