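/-
S13 team, block [T] (prime 2), item (3) "inertia at 2 is unipotent on torsion" — abstract core
(owner: helper78).

Setting: a field `K`, a valuation subring `A` with `2 ∈ 𝔪 = A.nonunits`, a Weierstrass curve
`W : y² + x y = x³ + a₂ x² + a₄ x` over `K` (`a₁ = 1`, `a₃ = a₆ = 0`) with `a₂ ∈ A`, `a₄ ∈ 𝔪`
(the Frey model at the prime `2`: multiplicative reduction, node at `(0, 0)`),
an integer `n` which is a unit of `A`, and a ring endomorphism `σ` of `K` which is
"inertia like" for `A` (`σ x ∈ A ↔ x ∈ A`, `σ x - x ∈ 𝔪` for `x ∈ A`).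

For an `n`-torsion point `P = (x, y)` whose conjugate `σ P = (σ x, σ y)` is again an `n`-torsion
point of `W`:

* `T2H.fixed_of_unit` (U1): if `|x| = 1` then `σ x = x` and `σ y = y`
  (the reduction map is injective on `n`-torsion; the point does not reduce to the node);
* `T2H.sub_unit_or_fixed` (U2): if `|a₄| < |x| < 1` (the point reduces to the node, and lies in
  the "annulus" where all torsion points reducing to the node live), then either `σ P = P`, or
  `σ P - P` is an affine point whose `x`-coordinate is a unit, so (U1) applies to it.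

Together: `σ (σ P - P) = σ P - P` for every `n`-torsion point `P`, i.e. `(σ - 1)² = 0` on `E[n]`.
-/
import Fermat.Agent.S05.Defs
import Fermat.Agent.S05.FormalGroup

set_option autoImplicit false

namespace Fermat.Agent.S13.T2H

open WeierstrassCurve Fermat.Agent.S05

variable {K : Type*} [Field K]

/-! ### Valuation helpers -/

/-- If `x ∈ A` and `y² + x y ∈ A` then `y ∈ A`. -/
lemma mem_of_sq_add_mul_mem (A : ValuationSubring K) {x y : K} (hx : x ∈ A)
    (h : y ^ 2 + x * y ∈ A) : y ∈ A := by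
  by_contra hy
  rw [← A.valuation_le_one_iff] at hx h hy
  rw [not_le] at hy
  have hy0 : 0 < A.valuation y := lt_trans zero_lt_one hy
  have h1 : A.valuation (x * y) ≤ A.valuation y := by
    rw [map_mul]
    calc A.valuation x * A.valuation y ≤ 1 * A.valuation y := mul_le_mul' hx le_rfl
      _ = A.valuation y := one_mul _
  have h2 : A.valuation y < A.valuation (y ^ 2) := by
    rw [pow_two, map_mul]
    calc A.valuation y = A.valuation y * 1 := (mul_one _).symm
      _ < A.valuation y * A.valuation y := mul_lt_mul_of_pos_left hy hy0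
  have h3 : A.valuation (y ^ 2 + x * y) = A.valuation (y ^ 2) :=
    Valuation.map_add_eq_of_lt_left _ (lt_of_le_of_lt h1 h2)
  rw [h3] at h
  exact absurd (lt_trans hy h2) (not_lt.mpr h)

/-- A unit divided by a nonzero nonunit is not integral. -/
lemma div_not_mem (A : ValuationSubring K) {a b : K} (ha : A.valuation a = 1)
    (hb : A.valuation b < 1) (hb0 : b ≠ 0) : a / b ∉ A := by
  rw [← A.valuation_le_one_iff, map_div₀, ha, not_le, one_div]
  have hb' : 0 < A.valuation b := by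
    rw [zero_lt_iff]
    exact (Valuation.ne_zero_iff _).mpr hb0
  exact (one_lt_inv₀ hb').mpr hb

/-- The `x`-coordinate `ℓ² + ℓ - a₂ - x₁ - x₂` of a sum is not integral when the slope `ℓ` is not
integral (and `a₂, x₁, x₂` are). -/
lemma addX_not_mem (A : ValuationSubring K) {a₂ x₁ x₂ ℓ : K} (ha₂ : a₂ ∈ A)
    (hx₁ : x₁ ∈ A) (hx₂ : x₂ ∈ A) (hℓ : ℓ ∉ A) : ℓ ^ 2 + ℓ - a₂ - x₁ - x₂ ∉ A := by
  intro hmem
  apply hℓ
  apply mem_of_sq_add_mul_mem A A.one_mem
  have : ℓ ^ 2 + 1 * ℓ = (ℓ ^ 2 + ℓ - a₂ - x₁ - x₂) + a₂ + x₁ + x₂ := by ring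
  rw [this]
  exact A.add_mem _ _ (A.add_mem _ _ (A.add_mem _ _ hmem ha₂) hx₁) hx₂

lemma lt_one_add (A : ValuationSubring K) {a b : K} (ha : A.valuation a < 1)
    (hb : A.valuation b < 1) : A.valuation (a + b) < 1 :=
  Valuation.map_add_lt _ ha hb

lemma lt_one_sub (A : ValuationSubring K) {a b : K} (ha : A.valuation a < 1)
    (hb : A.valuation b < 1) : A.valuation (a - b) < 1 :=
  Valuation.map_sub_lt _ ha hb

lemma lt_one_mul (A : ValuationSubring K) {a b : K} (ha : A.valuation a ≤ 1)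
    (hb : A.valuation b < 1) : A.valuation (a * b) < 1 := by
  rw [map_mul]
  exact lt_of_le_of_lt (mul_le_mul' ha le_rfl) (by rwa [one_mul])

lemma lt_one_mul' (A : ValuationSubring K) {a b : K} (ha : A.valuation a < 1)
    (hb : A.valuation b ≤ 1) : A.valuation (a * b) < 1 := by
  rw [mul_comm]
  exact lt_one_mul A hb ha

lemma le_one_mul (A : ValuationSubring K) {a b : K} (ha : A.valuation a ≤ 1)
    (hb : A.valuation b ≤ 1) : A.valuation (a * b) ≤ 1 := by
  rw [map_mul]
  exact mul_le_one' ha hb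

lemma lt_one_neg (A : ValuationSubring K) {a : K} (ha : A.valuation a < 1) :
    A.valuation (-a) < 1 := by
  rwa [Valuation.map_neg]

/-- `|u + e| = 1` when `|u| = 1` and `|e| < 1`. -/
lemma eq_one_add (A : ValuationSubring K) {u e : K} (hu : A.valuation u = 1)
    (he : A.valuation e < 1) : A.valuation (u + e) = 1 := by
  rw [Valuation.map_add_eq_of_lt_left _ (by rwa [hu]), hu]

/-! ### The curve `y² + x y = x³ + a₂ x² + a₄ x` -/

section Curve

variable (W : WeierstrassCurve K) (ha₁ : W.a₁ = 1) (ha₃ : W.a₃ = 0) (ha₆ : W.a₆ = 0)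

include ha₁ ha₃ ha₆ in
/-- The equation of the curve. -/
lemma eqn {x y : K} (h : W.toAffine.Equation x y) :
    y ^ 2 + x * y = x ^ 3 + W.a₂ * x ^ 2 + W.a₄ * x := by
  have h0 := (Affine.equation_iff x y).mp h
  rw [ha₁, ha₃, ha₆] at h0
  linear_combination h0

include ha₁ ha₃ ha₆ in
/-- An affine point with integral `x` has integral `y`. -/
lemma y_mem (A : ValuationSubring K) (ha₂ : W.a₂ ∈ A) (ha₄ : W.a₄ ∈ A) {x y : K}
    (h : W.toAffine.Equation x y) (hx : x ∈ A) : y ∈ A := by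
  apply mem_of_sq_add_mul_mem A hx
  rw [eqn W ha₁ ha₃ ha₆ h]
  exact A.add_mem _ _ (A.add_mem _ _ (A.pow_mem hx 3) (A.mul_mem _ _ ha₂ (A.pow_mem hx 2)))
    (A.mul_mem _ _ ha₄ hx)

variable [DecidableEq K]

include ha₁ ha₃ in
/-- Explicit `x`-coordinate of the difference of two points with distinct `x`-coordinates. -/
lemma sub_eq_some {x₁ y₁ x₂ y₂ : K} (h₁ : W.toAffine.Nonsingular x₁ y₁)
    (h₂ : W.toAffine.Nonsingular x₂ y₂) (hx : x₁ ≠ x₂) :
    ∃ (x' y' : K) (h'' : W.toAffine.Nonsingular x' y'),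
      Affine.Point.some x₁ y₁ h₁ - Affine.Point.some x₂ y₂ h₂ = Affine.Point.some x' y' h'' ∧
      x' = ((y₁ + y₂ + x₂) / (x₁ - x₂)) ^ 2 + (y₁ + y₂ + x₂) / (x₁ - x₂) - W.a₂ - x₁ - x₂ := by
  rw [sub_eq_add_neg, Affine.Point.neg_some, Affine.Point.add_of_X_ne hx]
  refine ⟨_, _, _, rfl, ?_⟩
  rw [Affine.slope_of_X_ne hx, Affine.addX, Affine.negY, ha₁, ha₃]
  ring

end Curve

/-- Algebraic identity behind (U2): with `ℓ = (δ w + 1 + μ) / δ`, the quantity
`δ² (ℓ² + ℓ - a₂ - s)` is `1 + δ` plus terms which are small when `w² + w - a₂`, `2`, `μ`, `s`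
are. -/
lemma key_identity {a₂ w δ μ s : K} (hδ : δ ≠ 0) :
    (((δ * w + 1 + μ) / δ) ^ 2 + (δ * w + 1 + μ) / δ - a₂ - s) * δ ^ 2 =
      (1 + δ) + (δ ^ 2 * (w ^ 2 + w - a₂) + δ * (2 * w) + μ * (2 * (δ * w + 1) + μ + δ)
        - s * δ ^ 2) := by
  field_simp
  ring

/-! ### The two exported statements -/

section Main

variable [DecidableEq K] (A : ValuationSubring K) (h2 : (2 : K) ∈ A.nonunits)
  (W : WeierstrassCurve K) (ha₁ : W.a₁ = 1) (ha₃ : W.a₃ = 0) (ha₆ : W.a₆ = 0)
  (ha₂ : W.a₂ ∈ A) (ha₄ : W.a₄ ∈ A.nonunits)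
  (n : ℕ) (hn : A.valuation (n : K) = 1)
  (σ : K →+* K) (hσ : InertiaLike A σ)

include ha₁ ha₃ ha₆ ha₂ ha₄ hn in
/-- The difference of two `n`-torsion points with integral, distinct `x`-coordinates has integral
slope. -/
lemma slope_mem {x₁ y₁ x₂ y₂ : K} (h₁ : W.toAffine.Nonsingular x₁ y₁)
    (h₂ : W.toAffine.Nonsingular x₂ y₂) (hx : x₁ ≠ x₂) (hx₁ : x₁ ∈ A) (hx₂ : x₂ ∈ A)
    (ht₁ : n • Affine.Point.some x₁ y₁ h₁ = 0) (ht₂ : n • Affine.Point.some x₂ y₂ h₂ = 0) :
    (y₁ + y₂ + x₂) / (x₁ - x₂) ∈ A := by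
  by_contra hℓ
  obtain ⟨x', y', h'', hsub, hx'⟩ := sub_eq_some W ha₁ ha₃ h₁ h₂ hx
  have hx'A : x' ∉ A := by
    rw [hx']
    exact addX_not_mem A ha₂ hx₁ hx₂ hℓ
  have hF := F1 A W (ha₁ ▸ A.one_mem) ha₂ (ha₃ ▸ A.zero_mem) (A.nonunits_le ha₄)
    (ha₆ ▸ A.zero_mem) hn h'' hx'A
  apply hF
  rw [← hsub, nsmul_sub, ht₁, ht₂, sub_zero]

include h2 ha₁ ha₃ ha₆ ha₂ ha₄ hn hσ in
/-- **(U1)** An `n`-torsion point with unit `x`-coordinate whose `σ`-conjugate is again
`n`-torsion is fixed by `σ`. -/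
theorem fixed_of_unit {x y : K} (h : W.toAffine.Nonsingular x y)
    (h' : W.toAffine.Nonsingular (σ x) (σ y))
    (htors : n • Affine.Point.some x y h = 0)
    (htors' : n • Affine.Point.some (σ x) (σ y) h' = 0)
    (hx1 : A.valuation x = 1) : σ x = x ∧ σ y = y := by
  have h2' : A.valuation (2 : K) < 1 := A.mem_nonunits_iff.mp h2
  have hxA : x ∈ A := (A.valuation_le_one_iff x).mp hx1.le
  have hyA : y ∈ A := y_mem W ha₁ ha₃ ha₆ A ha₂ (A.nonunits_le ha₄) h.1 hxA
  have hsx : A.valuation (σ x - x) < 1 := A.mem_nonunits_iff.mp (hσ.sub_mem x hxA)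
  have hsy : A.valuation (σ y - y) < 1 := A.mem_nonunits_iff.mp (hσ.sub_mem y hyA)
  have hσxA : σ x ∈ A := (hσ.mem_iff x).mpr hxA
  have h2y : A.valuation (2 * y) < 1 :=
    lt_one_mul' A h2' ((A.valuation_le_one_iff y).mpr hyA)
  by_cases hne : σ x = x
  · refine ⟨hne, ?_⟩
    rcases Affine.Y_eq_of_X_eq h'.1 h.1 hne with hy | hy
    · exact hy
    · exfalso
      have hxe : x = -((σ y - y) + 2 * y) := by
        rw [hy, Affine.negY, ha₁, ha₃]
        ring
      have : A.valuation x < 1 := by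
        rw [hxe]
        exact lt_one_neg A (lt_one_add A hsy h2y)
      exact absurd hx1 (ne_of_lt this)
  · exfalso
    have hℓ := slope_mem A W ha₁ ha₃ ha₆ ha₂ ha₄ n hn h' h hne hσxA hxA htors' htors
    refine div_not_mem A ?_ hsx (sub_ne_zero.mpr hne) hℓ
    have : σ y + y + x = x + ((σ y - y) + 2 * y) := by ring
    rw [this]
    exact eq_one_add A hx1 (lt_one_add A hsy h2y)

include h2 ha₁ ha₃ ha₆ ha₂ ha₄ hn hσ in
/-- **(U2)** An `n`-torsion point `P = (x, y)` with `|a₄| < |x| < 1` whose `σ`-conjugate `σ P` is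
again `n`-torsion (with `|σ x| = |x|`) is either fixed by `σ`, or `σ P - P` is an affine point
with unit `x`-coordinate. -/
theorem sub_unit_or_fixed {x y : K} (h : W.toAffine.Nonsingular x y)
    (h' : W.toAffine.Nonsingular (σ x) (σ y))
    (htors : n • Affine.Point.some x y h = 0)
    (htors' : n • Affine.Point.some (σ x) (σ y) h' = 0)
    (hvx : A.valuation (σ x) = A.valuation x)
    (hxA : A.valuation x < 1) (hx4 : A.valuation W.a₄ < A.valuation x) :
    (σ x = x ∧ σ y = y) ∨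
      ∃ (x' y' : K) (h'' : W.toAffine.Nonsingular x' y'),
        Affine.Point.some (σ x) (σ y) h' - Affine.Point.some x y h = Affine.Point.some x' y' h'' ∧
        A.valuation x' = 1 := by
  have h2' : A.valuation (2 : K) < 1 := A.mem_nonunits_iff.mp h2
  have hx0 : x ≠ 0 := by
    intro h0
    rw [h0, map_zero] at hx4
    exact not_lt_zero hx4
  have hvx0 : 0 < A.valuation x := zero_lt_iff.mpr ((Valuation.ne_zero_iff _).mpr hx0)
  have hσx0 : σ x ≠ 0 := by
    intro h0
    rw [h0, map_zero] at hvx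
    exact (ne_of_gt hvx0) hvx.symm
  have hxA' : x ∈ A := (A.valuation_le_one_iff x).mp hxA.le
  have hσxA : σ x ∈ A := (hσ.mem_iff x).mpr hxA'
  have hσxlt : A.valuation (σ x) < 1 := by rwa [hvx]
  -- `w = y / x`
  obtain ⟨w, hw⟩ : ∃ w : K, w = y / x := ⟨_, rfl⟩
  have hy : y = w * x := by
    rw [hw]
    field_simp
  have heq := eqn W ha₁ ha₃ ha₆ h.1
  have hwe : w ^ 2 + w - W.a₂ = x + W.a₄ / x := by
    rw [hw]
    field_simp
    linear_combination heq
  have h4x : A.valuation (W.a₄ / x) < 1 := by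
    rw [map_div₀]
    exact (div_lt_one₀ hvx0).mpr hx4
  have hwm : A.valuation (w ^ 2 + w - W.a₂) < 1 := by
    rw [hwe]
    exact lt_one_add A hxA h4x
  have hwA : w ∈ A := by
    apply mem_of_sq_add_mul_mem A A.one_mem
    have : w ^ 2 + 1 * w = (w ^ 2 + w - W.a₂) + W.a₂ := by ring
    rw [this]
    exact A.add_mem _ _ ((A.valuation_le_one_iff _).mp hwm.le) ha₂
  have hwv : A.valuation w ≤ 1 := (A.valuation_le_one_iff w).mpr hwA
  have hsw : A.valuation (σ w - w) < 1 := A.mem_nonunits_iff.mp (hσ.sub_mem w hwA)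
  have hσw : σ w = σ y / σ x := by rw [hw, map_div₀]
  have hσy : σ y = σ w * σ x := by
    rw [hσw]
    field_simp
  have h2w : A.valuation (2 * w) < 1 := lt_one_mul' A h2' hwv
  by_cases hne : σ x = x
  · left
    refine ⟨hne, ?_⟩
    rcases Affine.Y_eq_of_X_eq h'.1 h.1 hne with hy' | hy'
    · exact hy'
    · exfalso
      have hσw' : σ w = -w - 1 := by
        rw [hσw, hy', hne, Affine.negY, ha₁, ha₃, hw]
        field_simp
        ring
      have h1 : (1 : K) = -((σ w - w) + 2 * w) := by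
        rw [hσw']
        ring
      have : A.valuation (1 : K) < 1 := by
        rw [h1]
        exact lt_one_neg A (lt_one_add A hsw h2w)
      rw [map_one] at this
      exact lt_irrefl _ this
  · right
    obtain ⟨x', y', h'', hsub, hx'⟩ := sub_eq_some W ha₁ ha₃ h' h hne
    refine ⟨x', y', h'', hsub, ?_⟩
    have hℓA := slope_mem A W ha₁ ha₃ ha₆ ha₂ ha₄ n hn h' h hne hσxA hxA' htors' htors
    -- `δ = (σ x - x) / x`
    obtain ⟨δ, hδ⟩ : ∃ δ : K, δ = (σ x - x) / x := ⟨_, rfl⟩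
    have hδ0 : δ ≠ 0 := by
      rw [hδ]
      exact div_ne_zero (sub_ne_zero.mpr hne) hx0
    have hσx : σ x = (1 + δ) * x := by
      rw [hδ]
      field_simp
      ring
    have h1δ : A.valuation (1 + δ) = 1 := by
      have : 1 + δ = σ x / x := by
        rw [hδ]
        field_simp
        ring
      rw [this, map_div₀, hvx]
      exact div_self (ne_of_gt hvx0)
    have hδle : A.valuation δ ≤ 1 := by
      have : δ = (1 + δ) - 1 := by ring
      rw [this]
      exact Valuation.map_sub_le _ (le_of_eq h1δ) (le_of_eq (map_one _))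
    have hδA : δ ∈ A := (A.valuation_le_one_iff δ).mp hδle
    -- `μ = (1 + δ) (σ w - w) + 2 w`
    obtain ⟨μ, hμ⟩ : ∃ μ : K, μ = (1 + δ) * (σ w - w) + 2 * w := ⟨_, rfl⟩
    have hμm : A.valuation μ < 1 := by
      rw [hμ]
      exact lt_one_add A (lt_one_mul A h1δ.le hsw) h2w
    have hμA : μ ∈ A := (A.valuation_le_one_iff μ).mp hμm.le
    have hℓ : (σ y + y + x) / (σ x - x) = (δ * w + 1 + μ) / δ := by
      have hden : σ x - x = δ * x := by
        rw [hσx]
        ring
      have hnum : σ y + y + x = (δ * w + 1 + μ) * x := by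
        rw [hσy, hσx, hy, hμ]
        ring
      rw [hden, hnum]
      field_simp
    rw [hℓ] at hℓA hx'
    rcases lt_or_eq_of_le hδle with hδlt | hδ1
    · -- `|δ| < 1`: the slope is not integral, contradiction
      exfalso
      refine div_not_mem A ?_ hδlt hδ0 hℓA
      have : δ * w + 1 + μ = 1 + (δ * w + μ) := by ring
      rw [this]
      exact eq_one_add A (map_one _) (lt_one_add A (lt_one_mul' A hδlt hwv) hμm)
    · -- `|δ| = 1`
      have hδ2 : A.valuation (δ ^ 2) = 1 := by rw [map_pow, hδ1, one_pow]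
      have hkey := key_identity (a₂ := W.a₂) (w := w) (μ := μ) (s := σ x + x) hδ0
      have hx'' : x' * δ ^ 2 = (1 + δ) + (δ ^ 2 * (w ^ 2 + w - W.a₂) + δ * (2 * w)
          + μ * (2 * (δ * w + 1) + μ + δ) - (σ x + x) * δ ^ 2) := by
        rw [hx', ← hkey]
        ring
      have h2A : (2 : K) ∈ A := (A.valuation_le_one_iff _).mp h2'.le
      have he : A.valuation (δ ^ 2 * (w ^ 2 + w - W.a₂) + δ * (2 * w)
          + μ * (2 * (δ * w + 1) + μ + δ) - (σ x + x) * δ ^ 2) < 1 := by
        refine lt_one_sub A (lt_one_add A (lt_one_add A ?_ ?_) ?_) ?_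
        · exact lt_one_mul A hδ2.le hwm
        · exact lt_one_mul A hδle h2w
        · refine lt_one_mul' A hμm ((A.valuation_le_one_iff _).mpr ?_)
          exact A.add_mem _ _ (A.add_mem _ _ (A.mul_mem _ _ h2A
            (A.add_mem _ _ (A.mul_mem _ _ hδA hwA) A.one_mem)) hμA) hδA
        · exact lt_one_mul' A (lt_one_add A hσxlt hxA) hδ2.le
      have hfin : A.valuation (x' * δ ^ 2) = 1 := by
        rw [hx'']
        exact eq_one_add A h1δ he
      rwa [map_mul, hδ2, mul_one] at hfin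

include h2 ha₁ ha₃ ha₆ ha₂ ha₄ hn hσ in
/-- **Unipotence on `n`-torsion** (`Φ`-level statement).  Let `Φ` be an additive endomorphism of
the group of points acting by `σ` on coordinates.  Assume that every `n`-torsion point reducing
to the node lies in the annulus `|a₄| < |x|` and that `σ` preserves `|x|` for such points.
Then `Φ (Φ P - P) = Φ P - P` for every `n`-torsion point `P`, i.e. `(Φ - 1)² = 0` on `E[n]`. -/
theorem unipotent (Φ : W.toAffine.Point →+ W.toAffine.Point)
    (hΦ : ∀ (x y : K) (h : W.toAffine.Nonsingular x y),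
      ∃ h' : W.toAffine.Nonsingular (σ x) (σ y),
        Φ (Affine.Point.some x y h) = Affine.Point.some (σ x) (σ y) h')
    (hreg : ∀ (x y : K) (h : W.toAffine.Nonsingular x y), n • Affine.Point.some x y h = 0 →
      A.valuation x < 1 → A.valuation W.a₄ < A.valuation x ∧ A.valuation (σ x) = A.valuation x)
    (P : W.toAffine.Point) (hP : n • P = 0) : Φ (Φ P - P) = Φ P - P := by
  -- a point fixed by `σ` on coordinates is fixed by `Φ`
  have hfix : ∀ (x y : K) (h : W.toAffine.Nonsingular x y), σ x = x → σ y = y →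
      Φ (Affine.Point.some x y h) = Affine.Point.some x y h := by
    intro x y h hx hy
    obtain ⟨h', e⟩ := hΦ x y h
    rw [e]
    simp only [Affine.Point.some.injEq]
    exact ⟨hx, hy⟩
  -- (U1) at the `Φ`-level
  have hU1 : ∀ (x y : K) (h : W.toAffine.Nonsingular x y), n • Affine.Point.some x y h = 0 →
      A.valuation x = 1 → Φ (Affine.Point.some x y h) = Affine.Point.some x y h := by
    intro x y h ht hx1
    obtain ⟨h', e⟩ := hΦ x y h
    have ht' : n • Affine.Point.some (σ x) (σ y) h' = 0 := by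
      rw [← e, ← map_nsmul, ht, map_zero]
    obtain ⟨hx, hy⟩ := fixed_of_unit A h2 W ha₁ ha₃ ha₆ ha₂ ha₄ n hn σ hσ h h' ht ht' hx1
    exact hfix x y h hx hy
  rcases P with _ | ⟨x, y, h⟩
  · change Φ (Φ 0 - 0) = Φ 0 - 0
    rw [map_zero, sub_zero, map_zero]
  · obtain ⟨h', e⟩ := hΦ x y h
    have ht' : n • Affine.Point.some (σ x) (σ y) h' = 0 := by
      rw [← e, ← map_nsmul, hP, map_zero]
    have hxA : x ∈ A := by
      by_contra hx
      exact F1 A W (ha₁ ▸ A.one_mem) ha₂ (ha₃ ▸ A.zero_mem) (A.nonunits_le ha₄)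
        (ha₆ ▸ A.zero_mem) hn h hx hP
    rcases lt_or_eq_of_le ((A.valuation_le_one_iff x).mpr hxA) with hlt | h1
    · obtain ⟨hx4, hvx⟩ := hreg x y h hP hlt
      rcases sub_unit_or_fixed A h2 W ha₁ ha₃ ha₆ ha₂ ha₄ n hn σ hσ h h' hP ht' hvx hlt hx4 with
        ⟨hx, hy⟩ | ⟨x', y', h'', hsub, hx'⟩
      · rw [hfix x y h hx hy, sub_self, map_zero]
      · rw [e, hsub]
        refine hU1 x' y' h'' ?_ hx'
        rw [← hsub, nsmul_sub, ht', hP, sub_zero]
    · rw [hU1 x y h hP h1, sub_self, map_zero]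

end Main

end Fermat.Agent.S13.T2H
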