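/-
S13 team, block [T] (hedge; owner of this file: helper67).
The tent induction for a nodal model `y² + a₁ x y = x³ + a₂ x² + β x` in ANY residue
characteristic, as pure valuation algebra on the sequence `xs k = x(k • P)` of a point of odd
prime order `p`, and its consequence: such a point cannot have all `xs k` in a subfield `k₀`
whose value group is generated by `|2|`, when `|β| = |2| ^ N` with `p ∤ N` and `p ≥ 5`.

The only change with respect to `S05/PC_Tent.lean` is the duplication formula, which is used in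
the form `xs (2 i) * (xs i * Q (xs i)) = (xs i ^ 2 - β) ^ 2` with three valuation properties of
`Q` (for the model above `Q x = 4 x² + b₂ x + 4 β`, `|b₂| = 1`).
-/
import Mathlib
import Fermat.Agent.S05.PC_Tent

set_option autoImplicit false

namespace Fermat.Agent.S13.T2H

open Fermat.Agent.S05.PC

variable {K : Type*} [Field K] {G : Type*} [LinearOrderedCommGroupWithZero G]

/-- The hypotheses of the generalised tent induction. -/
structure TentQ (v : Valuation K G) (β : K) (Q : K → K) (p : ℕ) (xs : ℕ → K) : Prop where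
  β_lt : v β < 1
  β_ne : β ≠ 0
  Q_le : ∀ x, v x ≤ 1 → v (Q x) ≤ 1
  Q_small : ∀ x, v x ≤ v β → v (Q x) ≤ v β
  Q_mid : ∀ x, v β < v x → v x < 1 → v (Q x) = v x
  prime : p.Prime
  odd : Odd p
  per : ∀ i j : ℕ, ((i : ZMod p) = j ∨ (i : ZMod p) = -j) → xs i = xs j
  dbl : ∀ i, ¬ p ∣ i → xs (2 * i) * (xs i * Q (xs i)) = (xs i ^ 2 - β) ^ 2
  addsub : ∀ i j, j < i → ¬ p ∣ i → ¬ p ∣ j → ¬ p ∣ (i + j) → ¬ p ∣ (i - j) →
    xs (i + j) * xs (i - j) * (xs i - xs j) ^ 2 = (xs i * xs j - β) ^ 2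
  integral : ∀ i, ¬ p ∣ i → v (xs i) ≤ 1

/-- The invariant of the tent induction at the index `k`. -/
def PsiQ (v : Valuation K G) (β : K) (xs : ℕ → K) (k : ℕ) : Prop :=
  (ExpP (v β) (v (xs 1)) k (v (xs k)) ∧
      v (xs (k - 1)) * v (xs k - xs 1) ^ 2 = v (xs k) * v (xs 1)) ∨
  (ExpM (v β) (v (xs 1)) k (v (xs k)) ∧
      v (xs k * xs 1 - β) ^ 2 = v (xs (k - 1)) * v (xs k) * v (xs 1))

namespace TentQ

variable {v : Valuation K G} {β : K} {Q : K → K} {p : ℕ} {xs : ℕ → K}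

section
variable (T : TentQ v β Q p xs)
include T

lemma eps_pos : 0 < v β := v.pos_iff.mpr T.β_ne

lemma three_le : 3 ≤ p := by
  have h2 := T.prime.two_le
  rcases T.odd with ⟨m, hm⟩
  omega

lemma not_dvd_one : ¬ p ∣ 1 := Tent.not_dvd_of_lt one_pos (by have := T.three_le; omega)

lemma not_dvd_two_mul {i : ℕ} (hi : ¬ p ∣ i) : ¬ p ∣ 2 * i := by
  intro h
  rcases (T.prime.dvd_mul).mp h with h2 | h2
  · have := Nat.le_of_dvd two_pos h2
    have := T.three_le
    omega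
  · exact hi h2

lemma not_dvd_mul {k m : ℕ} (hk : ¬ p ∣ k) (hm0 : 0 < m) (hm : m < p) : ¬ p ∣ k * m := by
  intro h
  rcases (T.prime.dvd_mul).mp h with h2 | h2
  · exact hk h2
  · exact Tent.not_dvd_of_lt hm0 hm h2

/-- Valuation form of the duplication formula. -/
lemma val_dbl {i : ℕ} (hi : ¬ p ∣ i) :
    v (xs (2 * i)) * (v (xs i) * v (Q (xs i))) = v (xs i ^ 2 - β) ^ 2 := by
  have h := congrArg v (T.dbl i hi)
  rw [map_mul, map_mul, map_pow] at h
  exact h

/-- Valuation form of the addition-subtraction formula. -/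
lemma val_addsub {i j : ℕ} (hji : j < i) (hi : ¬ p ∣ i) (hj : ¬ p ∣ j) (hij : ¬ p ∣ (i + j))
    (hij' : ¬ p ∣ (i - j)) :
    v (xs (i + j)) * v (xs (i - j)) * v (xs i - xs j) ^ 2 = v (xs i * xs j - β) ^ 2 := by
  have h := congrArg v (T.addsub i j hji hi hj hij hij')
  rw [map_mul, map_mul, map_pow, map_pow] at h
  exact h

/-! ### L1: a unit `x(kP)` propagates to all multiples -/

lemma unit_two {k : ℕ} (hk : ¬ p ∣ k) (h1 : v (xs k) = 1) : v (xs (2 * k)) = 1 := by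
  have hd := T.val_dbl hk
  have h_b : v (xs k ^ 2 - β) = 1 := by
    rw [Valuation.map_sub_eq_of_lt_left, map_pow, h1, one_pow]
    rw [map_pow, h1, one_pow]; exact T.β_lt
  have h_Q : v (Q (xs k)) ≤ 1 := T.Q_le _ h1.le
  rw [h1, h_b, one_mul, one_pow] at hd
  exact eq_one_of_mul_eq_one' (T.integral _ (T.not_dvd_two_mul hk)) h_Q hd

lemma unit_succ {k m : ℕ} (hk : ¬ p ∣ k) (h1 : v (xs k) = 1) (hm : 2 ≤ m) (hm1 : m + 1 < p)
    (hkm : v (xs (k * m)) = 1) : v (xs (k * (m + 1))) = 1 := by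
  have hk0 : 0 < k := Nat.pos_of_ne_zero (fun h => hk (h ▸ dvd_zero p))
  have hlt : k < k * m := by nlinarith
  have e1 : k * m + k = k * (m + 1) := by ring
  have e2 : k * m - k = k * (m - 1) := by rw [Nat.mul_sub, mul_one]
  have ha := T.val_addsub hlt (T.not_dvd_mul hk (by omega) (by omega)) hk
    (by rw [e1]; exact T.not_dvd_mul hk (by omega) hm1)
    (by rw [e2]; exact T.not_dvd_mul hk (by omega) (by omega))
  have h_b : v (xs (k * m) * xs k - β) = 1 := by
    rw [Valuation.map_sub_eq_of_lt_left, map_mul, hkm, h1, one_mul]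
    rw [map_mul, hkm, h1, one_mul]; exact T.β_lt
  rw [h_b, one_pow, e1, e2, mul_assoc] at ha
  refine eq_one_of_mul_eq_one' (T.integral _ (T.not_dvd_mul hk (by omega) hm1)) ?_ ha
  have h3 : v (xs (k * (m - 1))) ≤ 1 := T.integral _ (T.not_dvd_mul hk (by omega) (by omega))
  have h4 : v (xs (k * m) - xs k) ≤ 1 := Valuation.map_sub_le v hkm.le h1.le
  exact mul_le_one' h3 (pow_le_one' h4 2)

lemma unit_mul {k : ℕ} (hk : ¬ p ∣ k) (h1 : v (xs k) = 1) :
    ∀ m : ℕ, 1 ≤ m → m < p → v (xs (k * m)) = 1 := by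
  intro m hm
  induction m, hm using Nat.le_induction with
  | base => intro _; rw [mul_one]; exact h1
  | succ m hm ih =>
    intro hm1
    rcases Nat.eq_or_lt_of_le hm with rfl | hm2
    · rw [show k * (1 + 1) = 2 * k by ring]; exact T.unit_two hk h1
    · exact T.unit_succ hk h1 hm2 hm1 (ih (by omega))

/-- If one multiple has a unit `x`-coordinate, all of them do. -/
lemma unit_all {k : ℕ} (hk : ¬ p ∣ k) (h1 : v (xs k) = 1) {j : ℕ} (hj : ¬ p ∣ j) :
    v (xs j) = 1 := by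
  have : Fact p.Prime := ⟨T.prime⟩
  have hk' : (k : ZMod p) ≠ 0 := by rwa [Ne, ZMod.natCast_eq_zero_iff]
  have hj' : (j : ZMod p) ≠ 0 := by rwa [Ne, ZMod.natCast_eq_zero_iff]
  have hc0 : (j : ZMod p) * (k : ZMod p)⁻¹ ≠ 0 := mul_ne_zero hj' (inv_ne_zero hk')
  have hm0 : 0 < ((j : ZMod p) * (k : ZMod p)⁻¹).val := ZMod.val_pos.mpr hc0
  have hmp : ((j : ZMod p) * (k : ZMod p)⁻¹).val < p := ZMod.val_lt _
  have hper : xs (k * ((j : ZMod p) * (k : ZMod p)⁻¹).val) = xs j := by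
    apply T.per; left
    rw [Nat.cast_mul, ZMod.natCast_zmod_val]
    field_simp
  rw [← hper]; exact T.unit_mul hk h1 _ hm0 hmp

/-- If `|x(P)| < 1` then `|x(kP)| < 1` for all `k` prime to `p`. -/
lemma lt_one_all (hx : v (xs 1) < 1) {k : ℕ} (hk : ¬ p ∣ k) : v (xs k) < 1 := by
  refine lt_of_le_of_ne (T.integral k hk) (fun h1 => ?_)
  exact absurd (T.unit_all hk h1 T.not_dvd_one) hx.ne

/-! ### L2: no multiple has `|x(kP)| ≤ |β|` -/

lemma eps_lt (hx : v (xs 1) < 1) {k : ℕ} (hk : ¬ p ∣ k) : v β < v (xs k) := by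
  by_contra hcon
  push Not at hcon
  have hd := T.val_dbl hk
  have hε := T.eps_pos
  have hε1 := T.β_lt
  have h_sq : v (xs k ^ 2) < v β := by
    rw [map_pow]
    calc v (xs k) ^ 2 ≤ v β ^ 2 := pow_le_pow_left' hcon 2
      _ = v β * v β := sq _
      _ < v β * 1 := mul_lt_mul_of_pos_left hε1 hε
      _ = v β := mul_one _
  have h_b : v (xs k ^ 2 - β) = v β := Valuation.map_sub_eq_of_lt_right _ h_sq
  have h_Q : v (Q (xs k)) ≤ v β := T.Q_small _ hcon
  rw [h_b] at hd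
  have h1 : 1 ≤ v (xs (2 * k)) := by
    refine one_le_of_mul_eq' (pow_ne_zero 2 hε.ne') ?_ hd
    calc v (xs k) * v (Q (xs k)) ≤ v β * v β := mul_le_mul' hcon h_Q
      _ = v β ^ 2 := (sq _).symm
  exact absurd (T.lt_one_all hx (T.not_dvd_two_mul hk)) (not_lt.mpr h1)

/-! ### L3: the invariant -/

lemma psi_two (hx : v (xs 1) < 1) : PsiQ v β xs 2 := by
  have h1 := T.not_dvd_one
  have h2 : ¬ p ∣ 2 := Tent.not_dvd_of_lt two_pos (by have := T.three_le; omega)
  have hd := T.val_dbl h1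
  rw [mul_one] at hd
  have hεt := T.eps_lt hx h1
  have hb : v β ≠ 0 := T.eps_pos.ne'
  rw [T.Q_mid _ hεt hx, sq (xs 1)] at hd
  rcases plus_core v hb hεt hεt hx (T.eps_lt hx h2) hd with ⟨h3, h4⟩ | ⟨h3, h4⟩
  · left
    exact ⟨⟨0, 0, by rw [h3, sq]⟩, h4⟩
  · right
    refine ⟨⟨0, 1, ?_⟩, h4⟩
    rw [mul_zero, pow_zero, mul_one, mul_one, sq (v (xs 1)), h3]

lemma psi_succ (hx : v (xs 1) < 1) {k : ℕ} (hk : 2 ≤ k) (hk1 : k + 1 < p)
    (h : PsiQ v β xs k) : PsiQ v β xs (k + 1) := by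
  have hdk : ¬ p ∣ k := Tent.not_dvd_of_lt (by omega) (by omega)
  have hdk1 : ¬ p ∣ k + 1 := Tent.not_dvd_of_lt (by omega) hk1
  have hdk' : ¬ p ∣ k - 1 := Tent.not_dvd_of_lt (by omega) (by omega)
  have ha := T.val_addsub (i := k) (j := 1) (by omega) hdk T.not_dvd_one hdk1 hdk'
  have hb : v β ≠ 0 := T.eps_pos.ne'
  have hεt : v β < v (xs 1) := T.eps_lt hx T.not_dvd_one
  have hεs : v β < v (xs k) := T.eps_lt hx hdk
  have hεs' : v β < v (xs (k + 1)) := T.eps_lt hx hdk1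
  have hs1 := T.lt_one_all hx hdk
  have hs'1 := T.lt_one_all hx hdk1
  rcases h with ⟨hE, hI⟩ | ⟨hE, hI⟩
  · have hX : v (xs (k + 1)) * (v (xs k) * v (xs 1)) = v (xs k * xs 1 - β) ^ 2 := by
      rw [← ha, ← hI]; ac_rfl
    rcases plus_core v hb hεt hεs hs1 hεs' hX with ⟨h2, h3⟩ | ⟨h2, h3⟩
    · left
      refine ⟨hE.pp h2, ?_⟩
      rw [Nat.add_sub_cancel]; exact h3
    · right
      refine ⟨hE.pm h2, ?_⟩
      rw [Nat.add_sub_cancel]; exact h3
  · have hs₀ : v (xs (k - 1)) ≠ 0 := (lt_of_le_of_lt zero_le (T.eps_lt hx hdk')).ne'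
    have hX : v (xs (k + 1)) * v (xs k - xs 1) ^ 2 = v (xs k) * v (xs 1) := by
      apply mul_left_cancel₀ hs₀
      calc v (xs (k - 1)) * (v (xs (k + 1)) * v (xs k - xs 1) ^ 2)
          = v (xs (k + 1)) * v (xs (k - 1)) * v (xs k - xs 1) ^ 2 := by ac_rfl
        _ = v (xs (k - 1)) * (v (xs k) * v (xs 1)) := by rw [ha, hI]; ac_rfl
    rcases minus_core v hεt hεs hs1 hs'1 hX with ⟨h2, h3⟩ | ⟨h2, h3⟩
    · right
      refine ⟨hE.mm h2, ?_⟩
      rw [Nat.add_sub_cancel]; exact h3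
    · left
      refine ⟨hE.mp h2, ?_⟩
      rw [Nat.add_sub_cancel]; exact h3

lemma psi_all (hx : v (xs 1) < 1) : ∀ k, 2 ≤ k → k < p → PsiQ v β xs k := by
  intro k hk
  induction k, hk using Nat.le_induction with
  | base => intro _; exact T.psi_two hx
  | succ k hk ih => intro hk1; exact T.psi_succ hx hk hk1 (ih (by omega))

/-- **Generalised tent theorem**: if `|x(P)| < 1` then `|β| < |x(P)|` and
`|x(P)| ^ p = |β| ^ (2 j)` for some integer `j`. -/
theorem main (hx : v (xs 1) < 1) :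
    v β < v (xs 1) ∧ ∃ j : ℤ, v (xs 1) ^ p = v β ^ (2 * j) := by
  refine ⟨T.eps_lt hx T.not_dvd_one, ?_⟩
  have hp3 := T.three_le
  have : Fact p.Prime := ⟨T.prime⟩
  have hper : xs (p - 1) = xs 1 := by
    apply T.per; right
    rw [Nat.cast_sub (by omega), Nat.cast_one, ZMod.natCast_self, zero_sub]
  have hε0 : v β ≠ 0 := T.eps_pos.ne'
  have ht0 : v (xs 1) ≠ 0 := (lt_of_le_of_lt zero_le (T.eps_lt hx T.not_dvd_one)).ne'
  rcases T.psi_all hx (p - 1) (by omega) (by omega) with ⟨_, hI⟩ | ⟨⟨a, b, hab⟩, _⟩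
  · exfalso
    rw [hper, sub_self, map_zero, zero_pow two_ne_zero, mul_zero] at hI
    exact mul_ne_zero ht0 ht0 hI.symm
  · rw [hper] at hab
    refine ⟨(b : ℤ) - a, ?_⟩
    have hpp : v (xs 1) ^ p = v (xs 1) * v (xs 1) ^ (p - 1) := by
      rw [← pow_succ']; congr 1; omega
    have ea : v β ^ (2 * (a : ℤ)) = v β ^ (2 * a) := by
      rw [← zpow_natCast]; congr 1
    have eb : v β ^ (2 * (b : ℤ)) = v β ^ (2 * b) := by
      rw [← zpow_natCast]; congr 1
    rw [hpp, mul_sub, zpow_sub₀ hε0, ea, eb, eq_div_iff (pow_ne_zero _ hε0)]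
    exact hab

/-- **No rational point of order `p ≥ 5`**: the `xs k` cannot all lie in a set `k₀` of elements
whose nonzero values are powers of `|2|` and whose units are `≡ 1` modulo the maximal ideal, if
`|β| = |2| ^ N` with `p ∤ N`. -/
theorem not_rational (hp5 : 5 ≤ p) (k₀ : Set K) (hk : ∀ i, ¬ p ∣ i → xs i ∈ k₀)
    (hk_val : ∀ u ∈ k₀, u ≠ 0 → ∃ m : ℤ, v u = v 2 ^ m)
    (hk_unit : ∀ u ∈ k₀, v u = 1 → v (u - 1) < 1)
    (h2 : v 2 < 1) (h20 : (2 : K) ≠ 0)
    (N : ℤ) (hN : v β = v 2 ^ N) (hpN : ¬ (p : ℤ) ∣ N) : False := by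
  have h1 := T.not_dvd_one
  have hd2 : ¬ p ∣ 2 := Tent.not_dvd_of_lt two_pos (by omega)
  have hd3 : ¬ p ∣ 3 := Tent.not_dvd_of_lt (by norm_num) (by omega)
  have h2pos : 0 < v (2 : K) := v.pos_iff.mpr h20
  rcases lt_or_eq_of_le (T.integral 1 h1) with hx | hx
  · -- the point reduces to the node
    obtain ⟨hεt, j, hj⟩ := T.main hx
    have hx0 : xs 1 ≠ 0 := by
      intro h0
      rw [h0, map_zero] at hεt
      exact not_lt.mpr zero_le hεt
    obtain ⟨m, hm⟩ := hk_val _ (hk 1 h1) hx0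
    rw [hm, hN, ← zpow_natCast, ← zpow_mul, ← zpow_mul,
      zpow_right_inj₀ h2pos h2.ne] at hj
    -- `hj : m * p = N * (2 * j)`
    rw [hm, hN, zpow_lt_zpow_iff_right_of_lt_one₀ h2pos h2] at hεt
    have hm0 : 0 < m := by
      have : v (2 : K) ^ m < v (2 : K) ^ (0 : ℤ) := by rw [zpow_zero, ← hm]; exact hx
      exact (zpow_lt_zpow_iff_right_of_lt_one₀ h2pos h2).mp this
    have hpp : Prime (p : ℤ) := Nat.prime_iff_prime_int.mp T.prime
    have hdvd : (p : ℤ) ∣ N * (2 * j) := ⟨m, by rw [← hj]; ring⟩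
    have hp2 : ¬ (p : ℤ) ∣ 2 := by
      intro h
      have := Int.le_of_dvd (by norm_num) h
      omega
    rcases hpp.dvd_or_dvd hdvd with h | h
    · exact hpN h
    rcases hpp.dvd_or_dvd h with h | h
    · exact hp2 h
    obtain ⟨j', rfl⟩ := h
    have hp0 : (p : ℤ) ≠ 0 := by
      have := T.prime.pos
      omega
    have hm' : m = N * (2 * j') := by
      apply mul_right_cancel₀ hp0
      rw [hj]; ring
    have hN0 : 0 < N := by omega
    have hj' : 0 < j' := by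
      by_contra hcon
      push Not at hcon
      have : N * (2 * j') ≤ 0 := mul_nonpos_of_nonneg_of_nonpos hN0.le (by omega)
      omega
    have : N * 2 ≤ N * (2 * j') := by
      apply mul_le_mul_of_nonneg_left _ hN0.le
      omega
    omega
  · -- the point does not reduce to the node
    have hx2 : v (xs 2) = 1 := T.unit_all h1 hx hd2
    have hd : v (xs 2 - xs 1) < 1 := by
      have e : xs 2 - xs 1 = (xs 2 - 1) - (xs 1 - 1) := by ring
      rw [e]
      exact Valuation.map_sub_lt v (hk_unit _ (hk 2 hd2) hx2) (hk_unit _ (hk 1 h1) hx)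
    have ha := T.val_addsub (i := 2) (j := 1) (by norm_num) hd2 h1 hd3 h1
    have h_b : v (xs 2 * xs 1 - β) = 1 := by
      rw [Valuation.map_sub_eq_of_lt_left, map_mul, hx2, hx, one_mul]
      rw [map_mul, hx2, hx, one_mul]; exact T.β_lt
    rw [h_b, one_pow, hx, mul_one] at ha
    have h3 : v (xs 3) ≤ 1 := T.integral 3 hd3
    have : v (xs (2 + 1)) * v (xs 2 - xs 1) ^ 2 < 1 := by
      calc v (xs (2 + 1)) * v (xs 2 - xs 1) ^ 2 ≤ 1 * v (xs 2 - xs 1) ^ 2 :=
            mul_le_mul_left h3 _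
        _ = v (xs 2 - xs 1) ^ 2 := one_mul _
        _ ≤ v (xs 2 - xs 1) ^ 1 := pow_le_pow_right_of_le_one' hd.le (by norm_num)
        _ = v (xs 2 - xs 1) := pow_one _
        _ < 1 := hd
    exact absurd ha this.ne

end

end TentQ

end Fermat.Agent.S13.T2H
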