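/-
S13 team, block [M3], abstract part (owner: helper30): on a curve `Y² = X (X - e₁) (X - e₂)` with
multiplicative reduction at a valuation subring `A` (`e₁ ∈ m ∖ {0}`, `e₂` a unit, `2` and `p`
units), the points killed by `p` form a finite set with at most `p²` elements.

Route: the approximate Tate parameter `lamP` of the S05 library is a homomorphism modulo
`U = (1 + m) r^(2ℤ)` (`r = -e₁ / (16 e₂)`) with kernel inside the kernel of reduction, which has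
no `p`-torsion.  A `p`-torsion point `T` has `lamP T ^ p ≡ (r²)^j` modulo `1 + m`; with
`ρ ^ p = r²` the pair `(j mod p, residue of ρ^j / lamP T)` lies in `ZMod p × μ_p(k)` and
determines `T`.
-/
import Fermat.Agent.S05.LamHom
import Fermat.Agent.S05.FormalGroup

set_option autoImplicit false

namespace Fermat.Agent.S13.TorsCard

open WeierstrassCurve Fermat.Agent.S05

section Abstract

variable {K : Type*} [Field K]

/-- The residue map of a valuation subring, extended by zero. -/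
noncomputable def resK (A : ValuationSubring K) (x : K) : IsLocalRing.ResidueField A :=
  open Classical in if h : x ∈ A then IsLocalRing.residue A ⟨x, h⟩ else 0

theorem resK_of_mem (A : ValuationSubring K) {x : K} (h : x ∈ A) :
    resK A x = IsLocalRing.residue A ⟨x, h⟩ := by
  unfold resK
  rw [dif_pos h]

theorem mem_of_val_eq_one (A : ValuationSubring K) {x : K} (h : A.valuation x = 1) : x ∈ A := by
  rw [← ValuationSubring.valuation_le_one_iff, h]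

theorem val_eq_one_of_sub_one_mem (A : ValuationSubring K) {u : K} (h : u - 1 ∈ A.nonunits) :
    A.valuation u = 1 := by
  rw [ValuationSubring.mem_nonunits_iff] at h
  have h1 := Valuation.map_one_add_of_lt (v := A.valuation) h
  rwa [add_sub_cancel] at h1

/-- Two elements of `A` have the same residue iff their difference is in the maximal ideal. -/
theorem resK_eq_iff (A : ValuationSubring K) {x y : K} (hx : x ∈ A) (hy : y ∈ A) :
    resK A x = resK A y ↔ x - y ∈ A.nonunits := by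
  rw [resK_of_mem A hx, resK_of_mem A hy, ← sub_eq_zero, ← map_sub,
    IsLocalRing.residue_eq_zero_iff, ValuationSubring.mem_nonunits_iff_exists_mem_maximalIdeal]
  constructor
  · intro h
    exact ⟨A.sub_mem hx hy, h⟩
  · rintro ⟨_, h⟩
    exact h

theorem resK_pow (A : ValuationSubring K) {x : K} (hx : x ∈ A) (n : ℕ) :
    resK A x ^ n = resK A (x ^ n) := by
  rw [resK_of_mem A hx, resK_of_mem A (A.pow_mem hx n), ← map_pow]
  rfl

theorem resK_one (A : ValuationSubring K) : resK A 1 = 1 := by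
  rw [resK_of_mem A A.one_mem]
  exact map_one _

end Abstract

section Main

variable {K : Type*} [Field K] [DecidableEq K]

variable {A : ValuationSubring K} {e₁ e₂ b : K}

/-- For a `p`-torsion point `T`, `lamP T ^ p` is `(r²)^j` modulo `1 + m` for some `j`. -/
theorem exists_exp (hA2 : A.valuation (2 : K) = 1) (he₁ : e₁ ∈ A.nonunits) (he₁0 : e₁ ≠ 0)
    (he₂ : A.valuation e₂ = 1) (hb : b ^ 2 = -e₂) (p : ℕ)
    (T : (shortCurve (-(e₁ + e₂)) (e₁ * e₂)).toAffine.Point) (hT : p • T = 0) :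
    ∃ j : ℤ, 1 / lamP A e₁ e₂ b T ^ p * ((-e₁ / (16 * e₂)) ^ 2) ^ j - 1 ∈ A.nonunits := by
  have h := lamP_nsmul hA2 he₁ he₁0 he₂ hb p T
  rw [hT] at h
  exact h

/-- A chosen exponent `j` for a torsion point (junk value `0` otherwise). -/
noncomputable def jOf (A : ValuationSubring K) (e₁ e₂ b : K) (p : ℕ)
    (T : (shortCurve (-(e₁ + e₂)) (e₁ * e₂)).toAffine.Point) : ℤ :=
  Classical.epsilon fun j : ℤ =>
    1 / lamP A e₁ e₂ b T ^ p * ((-e₁ / (16 * e₂)) ^ 2) ^ j - 1 ∈ A.nonunits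

theorem jOf_spec (hA2 : A.valuation (2 : K) = 1) (he₁ : e₁ ∈ A.nonunits) (he₁0 : e₁ ≠ 0)
    (he₂ : A.valuation e₂ = 1) (hb : b ^ 2 = -e₂) (p : ℕ)
    (T : (shortCurve (-(e₁ + e₂)) (e₁ * e₂)).toAffine.Point) (hT : p • T = 0) :
    1 / lamP A e₁ e₂ b T ^ p * ((-e₁ / (16 * e₂)) ^ 2) ^ (jOf A e₁ e₂ b p T) - 1
      ∈ A.nonunits := by
  exact Classical.epsilon_spec (exists_exp hA2 he₁ he₁0 he₂ hb p T hT)

/-- The invariant of a torsion point: `(j mod p, residue of ρ^j / lamP T)`. -/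
noncomputable def tinv (A : ValuationSubring K) (e₁ e₂ b : K) (p : ℕ) (ρ : K)
    (T : (shortCurve (-(e₁ + e₂)) (e₁ * e₂)).toAffine.Point) :
    ZMod p × IsLocalRing.ResidueField A :=
  ((jOf A e₁ e₂ b p T : ZMod p), resK A (ρ ^ (jOf A e₁ e₂ b p T) / lamP A e₁ e₂ b T))

theorem unit_pow_sub_one (hA2 : A.valuation (2 : K) = 1) (he₁ : e₁ ∈ A.nonunits) (he₁0 : e₁ ≠ 0)
    (he₂ : A.valuation e₂ = 1) (hb : b ^ 2 = -e₂) (p : ℕ) (ρ : K)
    (hρ : ρ ^ p = (-e₁ / (16 * e₂)) ^ 2)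
    (T : (shortCurve (-(e₁ + e₂)) (e₁ * e₂)).toAffine.Point) (hT : p • T = 0) :
    (ρ ^ (jOf A e₁ e₂ b p T) / lamP A e₁ e₂ b T) ^ p - 1 ∈ A.nonunits := by
  have h := jOf_spec hA2 he₁ he₁0 he₂ hb p T hT
  have e : (ρ ^ (jOf A e₁ e₂ b p T) / lamP A e₁ e₂ b T) ^ p
      = 1 / lamP A e₁ e₂ b T ^ p * ((-e₁ / (16 * e₂)) ^ 2) ^ (jOf A e₁ e₂ b p T) := by
    rw [← hρ, div_pow, ← zpow_natCast (ρ ^ (jOf A e₁ e₂ b p T)) p, ← zpow_mul, mul_comm,
      zpow_mul, zpow_natCast]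
    ring
  rw [e]
  exact h

theorem unit_val (hA2 : A.valuation (2 : K) = 1) (he₁ : e₁ ∈ A.nonunits) (he₁0 : e₁ ≠ 0)
    (he₂ : A.valuation e₂ = 1) (hb : b ^ 2 = -e₂) (p : ℕ) (hp : 0 < p) (ρ : K)
    (hρ : ρ ^ p = (-e₁ / (16 * e₂)) ^ 2)
    (T : (shortCurve (-(e₁ + e₂)) (e₁ * e₂)).toAffine.Point) (hT : p • T = 0) :
    A.valuation (ρ ^ (jOf A e₁ e₂ b p T) / lamP A e₁ e₂ b T) = 1 := by
  have h := val_eq_one_of_sub_one_mem A (unit_pow_sub_one hA2 he₁ he₁0 he₂ hb p ρ hρ T hT)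
  rw [map_pow] at h
  exact (pow_eq_one_iff_of_nonneg zero_le hp.ne').mp h

/-- The second component of the invariant is a `p`-th root of unity of the residue field. -/
theorem tinv_snd_pow (hA2 : A.valuation (2 : K) = 1) (he₁ : e₁ ∈ A.nonunits) (he₁0 : e₁ ≠ 0)
    (he₂ : A.valuation e₂ = 1) (hb : b ^ 2 = -e₂) (p : ℕ) (hp : 0 < p) (ρ : K)
    (hρ : ρ ^ p = (-e₁ / (16 * e₂)) ^ 2)
    (T : (shortCurve (-(e₁ + e₂)) (e₁ * e₂)).toAffine.Point) (hT : p • T = 0) :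
    (tinv A e₁ e₂ b p ρ T).2 ^ p = 1 := by
  have hw := mem_of_val_eq_one A (unit_val hA2 he₁ he₁0 he₂ hb p hp ρ hρ T hT)
  show resK A (ρ ^ (jOf A e₁ e₂ b p T) / lamP A e₁ e₂ b T) ^ p = 1
  rw [resK_pow A hw, ← resK_one A, resK_eq_iff A (A.pow_mem hw p) A.one_mem]
  exact unit_pow_sub_one hA2 he₁ he₁0 he₂ hb p ρ hρ T hT

/-- The invariant is injective on `p`-torsion points (`p` a unit of `A`). -/
theorem tinv_injOn (hA2 : A.valuation (2 : K) = 1) (he₁ : e₁ ∈ A.nonunits) (he₁0 : e₁ ≠ 0)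
    (he₂ : A.valuation e₂ = 1) (hb : b ^ 2 = -e₂) (p : ℕ) (hp : 0 < p)
    (hpv : A.valuation (p : K) = 1) (ρ : K) (hρ : ρ ^ p = (-e₁ / (16 * e₂)) ^ 2)
    (T T' : (shortCurve (-(e₁ + e₂)) (e₁ * e₂)).toAffine.Point) (hT : p • T = 0)
    (hT' : p • T' = 0) (h : tinv A e₁ e₂ b p ρ T = tinv A e₁ e₂ b p ρ T') : T = T' := by
  have hN : NodeHyp A (-e₁ / (16 * e₂)) := LamHom.nodeHyp hA2 he₁ he₁0 he₂
  have hρ0 : ρ ≠ 0 := by
    rintro rfl
    rw [zero_pow hp.ne'] at hρ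
    exact pow_ne_zero 2 hN.r_ne hρ.symm
  set j := jOf A e₁ e₂ b p T with hj
  set j' := jOf A e₁ e₂ b p T' with hj'
  have hl0 : lamP A e₁ e₂ b T ≠ 0 := lamP_ne_zero hA2 he₁ he₁0 he₂ hb T
  have hl'0 : lamP A e₁ e₂ b T' ≠ 0 := lamP_ne_zero hA2 he₁ he₁0 he₂ hb T'
  have hw := unit_val hA2 he₁ he₁0 he₂ hb p hp ρ hρ T hT
  have hw' := unit_val hA2 he₁ he₁0 he₂ hb p hp ρ hρ T' hT'
  rw [← hj] at hw
  rw [← hj'] at hw'
  have h1 : ((j : ℤ) : ZMod p) = ((j' : ℤ) : ZMod p) := congrArg Prod.fst h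
  have h2 : resK A (ρ ^ j / lamP A e₁ e₂ b T) = resK A (ρ ^ j' / lamP A e₁ e₂ b T') :=
    congrArg Prod.snd h
  rw [resK_eq_iff A (mem_of_val_eq_one A hw) (mem_of_val_eq_one A hw')] at h2
  obtain ⟨i, hi⟩ := (ZMod.intCast_eq_intCast_iff_dvd_sub j j' p).1 h1
  -- the ratio of the parameters is in `U`
  have hratio : InU A (-e₁ / (16 * e₂)) (lamP A e₁ e₂ b T' / lamP A e₁ e₂ b T) := by
    refine ⟨-i, ?_⟩
    have key : lamP A e₁ e₂ b T' / lamP A e₁ e₂ b T * ((-e₁ / (16 * e₂)) ^ 2) ^ (-i) - 1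
        = (ρ ^ j / lamP A e₁ e₂ b T - ρ ^ j' / lamP A e₁ e₂ b T')
          / (ρ ^ j' / lamP A e₁ e₂ b T') := by
      have e1 : ((-e₁ / (16 * e₂)) ^ 2) ^ (-i) = ρ ^ j / ρ ^ j' := by
        rw [← hρ, ← zpow_natCast ρ p, ← zpow_mul, ← zpow_sub₀ hρ0]
        congr 1
        linarith
      rw [e1]
      have h3 : ρ ^ j' ≠ 0 := zpow_ne_zero _ hρ0
      field_simp
    rw [key, ValuationSubring.mem_nonunits_iff, map_div₀, hw', div_one,
      ← ValuationSubring.mem_nonunits_iff]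
    exact h2
  have hadd := lamP_add hA2 he₁ he₁0 he₂ hb T' (-T)
  have hneg := lamP_neg hA2 he₁ he₁0 he₂ hb T
  have hnl0 : lamP A e₁ e₂ b (-T) ≠ 0 := lamP_ne_zero hA2 he₁ he₁0 he₂ hb (-T)
  have hQ : InU A (-e₁ / (16 * e₂)) (lamP A e₁ e₂ b (T' + -T)) := by
    have h3 := InU.mul hN (InU.mul hN hadd hneg) hratio
    have h4 : lamP A e₁ e₂ b (T' + -T) / (lamP A e₁ e₂ b T' * lamP A e₁ e₂ b (-T))
        * (lamP A e₁ e₂ b T * lamP A e₁ e₂ b (-T)) * (lamP A e₁ e₂ b T' / lamP A e₁ e₂ b T)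
        = lamP A e₁ e₂ b (T' + -T) := by
      field_simp
    rwa [h4] at h3
  have hE1 := lamP_kernel hA2 he₁ he₁0 he₂ hb (T' + -T) hQ
  have htQ : p • (T' + -T) = 0 := by
    rw [smul_add, smul_neg, hT, hT', neg_zero, add_zero]
  have hαA : -(e₁ + e₂) ∈ A :=
    A.neg_mem _ (A.add_mem _ _ (A.nonunits_subset he₁) (mem_of_val_eq_one A he₂))
  have hβA : e₁ * e₂ ∈ A := A.mul_mem _ _ (A.nonunits_subset he₁) (mem_of_val_eq_one A he₂)
  have hQ0 : T' + -T = 0 := by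
    generalize T' + -T = Q at hE1 htQ
    cases Q with
    | zero => rfl
    | some X Y hXY => exact absurd htQ (F1_short A _ _ hαA hβA p hpv hXY hE1)
  have hPP : T' = T := by rwa [← sub_eq_add_neg, sub_eq_zero] at hQ0
  exact hPP.symm

/-- **Abstract [M3]**: on `Y² = X (X - e₁) (X - e₂)` with `e₁ ∈ m ∖ {0}`, `e₂` a unit, `2` and `p`
units of `A`, and `ρ ^ p = r²` (`r = -e₁ / (16 e₂)`), there are at most `p²` points killed by `p`. -/
theorem torsion_finite_card_le (A : ValuationSubring K) (hA2 : A.valuation (2 : K) = 1)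
    (e₁ e₂ b : K) (he₁ : e₁ ∈ A.nonunits) (he₁0 : e₁ ≠ 0) (he₂ : A.valuation e₂ = 1)
    (hb : b ^ 2 = -e₂) (p : ℕ) (hp : 0 < p) (hpv : A.valuation (p : K) = 1) (ρ : K)
    (hρ : ρ ^ p = (-e₁ / (16 * e₂)) ^ 2) :
    {T : (shortCurve (-(e₁ + e₂)) (e₁ * e₂)).toAffine.Point | p • T = 0}.Finite ∧
    {T : (shortCurve (-(e₁ + e₂)) (e₁ * e₂)).toAffine.Point | p • T = 0}.ncard ≤ p ^ 2 := by
  have : NeZero p := ⟨hp.ne'⟩
  set t : Set (ZMod p × IsLocalRing.ResidueField A) :=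
    (Set.univ : Set (ZMod p)) ×ˢ
      ((Polynomial.nthRootsFinset p (1 : IsLocalRing.ResidueField A) :
        Finset (IsLocalRing.ResidueField A)) : Set (IsLocalRing.ResidueField A)) with ht
  have htfin : t.Finite := Set.finite_univ.prod (Finset.finite_toSet _)
  have hmaps : ∀ T ∈ {T : (shortCurve (-(e₁ + e₂)) (e₁ * e₂)).toAffine.Point | p • T = 0},
      tinv A e₁ e₂ b p ρ T ∈ t := by
    intro T hT
    refine ⟨Set.mem_univ _, ?_⟩
    rw [Finset.mem_coe, Polynomial.mem_nthRootsFinset hp]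
    exact tinv_snd_pow hA2 he₁ he₁0 he₂ hb p hp ρ hρ T hT
  have hinj : Set.InjOn (tinv A e₁ e₂ b p ρ)
      {T : (shortCurve (-(e₁ + e₂)) (e₁ * e₂)).toAffine.Point | p • T = 0} :=
    fun T hT T' hT' h => tinv_injOn hA2 he₁ he₁0 he₂ hb p hp hpv ρ hρ T T' hT hT' h
  refine ⟨Set.Finite.of_injOn hmaps hinj htfin, ?_⟩
  calc {T : (shortCurve (-(e₁ + e₂)) (e₁ * e₂)).toAffine.Point | p • T = 0}.ncard
      ≤ t.ncard := Set.ncard_le_ncard_of_injOn _ hmaps hinj htfin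
    _ = p * (Polynomial.nthRootsFinset p (1 : IsLocalRing.ResidueField A)).card := by
        rw [ht, Set.ncard_prod, Set.ncard_univ, Nat.card_zmod, Set.ncard_coe_finset]
    _ ≤ p * p := by
        refine Nat.mul_le_mul_left p ?_
        classical
        rw [Polynomial.nthRootsFinset_def]
        exact (Multiset.toFinset_card_le _).trans (Polynomial.card_nthRoots p 1)
    _ = p ^ 2 := (sq p).symm

end Main

end Fermat.Agent.S13.TorsCard
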